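/-
PROJECT T (S56), block (a1-II) Base / EC, Reduce, seam to E3 (helper26): the idempotent matrix of a
Higman operator.

`Δ` a finite group, `W` a finite-dimensional `𝔽_p[Δ]`-module with basis `b`, `χ : Δ → 𝔽_pˣ` a
character, `t : W → W` linear with `∑_δ δ t δ⁻¹ = 1` (Higman).  Then
`ε̄_{ac} = ∑_δ χ(δ)⁻¹ · b_a^*(t (δ b_c)) · δ ∈ 𝔽_p[Δ]` is an idempotent matrix, and its
coefficientwise lift `ε` to `ℤ[Δ]` is idempotent modulo `p`.
-/
import Mathlib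

set_option autoImplicit false

noncomputable section

namespace Fermat.Agent.S56.Base.EC.HigmanEpsAlg

open scoped BigOperators

variable {p : ℕ} [Fact p.Prime] {Δ : Type} [Group Δ] [Fintype Δ] {W : Type} [AddCommGroup W]
  [Module (ZMod p) W] {n : ℕ}
  (ρ : Representation (ZMod p) Δ W) (χ : Δ →* (ZMod p)ˣ) (t : W →ₗ[ZMod p] W)
  (b : Module.Basis (Fin n) (ZMod p) W)

/-- The coefficient `χ(δ)⁻¹ · b_a^*(t (δ b_c))`. -/
def mCoef (a c : Fin n) (δ : Δ) : ZMod p :=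
  (((χ δ)⁻¹ : (ZMod p)ˣ) : ZMod p) * b.repr (t (ρ δ (b c))) a

/-- The matrix `ε̄` over `𝔽_p[Δ]`. -/
def epsBar : Matrix (Fin n) (Fin n) (MonoidAlgebra (ZMod p) Δ) :=
  fun a c => ∑ δ, MonoidAlgebra.single δ (mCoef ρ χ t b a c δ)

omit [Fintype Δ] in
/-- `b_a^*` of a linear combination. -/
lemma repr_t_rho (δ : Δ) (v : W) (a : Fin n) :
    b.repr (t (ρ δ v)) a = ∑ c, b.repr v c * b.repr (t (ρ δ (b c))) a := by
  conv_lhs => rw [← b.sum_repr v]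
  rw [map_sum, map_sum, map_sum, Finsupp.finsetSum_apply]
  refine Finset.sum_congr rfl fun c _ => ?_
  rw [map_smul, map_smul, map_smul, Finsupp.smul_apply, smul_eq_mul]

omit [Fintype Δ] in
lemma sum_mCoef_mul (a c : Fin n) (δ δ' : Δ) :
    ∑ b', mCoef ρ χ t b a b' δ * mCoef ρ χ t b b' c δ' =
      (((χ (δ * δ'))⁻¹ : (ZMod p)ˣ) : ZMod p) * b.repr (t (ρ δ (t (ρ δ' (b c))))) a := by
  rw [repr_t_rho ρ t b δ (t (ρ δ' (b c))) a, Finset.mul_sum]
  refine Finset.sum_congr rfl fun b' _ => ?_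
  unfold mCoef
  rw [map_mul, mul_inv, Units.val_mul]
  ring

include ρ χ t b in
/-- **`ε̄` is idempotent.** -/
theorem epsBar_mul_self (ht : ∀ y, ∑ δ, ρ δ (t (ρ δ⁻¹ y)) = y) :
    epsBar ρ χ t b * epsBar ρ χ t b = epsBar ρ χ t b := by
  classical
  ext1 a c
  rw [Matrix.mul_apply]
  unfold epsBar
  have h1 : ∀ b' : Fin n,
      (∑ δ, MonoidAlgebra.single δ (mCoef ρ χ t b a b' δ)) *
        (∑ δ', MonoidAlgebra.single δ' (mCoef ρ χ t b b' c δ')) =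
      ∑ δ, ∑ δ', MonoidAlgebra.single (δ * δ')
        (mCoef ρ χ t b a b' δ * mCoef ρ χ t b b' c δ') := fun b' => by
    rw [Finset.sum_mul_sum]
    refine Finset.sum_congr rfl fun δ _ => Finset.sum_congr rfl fun δ' _ => ?_
    rw [MonoidAlgebra.single_mul_single]
  rw [Finset.sum_congr rfl fun b' _ => h1 b', Finset.sum_comm]
  have h2 : ∀ δ : Δ, ∑ b', ∑ δ', MonoidAlgebra.single (δ * δ')
        (mCoef ρ χ t b a b' δ * mCoef ρ χ t b b' c δ') =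
      ∑ γ, MonoidAlgebra.single γ ((((χ γ)⁻¹ : (ZMod p)ˣ) : ZMod p) *
        b.repr (t (ρ δ (t (ρ δ⁻¹ (ρ γ (b c)))))) a) := fun δ => by
    rw [Finset.sum_comm]
    rw [← Equiv.sum_comp (Equiv.mulLeft δ) (fun γ => MonoidAlgebra.single γ
      ((((χ γ)⁻¹ : (ZMod p)ˣ) : ZMod p) * b.repr (t (ρ δ (t (ρ δ⁻¹ (ρ γ (b c)))))) a))]
    refine Finset.sum_congr rfl fun δ' _ => ?_
    rw [Equiv.coe_mulLeft]
    have : ∑ b', MonoidAlgebra.single (δ * δ') (mCoef ρ χ t b a b' δ * mCoef ρ χ t b b' c δ') =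
        MonoidAlgebra.single (δ * δ') (∑ b', mCoef ρ χ t b a b' δ * mCoef ρ χ t b b' c δ') :=
      (map_sum (MonoidAlgebra.singleAddHom (R := ZMod p) (δ * δ'))
        (fun b' => mCoef ρ χ t b a b' δ * mCoef ρ χ t b b' c δ') Finset.univ).symm
    have e : ρ δ⁻¹ (ρ (δ * δ') (b c)) = ρ δ' (b c) := by
      rw [← Module.End.mul_apply, ← map_mul, inv_mul_cancel_left]
    rw [this, sum_mCoef_mul, e]
  rw [Finset.sum_congr rfl fun δ _ => h2 δ, Finset.sum_comm]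
  refine Finset.sum_congr rfl fun γ _ => ?_
  have h3 : ∑ δ, MonoidAlgebra.single γ ((((χ γ)⁻¹ : (ZMod p)ˣ) : ZMod p) *
        b.repr (t (ρ δ (t (ρ δ⁻¹ (ρ γ (b c)))))) a) =
      MonoidAlgebra.single γ (∑ δ, (((χ γ)⁻¹ : (ZMod p)ˣ) : ZMod p) *
        b.repr (t (ρ δ (t (ρ δ⁻¹ (ρ γ (b c)))))) a) :=
    (map_sum (MonoidAlgebra.singleAddHom (R := ZMod p) γ)
      (fun δ => (((χ γ)⁻¹ : (ZMod p)ˣ) : ZMod p) *
        b.repr (t (ρ δ (t (ρ δ⁻¹ (ρ γ (b c)))))) a) Finset.univ).symm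
  rw [h3]
  congr 1
  unfold mCoef
  rw [← Finset.mul_sum]
  congr 1
  have h4 : ∑ δ, b.repr (t (ρ δ (t (ρ δ⁻¹ (ρ γ (b c)))))) a =
      b.repr (t (∑ δ, ρ δ (t (ρ δ⁻¹ (ρ γ (b c)))))) a := by
    rw [map_sum, map_sum, Finsupp.finsetSum_apply]
  rw [h4, ht]

/-- The coefficientwise lift of `ε̄` to `ℤ[Δ]`. -/
def epsInt : Matrix (Fin n) (Fin n) (MonoidAlgebra ℤ Δ) :=
  fun a c => ∑ δ, MonoidAlgebra.single δ ((mCoef ρ χ t b a c δ).val : ℤ)

variable (p Δ) in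
/-- Reduction mod `p` of the group ring. -/
def red : MonoidAlgebra ℤ Δ →+* MonoidAlgebra (ZMod p) Δ :=
  MonoidAlgebra.mapRingHom Δ (Int.castRingHom (ZMod p))

lemma red_epsInt (a c : Fin n) : red p Δ (epsInt ρ χ t b a c) = epsBar ρ χ t b a c := by
  unfold epsInt epsBar red
  rw [map_sum]
  refine Finset.sum_congr rfl fun δ _ => ?_
  rw [MonoidAlgebra.mapRingHom_single]
  congr 1
  rw [eq_intCast, Int.cast_natCast, ZMod.natCast_zmod_val]

omit [Fintype Δ] in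
lemma exists_of_red_eq_zero (x : MonoidAlgebra ℤ Δ) (hx : red p Δ x = 0) :
    ∃ y : MonoidAlgebra ℤ Δ, x = (p : MonoidAlgebra ℤ Δ) * y := by
  have hdvd : ∀ m : Δ, (p : ℤ) ∣ x.coeff m := fun m => by
    have h := congrArg (fun z => z.coeff m) hx
    simp only [red, MonoidAlgebra.coeff_mapRingHom, eq_intCast] at h
    exact (ZMod.intCast_zmod_eq_zero_iff_dvd _ p).1 h
  refine ⟨MonoidAlgebra.ofCoeff (x.coeff.mapRange (fun z => z / (p : ℤ)) (by simp)), ?_⟩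
  apply MonoidAlgebra.coeff_injective
  ext m
  rw [MonoidAlgebra.natCast_def, MonoidAlgebra.coeff_single_one_mul]
  simp only [Finsupp.mapRange_apply]
  rw [Int.mul_ediv_cancel' (hdvd m)]

include ρ χ t b in
/-- **The lift `ε` is idempotent modulo `p`** (the predicate `IdemModP p ε` of `EC/Mult.lean`). -/
theorem epsInt_idemModP (ht : ∀ y, ∑ δ, ρ δ (t (ρ δ⁻¹ y)) = y) :
    ∃ d : Matrix (Fin n) (Fin n) (MonoidAlgebra ℤ Δ),
      epsInt ρ χ t b * epsInt ρ χ t b = epsInt ρ χ t b + (p : MonoidAlgebra ℤ Δ) • d := by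
  have hz : ∀ a c : Fin n, red p Δ ((epsInt ρ χ t b * epsInt ρ χ t b) a c - epsInt ρ χ t b a c)
      = 0 := fun a c => by
    rw [map_sub, Matrix.mul_apply, map_sum]
    have h1 : ∀ b' : Fin n, red p Δ (epsInt ρ χ t b a b' * epsInt ρ χ t b b' c) =
        epsBar ρ χ t b a b' * epsBar ρ χ t b b' c := fun b' => by
      rw [map_mul, red_epsInt, red_epsInt]
    rw [Finset.sum_congr rfl fun b' _ => h1 b', red_epsInt, ← Matrix.mul_apply,
      epsBar_mul_self ρ χ t b ht, sub_self]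
  choose d hd using fun a c => exists_of_red_eq_zero _ (hz a c)
  refine ⟨Matrix.of d, ?_⟩
  ext1 a c
  rw [Matrix.add_apply, Matrix.smul_apply, Matrix.of_apply, smul_eq_mul, ← hd a c]
  abel

end Fermat.Agent.S56.Base.EC.HigmanEpsAlg
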