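/-
PROJECT T (S56), block (a1-II)/B3/E3 (helper11), file 1: MULTIPLICATIVE COUNTS OF `ε`-PARTS.

`R` any ring (in the application `R = ℤ[Δ] = MonoidAlgebra ℤ Δ`), `ε` an `n × n` matrix over `R`
which is idempotent modulo a prime `p` (`IdemModP p ε`).  For an `R`-module `X` the matrix acts on
`Fin n → X` (`mact ε`); on modules killed by `p` it acts as an idempotent (`IdemOn ε X`), and the
`ε`-part `ePart ε X = {x | ε x = x}` is an EXACT functor of `X` (`= Hom_R(W, X)` for the projective
`R/p`-module `W = ε (R/p)^n`).  `tCount ε X := Nat.card (ePart ε X)`.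

* (M1) `tCount_mul_of_exact`, `tCount_four_term`, `tCount_mid`, `tCount_prod`, `tCount_congr`:
  multiplicativity of `tCount ε` on exact sequences of modules on which `ε` is idempotent.
* (M4) `tCount_torP_eq_modP`: `t(Q[p]) = t(Q/p)` for a finite module `Q`.
* (M3) `tCount_modP_of_finite_coker`: `t(Λ'/p) = t(Λ/p)` for an injective map `Λ' → Λ` with finite
  cokernel, `Λ` without `p`-torsion.
-/
import Mathlib

set_option autoImplicit false

noncomputable section

namespace Fermat.Agent.S56.Base.EC

variable {R : Type*} [Ring R] {n : ℕ}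

/-! ### The action of a matrix on tuples -/

section Mact

variable {X Y Z : Type*} [AddCommGroup X] [Module R X] [AddCommGroup Y] [Module R Y]
  [AddCommGroup Z] [Module R Z]

/-- the action of an `n × n` matrix over `R` on `n`-tuples of elements of an `R`-module -/
def mact (ε : Matrix (Fin n) (Fin n) R) : (Fin n → X) →+ (Fin n → X) where
  toFun x a := ∑ b, ε a b • x b
  map_zero' := by
    funext a
    simp
  map_add' x y := by
    funext a
    simp [smul_add, Finset.sum_add_distrib]

@[simp] theorem mact_apply (ε : Matrix (Fin n) (Fin n) R) (x : Fin n → X) (a : Fin n) :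
    mact ε x a = ∑ b, ε a b • x b := rfl

theorem mact_mul (ε ε' : Matrix (Fin n) (Fin n) R) (x : Fin n → X) :
    mact (ε * ε') x = mact ε (mact ε' x) := by
  funext a
  simp only [mact_apply, Matrix.mul_apply, Finset.sum_smul, Finset.smul_sum, mul_smul]
  rw [Finset.sum_comm]

theorem mact_add (ε ε' : Matrix (Fin n) (Fin n) R) (x : Fin n → X) :
    mact (ε + ε') x = mact ε x + mact ε' x := by
  funext a
  simp [add_smul, Finset.sum_add_distrib]

theorem mact_one (x : Fin n → X) : mact (1 : Matrix (Fin n) (Fin n) R) x = x := by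
  classical
  funext a
  simp [Matrix.one_apply, ite_smul]

/-- the matrix action commutes with `R`-linear maps -/
theorem mact_map (ε : Matrix (Fin n) (Fin n) R) (f : X →ₗ[R] Y) (x : Fin n → X) :
    mact ε (fun a => f (x a)) = fun a => f (mact ε x a) := by
  funext a
  simp [map_sum]

/-- `ε` acts as an idempotent on `X` -/
def IdemOn (ε : Matrix (Fin n) (Fin n) R) (X : Type*) [AddCommGroup X] [Module R X] : Prop :=
  ∀ x : Fin n → X, mact ε (mact ε x) = mact ε x

/-- `ε` is idempotent modulo `p` -/
def IdemModP (p : ℕ) (ε : Matrix (Fin n) (Fin n) R) : Prop :=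
  ∃ δ : Matrix (Fin n) (Fin n) R, ε * ε = ε + (p : R) • δ

theorem IdemModP.idemOn {p : ℕ} {ε : Matrix (Fin n) (Fin n) R} (h : IdemModP p ε)
    (hX : ∀ x : X, p • x = 0) : IdemOn ε X := by
  obtain ⟨δ, hδ⟩ := h
  intro x
  rw [← mact_mul, hδ, mact_add]
  have : mact ((p : R) • δ) x = 0 := by
    funext a
    simp only [mact_apply, Matrix.smul_apply, smul_eq_mul, mul_smul, Pi.zero_apply]
    refine Finset.sum_eq_zero fun b _ => ?_
    rw [Nat.cast_smul_eq_nsmul, hX]
  rw [this, add_zero]

theorem IdemOn.of_injective {ε : Matrix (Fin n) (Fin n) R} (hY : IdemOn ε Y) (f : X →ₗ[R] Y)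
    (hf : Function.Injective f) : IdemOn ε X := by
  intro x
  funext a
  apply hf
  have h1 := congrFun (mact_map ε f (mact ε x)) a
  have h2 := mact_map ε f x
  have h3 := congrFun (hY fun a => f (x a)) a
  rw [← h1, ← h2, h3, h2]

theorem IdemOn.of_surjective {ε : Matrix (Fin n) (Fin n) R} (hY : IdemOn ε Y) (g : Y →ₗ[R] Z)
    (hg : Function.Surjective g) : IdemOn ε Z := by
  intro z
  choose y hy using fun a => hg (z a)
  have hz : z = fun a => g (y a) := funext fun a => (hy a).symm
  rw [hz, mact_map, mact_map ε g (mact ε y), hY y]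

end Mact

/-! ### The `ε`-part and its count -/

section EPart

variable {X Y Z : Type*} [AddCommGroup X] [Module R X] [AddCommGroup Y] [Module R Y]
  [AddCommGroup Z] [Module R Z]

/-- the `ε`-part of `X`: the tuples fixed by `ε` -/
def ePart (ε : Matrix (Fin n) (Fin n) R) (X : Type*) [AddCommGroup X] [Module R X] :
    AddSubgroup (Fin n → X) where
  carrier := {x | mact ε x = x}
  zero_mem' := map_zero _
  add_mem' {x y} hx hy := by
    change mact ε (x + y) = x + y
    rw [map_add, hx, hy]
  neg_mem' {x} hx := by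
    change mact ε (-x) = -x
    rw [map_neg, hx]

theorem mem_ePart {ε : Matrix (Fin n) (Fin n) R} {x : Fin n → X} :
    x ∈ ePart ε X ↔ mact ε x = x := Iff.rfl

theorem mact_mem_ePart {ε : Matrix (Fin n) (Fin n) R} (hX : IdemOn ε X) (x : Fin n → X) :
    mact ε x ∈ ePart ε X := hX x

/-- the count of the `ε`-part -/
def tCount (ε : Matrix (Fin n) (Fin n) R) (X : Type*) [AddCommGroup X] [Module R X] : ℕ :=
  Nat.card (ePart ε X)

instance finite_ePart (ε : Matrix (Fin n) (Fin n) R) [Finite X] : Finite (ePart ε X) :=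
  Subtype.finite

theorem tCount_pos (ε : Matrix (Fin n) (Fin n) R) [Finite X] : 0 < tCount ε X :=
  Nat.card_pos

/-- the map induced on `ε`-parts by an `R`-linear map -/
def ePartMap (ε : Matrix (Fin n) (Fin n) R) (f : X →ₗ[R] Y) : ePart ε X →+ ePart ε Y where
  toFun x := ⟨fun a => f (x.1 a), by
    change mact ε (fun a => f (x.1 a)) = _
    rw [mact_map, x.2]⟩
  map_zero' := by
    apply Subtype.ext
    funext a
    exact map_zero f
  map_add' x y := by
    apply Subtype.ext
    funext a
    exact map_add f _ _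

@[simp] theorem ePartMap_apply (ε : Matrix (Fin n) (Fin n) R) (f : X →ₗ[R] Y) (x : ePart ε X)
    (a : Fin n) : (ePartMap ε f x).1 a = f (x.1 a) := rfl

theorem ePartMap_injective (ε : Matrix (Fin n) (Fin n) R) (f : X →ₗ[R] Y)
    (hf : Function.Injective f) : Function.Injective (ePartMap ε f) := by
  intro x y h
  apply Subtype.ext
  funext a
  exact hf (congrFun (congrArg Subtype.val h) a)

theorem ePartMap_surjective {ε : Matrix (Fin n) (Fin n) R} (hY : IdemOn ε Y) (g : Y →ₗ[R] Z)
    (hg : Function.Surjective g) : Function.Surjective (ePartMap ε g) := by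
  intro z
  choose y hy using fun a => hg (z.1 a)
  refine ⟨⟨mact ε y, hY y⟩, Subtype.ext ?_⟩
  change (fun a => g (mact ε y a)) = z.1
  rw [← mact_map, funext hy, z.2]

/-- **exactness of the `ε`-part** -/
theorem ePartMap_exact {ε : Matrix (Fin n) (Fin n) R} (hX : IdemOn ε X) (f : X →ₗ[R] Y)
    (g : Y →ₗ[R] Z) (hfg : Function.Exact f g) :
    Function.Exact (ePartMap ε f) (ePartMap ε g) := by
  intro y
  constructor
  · intro hy
    have hy' : ∀ a, g (y.1 a) = 0 := fun a => congrFun (congrArg Subtype.val hy) a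
    choose x hx using fun a => (hfg (y.1 a)).1 (hy' a)
    refine ⟨⟨mact ε x, hX x⟩, Subtype.ext ?_⟩
    change (fun a => f (mact ε x a)) = y.1
    rw [← mact_map, funext hx, y.2]
  · rintro ⟨x, rfl⟩
    apply Subtype.ext
    funext a
    exact hfg.apply_apply_eq_zero (x.1 a)

/-- **(M1)** multiplicativity on short exact sequences -/
theorem tCount_mul_of_exact {ε : Matrix (Fin n) (Fin n) R} (hX : IdemOn ε X) (hY : IdemOn ε Y)
    (f : X →ₗ[R] Y) (g : Y →ₗ[R] Z) (hf : Function.Injective f) (hg : Function.Surjective g)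
    (hfg : Function.Exact f g) : tCount ε Y = tCount ε X * tCount ε Z := by
  have h1 := AddSubgroup.card_eq_card_quotient_mul_card_addSubgroup (ePartMap ε g).ker
  have h2 : Nat.card (ePart ε Y ⧸ (ePartMap ε g).ker) = Nat.card (ePart ε Z) :=
    Nat.card_congr
      (QuotientAddGroup.quotientKerEquivOfSurjective _ (ePartMap_surjective hY g hg)).toEquiv
  have h3 : Nat.card (ePartMap ε g).ker = Nat.card (ePart ε X) := by
    have hex := ePartMap_exact hX f g hfg
    refine (Nat.card_congr (Equiv.ofBijective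
      (fun x : ePart ε X => (⟨ePartMap ε f x, (hex _).2 ⟨x, rfl⟩⟩ : (ePartMap ε g).ker))
      ⟨?_, ?_⟩)).symm
    · intro x y h
      exact ePartMap_injective ε f hf (congrArg Subtype.val h)
    · rintro ⟨y, hy⟩
      obtain ⟨x, rfl⟩ := (hex y).1 hy
      exact ⟨x, rfl⟩
  unfold tCount
  rw [h1, h2, h3, mul_comm]

/-- invariance under isomorphisms -/
theorem tCount_congr (ε : Matrix (Fin n) (Fin n) R) (e : X ≃ₗ[R] Y) : tCount ε X = tCount ε Y := by
  refine Nat.card_congr (Equiv.ofBijective (ePartMap ε e.toLinearMap) ⟨?_, ?_⟩)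
  · exact ePartMap_injective ε _ e.injective
  · intro y
    refine ⟨ePartMap ε e.symm.toLinearMap y, Subtype.ext ?_⟩
    funext a
    simp

/-- the `ε`-part of the zero module -/
theorem tCount_of_subsingleton (ε : Matrix (Fin n) (Fin n) R) [Subsingleton X] :
    tCount ε X = 1 := by
  have : Subsingleton (ePart ε X) := ⟨fun x y => Subtype.ext (Subsingleton.elim _ _)⟩
  exact Nat.card_unique

end EPart

/-! ### Longer exact sequences -/

section Long

variable {A B C D G : Type*} [AddCommGroup A] [Module R A] [AddCommGroup B] [Module R B]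
  [AddCommGroup C] [Module R C] [AddCommGroup D] [Module R D] [AddCommGroup G] [Module R G]

/-- four-term exact sequences `0 → A → B → C → D → 0` -/
theorem tCount_four_term {ε : Matrix (Fin n) (Fin n) R} (hA : IdemOn ε A) (hB : IdemOn ε B)
    (hC : IdemOn ε C) (f : A →ₗ[R] B) (g : B →ₗ[R] C) (h : C →ₗ[R] D)
    (hf : Function.Injective f) (hfg : Function.Exact f g) (hgh : Function.Exact g h)
    (hh : Function.Surjective h) : tCount ε B * tCount ε D = tCount ε A * tCount ε C := by
  have hI : IdemOn ε (LinearMap.range g) := hC.of_injective (LinearMap.range g).subtype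
    (Submodule.injective_subtype _)
  have h1 : tCount ε B = tCount ε A * tCount ε (LinearMap.range g) :=
    tCount_mul_of_exact hA hB f g.rangeRestrict hf g.surjective_rangeRestrict (by
      intro b
      rw [← hfg b]
      constructor
      · intro hb
        exact congrArg Subtype.val hb
      · intro hb
        exact Subtype.ext hb)
  have h2 : tCount ε C = tCount ε (LinearMap.range g) * tCount ε D :=
    tCount_mul_of_exact hI hC (LinearMap.range g).subtype h (Submodule.injective_subtype _) hh (by
      intro c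
      rw [hgh c]
      constructor
      · rintro ⟨b, rfl⟩
        exact ⟨⟨g b, b, rfl⟩, rfl⟩
      · rintro ⟨⟨_, b, rfl⟩, rfl⟩
        exact ⟨b, rfl⟩)
  rw [h1, h2, mul_assoc]

/-- the middle term of `A → B → C → D → G`, exact at `B`, `C`, `D` -/
theorem tCount_mid {ε : Matrix (Fin n) (Fin n) R} (hC : IdemOn ε C) (α : A →ₗ[R] B)
    (β : B →ₗ[R] C) (γ : C →ₗ[R] D) (ε' : D →ₗ[R] G) (hαβ : Function.Exact α β)
    (hβγ : Function.Exact β γ) (hγε : Function.Exact γ ε') :
    tCount ε C = tCount ε (B ⧸ LinearMap.range α) * tCount ε (LinearMap.ker ε') := by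
  have hle : LinearMap.range α ≤ LinearMap.ker β := by
    rintro _ ⟨a, rfl⟩
    exact hαβ.apply_apply_eq_zero a
  let f : (B ⧸ LinearMap.range α) →ₗ[R] C := (LinearMap.range α).liftQ β hle
  have hf : Function.Injective f := by
    rw [← LinearMap.ker_eq_bot, Submodule.ker_liftQ_eq_bot' _ _ ?_]
    exact (LinearMap.exact_iff.1 hαβ).symm
  let g : C →ₗ[R] LinearMap.ker ε' :=
    γ.codRestrict (LinearMap.ker ε') fun c => hγε.apply_apply_eq_zero c
  have hg : Function.Surjective g := by
    rintro ⟨d, hd⟩
    obtain ⟨c, rfl⟩ := (hγε d).1 hd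
    exact ⟨c, rfl⟩
  have hfg : Function.Exact f g := by
    intro c
    constructor
    · intro hc
      obtain ⟨b, rfl⟩ := (hβγ c).1 (congrArg Subtype.val hc)
      exact ⟨Submodule.Quotient.mk b, rfl⟩
    · rintro ⟨x, rfl⟩
      obtain ⟨b, rfl⟩ := Submodule.Quotient.mk_surjective _ x
      exact Subtype.ext (hβγ.apply_apply_eq_zero b)
  exact tCount_mul_of_exact (hC.of_injective f hf) hC f g hf hg hfg

end Long

/-! ### Products -/

section Prod

variable {X Y : Type*} [AddCommGroup X] [Module R X] [AddCommGroup Y] [Module R Y]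

theorem IdemOn.prod {ε : Matrix (Fin n) (Fin n) R} (hX : IdemOn ε X) (hY : IdemOn ε Y) :
    IdemOn ε (X × Y) := by
  intro z
  have h1 : ∀ w : Fin n → X × Y, (fun b => (mact ε w b).1) = mact ε (fun b => (w b).1) :=
    fun w => (mact_map ε (LinearMap.fst R X Y) w).symm
  have h2 : ∀ w : Fin n → X × Y, (fun b => (mact ε w b).2) = mact ε (fun b => (w b).2) :=
    fun w => (mact_map ε (LinearMap.snd R X Y) w).symm
  funext a
  refine Prod.ext ?_ ?_
  · calc (mact ε (mact ε z) a).1 = (fun b => (mact ε (mact ε z) b).1) a := rfl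
      _ = mact ε (fun b => (mact ε z b).1) a := by rw [h1]
      _ = mact ε (mact ε (fun b => (z b).1)) a := by rw [h1]
      _ = mact ε (fun b => (z b).1) a := by rw [hX]
      _ = (mact ε z a).1 := by rw [← h1]
  · calc (mact ε (mact ε z) a).2 = (fun b => (mact ε (mact ε z) b).2) a := rfl
      _ = mact ε (fun b => (mact ε z b).2) a := by rw [h2]
      _ = mact ε (mact ε (fun b => (z b).2)) a := by rw [h2]
      _ = mact ε (fun b => (z b).2) a := by rw [hY]
      _ = (mact ε z a).2 := by rw [← h2]

theorem tCount_prod {ε : Matrix (Fin n) (Fin n) R} (hX : IdemOn ε X) (hY : IdemOn ε Y) :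
    tCount ε (X × Y) = tCount ε X * tCount ε Y :=
  tCount_mul_of_exact hX (hX.prod hY) (LinearMap.inl R X Y) (LinearMap.snd R X Y)
    LinearMap.inl_injective LinearMap.snd_surjective (by
      intro z
      constructor
      · intro hz
        exact ⟨z.1, Prod.ext rfl (by simpa using hz.symm)⟩
      · rintro ⟨x, rfl⟩
        rfl)

end Prod

/-! ### `p`-torsion and reduction modulo `p` -/

section PTorsion

variable (R) (p : ℕ)

/-- multiplication by `p` as an `R`-linear map -/
def pMul (X : Type*) [AddCommGroup X] [Module R X] : X →ₗ[R] X := p • LinearMap.id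

@[simp] theorem pMul_apply {X : Type*} [AddCommGroup X] [Module R X] (x : X) :
    pMul R p X x = p • x := rfl

/-- the `p`-torsion `X[p]` -/
abbrev torP (X : Type*) [AddCommGroup X] [Module R X] : Submodule R X :=
  LinearMap.ker (pMul R p X)

/-- the reduction `X/pX` -/
abbrev modP (X : Type*) [AddCommGroup X] [Module R X] : Type _ :=
  X ⧸ LinearMap.range (pMul R p X)

variable {R p}

theorem nsmul_torP {X : Type*} [AddCommGroup X] [Module R X] (x : torP R p X) : p • x = 0 :=
  Subtype.ext x.2

theorem nsmul_modP {X : Type*} [AddCommGroup X] [Module R X] (x : modP R p X) : p • x = 0 := by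
  obtain ⟨y, rfl⟩ := Submodule.Quotient.mk_surjective _ x
  rw [← Submodule.Quotient.mk_smul, Submodule.Quotient.mk_eq_zero]
  exact ⟨y, rfl⟩

theorem IdemModP.idemOn_torP {ε : Matrix (Fin n) (Fin n) R} (h : IdemModP p ε) (X : Type*)
    [AddCommGroup X] [Module R X] : IdemOn ε (torP R p X) := h.idemOn nsmul_torP

theorem IdemModP.idemOn_modP {ε : Matrix (Fin n) (Fin n) R} (h : IdemModP p ε) (X : Type*)
    [AddCommGroup X] [Module R X] : IdemOn ε (modP R p X) := h.idemOn nsmul_modP

end PTorsion

/-! ### (M4): `t(Q[p]) = t(Q/p)` for finite `Q` -/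

section M4

universe u

variable {p : ℕ}

/-- the four-term exact sequence `0 → (pQ)[p] → Q[p] → Q/pQ → pQ/p(pQ) → 0` -/
theorem tCount_torP_step {ε : Matrix (Fin n) (Fin n) R} (hε : IdemModP p ε) (Q : Type*)
    [AddCommGroup Q] [Module R Q] :
    tCount ε (torP R p Q) * tCount ε (modP R p (LinearMap.range (pMul R p Q))) =
      tCount ε (torP R p (LinearMap.range (pMul R p Q))) * tCount ε (modP R p Q) := by
  set Q' := LinearMap.range (pMul R p Q) with hQ'
  -- the three maps
  let f : torP R p Q' →ₗ[R] torP R p Q :=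
    (Q'.subtype ∘ₗ (torP R p Q').subtype).codRestrict (torP R p Q) (by
      rintro ⟨⟨x, hx⟩, hx'⟩
      have : p • (⟨x, hx⟩ : Q') = 0 := hx'
      exact congrArg Subtype.val this)
  let g : torP R p Q →ₗ[R] modP R p Q := (LinearMap.range (pMul R p Q)).mkQ ∘ₗ (torP R p Q).subtype
  let h : modP R p Q →ₗ[R] modP R p Q' :=
    (LinearMap.range (pMul R p Q)).liftQ
      ((LinearMap.range (pMul R p Q')).mkQ ∘ₗ (pMul R p Q).rangeRestrict) (by
        rintro _ ⟨q, rfl⟩
        rw [LinearMap.mem_ker, LinearMap.comp_apply, Submodule.mkQ_apply,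
          Submodule.Quotient.mk_eq_zero]
        exact ⟨(pMul R p Q).rangeRestrict q, Subtype.ext rfl⟩)
  have hf : Function.Injective f := by
    intro x y hxy
    apply Subtype.ext
    apply Subtype.ext
    exact congrArg (fun z : torP R p Q => (z : Q)) hxy
  have hh : Function.Surjective h := by
    intro y
    obtain ⟨⟨_, q, rfl⟩, rfl⟩ := Submodule.Quotient.mk_surjective _ y
    exact ⟨Submodule.Quotient.mk q, rfl⟩
  have hfg : Function.Exact f g := by
    intro x
    constructor
    · intro hx
      have hx1 : (x : Q) ∈ Q' := by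
        have := (Submodule.Quotient.mk_eq_zero _).1 hx
        exact this
      refine ⟨⟨⟨x, hx1⟩, ?_⟩, Subtype.ext rfl⟩
      have : p • (x : Q) = 0 := x.2
      exact Subtype.ext this
    · rintro ⟨y, rfl⟩
      exact (Submodule.Quotient.mk_eq_zero _).2 y.1.2
  have hgh : Function.Exact g h := by
    intro y
    constructor
    · intro hy
      obtain ⟨q, rfl⟩ := Submodule.Quotient.mk_surjective _ y
      have h1 : (pMul R p Q).rangeRestrict q ∈ LinearMap.range (pMul R p Q') :=
        (Submodule.Quotient.mk_eq_zero _).1 hy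
      obtain ⟨⟨_, q₁, rfl⟩, hq₁⟩ := h1
      have h2 : p • (p • q₁) = p • q := congrArg Subtype.val hq₁
      refine ⟨⟨q - p • q₁, ?_⟩, ?_⟩
      · change p • (q - p • q₁) = 0
        rw [smul_sub, h2, sub_self]
      · change Submodule.Quotient.mk (q - p • q₁) = Submodule.Quotient.mk q
        rw [Submodule.Quotient.mk_sub, sub_eq_self, Submodule.Quotient.mk_eq_zero]
        exact ⟨q₁, rfl⟩
    · rintro ⟨x, rfl⟩
      change Submodule.Quotient.mk ((pMul R p Q).rangeRestrict (x : Q)) = 0
      rw [Submodule.Quotient.mk_eq_zero]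
      refine ⟨0, Subtype.ext ?_⟩
      have : p • (x : Q) = 0 := x.2
      simp
  exact tCount_four_term (hε.idemOn_torP Q') (hε.idemOn_torP Q) (hε.idemOn_modP Q) f g h hf hfg
    hgh hh

theorem tCount_torP_eq_modP_aux {ε : Matrix (Fin n) (Fin n) R} (hε : IdemModP p ε) :
    ∀ (N : ℕ) (Q : Type u) [AddCommGroup Q] [Module R Q] [Finite Q], Nat.card Q ≤ N →
      tCount ε (torP R p Q) = tCount ε (modP R p Q) := by
  intro N
  induction N with
  | zero =>
    intro Q _ _ _ hQ
    have : 0 < Nat.card Q := Nat.card_pos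
    omega
  | succ N ih =>
    intro Q _ _ _ hQ
    by_cases htop : LinearMap.range (pMul R p Q) = ⊤
    · -- multiplication by `p` is bijective
      have hsurj : Function.Surjective (pMul R p Q) := LinearMap.range_eq_top.1 htop
      have hinj : Function.Injective (pMul R p Q) := Finite.injective_iff_surjective.2 hsurj
      have h1 : Subsingleton (torP R p Q) :=
        ⟨fun x y => Subtype.ext (hinj (x.2.trans y.2.symm))⟩
      have h2 : Subsingleton (modP R p Q) := Submodule.Quotient.subsingleton_iff.2 htop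
      rw [tCount_of_subsingleton, tCount_of_subsingleton]
    · -- induction through `pQ`
      obtain ⟨q, hq⟩ : ∃ q : Q, q ∉ LinearMap.range (pMul R p Q) := by
        by_contra hcon
        exact htop (eq_top_iff.2 fun x _ => by_contra fun hx => hcon ⟨x, hx⟩)
      have hlt : Nat.card (LinearMap.range (pMul R p Q)) < Nat.card Q := by
        have _ : Fintype Q := Fintype.ofFinite Q
        have _ : Fintype (LinearMap.range (pMul R p Q)) := Fintype.ofFinite _
        rw [Nat.card_eq_fintype_card, Nat.card_eq_fintype_card]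
        refine Fintype.card_lt_of_injective_of_notMem (b := q) Subtype.val
          Subtype.val_injective ?_
        rintro ⟨⟨x, hx⟩, rfl⟩
        exact hq hx
      have hih := ih (LinearMap.range (pMul R p Q)) (by omega)
      have hstep := tCount_torP_step hε Q
      rw [hih, mul_comm] at hstep
      have hfin : Finite (modP R p (LinearMap.range (pMul R p Q))) :=
        Finite.of_surjective _ (Submodule.Quotient.mk_surjective _)
      have hpos : 0 < tCount ε (modP R p (LinearMap.range (pMul R p Q))) := tCount_pos ε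
      exact Nat.eq_of_mul_eq_mul_left hpos hstep

/-- **(M4)** for a finite module `Q`: the `ε`-parts of `Q[p]` and of `Q/p` have the same number
of elements -/
theorem tCount_torP_eq_modP {ε : Matrix (Fin n) (Fin n) R} (hε : IdemModP p ε) (Q : Type u)
    [AddCommGroup Q] [Module R Q] [Finite Q] :
    tCount ε (torP R p Q) = tCount ε (modP R p Q) :=
  tCount_torP_eq_modP_aux hε (Nat.card Q) Q le_rfl

end M4

/-! ### (M3): invariance under finite-index sublattices -/

section M3

universe u

variable {p : ℕ}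

/-- the map induced on reductions modulo `p` -/
def modPMap (p : ℕ) {X Y : Type*} [AddCommGroup X] [Module R X] [AddCommGroup Y] [Module R Y]
    (f : X →ₗ[R] Y) : modP R p X →ₗ[R] modP R p Y :=
  (LinearMap.range (pMul R p X)).liftQ ((LinearMap.range (pMul R p Y)).mkQ ∘ₗ f) (by
    rintro _ ⟨x, rfl⟩
    rw [LinearMap.mem_ker, LinearMap.comp_apply, Submodule.mkQ_apply,
      Submodule.Quotient.mk_eq_zero]
    exact ⟨f x, by simp⟩)

@[simp] theorem modPMap_mk (p : ℕ) {X Y : Type*} [AddCommGroup X] [Module R X] [AddCommGroup Y]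
    [Module R Y] (f : X →ₗ[R] Y) (x : X) :
    modPMap p f (Submodule.Quotient.mk x) = Submodule.Quotient.mk (f x) := rfl

/-- reduction modulo `p` of an isomorphism -/
def modPCongr (p : ℕ) {X Y : Type*} [AddCommGroup X] [Module R X] [AddCommGroup Y] [Module R Y]
    (e : X ≃ₗ[R] Y) : modP R p X ≃ₗ[R] modP R p Y :=
  LinearEquiv.ofLinearMap (modPMap p e.toLinearMap) (modPMap p e.symm.toLinearMap)
    (by
      apply LinearMap.ext
      intro y
      obtain ⟨y, rfl⟩ := Submodule.Quotient.mk_surjective _ y
      simp)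
    (by
      apply LinearMap.ext
      intro x
      obtain ⟨x, rfl⟩ := Submodule.Quotient.mk_surjective _ x
      simp)

/-- **(M3)**, submodule form: a submodule `M` of finite index of a module `Λ` without
`p`-torsion has the same `ε`-count modulo `p` -/
theorem tCount_modP_of_finite_quotient {ε : Matrix (Fin n) (Fin n) R} (hε : IdemModP p ε)
    (Λ : Type u) [AddCommGroup Λ] [Module R Λ] (hΛ : ∀ x : Λ, p • x = 0 → x = 0)
    (M : Submodule R Λ) [Finite (Λ ⧸ M)] :
    tCount ε (modP R p M) = tCount ε (modP R p Λ) := by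
  -- the maps `M/p → Λ/p → Q/p`
  set b : modP R p M →ₗ[R] modP R p Λ := modPMap p M.subtype with hb
  set c : modP R p Λ →ₗ[R] modP R p (Λ ⧸ M) := modPMap p M.mkQ with hc
  have hcs : Function.Surjective c := by
    intro y
    obtain ⟨y, rfl⟩ := Submodule.Quotient.mk_surjective _ y
    obtain ⟨l, rfl⟩ := Submodule.Quotient.mk_surjective _ y
    exact ⟨Submodule.Quotient.mk l, rfl⟩
  have hbc : Function.Exact b c := by
    intro y
    constructor
    · intro hy
      obtain ⟨l, rfl⟩ := Submodule.Quotient.mk_surjective _ y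
      have h1 : M.mkQ l ∈ LinearMap.range (pMul R p (Λ ⧸ M)) :=
        (Submodule.Quotient.mk_eq_zero _).1 hy
      obtain ⟨q, hq⟩ := h1
      obtain ⟨l₁, rfl⟩ := Submodule.Quotient.mk_surjective _ q
      have h2 : l - p • l₁ ∈ M := by
        rw [← Submodule.Quotient.mk_eq_zero, Submodule.Quotient.mk_sub, sub_eq_zero]
        exact hq.symm
      refine ⟨Submodule.Quotient.mk ⟨l - p • l₁, h2⟩, ?_⟩
      change Submodule.Quotient.mk (l - p • l₁) = Submodule.Quotient.mk l
      rw [Submodule.Quotient.mk_sub, sub_eq_self, Submodule.Quotient.mk_eq_zero]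
      exact ⟨l₁, rfl⟩
    · rintro ⟨x, rfl⟩
      obtain ⟨m, rfl⟩ := Submodule.Quotient.mk_surjective _ x
      change Submodule.Quotient.mk (M.mkQ (m : Λ)) = 0
      have : M.mkQ (m : Λ) = 0 := (Submodule.Quotient.mk_eq_zero _).2 m.2
      rw [this, Submodule.Quotient.mk_zero]
  -- `ker b ≃ Q[p]`
  set L2 : Submodule R Λ := M.comap (pMul R p Λ) with hL2
  let φ₁ : L2 →ₗ[R] torP R p (Λ ⧸ M) :=
    (M.mkQ ∘ₗ L2.subtype).codRestrict (torP R p (Λ ⧸ M)) (by
      rintro ⟨l, hl⟩
      change p • Submodule.Quotient.mk l = 0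
      rw [← Submodule.Quotient.mk_smul, Submodule.Quotient.mk_eq_zero]
      exact hl)
  let φ₂ : L2 →ₗ[R] modP R p M :=
    (LinearMap.range (pMul R p M)).mkQ ∘ₗ
      ((pMul R p Λ ∘ₗ L2.subtype).codRestrict M fun l => l.2)
  have hφ₁ : Function.Surjective φ₁ := by
    rintro ⟨q, hq⟩
    obtain ⟨l, rfl⟩ := Submodule.Quotient.mk_surjective _ q
    have hl : l ∈ L2 := by
      change p • l ∈ M
      rw [← Submodule.Quotient.mk_eq_zero, Submodule.Quotient.mk_smul]
      exact hq
    exact ⟨⟨l, hl⟩, Subtype.ext rfl⟩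
  have hker : LinearMap.ker φ₁ = LinearMap.ker φ₂ := by
    ext ⟨l, hl⟩
    rw [LinearMap.mem_ker, LinearMap.mem_ker]
    constructor
    · intro h
      have hlM : l ∈ M := (Submodule.Quotient.mk_eq_zero _).1 (congrArg Subtype.val h)
      change Submodule.Quotient.mk _ = 0
      rw [Submodule.Quotient.mk_eq_zero]
      exact ⟨⟨l, hlM⟩, Subtype.ext rfl⟩
    · intro h
      have h1 : (⟨p • l, hl⟩ : M) ∈ LinearMap.range (pMul R p M) :=
        (Submodule.Quotient.mk_eq_zero _).1 h
      obtain ⟨m, hm⟩ := h1
      have h2 : p • (m : Λ) = p • l := congrArg Subtype.val hm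
      have h3 : l = m := by
        have : p • (l - m) = 0 := by rw [smul_sub, h2, sub_self]
        exact sub_eq_zero.1 (hΛ _ this)
      apply Subtype.ext
      change Submodule.Quotient.mk l = 0
      rw [Submodule.Quotient.mk_eq_zero, h3]
      exact m.2
  have hrange : LinearMap.range φ₂ = LinearMap.ker b := by
    ext y
    constructor
    · rintro ⟨⟨l, hl⟩, rfl⟩
      rw [LinearMap.mem_ker]
      change Submodule.Quotient.mk (p • l) = 0
      rw [Submodule.Quotient.mk_eq_zero]
      exact ⟨l, rfl⟩
    · intro hy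
      obtain ⟨m, rfl⟩ := Submodule.Quotient.mk_surjective _ y
      rw [LinearMap.mem_ker] at hy
      have h1 : (m : Λ) ∈ LinearMap.range (pMul R p Λ) := (Submodule.Quotient.mk_eq_zero _).1 hy
      obtain ⟨l, hl⟩ := h1
      have hl2 : l ∈ L2 := by
        change p • l ∈ M
        have : p • l = m := hl
        rw [this]
        exact m.2
      refine ⟨⟨l, hl2⟩, ?_⟩
      change Submodule.Quotient.mk _ = Submodule.Quotient.mk m
      congr 1
      exact Subtype.ext hl
  have e : torP R p (Λ ⧸ M) ≃ₗ[R] LinearMap.ker b :=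
    ((LinearMap.quotKerEquivOfSurjective φ₁ hφ₁).symm.trans
      ((Submodule.quotEquivOfEq _ _ hker).trans (LinearMap.quotKerEquivRange φ₂))).trans
      (LinearEquiv.ofEq _ _ hrange)
  have h4 := tCount_four_term ((hε.idemOn_modP M).of_injective (LinearMap.ker b).subtype
      (Submodule.injective_subtype _)) (hε.idemOn_modP M) (hε.idemOn_modP Λ)
    (LinearMap.ker b).subtype b c (Submodule.injective_subtype _) (by
      intro y
      constructor
      · intro hy
        exact ⟨⟨y, hy⟩, rfl⟩
      · rintro ⟨x, rfl⟩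
        exact x.2) hbc hcs
  rw [← tCount_congr ε e, tCount_torP_eq_modP hε (Λ ⧸ M), mul_comm] at h4
  have hfin : Finite (modP R p (Λ ⧸ M)) :=
    Finite.of_surjective _ (Submodule.Quotient.mk_surjective _)
  exact Nat.eq_of_mul_eq_mul_left (tCount_pos ε) h4

/-- **(M3)**: an injective map `Λ' → Λ` with finite cokernel, `Λ` without `p`-torsion, induces
an equality of `ε`-counts modulo `p` -/
theorem tCount_modP_of_finite_coker {ε : Matrix (Fin n) (Fin n) R} (hε : IdemModP p ε)
    {Λ' : Type*} (Λ : Type u) [AddCommGroup Λ'] [Module R Λ'] [AddCommGroup Λ] [Module R Λ]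
    (hΛ : ∀ x : Λ, p • x = 0 → x = 0) (j : Λ' →ₗ[R] Λ) (hj : Function.Injective j)
    [Finite (Λ ⧸ LinearMap.range j)] : tCount ε (modP R p Λ') = tCount ε (modP R p Λ) := by
  rw [tCount_congr ε (modPCongr p (LinearEquiv.ofInjective j hj))]
  exact tCount_modP_of_finite_quotient hε Λ hΛ (LinearMap.range j)

end M3

end Fermat.Agent.S56.Base.EC
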