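/-
PROJECT T (S56), block (a1-II)/B3/E3 (helper11), file 2: THE `Δ`-STRUCTURE ON `Hⁱ(U', A)`.

`G` a group with levels `𝒰`, `U' ≤ U` subgroups with `U'` normal in `U`, `Δ = U ⧸ U'`.
For `A : Rep k G` put `XRep 𝒰 U' A := sInd 𝒰 U' (Res A)` (so `Hⁱ(G, XRep A) = Hⁱ(U', A)` by
Shapiro).  Every `u ∈ U` acts on `XRep A` by the `G`-automorphism `(lam u f)(x) = u • f (u⁻¹ x)`,
trivially for `u ∈ U'`, functorially in `A`.  Hence `Hⁱ(G, XRep A)` is a `ℤ[Δ]`-module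
(`HX 𝒰 U' U A i`), and all maps induced by morphisms of coefficients are `ℤ[Δ]`-linear.
-/
import Fermat.Agent.CFT.LC.Shapiro
import Fermat.Agent.CFT.LC.Naturality
import Fermat.Agent.S56.Base.EC.Mult

set_option autoImplicit false

noncomputable section

namespace Fermat.Agent.S56.Base.EC

open CategoryTheory Fermat.Agent.CFT.LC

variable {k G : Type} [CommRing k] [Group G] (𝒰 : Levels G) (U' : Subgroup G)

/-- `XRep A = sInd_{U'}^G (Res A)`: the coefficient module computing `Hⁱ(U', A)` -/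
abbrev XRep (A : Rep.{0} k G) : Rep.{0} k G := sInd 𝒰 U' (Rep.res U'.subtype A)

/-- functoriality of `XRep` -/
abbrev XMap {A B : Rep.{0} k G} (ψ : A ⟶ B) : XRep 𝒰 U' A ⟶ XRep 𝒰 U' B :=
  sIndMap 𝒰 U' ((Rep.resFunctor U'.subtype).map ψ)

variable {𝒰 U'}

/-- the automorphism `(lam u f)(x) = u • f (u⁻¹ x)` of `XRep A`, for `u` normalising `U'` -/
def lam (u : G) (hu : ∀ d ∈ U', u⁻¹ * d * u ∈ U') (A : Rep.{0} k G) :
    XRep 𝒰 U' A ⟶ XRep 𝒰 U' A :=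
  ConcreteCategory.ofHom (C := Rep.{0} k G)
    (LinearMap.intertwiningMap_of_isIntertwiningMap
      (ρ := (XRep 𝒰 U' A).ρ) (σ := (XRep 𝒰 U' A).ρ)
      (f := { toFun := fun φ => iMk (𝒰 := 𝒰) (D := U') (B := Rep.res U'.subtype A)
                (fun x => A.ρ u (iFn φ (u⁻¹ * x)))
                (fun d x => by
                  have h1 : u⁻¹ * ((d : G) * x) = (⟨u⁻¹ * d * u, hu d d.2⟩ : U') * (u⁻¹ * x) := by
                    change _ = u⁻¹ * d * u * (u⁻¹ * x)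
                    group
                  rw [h1, iFn_equivariant]
                  change A.ρ u (A.ρ (u⁻¹ * d * u) _) = A.ρ d (A.ρ u _)
                  rw [← Module.End.mul_apply, ← Module.End.mul_apply, ← map_mul, ← map_mul]
                  congr 2
                  group)
                (by
                  obtain ⟨V, hV, h⟩ := iFn_exists_level φ
                  exact ⟨V, hV, fun x s hs => by rw [← mul_assoc, h _ s hs]⟩)
              map_add' := fun φ φ' => by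
                refine iFn_ext fun x => ?_
                simp
              map_smul' := fun c φ => by
                refine iFn_ext fun x => ?_
                simp })
      (fun g φ => by
        refine iFn_ext fun x => ?_
        change A.ρ u (iFn φ (u⁻¹ * x * g)) = A.ρ u (iFn φ (u⁻¹ * (x * g)))
        rw [mul_assoc]))

@[simp] theorem iFn_lam (u : G) (hu : ∀ d ∈ U', u⁻¹ * d * u ∈ U') (A : Rep.{0} k G)
    (φ : XRep 𝒰 U' A) (x : G) :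
    iFn ((lam u hu A).hom φ) x = A.ρ u (iFn φ (u⁻¹ * x)) := rfl

theorem lam_comp (u v : G) (hu : ∀ d ∈ U', u⁻¹ * d * u ∈ U') (hv : ∀ d ∈ U', v⁻¹ * d * v ∈ U')
    (huv : ∀ d ∈ U', (u * v)⁻¹ * d * (u * v) ∈ U') (A : Rep.{0} k G) :
    lam (𝒰 := 𝒰) v hv A ≫ lam u hu A = lam (u * v) huv A := by
  ext φ
  refine iFn_ext fun x => ?_
  change A.ρ u (A.ρ v (iFn φ (v⁻¹ * (u⁻¹ * x)))) = A.ρ (u * v) (iFn φ ((u * v)⁻¹ * x))
  rw [map_mul, Module.End.mul_apply, mul_inv_rev, mul_assoc]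

theorem lam_of_mem (u : G) (hu : ∀ d ∈ U', u⁻¹ * d * u ∈ U') (hmem : u ∈ U')
    (A : Rep.{0} k G) : lam (𝒰 := 𝒰) u hu A = 𝟙 _ := by
  ext φ
  refine iFn_ext fun x => ?_
  change A.ρ u (iFn φ (u⁻¹ * x)) = iFn φ x
  have h1 := iFn_equivariant φ (⟨u⁻¹, U'.inv_mem hmem⟩ : U') x
  change iFn φ (u⁻¹ * x) = A.ρ u⁻¹ (iFn φ x) at h1
  rw [h1, ← Module.End.mul_apply, ← map_mul, mul_inv_cancel, map_one, Module.End.one_apply]

/-- `lam` is natural in the coefficients -/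
theorem lam_naturality (u : G) (hu : ∀ d ∈ U', u⁻¹ * d * u ∈ U') {A B : Rep.{0} k G}
    (ψ : A ⟶ B) : lam (𝒰 := 𝒰) u hu A ≫ XMap 𝒰 U' ψ = XMap 𝒰 U' ψ ≫ lam u hu B := by
  ext φ
  refine iFn_ext fun x => ?_
  change ψ.hom (A.ρ u (iFn φ (u⁻¹ * x))) = B.ρ u (ψ.hom (iFn φ (u⁻¹ * x)))
  exact Rep.hom_comm_apply ψ u _

/-! ### Equivariant maps as `ℤ[Δ]`-linear maps -/

section AsModule

variable {Δ : Type*} [Group Δ] {V W : Type*} [AddCommGroup V] [AddCommGroup W]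

/-- an equivariant additive map, as a `ℤ[Δ]`-linear map between the associated modules -/
def asModuleHom (ρ : Representation ℤ Δ V) (σ : Representation ℤ Δ W) (f : V →+ W)
    (h : ∀ δ v, f (ρ δ v) = σ δ (f v)) : ρ.asModule →ₗ[MonoidAlgebra ℤ Δ] σ.asModule :=
  MonoidAlgebra.equivariantOfLinearOfComm
    ((σ.asModuleEquiv.symm.toLinearMap ∘ₗ f.toIntLinearMap) ∘ₗ ρ.asModuleEquiv.toLinearMap)
    (fun δ v => by
      simp only [LinearMap.comp_apply, LinearEquiv.coe_coe, AddMonoidHom.coe_toIntLinearMap,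
        Representation.single_smul, one_smul]
      exact congrArg σ.asModuleEquiv.symm (h δ (ρ.asModuleEquiv v)))

@[simp] theorem asModuleHom_apply (ρ : Representation ℤ Δ V) (σ : Representation ℤ Δ W)
    (f : V →+ W) (h : ∀ δ v, f (ρ δ v) = σ δ (f v)) (v : ρ.asModule) :
    σ.asModuleEquiv (asModuleHom ρ σ f h v) = f (ρ.asModuleEquiv v) := rfl

end AsModule

/-! ### The `ℤ[Δ]`-module `Hⁱ(U', A)` -/

section HX

variable (𝒰 U') (U : Subgroup G) [hn : (U'.subgroupOf U).Normal]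

/-- the quotient `Δ = U ⧸ U'` -/
abbrev DeltaGrp : Type := ↥U ⧸ U'.subgroupOf U

variable {U'} in
include hn in
theorem conj_mem_of_le (hle : U' ≤ U) (u : U) : ∀ d ∈ U', (u : G)⁻¹ * d * u ∈ U' := by
  intro d hd
  have h1 : (⟨d, hle hd⟩ : U) ∈ U'.subgroupOf U := Subgroup.mem_subgroupOf.2 hd
  have h2 := hn.conj_mem _ h1 u⁻¹
  have h3 := Subgroup.mem_subgroupOf.1 h2
  simpa using h3

/-- the action of `U` on `Hⁱ(G, XRep A)` -/
def actHom (hle : U' ≤ U) (A : Rep.{0} k G) (i : ℕ) :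
    ↥U →* Module.End ℤ (H 𝒰 (XRep 𝒰 U' A) i) where
  toFun u := (mapId (lam (𝒰 := 𝒰) (u : G) (conj_mem_of_le U hle u) A)
    i).hom.toAddMonoidHom.toIntLinearMap
  map_one' := by
    apply LinearMap.ext
    intro x
    change (mapId (lam (𝒰 := 𝒰) ((1 : U) : G) (conj_mem_of_le U hle 1) A) i).hom x = x
    rw [lam_of_mem _ _ (by simp), mapId_id]
    rfl
  map_mul' u v := by
    apply LinearMap.ext
    intro x
    change (mapId (lam (𝒰 := 𝒰) ((u * v : U) : G) (conj_mem_of_le U hle (u * v)) A) i).hom x =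
      (mapId (lam (𝒰 := 𝒰) (u : G) (conj_mem_of_le U hle u) A) i).hom
        ((mapId (lam (𝒰 := 𝒰) (v : G) (conj_mem_of_le U hle v) A) i).hom x)
    have h := lam_comp (𝒰 := 𝒰) (u : G) (v : G) (conj_mem_of_le U hle u) (conj_mem_of_le U hle v)
      (conj_mem_of_le U hle (u * v)) A
    have h2 : mapId (𝒰 := 𝒰) (lam (𝒰 := 𝒰) ((u * v : U) : G) (conj_mem_of_le U hle (u * v)) A) i =
        mapId (𝒰 := 𝒰) (lam (𝒰 := 𝒰) (v : G) (conj_mem_of_le U hle v) A) i ≫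
          mapId (𝒰 := 𝒰) (lam (𝒰 := 𝒰) (u : G) (conj_mem_of_le U hle u) A) i := by
      rw [← mapId_comp]
      exact congrArg (fun f => mapId (𝒰 := 𝒰) f i) h.symm
    rw [h2]
    rfl

theorem actHom_of_mem (hle : U' ≤ U) (A : Rep.{0} k G) (i : ℕ) (u : U)
    (hu : u ∈ U'.subgroupOf U) : actHom 𝒰 U' U hle A i u = 1 := by
  apply LinearMap.ext
  intro x
  change (mapId (lam (𝒰 := 𝒰) (u : G) (conj_mem_of_le U hle u) A) i).hom x = x
  rw [lam_of_mem _ _ (Subgroup.mem_subgroupOf.1 hu), mapId_id]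
  rfl

/-- the representation of `Δ = U ⧸ U'` on `Hⁱ(G, XRep A)` -/
def rhoHX (hle : U' ≤ U) (A : Rep.{0} k G) (i : ℕ) :
    Representation ℤ (DeltaGrp U' U) (H 𝒰 (XRep 𝒰 U' A) i) :=
  QuotientGroup.lift (U'.subgroupOf U) (actHom 𝒰 U' U hle A i) fun u hu =>
    actHom_of_mem 𝒰 U' U hle A i u hu

/-- **`Hⁱ(U', A)` as a `ℤ[Δ]`-module** -/
abbrev HX (hle : U' ≤ U) (A : Rep.{0} k G) (i : ℕ) : Type :=
  (rhoHX 𝒰 U' U hle A i).asModule

theorem rhoHX_mk (hle : U' ≤ U) (A : Rep.{0} k G) (i : ℕ) (u : U)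
    (x : H 𝒰 (XRep 𝒰 U' A) i) :
    rhoHX 𝒰 U' U hle A i (QuotientGroup.mk u) x =
      (mapId (lam (𝒰 := 𝒰) (u : G) (conj_mem_of_le U hle u) A) i).hom x := rfl

/-- the `ℤ[Δ]`-linear map induced by a morphism of coefficients -/
def HXmap (hle : U' ≤ U) {A B : Rep.{0} k G} (ψ : A ⟶ B) (i : ℕ) :
    HX 𝒰 U' U hle A i →ₗ[MonoidAlgebra ℤ (DeltaGrp U' U)] HX 𝒰 U' U hle B i :=
  asModuleHom _ _ (mapId (XMap 𝒰 U' ψ) i).hom.toAddMonoidHom (by
    intro δ x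
    obtain ⟨u, rfl⟩ := QuotientGroup.mk_surjective δ
    rw [rhoHX_mk, rhoHX_mk]
    change ((mapId (𝒰 := 𝒰) (lam (𝒰 := 𝒰) (u : G) (conj_mem_of_le U hle u) A) i) ≫
      mapId (𝒰 := 𝒰) (XMap 𝒰 U' ψ) i).hom x = (mapId (𝒰 := 𝒰) (XMap 𝒰 U' ψ) i ≫
        mapId (𝒰 := 𝒰) (lam (𝒰 := 𝒰) (u : G) (conj_mem_of_le U hle u) B) i).hom x
    rw [← mapId_comp, ← mapId_comp, lam_naturality])

end HX

/-! ### The long exact sequence of `ℤ[Δ]`-modules -/

section LES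

variable (𝒰 U') (U : Subgroup G) [hn : (U'.subgroupOf U).Normal] [𝒰.IsFin]

/-- the short exact sequence `XRep X₁ → XRep X₂ → XRep X₃` -/
abbrev XSES (X : ShortComplex (Rep.{0} k G)) : ShortComplex (Rep.{0} k G) :=
  (X.map (Rep.resFunctor U'.subtype)).map (sIndFunctor k 𝒰 U')

theorem XSES_shortExact {X : ShortComplex (Rep.{0} k G)} (hX : X.ShortExact)
    (hsm : IsSmooth 𝒰 X.X₂) : (XSES 𝒰 U' X).ShortExact :=
  map_sIndFunctor_shortExact 𝒰 U' ((Rep.shortExact_res U'.subtype).mpr hX)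
    (IsSmooth.res_of_continuous (Levels.continuous_comap U'.subtype 𝒰) hsm)

omit [𝒰.IsFin] in
theorem isSmooth_XSES (X : ShortComplex (Rep.{0} k G)) : IsSmooth 𝒰 (XSES 𝒰 U' X).X₂ :=
  isSmooth_sInd 𝒰 U' _

/-- the endomorphism of the short exact sequence of cochain complexes induced by `lam u` -/
def lamShortComplex (u : G) (hu : ∀ d ∈ U', u⁻¹ * d * u ∈ U') (X : ShortComplex (Rep.{0} k G)) :
    (XSES 𝒰 U' X).map (lcFunctor 𝒰) ⟶ (XSES 𝒰 U' X).map (lcFunctor 𝒰) where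
  τ₁ := (lcFunctor 𝒰).map (lam u hu X.X₁)
  τ₂ := (lcFunctor 𝒰).map (lam u hu X.X₂)
  τ₃ := (lcFunctor 𝒰).map (lam u hu X.X₃)
  comm₁₂ := by
    change (lcFunctor 𝒰).map (lam u hu X.X₁) ≫ (lcFunctor 𝒰).map (XMap 𝒰 U' X.f) =
      (lcFunctor 𝒰).map (XMap 𝒰 U' X.f) ≫ (lcFunctor 𝒰).map (lam u hu X.X₂)
    rw [← Functor.map_comp, ← Functor.map_comp, lam_naturality]
  comm₂₃ := by
    change (lcFunctor 𝒰).map (lam u hu X.X₂) ≫ (lcFunctor 𝒰).map (XMap 𝒰 U' X.g) =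
      (lcFunctor 𝒰).map (XMap 𝒰 U' X.g) ≫ (lcFunctor 𝒰).map (lam u hu X.X₃)
    rw [← Functor.map_comp, ← Functor.map_comp, lam_naturality]

/-- the connecting homomorphism commutes with `lam u` -/
theorem lcδ_lam (u : G) (hu : ∀ d ∈ U', u⁻¹ * d * u ∈ U') {X : ShortComplex (Rep.{0} k G)}
    (hX : X.ShortExact) (hsm : IsSmooth 𝒰 X.X₂) (i j : ℕ) (hij : i + 1 = j) :
    lcδ (XSES_shortExact 𝒰 U' hX hsm) (isSmooth_XSES 𝒰 U' X) i j hij ≫
        mapId (𝒰 := 𝒰) (lam u hu X.X₁) j =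
      mapId (𝒰 := 𝒰) (lam u hu X.X₃) i ≫
        lcδ (XSES_shortExact 𝒰 U' hX hsm) (isSmooth_XSES 𝒰 U' X) i j hij :=
  HomologicalComplex.HomologySequence.δ_naturality (lamShortComplex 𝒰 U' u hu X)
    (map_lcFunctor_shortExact (XSES_shortExact 𝒰 U' hX hsm) (isSmooth_XSES 𝒰 U' X))
    (map_lcFunctor_shortExact (XSES_shortExact 𝒰 U' hX hsm) (isSmooth_XSES 𝒰 U' X)) i j hij

/-- the connecting homomorphism as a `ℤ[Δ]`-linear map -/
def HXδ (hle : U' ≤ U) {X : ShortComplex (Rep.{0} k G)} (hX : X.ShortExact)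
    (hsm : IsSmooth 𝒰 X.X₂) (i j : ℕ) (hij : i + 1 = j) :
    HX 𝒰 U' U hle X.X₃ i →ₗ[MonoidAlgebra ℤ (DeltaGrp U' U)] HX 𝒰 U' U hle X.X₁ j :=
  asModuleHom _ _
    (lcδ (XSES_shortExact 𝒰 U' hX hsm) (isSmooth_XSES 𝒰 U' X) i j hij).hom.toAddMonoidHom (by
    intro δ x
    obtain ⟨u, rfl⟩ := QuotientGroup.mk_surjective δ
    rw [rhoHX_mk, rhoHX_mk]
    have h := lcδ_lam 𝒰 U' (u : G) (conj_mem_of_le U hle u) hX hsm i j hij
    exact (ConcreteCategory.congr_hom h x).symm)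

omit [𝒰.IsFin] in
theorem HXmap_apply (hle : U' ≤ U) {A B : Rep.{0} k G} (ψ : A ⟶ B) (i : ℕ)
    (x : HX 𝒰 U' U hle A i) :
    HXmap 𝒰 U' U hle ψ i x = (mapId (𝒰 := 𝒰) (XMap 𝒰 U' ψ) i).hom x := rfl

theorem HXδ_apply (hle : U' ≤ U) {X : ShortComplex (Rep.{0} k G)} (hX : X.ShortExact)
    (hsm : IsSmooth 𝒰 X.X₂) (i j : ℕ) (hij : i + 1 = j) (x : HX 𝒰 U' U hle X.X₃ i) :
    HXδ 𝒰 U' U hle hX hsm i j hij x =
      (lcδ (XSES_shortExact 𝒰 U' hX hsm) (isSmooth_XSES 𝒰 U' X) i j hij).hom x := rfl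

/-- exactness of `Hⁱ(U',X₁) → Hⁱ(U',X₂) → Hⁱ(U',X₃)` -/
theorem HX_exact₂ (hle : U' ≤ U) {X : ShortComplex (Rep.{0} k G)} (hX : X.ShortExact)
    (hsm : IsSmooth 𝒰 X.X₂) (i : ℕ) :
    Function.Exact (HXmap 𝒰 U' U hle X.f i) (HXmap 𝒰 U' U hle X.g i) := by
  have hex := exact₂ (XSES_shortExact 𝒰 U' hX hsm) (isSmooth_XSES 𝒰 U' X) i
  exact fun y => (ShortComplex.ShortExact.moduleCat_exact_iff_function_exact _).1 hex y

/-- exactness of `Hⁱ(U',X₂) → Hⁱ(U',X₃) → Hʲ(U',X₁)` -/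
theorem HX_exact₃ (hle : U' ≤ U) {X : ShortComplex (Rep.{0} k G)} (hX : X.ShortExact)
    (hsm : IsSmooth 𝒰 X.X₂) (i j : ℕ) (hij : i + 1 = j) :
    Function.Exact (HXmap 𝒰 U' U hle X.g i) (HXδ 𝒰 U' U hle hX hsm i j hij) := by
  have hex := exact₃ (XSES_shortExact 𝒰 U' hX hsm) (isSmooth_XSES 𝒰 U' X) i j hij
  exact fun y => (ShortComplex.ShortExact.moduleCat_exact_iff_function_exact _).1 hex y

/-- exactness of `Hⁱ(U',X₃) → Hʲ(U',X₁) → Hʲ(U',X₂)` -/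
theorem HX_exact₁ (hle : U' ≤ U) {X : ShortComplex (Rep.{0} k G)} (hX : X.ShortExact)
    (hsm : IsSmooth 𝒰 X.X₂) (i j : ℕ) (hij : i + 1 = j) :
    Function.Exact (HXδ 𝒰 U' U hle hX hsm i j hij) (HXmap 𝒰 U' U hle X.f j) := by
  have hex := exact₁ (XSES_shortExact 𝒰 U' hX hsm) (isSmooth_XSES 𝒰 U' X) i j hij
  exact fun y => (ShortComplex.ShortExact.moduleCat_exact_iff_function_exact _).1 hex y

end LES

end Fermat.Agent.S56.Base.EC
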