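/-
PROJECT T (S56), block (a1-II)/B3/E3 (helper11), file 2b: (HS) = COHOMOLOGY OF AN `ε`-SUMMAND.

`piRep n P` is the `n`-fold product of `P : Rep k G`.  For `P = XRep 𝒰 U' A` the group ring
`ℤ[Δ]` acts on `P` by endomorphisms of representations (`rAct`), so an `n × n` matrix `ε` over
`ℤ[Δ]` gives an endomorphism `epsEnd ε` of `piRep n P`.  If `N` is a retract of `piRep n P` with
`q ≫ j = epsEnd ε` (`EpsSummand`), then `Hⁱ(G, N) ≃ ePart ε (Hⁱ(U', A))`: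
`EpsSummand.card_H : Nat.card (H 𝒰 N i) = tCount ε (HX 𝒰 U' U hle A i)`.
-/
import Fermat.Agent.CFT.LC.PermHom
import Fermat.Agent.S56.Base.EC.CoeffAction

set_option autoImplicit false

noncomputable section

namespace Fermat.Agent.S56.Base.EC

open CategoryTheory Fermat.Agent.CFT.LC

variable {k G : Type} [CommRing k] [Group G]

/-! ### Finite products of representations -/

/-- a morphism of representations from a linear map commuting with the actions -/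
def mkHom {A B : Rep.{0} k G} (f : A.V →ₗ[k] B.V) (h : ∀ g a, f (A.ρ g a) = B.ρ g (f a)) :
    A ⟶ B :=
  ConcreteCategory.ofHom (C := Rep.{0} k G)
    (LinearMap.intertwiningMap_of_isIntertwiningMap (ρ := A.ρ) (σ := B.ρ) (f := f) h)

@[simp] theorem mkHom_apply {A B : Rep.{0} k G} (f : A.V →ₗ[k] B.V)
    (h : ∀ g a, f (A.ρ g a) = B.ρ g (f a)) (a : A.V) : (mkHom f h).hom a = f a := rfl

/-- the componentwise representation on `Fin n → P` -/
def piRepresentation (n : ℕ) (P : Rep.{0} k G) : Representation k G (Fin n → P.V) where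
  toFun g := LinearMap.pi fun a => P.ρ g ∘ₗ LinearMap.proj a
  map_one' := by
    ext x a
    simp
  map_mul' g h := by
    ext x a
    simp

/-- the `n`-fold product of a representation -/
def piRep (n : ℕ) (P : Rep.{0} k G) : Rep.{0} k G := Rep.of (piRepresentation n P)

theorem piRep_ρ_apply (n : ℕ) (P : Rep.{0} k G) (g : G) (x : Fin n → P.V) (a : Fin n) :
    ((piRep n P).ρ g x : Fin n → P.V) a = P.ρ g (x a) := rfl

/-- the projections -/
def piProj (n : ℕ) (P : Rep.{0} k G) (a : Fin n) : piRep n P ⟶ P :=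
  mkHom (A := piRep n P) (B := P) (LinearMap.proj a) fun _ _ => rfl

/-- the inclusions -/
def piIncl (n : ℕ) (P : Rep.{0} k G) (a : Fin n) : P ⟶ piRep n P :=
  mkHom (A := P) (B := piRep n P) (LinearMap.single k (fun _ : Fin n => P.V) a) fun g x => by
    classical
    funext b
    change (Pi.single a (P.ρ g x) : Fin n → P.V) b = P.ρ g ((Pi.single a x : Fin n → P.V) b)
    by_cases hab : b = a
    · subst hab
      simp
    · simp [Pi.single_eq_of_ne hab]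

theorem piProj_apply (n : ℕ) (P : Rep.{0} k G) (a : Fin n) (x : Fin n → P.V) :
    (piProj n P a).hom (x : (piRep n P).V) = x a := rfl

theorem piIncl_apply (n : ℕ) (P : Rep.{0} k G) (a : Fin n) (x : P.V) :
    ((piIncl n P a).hom x : Fin n → P.V) = Pi.single a x := rfl

theorem piIncl_piProj_self (n : ℕ) (P : Rep.{0} k G) (a : Fin n) :
    piIncl n P a ≫ piProj n P a = 𝟙 P := by
  ext x
  change (Pi.single a x : Fin n → P.V) a = x
  simp

theorem piIncl_piProj_ne (n : ℕ) (P : Rep.{0} k G) {a b : Fin n} (h : a ≠ b) :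
    piIncl n P a ≫ piProj n P b = 0 := by
  ext x
  change (Pi.single a x : Fin n → P.V) b = 0
  exact Pi.single_eq_of_ne (M := fun _ : Fin n => P.V) (Ne.symm h) x

theorem sum_piProj_piIncl (n : ℕ) (P : Rep.{0} k G) :
    ∑ a, piProj n P a ≫ piIncl n P a = 𝟙 (piRep n P) := by
  classical
  ext x
  have h1 : ∀ (s : Finset (Fin n)) (y : (piRep n P).V),
      (∑ a ∈ s, piProj n P a ≫ piIncl n P a).hom y =
        ∑ a ∈ s, ((piProj n P a ≫ piIncl n P a).hom y) := by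
    intro s y
    induction s using Finset.induction_on with
    | empty => rfl
    | insert a s ha ih =>
      rw [Finset.sum_insert ha, Finset.sum_insert ha, ← ih]
      rfl
  refine (h1 Finset.univ x).trans ?_
  change ∑ a, (Pi.single a ((x : Fin n → P.V) a) : Fin n → P.V) = x
  exact Finset.univ_sum_single (x : Fin n → P.V)

/-! ### The action of `ℤ[Δ]` on `XRep A` and the endomorphism `epsEnd` -/

section Eps

variable (𝒰 : Levels G) (U' U : Subgroup G) [hn : (U'.subgroupOf U).Normal] (hle : U' ≤ U)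

/-- `U → End (XRep A)` -/
def lamHom (A : Rep.{0} k G) : ↥U →* End (XRep 𝒰 U' A) where
  toFun u := lam (𝒰 := 𝒰) (u : G) (conj_mem_of_le U hle u) A
  map_one' := lam_of_mem _ (conj_mem_of_le U hle 1) (by simp) A
  map_mul' u v := (lam_comp (𝒰 := 𝒰) (u : G) (v : G) (conj_mem_of_le U hle u)
    (conj_mem_of_le U hle v) (conj_mem_of_le U hle (u * v)) A).symm

/-- `Δ → End (XRep A)` -/
def lamDelta (A : Rep.{0} k G) : DeltaGrp U' U →* End (XRep 𝒰 U' A) :=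
  QuotientGroup.lift (U'.subgroupOf U) (lamHom 𝒰 U' U hle A) fun u hu =>
    lam_of_mem _ (conj_mem_of_le U hle u) (Subgroup.mem_subgroupOf.1 hu) A

/-- the action of the group ring on `XRep A` by endomorphisms of representations -/
def rAct (A : Rep.{0} k G) : MonoidAlgebra ℤ (DeltaGrp U' U) →ₐ[ℤ] End (XRep 𝒰 U' A) :=
  MonoidAlgebra.lift ℤ (End (XRep 𝒰 U' A)) (DeltaGrp U' U) (lamDelta 𝒰 U' U hle A)

/-- the endomorphism of `(XRep A)^n` given by a matrix over `ℤ[Δ]` -/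
def epsEnd {n : ℕ} (ε : Matrix (Fin n) (Fin n) (MonoidAlgebra ℤ (DeltaGrp U' U)))
    (A : Rep.{0} k G) : piRep n (XRep 𝒰 U' A) ⟶ piRep n (XRep 𝒰 U' A) :=
  ∑ a, ∑ b, piProj n (XRep 𝒰 U' A) b ≫ (rAct 𝒰 U' U hle A (ε a b) : XRep 𝒰 U' A ⟶ XRep 𝒰 U' A) ≫
    piIncl n (XRep 𝒰 U' A) a

/-- `N` is the `ε`-summand of `(XRep A)^n` -/
structure EpsSummand {n : ℕ} (ε : Matrix (Fin n) (Fin n) (MonoidAlgebra ℤ (DeltaGrp U' U)))
    (A N : Rep.{0} k G) where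
  /-- the inclusion -/
  j : N ⟶ piRep n (XRep 𝒰 U' A)
  /-- the retraction -/
  q : piRep n (XRep 𝒰 U' A) ⟶ N
  j_q : j ≫ q = 𝟙 N
  q_j : q ≫ j = epsEnd 𝒰 U' U hle ε A

end Eps

/-! ### (HS): the cohomology of an `ε`-summand -/

section HS

variable (𝒰 : Levels G) (U' U : Subgroup G) [hn : (U'.subgroupOf U).Normal] (hle : U' ≤ U)

theorem mapId_add' {A B : Rep.{0} k G} (φ φ' : A ⟶ B) (i : ℕ) :
    mapId (𝒰 := 𝒰) (φ + φ') i = mapId φ i + mapId φ' i := by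
  rw [mapId_eq_functor_map, Functor.map_add]
  rfl

theorem mapId_zsmul {A B : Rep.{0} k G} (m : ℤ) (φ : A ⟶ B) (i : ℕ) :
    mapId (𝒰 := 𝒰) (m • φ) i = m • mapId φ i := by
  rw [mapId_eq_functor_map, Functor.map_zsmul]
  rfl

/-- the module structure of `HX` is induced by `rAct` -/
theorem asAlgebraHom_rhoHX (A : Rep.{0} k G) (i : ℕ) (r : MonoidAlgebra ℤ (DeltaGrp U' U))
    (y : H 𝒰 (XRep 𝒰 U' A) i) :
    (rhoHX 𝒰 U' U hle A i).asAlgebraHom r y =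
      (mapId (𝒰 := 𝒰) (rAct 𝒰 U' U hle A r : XRep 𝒰 U' A ⟶ XRep 𝒰 U' A) i).hom y := by
  induction r using MonoidAlgebra.induction_on with
  | of δ =>
    obtain ⟨u, rfl⟩ := QuotientGroup.mk_surjective δ
    rw [Representation.asAlgebraHom_of, rhoHX_mk]
    have h2 : rAct 𝒰 U' U hle A (MonoidAlgebra.of ℤ (DeltaGrp U' U) (QuotientGroup.mk u)) =
        lam (𝒰 := 𝒰) (u : G) (conj_mem_of_le U hle u) A := by
      simp [rAct, lamDelta, lamHom]
    rw [h2]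
  | add r r' hr hr' =>
    rw [map_add, LinearMap.add_apply, hr, hr', map_add]
    have : (rAct 𝒰 U' U hle A r + rAct 𝒰 U' U hle A r' : End (XRep 𝒰 U' A)) =
        ((rAct 𝒰 U' U hle A r : XRep 𝒰 U' A ⟶ XRep 𝒰 U' A) +
          (rAct 𝒰 U' U hle A r' : XRep 𝒰 U' A ⟶ XRep 𝒰 U' A)) := rfl
    rw [this, mapId_add']
    rfl
  | smul m r hr =>
    rw [map_smul, LinearMap.smul_apply, hr, map_smul]
    have h3 := mapId_zsmul 𝒰 m (rAct 𝒰 U' U hle A r : XRep 𝒰 U' A ⟶ XRep 𝒰 U' A) i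
    have h4 : (mapId (𝒰 := 𝒰) (m • (rAct 𝒰 U' U hle A r : XRep 𝒰 U' A ⟶ XRep 𝒰 U' A)) i).hom y =
        m • (mapId (𝒰 := 𝒰) (rAct 𝒰 U' U hle A r : XRep 𝒰 U' A ⟶ XRep 𝒰 U' A) i).hom y := by
      exact (congrArg (fun f : H 𝒰 (XRep 𝒰 U' A) i ⟶ H 𝒰 (XRep 𝒰 U' A) i =>
        (ModuleCat.Hom.hom f) y) h3).trans rfl
    exact h4.symm

theorem smul_HX_eq (A : Rep.{0} k G) (i : ℕ) (r : MonoidAlgebra ℤ (DeltaGrp U' U))
    (x : HX 𝒰 U' U hle A i) :
    (rhoHX 𝒰 U' U hle A i).asModuleEquiv (r • x) =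
      (mapId (𝒰 := 𝒰) (rAct 𝒰 U' U hle A r : XRep 𝒰 U' A ⟶ XRep 𝒰 U' A) i).hom
        ((rhoHX 𝒰 U' U hle A i).asModuleEquiv x) := by
  rw [Representation.asModuleEquiv_map_smul, asAlgebraHom_rhoHX]

variable {𝒰 U' U hle}

theorem epsEnd_piProj {n : ℕ} (ε : Matrix (Fin n) (Fin n) (MonoidAlgebra ℤ (DeltaGrp U' U)))
    (A : Rep.{0} k G) (a : Fin n) :
    epsEnd 𝒰 U' U hle ε A ≫ piProj n (XRep 𝒰 U' A) a =
      ∑ b, piProj n (XRep 𝒰 U' A) b ≫
        (rAct 𝒰 U' U hle A (ε a b) : XRep 𝒰 U' A ⟶ XRep 𝒰 U' A) := by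
  classical
  unfold epsEnd
  rw [Preadditive.sum_comp]
  rw [Finset.sum_eq_single a]
  · rw [Preadditive.sum_comp]
    refine Finset.sum_congr rfl fun b _ => ?_
    rw [Category.assoc, Category.assoc, piIncl_piProj_self, Category.comp_id]
  · intro a' _ ha'
    rw [Preadditive.sum_comp]
    refine Finset.sum_eq_zero fun b _ => ?_
    rw [Category.assoc, Category.assoc, piIncl_piProj_ne n _ ha', Limits.comp_zero,
      Limits.comp_zero]
  · intro h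
    exact absurd (Finset.mem_univ a) h

theorem piIncl_epsEnd_piProj {n : ℕ}
    (ε : Matrix (Fin n) (Fin n) (MonoidAlgebra ℤ (DeltaGrp U' U))) (A : Rep.{0} k G)
    (a b : Fin n) :
    piIncl n (XRep 𝒰 U' A) a ≫ epsEnd 𝒰 U' U hle ε A ≫ piProj n (XRep 𝒰 U' A) b =
      (rAct 𝒰 U' U hle A (ε b a) : XRep 𝒰 U' A ⟶ XRep 𝒰 U' A) := by
  classical
  rw [epsEnd_piProj, Preadditive.comp_sum, Finset.sum_eq_single a]
  · rw [← Category.assoc, piIncl_piProj_self, Category.id_comp]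
  · intro b' _ hb'
    rw [← Category.assoc, piIncl_piProj_ne n _ (Ne.symm hb'), Limits.zero_comp]
  · intro h
    exact absurd (Finset.mem_univ a) h

theorem mapId_sum_apply {σ : Type*} (s : Finset σ) {A B : Rep.{0} k G} (ψ : σ → (A ⟶ B))
    (i : ℕ) (c : H 𝒰 A i) :
    (mapId (𝒰 := 𝒰) (∑ b ∈ s, ψ b) i).hom c = ∑ b ∈ s, (mapId (𝒰 := 𝒰) (ψ b) i).hom c := by
  classical
  induction s using Finset.induction_on with
  | empty =>
    rw [Finset.sum_empty, Finset.sum_empty, mapId_zero]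
    rfl
  | insert a s ha ih =>
    rw [Finset.sum_insert ha, Finset.sum_insert ha, mapId_add', ← ih]
    rfl

theorem mapId_comp_apply {A B C : Rep.{0} k G} (ψ : A ⟶ B) (χ : B ⟶ C) (i : ℕ) (c : H 𝒰 A i) :
    (mapId (𝒰 := 𝒰) (ψ ≫ χ) i).hom c = (mapId (𝒰 := 𝒰) χ i).hom ((mapId (𝒰 := 𝒰) ψ i).hom c) := by
  rw [mapId_comp]
  rfl

theorem mapId_id_apply {A : Rep.{0} k G} (i : ℕ) (c : H 𝒰 A i) :
    (mapId (𝒰 := 𝒰) (𝟙 A) i).hom c = c := by
  rw [mapId_id]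
  rfl

namespace EpsSummand

variable {n : ℕ} {ε : Matrix (Fin n) (Fin n) (MonoidAlgebra ℤ (DeltaGrp U' U))}
  {A N : Rep.{0} k G} (d : EpsSummand 𝒰 U' U hle ε A N) (i : ℕ)

/-- the components of a class of `Hⁱ(G, N)` -/
def toTuple (c : H 𝒰 N i) : Fin n → HX 𝒰 U' U hle A i := fun a =>
  (mapId (𝒰 := 𝒰) (d.j ≫ piProj n (XRep 𝒰 U' A) a) i).hom c

/-- the class of `Hⁱ(G, N)` with given components -/
def ofTuple (h : Fin n → HX 𝒰 U' U hle A i) : H 𝒰 N i :=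
  ∑ a, (mapId (𝒰 := 𝒰) (piIncl n (XRep 𝒰 U' A) a ≫ d.q) i).hom
    ((rhoHX 𝒰 U' U hle A i).asModuleEquiv (h a))

theorem smul_eq_mapId (r : MonoidAlgebra ℤ (DeltaGrp U' U)) (x : HX 𝒰 U' U hle A i) :
    r • x = (mapId (𝒰 := 𝒰) (rAct 𝒰 U' U hle A r : XRep 𝒰 U' A ⟶ XRep 𝒰 U' A) i).hom x :=
  smul_HX_eq 𝒰 U' U hle A i r x

theorem mact_toTuple (c : H 𝒰 N i) : mact ε (d.toTuple i c) = d.toTuple i c := by
  funext a
  rw [mact_apply]
  have h1 : ∀ b, ε a b • d.toTuple i c b =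
      (mapId (𝒰 := 𝒰) ((d.j ≫ piProj n (XRep 𝒰 U' A) b) ≫
        (rAct 𝒰 U' U hle A (ε a b) : XRep 𝒰 U' A ⟶ XRep 𝒰 U' A)) i).hom c := fun b => by
    rw [smul_eq_mapId, mapId_comp_apply]
    rfl
  rw [Finset.sum_congr rfl fun b _ => h1 b]
  have h2 := mapId_sum_apply (𝒰 := 𝒰) Finset.univ (fun b => (d.j ≫ piProj n (XRep 𝒰 U' A) b) ≫
    (rAct 𝒰 U' U hle A (ε a b) : XRep 𝒰 U' A ⟶ XRep 𝒰 U' A)) i c
  refine h2.symm.trans ?_
  have h3 : (∑ b, (d.j ≫ piProj n (XRep 𝒰 U' A) b) ≫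
      (rAct 𝒰 U' U hle A (ε a b) : XRep 𝒰 U' A ⟶ XRep 𝒰 U' A)) =
      d.j ≫ piProj n (XRep 𝒰 U' A) a := by
    calc (∑ b, (d.j ≫ piProj n (XRep 𝒰 U' A) b) ≫
        (rAct 𝒰 U' U hle A (ε a b) : XRep 𝒰 U' A ⟶ XRep 𝒰 U' A))
        = d.j ≫ ∑ b, piProj n (XRep 𝒰 U' A) b ≫
          (rAct 𝒰 U' U hle A (ε a b) : XRep 𝒰 U' A ⟶ XRep 𝒰 U' A) := by
          rw [Preadditive.comp_sum]
          exact Finset.sum_congr rfl fun b _ => Category.assoc _ _ _
      _ = d.j ≫ (d.q ≫ d.j) ≫ piProj n (XRep 𝒰 U' A) a := by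
          rw [← epsEnd_piProj, d.q_j]
      _ = (d.j ≫ d.q) ≫ d.j ≫ piProj n (XRep 𝒰 U' A) a := by
          simp only [Category.assoc]
      _ = d.j ≫ piProj n (XRep 𝒰 U' A) a := by
          rw [d.j_q, Category.id_comp]
  rw [h3]
  rfl

theorem ofTuple_toTuple (c : H 𝒰 N i) : d.ofTuple i (d.toTuple i c) = c := by
  unfold ofTuple toTuple
  have h1 : ∀ a, (mapId (𝒰 := 𝒰) (piIncl n (XRep 𝒰 U' A) a ≫ d.q) i).hom
      ((mapId (𝒰 := 𝒰) (d.j ≫ piProj n (XRep 𝒰 U' A) a) i).hom c) =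
      (mapId (𝒰 := 𝒰) ((d.j ≫ piProj n (XRep 𝒰 U' A) a) ≫
        piIncl n (XRep 𝒰 U' A) a ≫ d.q) i).hom c := fun a => (mapId_comp_apply _ _ i c).symm
  refine (Finset.sum_congr rfl fun a _ => h1 a).trans ?_
  rw [← mapId_sum_apply (𝒰 := 𝒰) Finset.univ (fun a => (d.j ≫ piProj n (XRep 𝒰 U' A) a) ≫
    piIncl n (XRep 𝒰 U' A) a ≫ d.q) i c]
  have h3 : (∑ a, (d.j ≫ piProj n (XRep 𝒰 U' A) a) ≫ piIncl n (XRep 𝒰 U' A) a ≫ d.q) = 𝟙 N := by
    calc (∑ a, (d.j ≫ piProj n (XRep 𝒰 U' A) a) ≫ piIncl n (XRep 𝒰 U' A) a ≫ d.q)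
        = d.j ≫ (∑ a, piProj n (XRep 𝒰 U' A) a ≫ piIncl n (XRep 𝒰 U' A) a) ≫ d.q := by
          rw [Preadditive.sum_comp, Preadditive.comp_sum]
          refine Finset.sum_congr rfl fun a _ => ?_
          simp only [Category.assoc]
      _ = 𝟙 N := by
          rw [sum_piProj_piIncl, Category.id_comp, d.j_q]
  rw [h3, mapId_id_apply]

theorem toTuple_ofTuple (h : Fin n → HX 𝒰 U' U hle A i) (hh : mact ε h = h) :
    d.toTuple i (d.ofTuple i h) = h := by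
  funext b
  unfold ofTuple toTuple
  rw [map_sum]
  have h1 : ∀ a, (mapId (𝒰 := 𝒰) (d.j ≫ piProj n (XRep 𝒰 U' A) b) i).hom
      ((mapId (𝒰 := 𝒰) (piIncl n (XRep 𝒰 U' A) a ≫ d.q) i).hom
        ((rhoHX 𝒰 U' U hle A i).asModuleEquiv (h a))) = ε b a • h a := fun a => by
    have h2 : (piIncl n (XRep 𝒰 U' A) a ≫ d.q) ≫ d.j ≫ piProj n (XRep 𝒰 U' A) b =
        (rAct 𝒰 U' U hle A (ε b a) : XRep 𝒰 U' A ⟶ XRep 𝒰 U' A) := by
      rw [← piIncl_epsEnd_piProj (hle := hle) ε A a b, ← d.q_j]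
      simp only [Category.assoc]
    refine (mapId_comp_apply (𝒰 := 𝒰) (piIncl n (XRep 𝒰 U' A) a ≫ d.q)
      (d.j ≫ piProj n (XRep 𝒰 U' A) b) i ((rhoHX 𝒰 U' U hle A i).asModuleEquiv (h a))).symm.trans ?_
    rw [h2]
    exact (smul_eq_mapId i (ε b a) (h a)).symm
  rw [Finset.sum_congr rfl fun a _ => h1 a]
  exact congrFun hh b

/-- **(HS)**: `Hⁱ(G, N) ≃ ePart ε (Hⁱ(U', A))` -/
def equivEPart : H 𝒰 N i ≃ ePart ε (HX 𝒰 U' U hle A i) where
  toFun c := ⟨d.toTuple i c, d.mact_toTuple i c⟩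
  invFun h := d.ofTuple i h.1
  left_inv c := d.ofTuple_toTuple i c
  right_inv h := Subtype.ext (d.toTuple_ofTuple i h.1 h.2)

include d in
/-- **(HS)**, cardinality form -/
theorem card_H : Nat.card (H 𝒰 N i) = tCount ε (HX 𝒰 U' U hle A i) :=
  Nat.card_congr (d.equivEPart i)

end EpsSummand

end HS

end Fermat.Agent.S56.Base.EC
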