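/-
PROJECT T (S56), block (a1-II) Base / EC, Reduce, seam to E3 (helper26): AN INDUCED MODULE IS AN
`ε`-SUMMAND OF A POWER OF `XRep μ_p`.

`G` a group with levels `𝒰`, `U' ≤ U` subgroups with `U'` normal in `U` and `Δ = U ⧸ U'` finite,
`χ : G → 𝔽_pˣ` trivial on `U'`, `A = μ_p = resScalars φ (chiRep χ)` over `R` (`φ : R → 𝔽_p`),
`N₀` a finite-dimensional `𝔽_p`-representation of `U`, trivial on `U'`, with basis `b` and with a
Higman operator `t` over `Δ` (`∑_δ δ t δ⁻¹ = 1`).  Then with `N = sInd 𝒰 U N₀`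

  `j : N → (XRep A)^n`,  `j(ψ)_a (x) = b_a^*(t (ψ x))`,
  `q : (XRep A)^n → N`,  `q(f)(x) = ∑_δ δ̃ (∑_a f_a(δ̃⁻¹ x) • b_a)`

satisfy `j ≫ q = 𝟙` and `q ≫ j = epsEnd ε` for the matrix `ε = epsInt ρ_Δ χ_Δ t b` of
`EC/HigmanEpsAlg.lean`, which is idempotent modulo `p`: `epsSummand`, `exists_epsSummand`.
`ofIso`, `ofIsoRes` transport an `ε`-summand along an isomorphism.
-/
import Fermat.Agent.S56.Base.EC.Summand
import Fermat.Agent.CFT.D.DualTwist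
import Fermat.Agent.S56.Base.EC.HigmanEpsAlg

set_option autoImplicit false
set_option linter.unusedSectionVars false

noncomputable section

namespace Fermat.Agent.S56.Base.EC.HigmanEps

open CategoryTheory Fermat.Agent.CFT.LC Fermat.Agent.CFT.D.CoeffChange
  Fermat.Agent.CFT.D.DualTwist Fermat.Agent.S56.Base.EC

variable {R G : Type} [CommRing R] [Group G] {p : ℕ} [Fact p.Prime] (φ : R →+* ZMod p)
  (𝒰 : Levels G) (U' U : Subgroup G) [hn : (U'.subgroupOf U).Normal] (hle : U' ≤ U)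
  (χ : G →* (ZMod p)ˣ) (hχ : ∀ u ∈ U', χ u = 1)
  (N₀ : Rep.{0} (ZMod p) ↥U) (hN₀ : ∀ u : ↥U, (u : G) ∈ U' → N₀.ρ u = 1)

/-- the coefficient module `μ_p` over `R` -/
abbrev AK : Rep.{0} R G := resScalars φ (chiRep χ)

/-- `ZMod p → (AK).V` -/
def toA : ZMod p ≃+ (AK φ χ).V := toRes φ (chiRep χ)

theorem AK_ρ_toA (g : G) (c : ZMod p) :
    (AK φ χ).ρ g (toA φ χ c) = toA φ χ ((χ g : ZMod p) * c) := rfl

theorem smul_toA (r : R) (c : ZMod p) : r • toA φ χ c = toA φ χ (φ r * c) := rfl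

theorem zsmul_toA (m : ℤ) (c : ZMod p) : m • toA φ χ c = toA φ χ ((m : ZMod p) * c) := by
  rw [← map_zsmul, zsmul_eq_mul]

theorem AK_ρ_apply (g : G) (y : (AK φ χ).V) :
    (AK φ χ).ρ g y = toA φ χ ((χ g : ZMod p) * (toA φ χ).symm y) := rfl

/-- the induced module, over `R` -/
abbrev NK : Rep.{0} R G := resScalars φ (sInd 𝒰 U N₀)

/-- `(NK).V → (sInd 𝒰 U N₀).V` -/
def ofN : (NK φ 𝒰 U N₀).V ≃+ (sInd 𝒰 U N₀).V := (toRes φ (sInd 𝒰 U N₀)).symm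

theorem ofN_ρ (g : G) (y : (NK φ 𝒰 U N₀).V) :
    ofN φ 𝒰 U N₀ ((NK φ 𝒰 U N₀).ρ g y) = (sInd 𝒰 U N₀).ρ g (ofN φ 𝒰 U N₀ y) := rfl

theorem ofN_smul (r : R) (y : (NK φ 𝒰 U N₀).V) :
    ofN φ 𝒰 U N₀ (r • y) = φ r • ofN φ 𝒰 U N₀ y := rfl

variable {n : ℕ} (b : Module.Basis (Fin n) (ZMod p) N₀.V) (t : N₀.V →ₗ[ZMod p] N₀.V)

omit hn in
include hle hN₀ in
theorem iFn_mul_of_mem (ψ : (sInd 𝒰 U N₀).V) (d : U') (x : G) :
    iFn ψ ((d : G) * x) = iFn ψ x := by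
  have h := iFn_equivariant ψ (⟨d, hle d.2⟩ : U) x
  change iFn ψ ((d : G) * x) = _ at h
  rw [h, hN₀ _ d.2]
  rfl

/-- the components of the inclusion -/
def jComp (a : Fin n) (ψ : (sInd 𝒰 U N₀).V) : (XRep 𝒰 U' (AK φ χ)).V :=
  iMk (𝒰 := 𝒰) (D := U') (B := Rep.res U'.subtype (AK φ χ))
    (fun x => toA φ χ (b.repr (t (iFn ψ x)) a))
    (fun d x => by
      rw [iFn_mul_of_mem 𝒰 U' U hle N₀ hN₀ ψ d x]
      change _ = (AK φ χ).ρ (d : G) (toA φ χ _)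
      rw [AK_ρ_toA, hχ _ d.2, Units.val_one, one_mul])
    (by
      obtain ⟨V, hV, h⟩ := iFn_exists_level ψ
      exact ⟨V, hV, fun x s hs => by rw [h x s hs]⟩)

theorem iFn_jComp (a : Fin n) (ψ : (sInd 𝒰 U N₀).V) (x : G) :
    iFn (jComp φ 𝒰 U' U hle χ hχ N₀ hN₀ b t a ψ) x = toA φ χ (b.repr (t (iFn ψ x)) a) := rfl

/-- the inclusion, as a linear map -/
def jLin : (NK φ 𝒰 U N₀).V →ₗ[R] (piRep n (XRep 𝒰 U' (AK φ χ))).V where
  toFun y := fun a => jComp φ 𝒰 U' U hle χ hχ N₀ hN₀ b t a (ofN φ 𝒰 U N₀ y)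
  map_add' y y' := by
    funext a
    refine iFn_ext fun x => ?_
    change toA φ χ (b.repr (t (iFn (ofN φ 𝒰 U N₀ y + ofN φ 𝒰 U N₀ y') x)) a) =
      toA φ χ (b.repr (t (iFn (ofN φ 𝒰 U N₀ y) x)) a) +
        toA φ χ (b.repr (t (iFn (ofN φ 𝒰 U N₀ y') x)) a)
    rw [iFn_add, map_add, map_add, Finsupp.add_apply, map_add]
  map_smul' r y := by
    funext a
    refine iFn_ext fun x => ?_
    change toA φ χ (b.repr (t (iFn (φ r • ofN φ 𝒰 U N₀ y) x)) a) =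
      r • toA φ χ (b.repr (t (iFn (ofN φ 𝒰 U N₀ y) x)) a)
    rw [iFn_smul, map_smul, map_smul, Finsupp.smul_apply, smul_toA, smul_eq_mul]

/-- the inclusion -/
def jHom : NK φ 𝒰 U N₀ ⟶ piRep n (XRep 𝒰 U' (AK φ χ)) :=
  mkHom (jLin φ 𝒰 U' U hle χ hχ N₀ hN₀ b t) (fun g y => by
    funext a
    refine iFn_ext fun x => ?_
    rfl)

/-! ### The retraction -/

/-- the linear combination `∑ a, c_a • b_a` of the values at `x` -/
def comb (f : Fin n → (XRep 𝒰 U' (AK φ χ)).V) (x : G) : N₀.V :=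
  ∑ a, ((toA φ χ).symm (iFn (f a) x) : ZMod p) • b a

/-- the summand of the retraction, as a function of `v ∈ U` -/
def qTerm (f : Fin n → (XRep 𝒰 U' (AK φ χ)).V) (x : G) (v : U) : N₀.V :=
  N₀.ρ v (comb φ 𝒰 U' U χ N₀ b f ((v : G)⁻¹ * x))

omit hn in
include hχ in
theorem comb_mul_of_mem (f : Fin n → (XRep 𝒰 U' (AK φ χ)).V) (d : G) (hd : d ∈ U') (x : G) :
    comb φ 𝒰 U' U χ N₀ b f (d * x) = comb φ 𝒰 U' U χ N₀ b f x := by
  unfold comb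
  refine Finset.sum_congr rfl fun a _ => ?_
  have h := iFn_equivariant (f a) (⟨d, hd⟩ : U') x
  change iFn (f a) (d * x) = (AK φ χ).ρ d (iFn (f a) x) at h
  rw [h, AK_ρ_apply, hχ d hd, Units.val_one, one_mul, AddEquiv.symm_apply_apply]

include hχ hN₀ in
theorem qTerm_mul_right (f : Fin n → (XRep 𝒰 U' (AK φ χ)).V) (x : G) (v d : U)
    (hd : (d : G) ∈ U') :
    qTerm φ 𝒰 U' U χ N₀ b f x (v * d) = qTerm φ 𝒰 U' U χ N₀ b f x v := by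
  unfold qTerm
  rw [map_mul, Module.End.mul_apply, hN₀ d hd, Module.End.one_apply]
  have e : ((v * d : U) : G)⁻¹ * x = (d : G)⁻¹ * ((v : G)⁻¹ * x) := by
    rw [Subgroup.coe_mul, mul_inv_rev, mul_assoc]
  rw [e, comb_mul_of_mem φ 𝒰 U' U χ hχ N₀ b f _ (U'.inv_mem hd)]

theorem qTerm_mul_left (f : Fin n → (XRep 𝒰 U' (AK φ χ)).V) (x : G) (u v : U) :
    qTerm φ 𝒰 U' U χ N₀ b f ((u : G) * x) (u * v) =
      N₀.ρ u (qTerm φ 𝒰 U' U χ N₀ b f x v) := by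
  unfold qTerm
  rw [map_mul, Module.End.mul_apply]
  have e : ((u * v : U) : G)⁻¹ * ((u : G) * x) = (v : G)⁻¹ * x := by
    rw [Subgroup.coe_mul, mul_inv_rev, mul_assoc, inv_mul_cancel_left]
  rw [e]

include hχ hN₀ in
theorem qTerm_out (f : Fin n → (XRep 𝒰 U' (AK φ χ)).V) (x : G) (v : U) :
    qTerm φ 𝒰 U' U χ N₀ b f x (QuotientGroup.mk v : DeltaGrp U' U).out =
      qTerm φ 𝒰 U' U χ N₀ b f x v := by
  obtain ⟨d, hd⟩ := QuotientGroup.mk_out_eq_mul (U'.subgroupOf U) v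
  rw [hd]
  exact qTerm_mul_right φ 𝒰 U' U χ hχ N₀ hN₀ b f x v d (Subgroup.mem_subgroupOf.1 d.2)

variable [Fintype (DeltaGrp U' U)]

/-- the retraction, as a function -/
def qFn (f : Fin n → (XRep 𝒰 U' (AK φ χ)).V) (x : G) : N₀.V :=
  ∑ δ : DeltaGrp U' U, qTerm φ 𝒰 U' U χ N₀ b f x δ.out

include hχ hN₀ in
theorem qFn_equivariant (f : Fin n → (XRep 𝒰 U' (AK φ χ)).V) (u : U) (x : G) :
    qFn φ 𝒰 U' U χ N₀ b f ((u : G) * x) = N₀.ρ u (qFn φ 𝒰 U' U χ N₀ b f x) := by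
  unfold qFn
  rw [map_sum, ← Equiv.sum_comp (Equiv.mulLeft (QuotientGroup.mk u : DeltaGrp U' U))]
  refine Finset.sum_congr rfl fun δ _ => ?_
  have h1 : (Equiv.mulLeft (QuotientGroup.mk u : DeltaGrp U' U)) δ =
      QuotientGroup.mk (u * δ.out) := by
    rw [Equiv.coe_mulLeft, QuotientGroup.mk_mul, QuotientGroup.out_eq']
  rw [h1, qTerm_out φ 𝒰 U' U χ hχ N₀ hN₀ b f, qTerm_mul_left]

omit hn [Fintype (DeltaGrp U' U)] in
theorem comb_smooth (f : Fin n → (XRep 𝒰 U' (AK φ χ)).V) :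
    ∃ V ∈ 𝒰.sets, ∀ x, ∀ s ∈ V, comb φ 𝒰 U' U χ N₀ b f (x * s) = comb φ 𝒰 U' U χ N₀ b f x := by
  choose W hW hWf using fun a => iFn_exists_level (f a)
  obtain ⟨V, hV, hVle⟩ := 𝒰.exists_le_finset Finset.univ W fun a _ => hW a
  refine ⟨V, hV, fun x s hs => ?_⟩
  unfold comb
  refine Finset.sum_congr rfl fun a _ => ?_
  rw [hWf a x s (hVle a (Finset.mem_univ a) hs)]

/-- the retraction, on elements -/
def qMap (f : Fin n → (XRep 𝒰 U' (AK φ χ)).V) : (sInd 𝒰 U N₀).V :=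
  iMk (𝒰 := 𝒰) (D := U) (B := N₀) (qFn φ 𝒰 U' U χ N₀ b f)
    (fun u x => qFn_equivariant φ 𝒰 U' U χ hχ N₀ hN₀ b f u x)
    (by
      obtain ⟨V, hV, h⟩ := comb_smooth φ 𝒰 U' U χ N₀ b f
      refine ⟨V, hV, fun x s hs => ?_⟩
      unfold qFn qTerm
      refine Finset.sum_congr rfl fun δ _ => ?_
      rw [← mul_assoc, h _ s hs])

theorem iFn_qMap (f : Fin n → (XRep 𝒰 U' (AK φ χ)).V) (x : G) :
    iFn (qMap φ 𝒰 U' U χ hχ N₀ hN₀ b f) x = qFn φ 𝒰 U' U χ N₀ b f x := rfl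

omit hn [Fintype (DeltaGrp U' U)] in
theorem comb_add (f f' : Fin n → (XRep 𝒰 U' (AK φ χ)).V) (x : G) :
    comb φ 𝒰 U' U χ N₀ b (f + f') x =
      comb φ 𝒰 U' U χ N₀ b f x + comb φ 𝒰 U' U χ N₀ b f' x := by
  unfold comb
  rw [← Finset.sum_add_distrib]
  refine Finset.sum_congr rfl fun a _ => ?_
  rw [Pi.add_apply, iFn_add, map_add, add_smul]

omit hn [Fintype (DeltaGrp U' U)] in
theorem comb_smul (r : R) (f : Fin n → (XRep 𝒰 U' (AK φ χ)).V) (x : G) :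
    comb φ 𝒰 U' U χ N₀ b (r • f) x = φ r • comb φ 𝒰 U' U χ N₀ b f x := by
  unfold comb
  rw [Finset.smul_sum]
  refine Finset.sum_congr rfl fun a _ => ?_
  rw [Pi.smul_apply, iFn_smul, smul_smul]
  rfl

omit hn [Fintype (DeltaGrp U' U)] in
theorem comb_ρ (g : G) (f : Fin n → (XRep 𝒰 U' (AK φ χ)).V) (x : G) :
    comb φ 𝒰 U' U χ N₀ b ((piRep n (XRep 𝒰 U' (AK φ χ))).ρ g f) x =
      comb φ 𝒰 U' U χ N₀ b f (x * g) := rfl

/-- the retraction, as a linear map -/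
def qLin : (Fin n → (XRep 𝒰 U' (AK φ χ)).V) →ₗ[R] (NK φ 𝒰 U N₀).V where
  toFun f := (ofN φ 𝒰 U N₀).symm (qMap φ 𝒰 U' U χ hχ N₀ hN₀ b f)
  map_add' f f' := by
    apply (ofN φ 𝒰 U N₀).injective
    rw [map_add, AddEquiv.apply_symm_apply, AddEquiv.apply_symm_apply,
      AddEquiv.apply_symm_apply]
    refine iFn_ext fun x => ?_
    rw [iFn_add, iFn_qMap, iFn_qMap, iFn_qMap]
    unfold qFn qTerm
    rw [← Finset.sum_add_distrib]
    refine Finset.sum_congr rfl fun δ _ => ?_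
    rw [← map_add]
    congr 1
    exact comb_add φ 𝒰 U' U χ N₀ b f f' _
  map_smul' r f := by
    apply (ofN φ 𝒰 U N₀).injective
    rw [RingHom.id_apply, ofN_smul, AddEquiv.apply_symm_apply, AddEquiv.apply_symm_apply]
    refine iFn_ext fun x => ?_
    rw [iFn_smul, iFn_qMap, iFn_qMap]
    unfold qFn qTerm
    rw [Finset.smul_sum]
    refine Finset.sum_congr rfl fun δ _ => ?_
    rw [← map_smul]
    congr 1
    exact comb_smul φ 𝒰 U' U χ N₀ b r f _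

/-- the retraction -/
def qHom : piRep n (XRep 𝒰 U' (AK φ χ)) ⟶ NK φ 𝒰 U N₀ :=
  mkHom (A := piRep n (XRep 𝒰 U' (AK φ χ))) (B := NK φ 𝒰 U N₀)
    (qLin φ 𝒰 U' U χ hχ N₀ hN₀ b) (fun g f => by
    apply (ofN φ 𝒰 U N₀).injective
    rw [ofN_ρ]
    refine iFn_ext fun x => ?_
    change qFn φ 𝒰 U' U χ N₀ b ((piRep n (XRep 𝒰 U' (AK φ χ))).ρ g f) x =
      qFn φ 𝒰 U' U χ N₀ b f (x * g)
    unfold qFn qTerm
    refine Finset.sum_congr rfl fun δ _ => ?_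
    rw [comb_ρ φ 𝒰 U' U χ N₀ b g f, mul_assoc])

/-! ### The representation and the character of `Δ` -/

omit [Fintype (DeltaGrp U' U)] in
/-- the representation of `Δ = U ⧸ U'` on `N₀` -/
def rhoDelta : Representation (ZMod p) (DeltaGrp U' U) N₀.V :=
  QuotientGroup.lift (U'.subgroupOf U) N₀.ρ fun u hu => hN₀ u (Subgroup.mem_subgroupOf.1 hu)

omit [Fintype (DeltaGrp U' U)] in
/-- the character of `Δ = U ⧸ U'` induced by `χ` -/
def chiDelta : DeltaGrp U' U →* (ZMod p)ˣ :=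
  QuotientGroup.lift (U'.subgroupOf U) (χ.comp U.subtype) fun u hu =>
    hχ u (Subgroup.mem_subgroupOf.1 hu)

omit [Fintype (DeltaGrp U' U)] in
theorem rhoDelta_mk (u : U) : rhoDelta U' U N₀ hN₀ (QuotientGroup.mk u) = N₀.ρ u := rfl

omit [Fintype (DeltaGrp U' U)] in
theorem chiDelta_mk (u : U) : chiDelta U' U χ hχ (QuotientGroup.mk u) = χ (u : G) := rfl

omit [Fintype (DeltaGrp U' U)] in
theorem rhoDelta_eq_out (δ : DeltaGrp U' U) : rhoDelta U' U N₀ hN₀ δ = N₀.ρ δ.out := by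
  conv_lhs => rw [← QuotientGroup.out_eq' δ]
  rfl

omit [Fintype (DeltaGrp U' U)] in
theorem chiDelta_eq_out (δ : DeltaGrp U' U) : chiDelta U' U χ hχ δ = χ (δ.out : G) := by
  conv_lhs => rw [← QuotientGroup.out_eq' δ]
  rfl

omit [Fintype (DeltaGrp U' U)] in
theorem rhoDelta_inv_eq_out (δ : DeltaGrp U' U) :
    rhoDelta U' U N₀ hN₀ δ⁻¹ = N₀.ρ (δ.out)⁻¹ := by
  conv_lhs => rw [← QuotientGroup.out_eq' δ]
  rfl

/-! ### `j ≫ q = 𝟙` -/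

theorem jHom_qHom
    (ht : ∀ y, ∑ δ, rhoDelta U' U N₀ hN₀ δ (t (rhoDelta U' U N₀ hN₀ δ⁻¹ y)) = y) :
    jHom φ 𝒰 U' U hle χ hχ N₀ hN₀ b t ≫ qHom φ 𝒰 U' U χ hχ N₀ hN₀ b = 𝟙 _ := by
  ext y
  apply (ofN φ 𝒰 U N₀).injective
  refine iFn_ext fun x => ?_
  change qFn φ 𝒰 U' U χ N₀ b
    (fun a => jComp φ 𝒰 U' U hle χ hχ N₀ hN₀ b t a (ofN φ 𝒰 U N₀ y)) x =
      iFn (ofN φ 𝒰 U N₀ y) x
  set ψ := ofN φ 𝒰 U N₀ y with hψ
  unfold qFn qTerm comb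
  rw [← ht (iFn ψ x)]
  refine Finset.sum_congr rfl fun δ _ => ?_
  rw [rhoDelta_eq_out, rhoDelta_inv_eq_out]
  congr 1
  have h1 : ∀ a, ((toA φ χ).symm (iFn (jComp φ 𝒰 U' U hle χ hχ N₀ hN₀ b t a ψ)
      ((δ.out : G)⁻¹ * x)) : ZMod p) = b.repr (t (iFn ψ ((δ.out : G)⁻¹ * x))) a := fun a => by
    rw [iFn_jComp, AddEquiv.symm_apply_apply]
  rw [Finset.sum_congr rfl fun a _ => by rw [h1 a], b.sum_repr]
  congr 1
  exact iFn_equivariant ψ (δ.out)⁻¹ x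

/-! ### `q ≫ j = epsEnd ε` -/

omit hn [Fintype (DeltaGrp U' U)] in
theorem hom_sum_apply {k : Type} [CommRing k] {ι : Type} (s : Finset ι) {A B : Rep.{0} k G}
    (F : ι → (A ⟶ B)) (x : A.V) : (∑ i ∈ s, F i).hom x = ∑ i ∈ s, (F i).hom x := by
  classical
  induction s using Finset.induction_on with
  | empty => rfl
  | insert a s ha ih =>
    rw [Finset.sum_insert ha, Finset.sum_insert ha, ← ih]
    rfl

omit hn [Fintype (DeltaGrp U' U)] in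
/-- evaluation at `x`, as an additive map -/
def evAdd {k : Type} [CommRing k] {D : Subgroup G} (B : Rep.{0} k D) (x : G) :
    (sInd 𝒰 D B).V →+ B.V where
  toFun f := iFn f x
  map_zero' := rfl
  map_add' _ _ := rfl

omit [Fintype (DeltaGrp U' U)] in
theorem lamDelta_eq_out {k : Type} [CommRing k] (A : Rep.{0} k G) (δ : DeltaGrp U' U) :
    lamDelta 𝒰 U' U hle A δ = lam (𝒰 := 𝒰) (δ.out : G) (conj_mem_of_le U hle δ.out) A := by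
  conv_lhs => rw [← QuotientGroup.out_eq' δ]
  rfl

theorem rAct_sum_single {k : Type} [CommRing k] (A : Rep.{0} k G) (m : DeltaGrp U' U → ℤ) :
    rAct 𝒰 U' U hle A (∑ δ, MonoidAlgebra.single δ (m δ)) =
      ∑ δ, m δ • lam (𝒰 := 𝒰) (δ.out : G) (conj_mem_of_le U hle δ.out) A := by
  rw [map_sum]
  refine Finset.sum_congr rfl fun δ _ => ?_
  rw [rAct, MonoidAlgebra.lift_single, lamDelta_eq_out]

/-- the matrix `ε` -/
abbrev epsMat : Matrix (Fin n) (Fin n) (MonoidAlgebra ℤ (DeltaGrp U' U)) :=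
  HigmanEpsAlg.epsInt (rhoDelta U' U N₀ hN₀) (chiDelta U' U χ hχ) t b

theorem iFn_epsEnd (f : Fin n → (XRep 𝒰 U' (AK φ χ)).V) (a : Fin n) (x : G) :
    iFn (((epsEnd 𝒰 U' U hle (epsMat U' U χ hχ N₀ hN₀ b t) (AK φ χ)).hom f :
        Fin n → (XRep 𝒰 U' (AK φ χ)).V) a) x =
      ∑ c, ∑ δ : DeltaGrp U' U, toA φ χ
        (b.repr (t (N₀.ρ δ.out (b c))) a *
          (toA φ χ).symm (iFn (f c) ((δ.out : G)⁻¹ * x))) := by
  have h := congrArg (fun F => F.hom f)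
    (epsEnd_piProj (𝒰 := 𝒰) (hle := hle) (epsMat U' U χ hχ N₀ hN₀ b t) (AK φ χ) a)
  have h' : ((epsEnd 𝒰 U' U hle (epsMat U' U χ hχ N₀ hN₀ b t) (AK φ χ)).hom f :
        Fin n → (XRep 𝒰 U' (AK φ χ)).V) a =
      (∑ c, piProj n (XRep 𝒰 U' (AK φ χ)) c ≫
        (rAct 𝒰 U' U hle (AK φ χ) (epsMat U' U χ hχ N₀ hN₀ b t a c) :
          XRep 𝒰 U' (AK φ χ) ⟶ XRep 𝒰 U' (AK φ χ))).hom f := h
  have h4 := hom_sum_apply (G := G) Finset.univ (fun c => piProj n (XRep 𝒰 U' (AK φ χ)) c ≫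
        (rAct 𝒰 U' U hle (AK φ χ) (epsMat U' U χ hχ N₀ hN₀ b t a c) :
          XRep 𝒰 U' (AK φ χ) ⟶ XRep 𝒰 U' (AK φ χ))) f
  refine (congrArg (fun y => iFn y x) (h'.trans h4)).trans ?_
  refine (map_sum (evAdd 𝒰 (Rep.res U'.subtype (AK φ χ)) x) _ _).trans ?_
  refine Finset.sum_congr rfl fun c _ => ?_
  change iFn ((piProj n (XRep 𝒰 U' (AK φ χ)) c ≫
        (rAct 𝒰 U' U hle (AK φ χ) (epsMat U' U χ hχ N₀ hN₀ b t a c) :
          XRep 𝒰 U' (AK φ χ) ⟶ XRep 𝒰 U' (AK φ χ))).hom f) x = _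
  have h2 : (piProj n (XRep 𝒰 U' (AK φ χ)) c ≫
        (rAct 𝒰 U' U hle (AK φ χ) (epsMat U' U χ hχ N₀ hN₀ b t a c) :
          XRep 𝒰 U' (AK φ χ) ⟶ XRep 𝒰 U' (AK φ χ))).hom f =
      (∑ δ : DeltaGrp U' U,
        (((HigmanEpsAlg.mCoef (rhoDelta U' U N₀ hN₀) (chiDelta U' U χ hχ) t b a c δ).val : ℤ) •
          lam (𝒰 := 𝒰) (δ.out : G) (conj_mem_of_le U hle δ.out) (AK φ χ))).hom (f c) := by
    rw [← rAct_sum_single]
    rfl
  refine (congrArg (fun y => iFn y x) (h2.trans (hom_sum_apply _ _ (f c)))).trans ?_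
  refine (map_sum (evAdd 𝒰 (Rep.res U'.subtype (AK φ χ)) x) _ _).trans ?_
  refine Finset.sum_congr rfl fun δ _ => ?_
  change iFn ((((HigmanEpsAlg.mCoef (rhoDelta U' U N₀ hN₀) (chiDelta U' U χ hχ) t b a c δ).val : ℤ) •
          lam (𝒰 := 𝒰) (δ.out : G) (conj_mem_of_le U hle δ.out) (AK φ χ)).hom (f c)) x = _
  have h3 : ∀ (m : ℤ) (F : XRep 𝒰 U' (AK φ χ) ⟶ XRep 𝒰 U' (AK φ χ))
      (y : (XRep 𝒰 U' (AK φ χ)).V), (m • F).hom y = m • F.hom y := fun _ _ _ => rfl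
  rw [h3]
  refine (map_zsmul (evAdd 𝒰 (Rep.res U'.subtype (AK φ χ)) x) _ _).trans ?_
  change _ • (AK φ χ).ρ (δ.out : G) (iFn (f c) ((δ.out : G)⁻¹ * x)) = _
  rw [AK_ρ_apply, zsmul_toA]
  congr 1
  rw [Int.cast_natCast, ZMod.natCast_zmod_val]
  unfold HigmanEpsAlg.mCoef
  rw [chiDelta_eq_out, rhoDelta_eq_out]
  generalize (toA φ χ).symm (iFn (f c) ((δ.out : G)⁻¹ * x)) = y
  generalize b.repr (t (N₀.ρ δ.out (b c))) a = z
  have hu : (((χ (δ.out : G))⁻¹ : (ZMod p)ˣ) : ZMod p) * ((χ (δ.out : G) : (ZMod p)ˣ) : ZMod p)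
      = 1 := by
    rw [← Units.val_mul, inv_mul_cancel, Units.val_one]
  calc (((χ (δ.out : G))⁻¹ : (ZMod p)ˣ) : ZMod p) * z * (((χ (δ.out : G) : (ZMod p)ˣ) : ZMod p) * y)
      = ((((χ (δ.out : G))⁻¹ : (ZMod p)ˣ) : ZMod p) * ((χ (δ.out : G) : (ZMod p)ˣ) : ZMod p)) *
          (z * y) := by ring
    _ = z * y := by rw [hu, one_mul]

theorem qHom_jHom :
    qHom φ 𝒰 U' U χ hχ N₀ hN₀ b ≫ jHom φ 𝒰 U' U hle χ hχ N₀ hN₀ b t =
      epsEnd 𝒰 U' U hle (epsMat U' U χ hχ N₀ hN₀ b t) (AK φ χ) := by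
  ext f
  funext a
  refine iFn_ext fun x => ?_
  refine Eq.trans ?_ (iFn_epsEnd φ 𝒰 U' U hle χ hχ N₀ hN₀ b t f a x).symm
  change toA φ χ (b.repr (t (qFn φ 𝒰 U' U χ N₀ b f x)) a) = _
  rw [Finset.sum_comm]
  unfold qFn qTerm comb
  rw [map_sum, map_sum, Finsupp.finsetSum_apply, map_sum]
  refine Finset.sum_congr rfl fun δ _ => ?_
  rw [map_sum, map_sum, map_sum, Finsupp.finsetSum_apply, map_sum]
  refine Finset.sum_congr rfl fun c _ => ?_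
  rw [map_smul, map_smul, map_smul, Finsupp.smul_apply, smul_eq_mul, mul_comm]

/-! ### The `ε`-summand -/

/-- **`sInd 𝒰 U N₀` is the `ε`-summand of `(XRep μ_p)^n`**, for the idempotent `ε` of a Higman
operator `t` of the `Δ`-module `N₀`. -/
def epsSummand
    (ht : ∀ y, ∑ δ, rhoDelta U' U N₀ hN₀ δ (t (rhoDelta U' U N₀ hN₀ δ⁻¹ y)) = y) :
    EpsSummand 𝒰 U' U hle (epsMat U' U χ hχ N₀ hN₀ b t) (AK φ χ) (NK φ 𝒰 U N₀) where
  j := jHom φ 𝒰 U' U hle χ hχ N₀ hN₀ b t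
  q := qHom φ 𝒰 U' U χ hχ N₀ hN₀ b
  j_q := jHom_qHom φ 𝒰 U' U hle χ hχ N₀ hN₀ b t ht
  q_j := qHom_jHom φ 𝒰 U' U hle χ hχ N₀ hN₀ b t

omit hle in
theorem idemModP_epsMat
    (ht : ∀ y, ∑ δ, rhoDelta U' U N₀ hN₀ δ (t (rhoDelta U' U N₀ hN₀ δ⁻¹ y)) = y) :
    IdemModP p (epsMat U' U χ hχ N₀ hN₀ b t) :=
  HigmanEpsAlg.epsInt_idemModP _ _ _ _ ht

include hχ in
/-- **The seam to E3**: an induced module `sInd 𝒰 U N₀`, with `N₀` a finite-dimensional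
representation of `U` trivial on `U'` and satisfying Higman's criterion over `Δ = U ⧸ U'`, is an
`ε`-summand of a power of `XRep μ_p`, with `ε` idempotent modulo `p`. -/
theorem exists_epsSummand [Module.Finite (ZMod p) N₀.V] (t : N₀.V →ₗ[ZMod p] N₀.V)
    (ht : ∀ y, ∑ δ, rhoDelta U' U N₀ hN₀ δ (t (rhoDelta U' U N₀ hN₀ δ⁻¹ y)) = y) :
    ∃ (n : ℕ) (ε : Matrix (Fin n) (Fin n) (MonoidAlgebra ℤ (DeltaGrp U' U))),
      IdemModP p ε ∧ Nonempty (EpsSummand 𝒰 U' U hle ε (AK φ χ) (NK φ 𝒰 U N₀)) :=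
  ⟨_, epsMat U' U χ hχ N₀ hN₀ (Module.finBasis (ZMod p) N₀.V) t,
    idemModP_epsMat U' U χ hχ N₀ hN₀ _ t ht,
    ⟨epsSummand φ 𝒰 U' U hle χ hχ N₀ hN₀ _ t ht⟩⟩

omit [Fintype (DeltaGrp U' U)] in
/-- transport of an `ε`-summand along an isomorphism -/
def ofIso {k : Type} [CommRing k] {m : ℕ}
    {ε : Matrix (Fin m) (Fin m) (MonoidAlgebra ℤ (DeltaGrp U' U))} {A N N' : Rep.{0} k G}
    (d : EpsSummand 𝒰 U' U hle ε A N) (e : N ≅ N') : EpsSummand 𝒰 U' U hle ε A N' where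
  j := e.inv ≫ d.j
  q := d.q ≫ e.hom
  j_q := by
    rw [Category.assoc, ← Category.assoc d.j, d.j_q, Category.id_comp, e.inv_hom_id]
  q_j := by
    rw [Category.assoc, ← Category.assoc e.hom, e.hom_inv_id, Category.id_comp, d.q_j]

omit [Fintype (DeltaGrp U' U)] in
/-- transport of an `ε`-summand of `resScalars φ N` along an isomorphism `N ≅ N'` -/
def ofIsoRes {m : ℕ} {ε : Matrix (Fin m) (Fin m) (MonoidAlgebra ℤ (DeltaGrp U' U))}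
    {A : Rep.{0} R G} {N N' : Rep.{0} (ZMod p) G}
    (d : EpsSummand 𝒰 U' U hle ε A (resScalars φ N)) (e : N ≅ N') :
    EpsSummand 𝒰 U' U hle ε A (resScalars φ N') :=
  ofIso 𝒰 U' U hle d ((resScalarsFunctor φ).mapIso e)

end Fermat.Agent.S56.Base.EC.HigmanEps
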