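/-
PROJECT T (S56), block (a1-II) Base / EC, Reduce (helper26): Higman's criterion for the sum-zero
functions over a finite quotient group.

`Γ` a group, `Kn` a normal subgroup with `Γ ⧸ Kn` finite, `Ω` a finite `Γ`-set and `ρ` a
representation of `Γ`, both trivial on `Kn`.  If `P ⊇ Kn` fixes `o ∈ Ω`, has index invertible in
`k`, and acts on `Ω ∖ {o}` with stabilisers `⊆ Kn`, then the representation of `Γ ⧸ Kn` induced
on the sum-zero functions `Ω → X` satisfies Higman's criterion (`isHigman_sumZero_desc`).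
-/
import Fermat.Agent.S56.Base.TI.Proj

set_option autoImplicit false
set_option linter.unusedSectionVars false

noncomputable section

namespace Fermat.Agent.S56.Base.EC.ReduceDesc

open Fermat.Agent.S56.Base.TI.Proj

variable {k Γ X : Type} [CommRing k] [Group Γ] [AddCommGroup X] [Module k X]
  (Kn : Subgroup Γ) [hKn : Kn.Normal]
  (Ω : Type) [Fintype Ω] [MulAction Γ Ω] (hΩ : ∀ x ∈ Kn, ∀ ω : Ω, x • ω = ω)
  (ρ : Representation k Γ X) (hρ : ∀ x ∈ Kn, ρ x = 1)

/-- the action of `Γ ⧸ Kn` on a `Γ`-set on which `Kn` acts trivially -/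
@[reducible] def descAction : MulAction (Γ ⧸ Kn) Ω where
  smul δ ω := Quotient.liftOn' δ (fun g => g • ω) (fun a b hab => by
    have h : a⁻¹ * b ∈ Kn := QuotientGroup.leftRel_apply.1 hab
    have e : b = a * (a⁻¹ * b) := by group
    change a • ω = b • ω
    rw [e, mul_smul, hΩ _ h])
  one_smul ω := one_smul Γ ω
  mul_smul δ δ' ω := by
    induction δ using QuotientGroup.induction_on with
    | H a =>
      induction δ' using QuotientGroup.induction_on with
      | H b => exact mul_smul a b ω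

theorem descAction_mk (g : Γ) (ω : Ω) :
    (descAction Kn Ω hΩ).smul (QuotientGroup.mk g : Γ ⧸ Kn) ω = g • ω := rfl

/-- the representation of `Γ ⧸ Kn` induced by a representation trivial on `Kn` -/
def descRep : Representation k (Γ ⧸ Kn) X := QuotientGroup.lift Kn ρ fun x hx => hρ x hx

theorem descRep_mk (g : Γ) : descRep Kn ρ hρ (QuotientGroup.mk g) = ρ g := rfl

include hΩ hρ in
theorem sumZeroRep_eq_one (x : Γ) (hx : x ∈ Kn) : sumZeroRep Ω ρ x = 1 := by
  apply LinearMap.ext
  intro F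
  apply Subtype.ext
  funext ω
  change ρ x (F.1 (x⁻¹ • ω)) = F.1 ω
  rw [hρ x hx, hΩ _ (Kn.inv_mem hx), Module.End.one_apply]

theorem sumZeroRep_desc_eq :
    letI := descAction Kn Ω hΩ
    sumZeroRep Ω (descRep Kn ρ hρ) =
      descRep Kn (sumZeroRep Ω ρ) (sumZeroRep_eq_one Kn Ω hΩ ρ hρ) := by
  letI := descAction Kn Ω hΩ
  apply MonoidHom.ext
  intro δ
  induction δ using QuotientGroup.induction_on with
  | H g => rfl

/-- **Higman's criterion for the sum-zero functions, over a finite quotient.** -/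
theorem isHigman_sumZero_desc [Fintype (Γ ⧸ Kn)] (o : Ω) (P : Subgroup Γ) (hKP : Kn ≤ P)
    (hPo : ∀ x ∈ P, x • o = o) (hidx : IsUnit (P.index : k))
    (hfree : ∀ ω : Ω, ω ≠ o → ∀ x ∈ P, x • ω = ω → x ∈ Kn) :
    IsHigman (descRep Kn (sumZeroRep Ω ρ) (sumZeroRep_eq_one Kn Ω hΩ ρ hρ)) := by
  classical
  letI := descAction Kn Ω hΩ
  rw [← sumZeroRep_desc_eq Kn Ω hΩ ρ hρ]
  let PΔ : Subgroup (Γ ⧸ Kn) := P.map (QuotientGroup.mk' Kn)
  haveI : Fintype PΔ := Fintype.ofFinite _
  have hidx' : PΔ.index = P.index :=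
    Subgroup.index_map_eq P (QuotientGroup.mk'_surjective Kn)
      (by rw [QuotientGroup.ker_mk']; exact hKP)
  refine isHigman_sumZero (descRep Kn ρ hρ) o PΔ ?_ (by rw [hidx']; exact hidx) ?_
  · rintro _ ⟨x, hx, rfl⟩
    exact hPo x hx
  · rintro ω hω _ ⟨x, hx, rfl⟩ hfix
    have h := hfree ω hω x hx hfix
    exact (QuotientGroup.eq_one_iff x).2 h

end Fermat.Agent.S56.Base.EC.ReduceDesc
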