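/-
PROJECT T (S56), block (a1-II) Base / EC, hands E2 + K0a-lite (helper26).

Shapiro and Mackey bookkeeping for the smooth induced module `sInd 𝒰 D B` of main's
level-constant cohomology, for an OPEN subgroup `D`:

* `finrank_H_sInd`: `dim Hⁿ(G, sInd B) = dim Hⁿ(D, B)` (main's `shIso`);
* `evalEquiv`: `sInd 𝒰 D B ≃ₗ (D\G → B)`, evaluation at coset representatives;
* `two_mul_finrank_fixed_sInd`: Mackey's formula for the invariants of an involution `c`.
-/
import Fermat.Agent.CFT.LC.Shapiro
import Fermat.Agent.CFT.LC.CoresRes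

set_option autoImplicit false

noncomputable section

namespace Fermat.Agent.S56.Base.EC.SInd

open CategoryTheory Fermat.Agent.CFT.LC

variable {k G : Type} [Field k] [Group G]

/-- **Shapiro for dimensions.** -/
theorem finrank_H_sInd (𝒰 : Levels G) [𝒰.IsFin] (D : Subgroup G) (B : Rep.{0} k D)
    (hB : IsSmooth (𝒰.restrict D) B) (n : ℕ) :
    Module.finrank k (H 𝒰 (sInd 𝒰 D B) n) = Module.finrank k (H (𝒰.restrict D) B n) :=
  LinearEquiv.finrank_eq (shIso 𝒰 D n B hB).toLinearEquiv

section Cosets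

variable (D : Subgroup G)

/-- Right cosets `D\G`. -/
abbrev RQ : Type := Quotient (QuotientGroup.rightRel D)

/-- The right coset `D x`. -/
def rmk (x : G) : RQ D := Quotient.mk (QuotientGroup.rightRel D) x

variable {D}

lemma rmk_eq_iff {x y : G} : rmk D x = rmk D y ↔ y * x⁻¹ ∈ D := by
  unfold rmk
  rw [Quotient.eq]
  exact QuotientGroup.rightRel_apply

lemma rmk_out (q : RQ D) : rmk D q.out = q := Quotient.out_eq q

lemma rmk_mul_left (d : D) (x : G) : rmk D ((d : G) * x) = rmk D x := by
  rw [rmk_eq_iff]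
  have : x * ((d : G) * x)⁻¹ = ((d⁻¹ : D) : G) := by
    rw [mul_inv_rev, mul_inv_cancel_left, Subgroup.coe_inv]
  rw [this]
  exact (d⁻¹).2

lemma mul_out_inv_mem (x : G) : x * (rmk D x).out⁻¹ ∈ D := by
  have h : rmk D (rmk D x).out = rmk D x := rmk_out _
  exact rmk_eq_iff.1 h

variable (D) in
/-- The element `d ∈ D` with `x = d * (D x).out`. -/
def dOf (x : G) : D := ⟨x * (rmk D x).out⁻¹, mul_out_inv_mem x⟩

lemma dOf_mul_out (x : G) : (dOf D x : G) * (rmk D x).out = x := by
  change x * (rmk D x).out⁻¹ * (rmk D x).out = x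
  rw [inv_mul_cancel_right]

lemma dOf_mul_left (d : D) (x : G) : dOf D ((d : G) * x) = d * dOf D x := by
  apply Subtype.ext
  change (d : G) * x * (rmk D ((d : G) * x)).out⁻¹ = (d : G) * (x * (rmk D x).out⁻¹)
  rw [rmk_mul_left, mul_assoc]

lemma dOf_out (q : RQ D) : dOf D q.out = 1 := by
  apply Subtype.ext
  change q.out * (rmk D q.out).out⁻¹ = 1
  rw [rmk_out, mul_inv_cancel]

end Cosets

section Eval

variable (𝒰 : Levels G) {D : Subgroup G} (B : Rep.{0} k D)

/-- The `D`-equivariant extension of a function on the right cosets. -/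
def extFn (b : RQ D → B) : G → B := fun x => B.ρ (dOf D x) (b (rmk D x))

lemma extFn_equivariant (b : RQ D → B) (d : D) (x : G) :
    extFn B b ((d : G) * x) = B.ρ d (extFn B b x) := by
  unfold extFn
  rw [dOf_mul_left, rmk_mul_left, map_mul]
  rfl

lemma extFn_out (b : RQ D → B) (q : RQ D) : extFn B b q.out = b q := by
  unfold extFn
  rw [dOf_out, rmk_out, map_one]
  rfl

variable {B} in
lemma extFn_smooth [𝒰.IsFin] (hD : 𝒰.IsOpen D) (hB : IsSmooth (𝒰.restrict D) B)
    (b : RQ D → B) : ∃ U ∈ 𝒰.sets, ∀ x, ∀ s ∈ U, extFn B b (x * s) = extFn B b x := by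
  classical
  have hfi : D.FiniteIndex := hD.finiteIndex
  have : Finite (RQ D) :=
    Finite.of_equiv _ (QuotientGroup.quotientRightRelEquivQuotientLeftRel D).symm
  have : Fintype (RQ D) := Fintype.ofFinite _
  obtain ⟨U0, hU0, hU0D⟩ := hD
  have hq : ∀ q : RQ D, ∃ U ∈ 𝒰.sets, ∀ s : D, (s : G) ∈ U → B.ρ s (b q) = b q := by
    intro q
    obtain ⟨U', ⟨U, hU, rfl⟩, h⟩ := hB (b q)
    exact ⟨U, hU, fun s hs => h s hs⟩
  choose W hW hWb using hq
  obtain ⟨V1, hV1, hV1W⟩ := 𝒰.exists_le_finset Finset.univ W (fun q _ => hW q)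
  obtain ⟨V, hV, hVle⟩ := 𝒰.directed V1 hV1 U0 hU0
  have hVn : V.Normal := 𝒰.normal V hV
  refine ⟨V, hV, fun x s hs => ?_⟩
  have hu : x * s * x⁻¹ ∈ V := hVn.conj_mem s hs x
  have huD : x * s * x⁻¹ ∈ D := hU0D (hVle.trans inf_le_right hu)
  have e : x * s = ((⟨x * s * x⁻¹, huD⟩ : D) : G) * x := by
    change x * s = x * s * x⁻¹ * x
    rw [inv_mul_cancel_right]
  rw [e, extFn_equivariant]
  unfold extFn
  set d := dOf D x with hd
  set u : D := ⟨x * s * x⁻¹, huD⟩ with hu'
  have hconj : ((d⁻¹ * u * d : D) : G) ∈ V := by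
    have := hVn.conj_mem _ hu ((d : G)⁻¹)
    simpa [hu', mul_assoc] using this
  have hfix : B.ρ (d⁻¹ * u * d) (b (rmk D x)) = b (rmk D x) :=
    hWb _ _ (hV1W _ (Finset.mem_univ _) (hVle.trans inf_le_left hconj))
  have e2 : u * d = d * (d⁻¹ * u * d) := by group
  rw [← Module.End.mul_apply, ← map_mul, e2, map_mul, Module.End.mul_apply, hfix]

/-- Evaluation at the coset representatives: `sInd 𝒰 D B ≃ (D\G → B)` for `D` open, `B` smooth. -/
def evalEquiv [𝒰.IsFin] (hD : 𝒰.IsOpen D) (hB : IsSmooth (𝒰.restrict D) B) :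
    sInd 𝒰 D B ≃ₗ[k] (RQ D → B) where
  toFun φ := fun q => iFn φ q.out
  map_add' _ _ := rfl
  map_smul' _ _ := rfl
  invFun b := iMk (extFn B b) (fun d x => extFn_equivariant B b d x) (extFn_smooth 𝒰 hD hB b)
  left_inv φ := iFn_ext fun x => by
    rw [iFn_iMk]
    unfold extFn
    rw [← iFn_equivariant, dOf_mul_out]
  right_inv b := funext fun q => by
    change iFn (iMk (extFn B b) _ _) q.out = b q
    rw [iFn_iMk, extFn_out]

lemma evalEquiv_apply [𝒰.IsFin] (hD : 𝒰.IsOpen D) (hB : IsSmooth (𝒰.restrict D) B)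
    (φ : sInd 𝒰 D B) (q : RQ D) : evalEquiv 𝒰 B hD hB φ q = iFn φ q.out := rfl

lemma evalEquiv_ρ [𝒰.IsFin] (hD : 𝒰.IsOpen D) (hB : IsSmooth (𝒰.restrict D) B) (c : G)
    (φ : sInd 𝒰 D B) (q : RQ D) :
    evalEquiv 𝒰 B hD hB ((sInd 𝒰 D B).ρ c φ) q =
      B.ρ (dOf D (q.out * c)) (evalEquiv 𝒰 B hD hB φ (rmk D (q.out * c))) := by
  rw [evalEquiv_apply, evalEquiv_apply, iFn_ρ, ← iFn_equivariant, dOf_mul_out]

end Eval

section Involution

variable {D : Subgroup G} (c : G)

/-- Right multiplication by `c` on the right cosets. -/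
def tau (q : RQ D) : RQ D := rmk D (q.out * c)

/-- The element of `D` with `q.out * c = dq c q * (tau c q).out`. -/
def dq (q : RQ D) : D := dOf D (q.out * c)

lemma out_mul_eq (q : RQ D) : q.out * c = (dq c q : G) * (tau c q).out :=
  (dOf_mul_out _).symm

lemma tau_out_mul (hc : c * c = 1) (q : RQ D) :
    (tau c q).out * c = (((dq c q)⁻¹ : D) : G) * q.out := by
  have h := out_mul_eq c q
  have h1 : (tau c q).out = ((dq c q : G))⁻¹ * (q.out * c) := by
    rw [h, inv_mul_cancel_left]
  rw [h1, Subgroup.coe_inv, mul_assoc, mul_assoc, hc, mul_one]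

lemma tau_tau (hc : c * c = 1) (q : RQ D) : tau c (tau c q) = q := by
  change rmk D ((tau c q).out * c) = q
  rw [tau_out_mul c hc, rmk_mul_left, rmk_out]

lemma dq_tau (hc : c * c = 1) (q : RQ D) : dq c (tau c q) = (dq c q)⁻¹ := by
  change dOf D ((tau c q).out * c) = (dq c q)⁻¹
  rw [tau_out_mul c hc, dOf_mul_left, dOf_out, mul_one]

lemma dq_mul_dq_tau (hc : c * c = 1) (q : RQ D) : dq c q * dq c (tau c q) = 1 := by
  rw [dq_tau c hc, mul_inv_cancel]

lemma tau_eq_self_iff (q : RQ D) : tau c q = q ↔ q.out * c * q.out⁻¹ ∈ D := by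
  have h : tau c q = q ↔ rmk D q.out = rmk D (q.out * c) := by
    rw [rmk_out]
    exact eq_comm
  rw [h, rmk_eq_iff]

lemma coe_dq_of_fixed {q : RQ D} (h : tau c q = q) : (dq c q : G) = q.out * c * q.out⁻¹ := by
  change q.out * c * (rmk D (q.out * c)).out⁻¹ = _
  have : rmk D (q.out * c) = q := h
  rw [this]

open Classical in
/-- The summand of the archimedean term at the coset of `x` (doubled). -/
def archTerm (B : Rep.{0} k D) (c x : G) : ℕ :=
  if h : x * c * x⁻¹ ∈ D then
    2 * Module.finrank k (LinearMap.ker (B.ρ ⟨x * c * x⁻¹, h⟩ - 1))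
  else Module.finrank k B

variable (B : Rep.{0} k D)

/-- The `c`-invariants in coset coordinates. -/
def invC : Submodule k (RQ D → B) where
  carrier := {b | ∀ q, B.ρ (dq c q) (b (tau c q)) = b q}
  add_mem' := by
    intro b b' hb hb' q
    rw [Pi.add_apply, Pi.add_apply, map_add, hb q, hb' q]
  zero_mem' := by
    intro q
    rw [Pi.zero_apply, Pi.zero_apply, map_zero]
  smul_mem' := by
    intro a b hb q
    rw [Pi.smul_apply, Pi.smul_apply, map_smul, hb q]

lemma mem_invC {b : RQ D → B} : b ∈ invC c B ↔ ∀ q, B.ρ (dq c q) (b (tau c q)) = b q := Iff.rfl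

lemma ker_eq_comap (𝒰 : Levels G) [𝒰.IsFin] (hD : 𝒰.IsOpen D)
    (hB : IsSmooth (𝒰.restrict D) B) :
    LinearMap.ker ((sInd 𝒰 D B).ρ c - 1) =
      (invC c B).comap (evalEquiv 𝒰 B hD hB).toLinearMap := by
  ext φ
  rw [LinearMap.mem_ker, LinearMap.sub_apply, Module.End.one_apply, sub_eq_zero,
    Submodule.mem_comap, mem_invC]
  constructor
  · intro h q
    have := evalEquiv_ρ 𝒰 B hD hB c φ q
    rw [h] at this
    exact this.symm
  · intro h
    apply (evalEquiv 𝒰 B hD hB).injective
    funext q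
    rw [evalEquiv_ρ]
    exact h q

lemma finrank_ker_eq (𝒰 : Levels G) [𝒰.IsFin] (hD : 𝒰.IsOpen D)
    (hB : IsSmooth (𝒰.restrict D) B) :
    Module.finrank k (LinearMap.ker ((sInd 𝒰 D B).ρ c - 1)) = Module.finrank k (invC c B) := by
  rw [ker_eq_comap c B 𝒰 hD hB]
  exact LinearEquiv.finrank_eq (LinearEquiv.ofSubmodule' (evalEquiv 𝒰 B hD hB) (invC c B))

end Involution

section Half

variable {D : Subgroup G} (c : G) (B : Rep.{0} k D) (e : RQ D → ℕ)

open Classical in
/-- The local factor at the coset `q`, relative to the half-system `{q | e q < e (τ q)}`. -/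
def T (q : RQ D) : Submodule k B :=
  if tau c q = q then LinearMap.ker (B.ρ (dq c q) - 1)
  else if e q < e (tau c q) then ⊤ else ⊥

lemma T_fixed {q : RQ D} (h : tau c q = q) : T c B e q = LinearMap.ker (B.ρ (dq c q) - 1) := by
  unfold T
  rw [if_pos h]

lemma T_pos {q : RQ D} (h : tau c q ≠ q) (h' : e q < e (tau c q)) : T c B e q = ⊤ := by
  unfold T
  rw [if_neg h, if_pos h']

lemma T_neg {q : RQ D} (h : tau c q ≠ q) (h' : ¬ e q < e (tau c q)) : T c B e q = ⊥ := by
  unfold T
  rw [if_neg h, if_neg h']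

variable {e} in
lemma tri (he : Function.Injective e) (q : RQ D) :
    tau c q = q ∨ (tau c q ≠ q ∧ e q < e (tau c q) ∧ ¬ e (tau c q) < e q) ∨
      (tau c q ≠ q ∧ e (tau c q) < e q ∧ ¬ e q < e (tau c q)) := by
  by_cases h : tau c q = q
  · exact Or.inl h
  · have hne : e (tau c q) ≠ e q := fun h' => h (he h')
    rcases lt_or_gt_of_ne hne with h' | h'
    · exact Or.inr (Or.inr ⟨h, h', not_lt.2 h'.le⟩)
    · exact Or.inr (Or.inl ⟨h, h', not_lt.2 h'.le⟩)

/-- The target of the half-system parametrisation, inside `D\G → B`. -/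
def tgt : Submodule k (RQ D → B) := Submodule.pi Set.univ (T c B e)

lemma mem_tgt {w : RQ D → B} : w ∈ tgt c B e ↔ ∀ q, w q ∈ T c B e q := by
  unfold tgt
  rw [Submodule.mem_pi]
  exact ⟨fun h q => h q (Set.mem_univ q), fun h q _ => h q⟩

open Classical in
/-- The half-system parametrisation of the `c`-invariants. -/
def halfEquiv (hc : c * c = 1) (he : Function.Injective e) : invC c B ≃ₗ[k] tgt c B e where
  toFun b := ⟨fun q => if e (tau c q) < e q then 0 else b.1 q, by
    rw [mem_tgt]
    intro q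
    rcases tri c he q with h | ⟨h, h1, h2⟩ | ⟨h, h1, h2⟩
    · have hn : ¬ e (tau c q) < e q := by rw [h]; exact lt_irrefl _
      rw [if_neg hn, T_fixed c B e h, LinearMap.mem_ker, LinearMap.sub_apply,
        Module.End.one_apply, sub_eq_zero]
      have := b.2 q
      rw [h] at this
      exact this
    · rw [if_neg h2, T_pos c B e h h1]
      exact Submodule.mem_top
    · rw [if_pos h1, T_neg c B e h h2]
      exact Submodule.zero_mem _⟩
  map_add' b b' := by
    apply Subtype.ext
    funext q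
    change (if e (tau c q) < e q then (0 : B) else (b.1 + b'.1) q) =
      (if e (tau c q) < e q then 0 else b.1 q) + (if e (tau c q) < e q then 0 else b'.1 q)
    split_ifs
    · rw [add_zero]
    · rfl
  map_smul' a b := by
    apply Subtype.ext
    funext q
    change (if e (tau c q) < e q then (0 : B) else (a • b.1) q) =
      a • (if e (tau c q) < e q then 0 else b.1 q)
    split_ifs
    · rw [smul_zero]
    · rfl
  invFun w := ⟨fun q => if e (tau c q) < e q then B.ρ (dq c q) (w.1 (tau c q)) else w.1 q, by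
    rw [mem_invC]
    intro q
    have hw := (mem_tgt c B e).1 w.2
    rcases tri c he q with h | ⟨h, h1, h2⟩ | ⟨h, h1, h2⟩
    · have hn : ¬ e (tau c q) < e q := by rw [h]; exact lt_irrefl _
      have hn' : ¬ e (tau c (tau c q)) < e (tau c q) := by rw [h, h]; exact lt_irrefl _
      rw [if_neg hn', if_neg hn]
      have := hw q
      rw [T_fixed c B e h, LinearMap.mem_ker, LinearMap.sub_apply,
        Module.End.one_apply, sub_eq_zero] at this
      rw [h]
      exact this
    · have h3 : e (tau c (tau c q)) < e (tau c q) := by rw [tau_tau c hc]; exact h1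
      rw [if_pos h3, if_neg h2, tau_tau c hc, ← Module.End.mul_apply, ← map_mul,
        dq_mul_dq_tau c hc, map_one, Module.End.one_apply]
    · have h3 : ¬ e (tau c (tau c q)) < e (tau c q) := by rw [tau_tau c hc]; exact h2
      rw [if_neg h3, if_pos h1]⟩
  left_inv b := by
    apply Subtype.ext
    funext q
    change (if e (tau c q) < e q then
        B.ρ (dq c q) (if e (tau c (tau c q)) < e (tau c q) then 0 else b.1 (tau c q))
      else (if e (tau c q) < e q then 0 else b.1 q)) = b.1 q
    by_cases h1 : e (tau c q) < e q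
    · have h3 : ¬ e (tau c (tau c q)) < e (tau c q) := by
        rw [tau_tau c hc]; exact not_lt.2 h1.le
      rw [if_pos h1, if_neg h3]
      exact b.2 q
    · rw [if_neg h1, if_neg h1]
  right_inv w := by
    apply Subtype.ext
    funext q
    change (if e (tau c q) < e q then (0 : B)
      else (if e (tau c q) < e q then B.ρ (dq c q) (w.1 (tau c q)) else w.1 q)) = w.1 q
    have hw := (mem_tgt c B e).1 w.2
    by_cases h1 : e (tau c q) < e q
    · rw [if_pos h1]
      have hne : tau c q ≠ q := fun h => by rw [h] at h1; exact lt_irrefl _ h1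
      have := hw q
      rw [T_neg c B e hne (not_lt.2 h1.le), Submodule.mem_bot] at this
      exact this.symm
    · rw [if_neg h1, if_neg h1]

/-- `tgt` is the product of the local factors. -/
def tgtEquivPi : tgt c B e ≃ₗ[k] (∀ q, T c B e q) where
  toFun w := fun q => ⟨w.1 q, (mem_tgt c B e).1 w.2 q⟩
  map_add' _ _ := rfl
  map_smul' _ _ := rfl
  invFun v := ⟨fun q => (v q).1, (mem_tgt c B e).2 fun q => (v q).2⟩
  left_inv _ := rfl
  right_inv _ := rfl

lemma finrank_tgt [Fintype (RQ D)] [Module.Finite k B] :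
    Module.finrank k (tgt c B e) = ∑ q, Module.finrank k (T c B e q) := by
  rw [LinearEquiv.finrank_eq (tgtEquivPi c B e), Module.finrank_pi_fintype]

lemma finrank_T_add (hc : c * c = 1) (he : Function.Injective e) (q : RQ D) :
    Module.finrank k (T c B e q) + Module.finrank k (T c B e (tau c q)) =
      archTerm B c q.out := by
  rcases tri c he q with h | ⟨h, h1, h2⟩ | ⟨h, h1, h2⟩
  · have hmem : q.out * c * q.out⁻¹ ∈ D := (tau_eq_self_iff c q).1 h
    have hd : dq c q = ⟨q.out * c * q.out⁻¹, hmem⟩ := Subtype.ext (coe_dq_of_fixed c h)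
    unfold archTerm
    rw [dif_pos hmem, h, T_fixed c B e h, hd, two_mul]
  · have hmem : ¬ q.out * c * q.out⁻¹ ∈ D := fun hm => h ((tau_eq_self_iff c q).2 hm)
    have hne : tau c (tau c q) ≠ tau c q := by rw [tau_tau c hc]; exact fun h' => h h'.symm
    have h3 : ¬ e (tau c q) < e (tau c (tau c q)) := by rw [tau_tau c hc]; exact h2
    unfold archTerm
    rw [dif_neg hmem, T_pos c B e h h1, T_neg c B e hne h3, finrank_top, finrank_bot, add_zero]
  · have hmem : ¬ q.out * c * q.out⁻¹ ∈ D := fun hm => h ((tau_eq_self_iff c q).2 hm)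
    have hne : tau c (tau c q) ≠ tau c q := by rw [tau_tau c hc]; exact fun h' => h h'.symm
    have h3 : e (tau c q) < e (tau c (tau c q)) := by rw [tau_tau c hc]; exact h1
    unfold archTerm
    rw [dif_neg hmem, T_neg c B e h h2, T_pos c B e hne h3, finrank_top, finrank_bot, zero_add]

end Half

section Mackey

variable {D : Subgroup G} (c : G) (B : Rep.{0} k D)

/-- Mackey's formula for the invariants of an involution, in coset coordinates. -/
theorem two_mul_finrank_invC [Fintype (RQ D)] [Module.Finite k B] (hc : c * c = 1) :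
    2 * Module.finrank k (invC c B) = ∑ q : RQ D, archTerm B c q.out := by
  classical
  let e : RQ D → ℕ := fun q => (Fintype.equivFin (RQ D) q : ℕ)
  have he : Function.Injective e := fun q q' h =>
    (Fintype.equivFin (RQ D)).injective (Fin.val_injective h)
  have hperm : ∑ q, Module.finrank k (T c B e (tau c q)) = ∑ q, Module.finrank k (T c B e q) :=
    Equiv.sum_comp (Function.Involutive.toPerm (tau c) (tau_tau c hc))
      (fun q => Module.finrank k (T c B e q))
  rw [LinearEquiv.finrank_eq (halfEquiv c B e hc he), finrank_tgt, two_mul]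
  nth_rewrite 2 [← hperm]
  rw [← Finset.sum_add_distrib]
  exact Finset.sum_congr rfl fun q _ => finrank_T_add c B e hc he q

/-- **Mackey at an involution**: twice the dimension of the `c`-invariants of `sInd 𝒰 D B` is the
sum of the archimedean terms over the right cosets of `D`. -/
theorem two_mul_finrank_fixed_sInd (𝒰 : Levels G) [𝒰.IsFin] (hD : 𝒰.IsOpen D)
    (hB : IsSmooth (𝒰.restrict D) B) [Fintype (RQ D)] [Module.Finite k B] (hc : c * c = 1) :
    2 * Module.finrank k (LinearMap.ker ((sInd 𝒰 D B).ρ c - 1)) =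
      ∑ q : RQ D, archTerm B c q.out := by
  rw [finrank_ker_eq c B 𝒰 hD hB, two_mul_finrank_invC c B hc]

end Mackey

end Fermat.Agent.S56.Base.EC.SInd
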