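/-
PROJECT T (S56), block (a1-II) Base / EC, hand K0a-lite (helper26).

* `SplitData S A Z`: biproduct data `S = A ⊕ Z` in `Rep k G`, with the additivity of
  `finrank Hⁿ_LC`, of `finrank` and of the dimension of the invariants of an element;
* `projEquiv`: the projection formula `sInd 𝒰 D (Res A) ≃ (G ⧸ D → A)` for `D` open, `A` smooth,
  equivariant for `TI.Proj.funRep`;
* `splitSIndRes`: `sInd 𝒰 D (Res A) = A ⊕ Z_A`, `Z_A` the sum-zero part, when `[G : D]` is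
  invertible in `k`.
-/
import Fermat.Agent.S56.Base.EC.SInd
import Fermat.Agent.S56.Base.TI.Proj
import Fermat.Agent.CFT.LC.Elementwise

set_option autoImplicit false

noncomputable section

namespace Fermat.Agent.S56.Base.EC.Split

open CategoryTheory Fermat.Agent.CFT.LC Fermat.Agent.S56.Base.TI.Proj

variable {k G : Type} [Field k] [Group G]

/-- Biproduct data `S = A ⊕ Z` in `Rep k G`. -/
structure SplitData (S A Z : Rep.{0} k G) where
  /-- inclusion of `A` -/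
  iA : A ⟶ S
  /-- projection to `A` -/
  pA : S ⟶ A
  /-- inclusion of `Z` -/
  iZ : Z ⟶ S
  /-- projection to `Z` -/
  pZ : S ⟶ Z
  iA_pA : iA ≫ pA = 𝟙 A
  iZ_pZ : iZ ≫ pZ = 𝟙 Z
  iA_pZ : iA ≫ pZ = 0
  iZ_pA : iZ ≫ pA = 0
  sum : pA ≫ iA + pZ ≫ iZ = 𝟙 S

namespace SplitData

variable {S A Z : Rep.{0} k G} (d : SplitData S A Z)

lemma mapId_add {𝒰 : Levels G} {A B : Rep.{0} k G} (ψ χ : A ⟶ B) (n : ℕ) :
    mapId (𝒰 := 𝒰) (ψ + χ) n = mapId ψ n + mapId χ n := by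
  have h : ∀ θ : A ⟶ B, mapId (𝒰 := 𝒰) θ n =
      (lcFunctor 𝒰 ⋙ HomologicalComplex.homologyFunctor (ModuleCat k) _ n).map θ := fun _ => rfl
  rw [h (ψ + χ), Functor.map_add]
  rfl

/-- `Hⁿ(S) ≃ Hⁿ(A) × Hⁿ(Z)`. -/
def hEquiv (𝒰 : Levels G) (n : ℕ) : H 𝒰 S n ≃ₗ[k] (H 𝒰 A n × H 𝒰 Z n) where
  toFun y := (mapId d.pA n y, mapId d.pZ n y)
  map_add' y y' := by rw [map_add, map_add]; rfl
  map_smul' a y := by rw [map_smul, map_smul]; rfl
  invFun w := mapId d.iA n w.1 + mapId d.iZ n w.2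
  left_inv y := by
    change mapId d.iA n (mapId d.pA n y) + mapId d.iZ n (mapId d.pZ n y) = y
    rw [El.mapId_mapId_apply, El.mapId_mapId_apply]
    have h := congrArg (fun f => (ModuleCat.Hom.hom f) y) (mapId_add (𝒰 := 𝒰) (d.pA ≫ d.iA)
      (d.pZ ≫ d.iZ) n)
    simp only [ModuleCat.hom_add, LinearMap.add_apply] at h
    rw [← h, d.sum]
    exact El.mapId_one_apply n y
  right_inv w := by
    obtain ⟨a, z⟩ := w
    change (mapId d.pA n (mapId d.iA n a + mapId d.iZ n z),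
      mapId d.pZ n (mapId d.iA n a + mapId d.iZ n z)) = (a, z)
    rw [map_add, map_add, El.mapId_mapId_apply, El.mapId_mapId_apply, El.mapId_mapId_apply,
      El.mapId_mapId_apply, d.iA_pA, d.iZ_pZ, d.iA_pZ, d.iZ_pA, El.mapId_zero_hom,
      El.mapId_zero_hom, El.mapId_one_apply, El.mapId_one_apply]
    simp

include d in
theorem finrank_H (𝒰 : Levels G) (n : ℕ) [Module.Finite k (H 𝒰 A n)]
    [Module.Finite k (H 𝒰 Z n)] :
    Module.finrank k (H 𝒰 S n) = Module.finrank k (H 𝒰 A n) + Module.finrank k (H 𝒰 Z n) := by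
  rw [LinearEquiv.finrank_eq (d.hEquiv 𝒰 n), Module.finrank_prod]

lemma pA_iA_apply (a : A) : d.pA.hom (d.iA.hom a) = a := by
  have h := congrArg (fun f => f.hom a) d.iA_pA
  simpa using h

lemma pZ_iZ_apply (z : Z) : d.pZ.hom (d.iZ.hom z) = z := by
  have h := congrArg (fun f => f.hom z) d.iZ_pZ
  simpa using h

lemma pZ_iA_apply (a : A) : d.pZ.hom (d.iA.hom a) = 0 := by
  have h := congrArg (fun f => f.hom a) d.iA_pZ
  simpa using h

lemma pA_iZ_apply (z : Z) : d.pA.hom (d.iZ.hom z) = 0 := by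
  have h := congrArg (fun f => f.hom z) d.iZ_pA
  simpa using h

lemma sum_apply (y : S) : d.iA.hom (d.pA.hom y) + d.iZ.hom (d.pZ.hom y) = y := by
  have h := congrArg (fun f => f.hom y) d.sum
  simpa [Rep.add_hom] using h

/-- `S ≃ A × Z` as vector spaces. -/
def vEquiv : S ≃ₗ[k] (A × Z) where
  toFun y := (d.pA.hom y, d.pZ.hom y)
  map_add' y y' := by rw [map_add, map_add]; rfl
  map_smul' a y := by rw [map_smul, map_smul]; rfl
  invFun w := d.iA.hom w.1 + d.iZ.hom w.2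
  left_inv y := d.sum_apply y
  right_inv w := by
    obtain ⟨a, z⟩ := w
    change (d.pA.hom (d.iA.hom a + d.iZ.hom z), d.pZ.hom (d.iA.hom a + d.iZ.hom z)) = (a, z)
    rw [map_add, map_add, d.pA_iA_apply, d.pZ_iZ_apply, d.pZ_iA_apply, d.pA_iZ_apply, add_zero,
      zero_add]

include d in
theorem finrank_V [Module.Finite k A] [Module.Finite k Z] :
    Module.finrank k S = Module.finrank k A + Module.finrank k Z := by
  rw [LinearEquiv.finrank_eq d.vEquiv, Module.finrank_prod]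

/-- The invariants of an element `c` decompose. -/
def fixEquiv (c : G) :
    LinearMap.ker (S.ρ c - 1) ≃ₗ[k]
      (LinearMap.ker (A.ρ c - 1) × LinearMap.ker (Z.ρ c - 1)) where
  toFun y := (⟨d.pA.hom y.1, by
      have hy : S.ρ c y.1 = y.1 := sub_eq_zero.1 (LinearMap.mem_ker.1 y.2)
      rw [LinearMap.mem_ker, LinearMap.sub_apply, Module.End.one_apply, sub_eq_zero,
        ← Rep.hom_comm_apply, hy]⟩,
    ⟨d.pZ.hom y.1, by
      have hy : S.ρ c y.1 = y.1 := sub_eq_zero.1 (LinearMap.mem_ker.1 y.2)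
      rw [LinearMap.mem_ker, LinearMap.sub_apply, Module.End.one_apply, sub_eq_zero,
        ← Rep.hom_comm_apply, hy]⟩)
  map_add' y y' := by
    apply Prod.ext <;> apply Subtype.ext
    · exact map_add d.pA.hom y.1 y'.1
    · exact map_add d.pZ.hom y.1 y'.1
  map_smul' a y := by
    apply Prod.ext <;> apply Subtype.ext
    · exact map_smul d.pA.hom a y.1
    · exact map_smul d.pZ.hom a y.1
  invFun w := ⟨d.iA.hom w.1.1 + d.iZ.hom w.2.1, by
    have h1 : A.ρ c w.1.1 = w.1.1 := sub_eq_zero.1 (LinearMap.mem_ker.1 w.1.2)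
    have h2 : Z.ρ c w.2.1 = w.2.1 := sub_eq_zero.1 (LinearMap.mem_ker.1 w.2.2)
    rw [LinearMap.mem_ker, LinearMap.sub_apply, Module.End.one_apply, sub_eq_zero, map_add,
      ← Rep.hom_comm_apply, ← Rep.hom_comm_apply, h1, h2]⟩
  left_inv y := Subtype.ext (d.sum_apply y.1)
  right_inv w := by
    obtain ⟨a, z⟩ := w
    apply Prod.ext <;> apply Subtype.ext
    · change d.pA.hom (d.iA.hom a.1 + d.iZ.hom z.1) = a.1
      rw [map_add, d.pA_iA_apply, d.pA_iZ_apply, add_zero]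
    · change d.pZ.hom (d.iA.hom a.1 + d.iZ.hom z.1) = z.1
      rw [map_add, d.pZ_iA_apply, d.pZ_iZ_apply, zero_add]

include d in
theorem finrank_fix (c : G) [Module.Finite k A] [Module.Finite k Z] :
    Module.finrank k (LinearMap.ker (S.ρ c - 1)) =
      Module.finrank k (LinearMap.ker (A.ρ c - 1)) +
        Module.finrank k (LinearMap.ker (Z.ρ c - 1)) := by
  rw [LinearEquiv.finrank_eq (d.fixEquiv c), Module.finrank_prod]

include d in
/-- A direct summand of a smooth representation is smooth. -/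
theorem isSmooth_Z {𝒰 : Levels G} (hS : IsSmooth 𝒰 S) : IsSmooth 𝒰 Z := by
  intro z
  obtain ⟨U, hU, h⟩ := hS (d.iZ.hom z)
  refine ⟨U, hU, fun s hs => ?_⟩
  have h1 := d.pZ_iZ_apply z
  calc Z.ρ s z = Z.ρ s (d.pZ.hom (d.iZ.hom z)) := by rw [h1]
    _ = d.pZ.hom (S.ρ s (d.iZ.hom z)) := (Rep.hom_comm_apply d.pZ s _).symm
    _ = z := by rw [h s hs, h1]

end SplitData

section Proj

variable (𝒰 : Levels G) {D : Subgroup G} (A : Rep.{0} k G)

/-- `F_φ (x D) = x • φ(x⁻¹)`. -/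
def projFun (φ : sInd 𝒰 D (Rep.res D.subtype A)) : G ⧸ D → A :=
  Quotient.lift (s := QuotientGroup.leftRel D) (fun x : G => A.ρ x (iFn φ x⁻¹)) (by
    intro x y hxy
    have hd : x⁻¹ * y ∈ D := QuotientGroup.leftRel_apply.1 hxy
    have hy : y = x * (x⁻¹ * y) := by rw [mul_inv_cancel_left]
    have e : y⁻¹ = (((⟨x⁻¹ * y, hd⟩ : D)⁻¹ : D) : G) * x⁻¹ := by
      change y⁻¹ = (x⁻¹ * y)⁻¹ * x⁻¹
      group
    change A.ρ x (iFn φ x⁻¹) = A.ρ y (iFn φ y⁻¹)
    rw [e, iFn_equivariant]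
    change _ = A.ρ y (A.ρ ((x⁻¹ * y)⁻¹) (iFn φ x⁻¹))
    rw [← Module.End.mul_apply, ← map_mul]
    congr 2
    group)

lemma projFun_mk (φ : sInd 𝒰 D (Rep.res D.subtype A)) (x : G) :
    projFun 𝒰 A φ (x : G ⧸ D) = A.ρ x (iFn φ x⁻¹) := rfl

/-- The inverse construction `F ↦ (x ↦ x • F(x⁻¹ D))`. -/
def projInvFn (F : G ⧸ D → A) : G → A := fun x => A.ρ x (F ((x⁻¹ : G) : G ⧸ D))

lemma projInvFn_equivariant (F : G ⧸ D → A) (d : D) (x : G) :
    projInvFn A F ((d : G) * x) = A.ρ d (projInvFn A F x) := by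
  unfold projInvFn
  have e : ((((d : G) * x)⁻¹ : G) : G ⧸ D) = ((x⁻¹ : G) : G ⧸ D) := by
    rw [mul_inv_rev]
    exact QuotientGroup.mk_mul_of_mem _ (D.inv_mem d.2)
  rw [e, map_mul, Module.End.mul_apply]

variable {A} in
lemma projInvFn_smooth [𝒰.IsFin] (hD : 𝒰.IsOpen D) (hA : IsSmooth 𝒰 A) (F : G ⧸ D → A) :
    ∃ U ∈ 𝒰.sets, ∀ x, ∀ s ∈ U, projInvFn A F (x * s) = projInvFn A F x := by
  classical
  have hfi : D.FiniteIndex := hD.finiteIndex
  have : Fintype (G ⧸ D) := Fintype.ofFinite _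
  obtain ⟨U0, hU0, hU0D⟩ := hD
  have hq : ∀ ω : G ⧸ D, ∃ U ∈ 𝒰.sets, ∀ s ∈ U, A.ρ s (F ω) = F ω := fun ω => hA (F ω)
  choose W hW hWb using hq
  obtain ⟨V1, hV1, hV1W⟩ := 𝒰.exists_le_finset Finset.univ W (fun q _ => hW q)
  obtain ⟨V, hV, hVle⟩ := 𝒰.directed V1 hV1 U0 hU0
  have hVn : V.Normal := 𝒰.normal V hV
  refine ⟨V, hV, fun x s hs => ?_⟩
  unfold projInvFn
  have hu : x * s⁻¹ * x⁻¹ ∈ D :=
    hU0D (hVle.trans inf_le_right (hVn.conj_mem _ (V.inv_mem hs) x))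
  have e : (((x * s)⁻¹ : G) : G ⧸ D) = ((x⁻¹ : G) : G ⧸ D) := by
    have : (x * s)⁻¹ = x⁻¹ * (x * s⁻¹ * x⁻¹) := by group
    rw [this]
    exact QuotientGroup.mk_mul_of_mem _ hu
  rw [e, map_mul, Module.End.mul_apply,
    hWb _ s (hV1W _ (Finset.mem_univ _) (hVle.trans inf_le_left hs))]

/-- The inverse of the projection formula. -/
def projInv [𝒰.IsFin] (hD : 𝒰.IsOpen D) (hA : IsSmooth 𝒰 A) (F : G ⧸ D → A) :
    sInd 𝒰 D (Rep.res D.subtype A) :=
  iMk (B := Rep.res D.subtype A) (projInvFn A F)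
    (fun d x => projInvFn_equivariant A F d x) (projInvFn_smooth 𝒰 hD hA F)

lemma iFn_projInv [𝒰.IsFin] (hD : 𝒰.IsOpen D) (hA : IsSmooth 𝒰 A) (F : G ⧸ D → A) (x : G) :
    (iFn (projInv 𝒰 A hD hA F) x : A) = A.ρ x (F ((x⁻¹ : G) : G ⧸ D)) := rfl

/-- **Projection formula**: `sInd 𝒰 D (Res A) ≃ (G ⧸ D → A)` for `D` open and `A` smooth. -/
def projEquiv [𝒰.IsFin] (hD : 𝒰.IsOpen D) (hA : IsSmooth 𝒰 A) :
    sInd 𝒰 D (Rep.res D.subtype A) ≃ₗ[k] (G ⧸ D → A) where
  toFun φ := projFun 𝒰 A φ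
  map_add' φ ψ := funext fun ω => by
    induction ω using QuotientGroup.induction_on with
    | H x =>
      rw [Pi.add_apply, projFun_mk, projFun_mk, projFun_mk, iFn_add, map_add]
  map_smul' a φ := funext fun ω => by
    induction ω using QuotientGroup.induction_on with
    | H x =>
      rw [Pi.smul_apply, projFun_mk, projFun_mk, iFn_smul, map_smul, RingHom.id_apply]
  invFun F := projInv 𝒰 A hD hA F
  left_inv φ := iFn_ext fun x => by
    change (iFn (projInv 𝒰 A hD hA (projFun 𝒰 A φ)) x : A) = iFn φ x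
    rw [iFn_projInv, projFun_mk, inv_inv, ← Module.End.mul_apply, ← map_mul, mul_inv_cancel,
      map_one, Module.End.one_apply]
  right_inv F := funext fun ω => by
    induction ω using QuotientGroup.induction_on with
    | H x =>
      change projFun 𝒰 A (projInv 𝒰 A hD hA F) (x : G ⧸ D) = F x
      rw [projFun_mk, iFn_projInv, inv_inv, ← Module.End.mul_apply, ← map_mul, mul_inv_cancel,
        map_one, Module.End.one_apply]

lemma projEquiv_apply [𝒰.IsFin] (hD : 𝒰.IsOpen D) (hA : IsSmooth 𝒰 A)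
    (φ : sInd 𝒰 D (Rep.res D.subtype A)) (x : G) :
    projEquiv 𝒰 A hD hA φ (x : G ⧸ D) = A.ρ x (iFn φ x⁻¹) := rfl

/-- The projection formula is equivariant for `funRep`. -/
lemma projEquiv_ρ [𝒰.IsFin] (hD : 𝒰.IsOpen D) (hA : IsSmooth 𝒰 A) (g : G)
    (φ : sInd 𝒰 D (Rep.res D.subtype A)) :
    projEquiv 𝒰 A hD hA ((sInd 𝒰 D (Rep.res D.subtype A)).ρ g φ) =
      funRep (G ⧸ D) A.ρ g (projEquiv 𝒰 A hD hA φ) := by
  funext ω
  induction ω using QuotientGroup.induction_on with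
  | H x =>
    rw [funRep_apply, projEquiv_apply]
    have e : g⁻¹ • (x : G ⧸ D) = ((g⁻¹ * x : G) : G ⧸ D) := rfl
    rw [e, projEquiv_apply, iFn_ρ, ← Module.End.mul_apply, ← map_mul, mul_inv_rev, inv_inv,
      mul_inv_cancel_left]

end Proj

section Hom

/-- A morphism of representations from an equivariant linear map. -/
def mkHom {A B : Rep.{0} k G} (f : A →ₗ[k] B) (hf : ∀ g a, f (A.ρ g a) = B.ρ g (f a)) : A ⟶ B :=
  ConcreteCategory.ofHom (C := Rep.{0} k G)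
    (LinearMap.intertwiningMap_of_isIntertwiningMap (ρ := A.ρ) (σ := B.ρ) (f := f) hf)

@[simp] lemma mkHom_apply {A B : Rep.{0} k G} (f : A →ₗ[k] B)
    (hf : ∀ g a, f (A.ρ g a) = B.ρ g (f a)) (a : A) : (mkHom f hf).hom a = f a := rfl

lemma hom_ext_apply {A B : Rep.{0} k G} {f g : A ⟶ B} (h : ∀ a, f.hom a = g.hom a) : f = g :=
  Rep.hom_ext (Representation.IntertwiningMap.ext (LinearMap.ext h))

end Hom

section SplitSInd

variable (𝒰 : Levels G) [𝒰.IsFin] {D : Subgroup G} (hD : 𝒰.IsOpen D) (A : Rep.{0} k G)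
  (hA : IsSmooth 𝒰 A) [Fintype (G ⧸ D)]

variable (D) in
/-- The sum-zero part of `G ⧸ D → A` as a representation. -/
abbrev zRep : Rep.{0} k G := Rep.of (sumZeroRep (G ⧸ D) A.ρ)

/-- **K0a-lite**: `sInd 𝒰 D (Res A) = A ⊕ Z_A` when `[G : D]` is invertible in `k`. -/
def splitSIndRes (u : kˣ) (hu : (u : k) = Fintype.card (G ⧸ D)) :
    SplitData (sInd 𝒰 D (Rep.res D.subtype A)) A (zRep D A) where
  iA := mkHom ((projEquiv 𝒰 A hD hA).symm.toLinearMap ∘ₗ constMap (k := k) (G ⧸ D)) (by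
    intro g a
    apply (projEquiv 𝒰 A hD hA).injective
    rw [projEquiv_ρ]
    simp only [LinearMap.comp_apply, LinearEquiv.coe_coe, LinearEquiv.apply_symm_apply]
    exact (funRep_constMap (G ⧸ D) A.ρ g a).symm)
  pA := mkHom (avgMap (G ⧸ D) u ∘ₗ (projEquiv 𝒰 A hD hA).toLinearMap) (by
    intro g φ
    simp only [LinearMap.comp_apply, LinearEquiv.coe_coe]
    rw [projEquiv_ρ, avgMap_funRep])
  iZ := mkHom ((projEquiv 𝒰 A hD hA).symm.toLinearMap ∘ₗ (sumZero (k := k) (X := A) (G ⧸ D)).subtype)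
    (by
      intro g z
      apply (projEquiv 𝒰 A hD hA).injective
      rw [projEquiv_ρ]
      simp only [LinearMap.comp_apply, LinearEquiv.coe_coe, LinearEquiv.apply_symm_apply,
        Submodule.subtype_apply]
      rfl)
  pZ := mkHom (zPart (G ⧸ D) u hu ∘ₗ (projEquiv 𝒰 A hD hA).toLinearMap) (by
    intro g φ
    simp only [LinearMap.comp_apply, LinearEquiv.coe_coe]
    rw [projEquiv_ρ, zPart_funRep])
  iA_pA := hom_ext_apply fun a => by
    change avgMap (G ⧸ D) u (projEquiv 𝒰 A hD hA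
      ((projEquiv 𝒰 A hD hA).symm (constMap (k := k) (G ⧸ D) a))) = a
    rw [LinearEquiv.apply_symm_apply]
    exact avgMap_constMap (G ⧸ D) hu a
  iZ_pZ := hom_ext_apply fun z => by
    change zPart (G ⧸ D) u hu (projEquiv 𝒰 A hD hA
      ((projEquiv 𝒰 A hD hA).symm (z : G ⧸ D → A))) = z
    rw [LinearEquiv.apply_symm_apply]
    exact zPart_coe (G ⧸ D) hu z
  iA_pZ := hom_ext_apply fun a => by
    change zPart (G ⧸ D) u hu (projEquiv 𝒰 A hD hA
      ((projEquiv 𝒰 A hD hA).symm (constMap (k := k) (G ⧸ D) a))) = 0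
    rw [LinearEquiv.apply_symm_apply]
    exact zPart_constMap (G ⧸ D) hu a
  iZ_pA := hom_ext_apply fun z => by
    change avgMap (G ⧸ D) u (projEquiv 𝒰 A hD hA
      ((projEquiv 𝒰 A hD hA).symm (z : G ⧸ D → A))) = 0
    rw [LinearEquiv.apply_symm_apply]
    exact avgMap_coe (G ⧸ D) u z
  sum := hom_ext_apply fun φ => by
    change (projEquiv 𝒰 A hD hA).symm (constMap (k := k) (G ⧸ D)
        (avgMap (G ⧸ D) u (projEquiv 𝒰 A hD hA φ))) +
      (projEquiv 𝒰 A hD hA).symm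
        ((zPart (G ⧸ D) u hu (projEquiv 𝒰 A hD hA φ) : sumZero (k := k) (X := A) (G ⧸ D)) :
          G ⧸ D → A) = φ
    rw [← map_add, constMap_avgMap_add_zPart (G ⧸ D) hu, LinearEquiv.symm_apply_apply]

include hD hA in
/-- `Hⁿ(G, sInd (Res A)) = Hⁿ(G, A) ⊕ Hⁿ(G, Z_A)` on dimensions. -/
theorem finrank_H_sIndRes (u : kˣ) (hu : (u : k) = Fintype.card (G ⧸ D)) (n : ℕ)
    [Module.Finite k (H 𝒰 A n)] [Module.Finite k (H 𝒰 (zRep D A) n)] :
    Module.finrank k (H 𝒰 (sInd 𝒰 D (Rep.res D.subtype A)) n) =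
      Module.finrank k (H 𝒰 A n) + Module.finrank k (H 𝒰 (zRep D A) n) :=
  (splitSIndRes 𝒰 hD A hA u hu).finrank_H 𝒰 n

include hD hA in
/-- The invariants of an element decompose in the same way. -/
theorem finrank_fix_sIndRes (u : kˣ) (hu : (u : k) = Fintype.card (G ⧸ D)) (c : G)
    [Module.Finite k A] [Module.Finite k (zRep D A)] :
    Module.finrank k (LinearMap.ker ((sInd 𝒰 D (Rep.res D.subtype A)).ρ c - 1)) =
      Module.finrank k (LinearMap.ker (A.ρ c - 1)) +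
        Module.finrank k (LinearMap.ker ((zRep D A).ρ c - 1)) :=
  (splitSIndRes 𝒰 hD A hA u hu).finrank_fix c

include hD hA in
theorem finrank_sIndRes (u : kˣ) (hu : (u : k) = Fintype.card (G ⧸ D))
    [Module.Finite k A] [Module.Finite k (zRep D A)] :
    Module.finrank k (sInd 𝒰 D (Rep.res D.subtype A)) =
      Module.finrank k A + Module.finrank k (zRep D A) :=
  (splitSIndRes 𝒰 hD A hA u hu).finrank_V

include hD hA in
/-- `Z_A` is smooth. -/
theorem isSmooth_zRep (u : kˣ) (hu : (u : k) = Fintype.card (G ⧸ D)) :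
    IsSmooth 𝒰 (zRep D A) :=
  (splitSIndRes 𝒰 hD A hA u hu).isSmooth_Z (isSmooth_sInd 𝒰 D _)

end SplitSInd

end Fermat.Agent.S56.Base.EC.Split
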