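/-
PROJECT T (S56), block (a1-II) Base / EC, leaf SubAdd (helper26).

Subadditivity of the truncated Euler characteristic `h⁰ - h¹ + h²` of level-constant cohomology on
short exact sequences (no `H³` input), with the exact defect `h²(X₃) - rank(H²(X₂) → H²(X₃))`,
and additivity of the dimension of the invariants of an involution when `2` is invertible.
Generic in `(k, G, 𝒰)`.
-/
import Fermat.Agent.CFT.LC.Elementwise

set_option autoImplicit false

noncomputable section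

namespace Fermat.Agent.S56.Base.EC.SubAdd

open CategoryTheory Fermat.Agent.CFT.LC

variable {k G : Type} [Field k] [Group G]

section Chi

variable {𝒰 : Levels G} [𝒰.IsFin]
  {X : ShortComplex (Rep.{0} k G)} (hX : X.ShortExact) (hsm : IsSmooth 𝒰 X.X₂)

/-- `Hⁱ(X₁) → Hⁱ(X₂)` as a linear map. -/
abbrev aMap (X : ShortComplex (Rep.{0} k G)) (𝒰 : Levels G) (i : ℕ) :
    H 𝒰 X.X₁ i →ₗ[k] H 𝒰 X.X₂ i := (mapId (𝒰 := 𝒰) X.f i).hom

/-- `Hⁱ(X₂) → Hⁱ(X₃)` as a linear map. -/
abbrev bMap (X : ShortComplex (Rep.{0} k G)) (𝒰 : Levels G) (i : ℕ) :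
    H 𝒰 X.X₂ i →ₗ[k] H 𝒰 X.X₃ i := (mapId (𝒰 := 𝒰) X.g i).hom

/-- The connecting map `Hⁱ(X₃) → Hⁱ⁺¹(X₁)` as a linear map. -/
abbrev dMap (i : ℕ) : H 𝒰 X.X₃ i →ₗ[k] H 𝒰 X.X₁ (i + 1) := (lcδ hX hsm i (i + 1) rfl).hom

include hX hsm in
lemma ker_bMap (i : ℕ) : LinearMap.ker (bMap X 𝒰 i) = LinearMap.range (aMap X 𝒰 i) := by
  ext y
  rw [LinearMap.mem_ker, LinearMap.mem_range]
  constructor
  · intro hy
    exact El.exists_mapId_f_eq hX hsm i y hy
  · rintro ⟨x, rfl⟩
    exact El.mapId_g_f_apply i x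

lemma ker_dMap (i : ℕ) : LinearMap.ker (dMap hX hsm i) = LinearMap.range (bMap X 𝒰 i) := by
  ext z
  rw [LinearMap.mem_ker, LinearMap.mem_range]
  constructor
  · intro hz
    exact El.exists_mapId_g_eq hX hsm i (i + 1) rfl z hz
  · rintro ⟨y, rfl⟩
    exact El.lcδ_mapId_g_apply hX hsm i (i + 1) rfl y

lemma ker_aMap_succ (i : ℕ) :
    LinearMap.ker (aMap X 𝒰 (i + 1)) = LinearMap.range (dMap hX hsm i) := by
  ext y
  rw [LinearMap.mem_ker, LinearMap.mem_range]
  constructor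
  · intro hy
    exact El.exists_lcδ_eq hX hsm i (i + 1) rfl y hy
  · rintro ⟨x, rfl⟩
    exact El.mapId_f_lcδ_apply hX hsm i (i + 1) rfl x

omit [𝒰.IsFin] in
include hX in
/-- `H⁰(X₁) → H⁰(X₂)` is injective. -/
lemma aMap_zero_injective : Function.Injective (aMap X 𝒰 0) := by
  have hinj : Function.Injective X.f.hom := (Rep.mono_iff_injective X.f).1 hX.mono_f
  rw [injective_iff_map_eq_zero]
  intro x hx
  induction x using H_induction_on with
  | h z =>
    have h1 := map_Hπ (A := X.X₁) (B := X.X₂) (Levels.continuous_id 𝒰) X.f 0 z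
    have hx' : map (A := X.X₁) (B := X.X₂) (Levels.continuous_id 𝒰) X.f 0 (Hπ 𝒰 X.X₁ 0 z) = 0 := hx
    rw [h1, Hπ_eq_zero_iff_zero] at hx'
    have hz : z = 0 := by
      apply Subtype.ext
      apply Subtype.ext
      funext g
      apply hinj
      have := congrFun (congrArg (fun w => w.1.1) hx') g
      exact this.trans (map_zero X.f.hom).symm
    rw [hz, map_zero]

/-- The truncated Euler characteristic `h⁰ - h¹ + h²`. -/
def chiOf (𝒰 : Levels G) (A : Rep.{0} k G) : ℤ :=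
  (Module.finrank k (H 𝒰 A 0) : ℤ) - Module.finrank k (H 𝒰 A 1) + Module.finrank k (H 𝒰 A 2)

include hX hsm in
/-- **Truncated additivity with defect**: `χ(X₂) + (h²(X₃) - rank(H²X₂ → H²X₃)) = χ(X₁) + χ(X₃)`. -/
theorem chi_add_eq (h1 : ∀ i, i ≤ 2 → Module.Finite k (H 𝒰 X.X₁ i))
    (h2 : ∀ i, i ≤ 2 → Module.Finite k (H 𝒰 X.X₂ i))
    (h3 : ∀ i, i ≤ 2 → Module.Finite k (H 𝒰 X.X₃ i)) :
    chiOf 𝒰 X.X₂ + ((Module.finrank k (H 𝒰 X.X₃ 2) : ℤ) -
        Module.finrank k (LinearMap.range (bMap X 𝒰 2))) =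
      chiOf 𝒰 X.X₁ + chiOf 𝒰 X.X₃ := by
  have := h1 0 (by norm_num); have := h1 1 (by norm_num); have := h1 2 (by norm_num)
  have := h2 0 (by norm_num); have := h2 1 (by norm_num); have := h2 2 (by norm_num)
  have := h3 0 (by norm_num); have := h3 1 (by norm_num); have := h3 2 (by norm_num)
  have ea0 := LinearMap.finrank_range_add_finrank_ker (aMap X 𝒰 0)
  have eb0 := LinearMap.finrank_range_add_finrank_ker (bMap X 𝒰 0)
  have ed0 := LinearMap.finrank_range_add_finrank_ker (dMap hX hsm 0)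
  have ea1 := LinearMap.finrank_range_add_finrank_ker (aMap X 𝒰 1)
  have eb1 := LinearMap.finrank_range_add_finrank_ker (bMap X 𝒰 1)
  have ed1 := LinearMap.finrank_range_add_finrank_ker (dMap hX hsm 1)
  have ea2 := LinearMap.finrank_range_add_finrank_ker (aMap X 𝒰 2)
  have eb2 := LinearMap.finrank_range_add_finrank_ker (bMap X 𝒰 2)
  have hk0 : Module.finrank k (LinearMap.ker (aMap X 𝒰 0)) = 0 := by
    rw [LinearMap.ker_eq_bot.2 (aMap_zero_injective hX), finrank_bot]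
  rw [hk0] at ea0
  rw [ker_bMap hX hsm 0] at eb0
  rw [ker_dMap hX hsm 0] at ed0
  rw [ker_aMap_succ hX hsm 0] at ea1
  rw [ker_bMap hX hsm 1] at eb1
  rw [ker_dMap hX hsm 1] at ed1
  rw [ker_aMap_succ hX hsm 1] at ea2
  rw [ker_bMap hX hsm 2] at eb2
  unfold chiOf
  zify at ea0 eb0 ed0 ea1 eb1 ed1 ea2 eb2
  linarith

include hX hsm in
/-- **Subadditivity of the truncated Euler characteristic** (no `H³` needed). -/
theorem chi_le_add (h1 : ∀ i, i ≤ 2 → Module.Finite k (H 𝒰 X.X₁ i))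
    (h2 : ∀ i, i ≤ 2 → Module.Finite k (H 𝒰 X.X₂ i))
    (h3 : ∀ i, i ≤ 2 → Module.Finite k (H 𝒰 X.X₃ i)) :
    chiOf 𝒰 X.X₂ ≤ chiOf 𝒰 X.X₁ + chiOf 𝒰 X.X₃ := by
  have := h3 2 le_rfl
  have h := chi_add_eq hX hsm h1 h2 h3
  have hle : (Module.finrank k (LinearMap.range (bMap X 𝒰 2)) : ℤ) ≤
      Module.finrank k (H 𝒰 X.X₃ 2) := by
    exact_mod_cast Submodule.finrank_le _
  linarith

include hX hsm in
/-- Equality when `H²(X₂) → H²(X₃)` is onto. -/
theorem chi_eq_add_of_surjective (h1 : ∀ i, i ≤ 2 → Module.Finite k (H 𝒰 X.X₁ i))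
    (h2 : ∀ i, i ≤ 2 → Module.Finite k (H 𝒰 X.X₂ i))
    (h3 : ∀ i, i ≤ 2 → Module.Finite k (H 𝒰 X.X₃ i))
    (hs : Function.Surjective (bMap X 𝒰 2)) :
    chiOf 𝒰 X.X₂ = chiOf 𝒰 X.X₁ + chiOf 𝒰 X.X₃ := by
  have h := chi_add_eq hX hsm h1 h2 h3
  rw [LinearMap.range_eq_top.2 hs, finrank_top] at h
  linarith

end Chi

section Invariants

variable {X : ShortComplex (Rep.{0} k G)} (hX : X.ShortExact)

include hX in
lemma f_injective : Function.Injective X.f.hom := (Rep.mono_iff_injective X.f).1 hX.mono_f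

include hX in
lemma g_surjective : Function.Surjective X.g.hom := (Rep.epi_iff_surjective X.g).1 hX.epi_g

include hX in
lemma exists_f_eq (b : X.X₂) (hb : X.g.hom b = 0) : ∃ a : X.X₁, X.f.hom a = b := by
  have : LinearMap.range X.f.hom.toLinearMap = LinearMap.ker X.g.hom.toLinearMap :=
    (hX.exact.map (forget₂ (Rep k G) (ModuleCat k))).moduleCat_range_eq_ker
  have hb' : b ∈ LinearMap.ker X.g.hom.toLinearMap := hb
  rw [← this] at hb'
  exact hb'

omit hX in
lemma g_f_apply (a : X.X₁) : X.g.hom (X.f.hom a) = 0 :=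
  congrArg (fun φ => φ.hom a) X.zero

include hX in
/-- `dim X₂ = dim X₁ + dim X₃`. -/
theorem finrank_add [Module.Finite k X.X₂] :
    Module.finrank k X.X₂ = Module.finrank k X.X₁ + Module.finrank k X.X₃ := by
  have e := LinearMap.finrank_range_add_finrank_ker X.g.hom.toLinearMap
  have hr : LinearMap.range X.g.hom.toLinearMap = ⊤ :=
    LinearMap.range_eq_top.2 (g_surjective hX)
  have hk : LinearMap.ker X.g.hom.toLinearMap = LinearMap.range X.f.hom.toLinearMap := by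
    ext b
    rw [LinearMap.mem_ker, LinearMap.mem_range]
    exact ⟨fun hb => exists_f_eq hX b hb, fun ⟨a, ha⟩ => ha ▸ g_f_apply a⟩
  rw [hr, finrank_top, hk,
    LinearMap.finrank_range_of_inj (f := X.f.hom.toLinearMap) (f_injective hX)] at e
  omega

/-- The fixed space of `c`. -/
abbrev fixOf (A : Rep.{0} k G) (c : G) : Submodule k A := LinearMap.ker (A.ρ c - 1)

lemma mem_fixOf {A : Rep.{0} k G} {c : G} {a : A} : a ∈ fixOf A c ↔ A.ρ c a = a := by
  rw [LinearMap.mem_ker, LinearMap.sub_apply, Module.End.one_apply, sub_eq_zero]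

/-- `X₁^c → X₂^c`. -/
def fFix (c : G) : fixOf X.X₁ c →ₗ[k] fixOf X.X₂ c :=
  X.f.hom.toLinearMap.restrict fun a ha => by
    rw [mem_fixOf] at ha ⊢
    change X.X₂.ρ c (X.f.hom a) = X.f.hom a
    rw [← Rep.hom_comm_apply, ha]

/-- `X₂^c → X₃^c`. -/
def gFix (c : G) : fixOf X.X₂ c →ₗ[k] fixOf X.X₃ c :=
  X.g.hom.toLinearMap.restrict fun a ha => by
    rw [mem_fixOf] at ha ⊢
    change X.X₃.ρ c (X.g.hom a) = X.g.hom a
    rw [← Rep.hom_comm_apply, ha]

include hX in
lemma fFix_injective (c : G) : Function.Injective (fFix (X := X) c) := by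
  intro a a' h
  apply Subtype.ext
  apply f_injective hX
  exact congrArg Subtype.val h

include hX in
lemma gFix_surjective (c : G) (hc : c * c = 1) (h2 : (2 : k) ≠ 0) :
    Function.Surjective (gFix (X := X) c) := by
  intro z
  obtain ⟨y, hy⟩ := g_surjective hX z.1
  have hz : X.X₃.ρ c z.1 = z.1 := mem_fixOf.1 z.2
  have hcc : ∀ v : X.X₂, X.X₂.ρ c (X.X₂.ρ c v) = v := fun v => by
    rw [← Module.End.mul_apply, ← map_mul, hc, map_one, Module.End.one_apply]
  refine ⟨⟨(2 : k)⁻¹ • (y + X.X₂.ρ c y), ?_⟩, ?_⟩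
  · rw [mem_fixOf, map_smul, map_add, hcc, add_comm]
  · apply Subtype.ext
    change X.g.hom ((2 : k)⁻¹ • (y + X.X₂.ρ c y)) = z.1
    rw [map_smul, map_add, Rep.hom_comm_apply, hy, hz, ← two_smul k z.1, smul_smul,
      inv_mul_cancel₀ h2, one_smul]

include hX in
lemma ker_gFix (c : G) : LinearMap.ker (gFix (X := X) c) = LinearMap.range (fFix (X := X) c) := by
  ext y
  rw [LinearMap.mem_ker, LinearMap.mem_range]
  constructor
  · intro hy
    have hy' : X.g.hom y.1 = 0 := congrArg Subtype.val hy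
    obtain ⟨a, ha⟩ := exists_f_eq hX y.1 hy'
    have hfix : X.X₁.ρ c a = a := by
      apply f_injective hX
      rw [Rep.hom_comm_apply, ha]
      exact mem_fixOf.1 y.2
    exact ⟨⟨a, mem_fixOf.2 hfix⟩, Subtype.ext ha⟩
  · rintro ⟨a, rfl⟩
    apply Subtype.ext
    exact g_f_apply a.1

include hX in
/-- **Additivity of the invariants of an involution** when `2` is invertible. -/
theorem finrank_fix_add (c : G) (hc : c * c = 1) (h2 : (2 : k) ≠ 0) [Module.Finite k X.X₂] :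
    Module.finrank k (fixOf X.X₂ c) =
      Module.finrank k (fixOf X.X₁ c) + Module.finrank k (fixOf X.X₃ c) := by
  have e := LinearMap.finrank_range_add_finrank_ker (gFix (X := X) c)
  rw [LinearMap.range_eq_top.2 (gFix_surjective hX c hc h2), finrank_top, ker_gFix hX c,
    LinearMap.finrank_range_of_inj (fFix_injective hX c)] at e
  omega

end Invariants

end Fermat.Agent.S56.Base.EC.SubAdd
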