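/-
PROJECT T (S56), block (a1-II) Base / EC, Reduce (helper26): generic lemmas for `EC/Reduce.lean`.

* `finite_H_middle`   : `Hⁱ(X₂)` finite-dimensional if `Hⁱ(X₁)`, `Hⁱ(X₃)` are;
* `finite_sInd`       : `sInd 𝒰 D B` is finite-dimensional for `D` open, `B` smooth and finite;
* `finite_H_of_split` : finiteness of the cohomology of direct summands;
* `subRep`, `quoRep`, `ses`, `ses_shortExact` : `0 → W → N → N ⧸ W → 0` in `Rep k G`;
* `exists_fixed_ne_zero` : a subgroup acting through elements of order dividing `p` on a non-zero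
  finite-dimensional `𝔽_p`-space has a non-zero fixed vector;
* `sIndTopIso`        : `sInd 𝒰 ⊤ (Res Z) ≅ Z` for `Z` smooth;
* `invSub`            : the invariants of a normal subgroup, a stable subspace; properties of
  `subRep`, `quoRep` (smoothness, triviality, dimension).
-/
import Fermat.Agent.S56.Base.EC.Split
import Fermat.Agent.S56.Base.EC.SubAdd

set_option autoImplicit false
set_option linter.unusedSectionVars false
set_option linter.style.haveILetI false

noncomputable section

namespace Fermat.Agent.S56.Base.EC.ReduceLemmas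

open CategoryTheory Fermat.Agent.CFT.LC Fermat.Agent.S56.Base.EC

variable {k G : Type} [Field k] [Group G]

/-! ### Finiteness of the middle term -/

section Middle

variable {𝒰 : Levels G} [𝒰.IsFin]
  {X : ShortComplex (Rep.{0} k G)} (hX : X.ShortExact) (hsm : IsSmooth 𝒰 X.X₂)

include hX hsm in
/-- `Hⁱ(X₂)` is finite-dimensional if `Hⁱ(X₁)` and `Hⁱ(X₃)` are. -/
theorem finite_H_middle (i : ℕ) [Module.Finite k (H 𝒰 X.X₁ i)] [Module.Finite k (H 𝒰 X.X₃ i)] :
    Module.Finite k (H 𝒰 X.X₂ i) := by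
  have h1 : Module.Finite k (LinearMap.ker (SubAdd.bMap X 𝒰 i)) := by
    rw [SubAdd.ker_bMap hX hsm i]
    exact Module.Finite.range _
  have h2 : Module.Finite k (H 𝒰 X.X₂ i ⧸ LinearMap.ker (SubAdd.bMap X 𝒰 i)) :=
    Module.Finite.equiv (SubAdd.bMap X 𝒰 i).quotKerEquivRange.symm
  exact Module.Finite.of_submodule_quotient (LinearMap.ker (SubAdd.bMap X 𝒰 i))

end Middle

/-! ### Finiteness of an induced module -/

theorem finite_sInd (𝒰 : Levels G) [𝒰.IsFin] {D : Subgroup G} (hD : 𝒰.IsOpen D)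
    (B : Rep.{0} k D) (hB : IsSmooth (𝒰.restrict D) B) [Module.Finite k B.V] :
    Module.Finite k (sInd 𝒰 D B).V := by
  have hfi : D.FiniteIndex := hD.finiteIndex
  have : Finite (SInd.RQ D) :=
    Finite.of_equiv _ (QuotientGroup.quotientRightRelEquivQuotientLeftRel D).symm
  exact Module.Finite.equiv (SInd.evalEquiv 𝒰 B hD hB).symm

/-! ### Finiteness of the cohomology of direct summands -/

theorem finite_H_of_split {𝒰 : Levels G} {S A Z : Rep.{0} k G} (d : Split.SplitData S A Z) (n : ℕ)
    [Module.Finite k (H 𝒰 S n)] :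
    Module.Finite k (H 𝒰 A n) ∧ Module.Finite k (H 𝒰 Z n) := by
  have h : Module.Finite k (H 𝒰 A n × H 𝒰 Z n) := Module.Finite.equiv (d.hEquiv 𝒰 n)
  exact ⟨Module.Finite.of_surjective (LinearMap.fst k (H 𝒰 A n) (H 𝒰 Z n))
      LinearMap.fst_surjective,
    Module.Finite.of_surjective (LinearMap.snd k (H 𝒰 A n) (H 𝒰 Z n))
      LinearMap.snd_surjective⟩

/-! ### Sub- and quotient representations -/

section SubQuot

variable (N : Rep.{0} k G) (W : Submodule k N.V) (hW : ∀ g, W ≤ W.comap (N.ρ g))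

/-- the subrepresentation on `W` -/
abbrev subRep : Rep.{0} k G := Rep.of (N.ρ.subrepresentation W hW)

/-- the quotient representation on `N ⧸ W` -/
abbrev quoRep : Rep.{0} k G := Rep.of (N.ρ.quotient W hW)

/-- the short complex `W → N → N ⧸ W` -/
def ses : ShortComplex (Rep.{0} k G) :=
  ShortComplex.mk (X₁ := subRep N W hW) (X₂ := N) (X₃ := quoRep N W hW)
    (Split.mkHom (A := subRep N W hW) (B := N) W.subtype fun _ _ => rfl)
    (Split.mkHom (A := N) (B := quoRep N W hW) W.mkQ fun _ _ => rfl)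
    (by
      apply Split.hom_ext_apply
      intro a
      change W.mkQ (W.subtype a) = 0
      simp)

theorem ses_shortExact : (ses N W hW).ShortExact := by
  refine { exact := ?_, mono_f := ?_, epi_g := ?_ }
  · rw [← ShortComplex.exact_map_iff_of_faithful _ (forget₂ (Rep k G) (ModuleCat k)),
      ShortComplex.moduleCat_exact_iff]
    intro (x : N.V) hx
    have hx' : W.mkQ x = 0 := hx
    rw [Submodule.mkQ_apply, Submodule.Quotient.mk_eq_zero] at hx'
    exact ⟨(⟨x, hx'⟩ : W), rfl⟩
  · rw [Rep.mono_iff_injective]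
    exact Subtype.val_injective
  · rw [Rep.epi_iff_surjective]
    exact Submodule.mkQ_surjective W

end SubQuot

/-! ### Fixed vectors of a group acting through elements of order `p` -/

section Fixed

variable {p : ℕ} [hp : Fact p.Prime] {Γ : Type} [Group Γ] {V : Type} [AddCommGroup V]
  [Module (ZMod p) V]

/-- A subgroup all of whose elements act with order dividing `p` on a non-zero finite-dimensional
`𝔽_p`-vector space fixes a non-zero vector. -/
theorem exists_fixed_ne_zero [Module.Finite (ZMod p) V] [Nontrivial V]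
    (ρ : Representation (ZMod p) Γ V) (Hs : Subgroup Γ) (hH : ∀ h ∈ Hs, (ρ h) ^ p = 1) :
    ∃ v : V, v ≠ 0 ∧ ∀ h ∈ Hs, ρ h v = v := by
  classical
  haveI : Finite V := Module.finite_of_finite (ZMod p)
  let Q : Subgroup (V →ₗ[ZMod p] V)ˣ := (ρ.asGroupHom.comp Hs.subtype).range
  have hQ : IsPGroup p Q := by
    rintro ⟨q, h, rfl⟩
    refine ⟨1, ?_⟩
    apply Subtype.ext
    apply Units.ext
    rw [pow_one]
    change ((ρ.asGroupHom (h : Γ)) ^ p : (V →ₗ[ZMod p] V)ˣ).1 = 1
    rw [Units.val_pow_eq_pow_val, Representation.asGroupHom_apply]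
    exact hH h h.2
  letI : MulAction Q V :=
    { smul := fun q v => (q.1 : V →ₗ[ZMod p] V) v
      one_smul := fun v => rfl
      mul_smul := fun q q' v => rfl }
  have hsmul : ∀ (q : Q) (w : V), q • w = (q.1 : V →ₗ[ZMod p] V) w := fun _ _ => rfl
  have h1 := hQ.card_modEq_card_fixedPoints V
  have hcardV : p ∣ Nat.card V := by
    have h2 : Nat.card V = Nat.card (ZMod p) ^ Module.finrank (ZMod p) V :=
      Module.natCard_eq_pow_finrank (K := ZMod p) (V := V)
    rw [h2, Nat.card_zmod]
    exact dvd_pow_self p (Module.finrank_pos (R := ZMod p) (M := V)).ne'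
  have h4 : p ∣ Nat.card (MulAction.fixedPoints Q V) := by
    have := (Nat.modEq_zero_iff_dvd.2 hcardV).symm.trans h1
    exact Nat.modEq_zero_iff_dvd.1 this.symm
  by_contra hcon
  push Not at hcon
  have h5 : ∀ w : MulAction.fixedPoints Q V, w = ⟨0, fun q => by rw [hsmul, map_zero]⟩ := by
    rintro ⟨w, hw⟩
    by_contra hne
    have hw0 : w ≠ 0 := fun h => hne (Subtype.ext h)
    obtain ⟨x, hxP, hx⟩ := hcon w hw0
    apply hx
    have := hw ⟨ρ.asGroupHom x, ⟨⟨x, hxP⟩, rfl⟩⟩
    rw [hsmul] at this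
    exact this
  have h6 : Nat.card (MulAction.fixedPoints Q V) = 1 := by
    rw [Nat.card_eq_one_iff_unique]
    exact ⟨⟨fun a b => by rw [h5 a, h5 b]⟩, ⟨⟨0, fun q => by rw [hsmul, map_zero]⟩⟩⟩
  rw [h6] at h4
  exact hp.out.one_lt.ne' (Nat.dvd_one.1 h4)

end Fixed

/-! ### Induction from the whole group -/

section Top

variable (𝒰 : Levels G) (Z : Rep.{0} k G) (hZ : IsSmooth 𝒰 Z)

/-- `sInd 𝒰 ⊤ (Res Z) ≅ Z` for `Z` smooth. -/
def sIndTopIso : sInd 𝒰 (⊤ : Subgroup G) (Rep.res (⊤ : Subgroup G).subtype Z) ≅ Z where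
  hom := Split.mkHom (A := sInd 𝒰 (⊤ : Subgroup G) (Rep.res (⊤ : Subgroup G).subtype Z)) (B := Z)
    { toFun := fun φ => iFn φ 1
      map_add' := fun _ _ => rfl
      map_smul' := fun _ _ => rfl }
    (fun g φ => by
      change iFn φ (1 * g) = Z.ρ g (iFn φ 1)
      have h := iFn_equivariant φ (⟨g, Subgroup.mem_top g⟩ : (⊤ : Subgroup G)) 1
      rw [one_mul]
      rw [mul_one] at h
      exact h)
  inv := Split.mkHom (A := Z) (B := sInd 𝒰 (⊤ : Subgroup G) (Rep.res (⊤ : Subgroup G).subtype Z))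
    { toFun := fun z => iMk (𝒰 := 𝒰) (D := (⊤ : Subgroup G))
          (B := Rep.res (⊤ : Subgroup G).subtype Z) (fun x => Z.ρ x z)
          (fun d x => by
            change Z.ρ ((d : G) * x) z = Z.ρ (d : G) (Z.ρ x z)
            rw [map_mul, Module.End.mul_apply])
          (by
            obtain ⟨V, hV, h⟩ := hZ z
            exact ⟨V, hV, fun x s hs => by
              rw [map_mul, Module.End.mul_apply, h s hs]⟩)
      map_add' := fun z z' => by
        refine iFn_ext fun x => ?_
        change Z.ρ x (z + z') = Z.ρ x z + Z.ρ x z'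
        rw [map_add]
      map_smul' := fun c z => by
        refine iFn_ext fun x => ?_
        change Z.ρ x (c • z) = c • Z.ρ x z
        rw [map_smul] }
    (fun g z => by
      refine iFn_ext fun x => ?_
      change Z.ρ x (Z.ρ g z) = Z.ρ (x * g) z
      rw [map_mul, Module.End.mul_apply])
  hom_inv_id := by
    apply Split.hom_ext_apply
    intro φ
    refine iFn_ext fun x => ?_
    change Z.ρ x (iFn φ 1) = iFn φ x
    have h := iFn_equivariant φ (⟨x, Subgroup.mem_top x⟩ : (⊤ : Subgroup G)) 1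
    rw [mul_one] at h
    exact h.symm
  inv_hom_id := by
    apply Split.hom_ext_apply
    intro z
    change Z.ρ 1 z = z
    rw [map_one, Module.End.one_apply]

end Top

/-! ### Invariants of a normal subgroup, properties of sub- and quotient representations -/

section Inv

variable (N : Rep.{0} k G) (Hn : Subgroup G) [hHn : Hn.Normal]

/-- the invariants of the subgroup `Hn` -/
def invSub : Submodule k N.V where
  carrier := {v | ∀ h ∈ Hn, N.ρ h v = v}
  add_mem' := fun {v w} hv hw h hh => by rw [map_add, hv h hh, hw h hh]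
  zero_mem' := fun h _ => map_zero _
  smul_mem' := fun c v hv h hh => by rw [map_smul, hv h hh]

theorem mem_invSub {v : N.V} : v ∈ invSub N Hn ↔ ∀ h ∈ Hn, N.ρ h v = v := Iff.rfl

theorem invSub_stable (g : G) : invSub N Hn ≤ (invSub N Hn).comap (N.ρ g) := by
  intro v hv h hh
  have h1 : g⁻¹ * h * g ∈ Hn := by
    have := hHn.conj_mem h hh g⁻¹
    rwa [inv_inv] at this
  have h2 : h * g = g * (g⁻¹ * h * g) := by group
  change N.ρ h (N.ρ g v) = N.ρ g v
  rw [← Module.End.mul_apply, ← map_mul, h2, map_mul, Module.End.mul_apply, hv _ h1]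

theorem invSub_eq_top_iff : invSub N Hn = ⊤ ↔ ∀ h ∈ Hn, N.ρ h = 1 := by
  constructor
  · intro htop h hh
    apply LinearMap.ext
    intro v
    have hv : v ∈ invSub N Hn := by rw [htop]; exact Submodule.mem_top
    exact hv h hh
  · intro hall
    rw [eq_top_iff]
    intro v _ h hh
    rw [hall h hh, Module.End.one_apply]

end Inv

section SubQuotProps

variable (N : Rep.{0} k G) (W : Submodule k N.V) (hW : ∀ g, W ≤ W.comap (N.ρ g))

theorem quoRep_ρ_mk (g : G) (x : N.V) :
    (quoRep N W hW).ρ g (Submodule.Quotient.mk x) = Submodule.Quotient.mk (N.ρ g x) := rfl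

theorem quoRep_ρ_eq_one {g : G} (hg : N.ρ g = 1) : (quoRep N W hW).ρ g = 1 := by
  apply LinearMap.ext
  intro y
  induction y using Submodule.Quotient.induction_on with
  | H x =>
    rw [quoRep_ρ_mk, hg]
    rfl

theorem subRep_ρ_coe (g : G) (x : W) :
    (((subRep N W hW).ρ g x : W) : N.V) = N.ρ g (x : N.V) := rfl

theorem subRep_ρ_eq_one {g : G} (hg : ∀ x ∈ W, N.ρ g x = x) : (subRep N W hW).ρ g = 1 := by
  apply LinearMap.ext
  intro y
  apply Subtype.ext
  rw [subRep_ρ_coe]
  exact hg y.1 y.2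

theorem isSmooth_quoRep {𝒱 : Levels G} (hN : IsSmooth 𝒱 N) : IsSmooth 𝒱 (quoRep N W hW) := by
  intro y
  induction y using Submodule.Quotient.induction_on with
  | H x =>
    obtain ⟨V, hV, h⟩ := hN x
    exact ⟨V, hV, fun s hs => by rw [quoRep_ρ_mk, h s hs]⟩

theorem isSmooth_subRep {𝒱 : Levels G} (hN : IsSmooth 𝒱 N) : IsSmooth 𝒱 (subRep N W hW) := by
  intro y
  obtain ⟨V, hV, h⟩ := hN y.1
  exact ⟨V, hV, fun s hs => Subtype.ext (by rw [subRep_ρ_coe, h s hs])⟩

theorem finrank_quoRep_lt [Module.Finite k N.V] (hne : W ≠ ⊥) :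
    Module.finrank k (quoRep N W hW).V < Module.finrank k N.V := by
  have h1 := Submodule.finrank_quotient_add_finrank W
  have h2 : 0 < Module.finrank k W := by
    rw [Nat.pos_iff_ne_zero, Ne, Submodule.finrank_eq_zero]
    exact hne
  change Module.finrank k (N.V ⧸ W) < _
  omega

end SubQuotProps

end Fermat.Agent.S56.Base.EC.ReduceLemmas
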