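/-
PROJECT T (S56), block (a1-II) Base / EC (helper26): `SubAdd` in the literal names of the seam
`S56/Base/EC.lean` (helper23): subadditivity of `chi S`, additivity of `chiInf` for `p` odd, hence
subadditivity of `defect S` on short exact sequences; additivity on split sequences.
-/
import Fermat.Agent.S56.Base.EC
import Fermat.Agent.S56.Base.EC.SubAdd
import Fermat.Agent.S56.Base.EC.Split

set_option autoImplicit false

noncomputable section

namespace Fermat.Agent.S56.Base.EC.SubAddEC

open CategoryTheory Fermat.Agent.CFT.LC Fermat.Agent.CFT.Bridge Fermat.Agent.S56.Base.EC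

variable {p : ℕ} [Fact p.Prime] (S : Finset Nat.Primes)

lemma chi_eq_chiOf (N : Rep.{0} (ZMod p) GQ) : chi S N = SubAdd.chiOf (levelsS S) N := rfl

lemma complexConjugation_mul_self' : complexConjugation * complexConjugation = 1 :=
  complexConjugation_mul_self

lemma two_ne_zero_of_odd (hp2 : p ≠ 2) : (2 : ZMod p) ≠ 0 := by
  intro h
  have h2 : ((2 : ℕ) : ZMod p) = 0 := by exact_mod_cast h
  rw [ZMod.natCast_eq_zero_iff] at h2
  have := (Nat.prime_dvd_prime_iff_eq (Fact.out : p.Prime) Nat.prime_two).1 h2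
  exact hp2 this

variable {X : ShortComplex (Rep.{0} (ZMod p) GQ)} (hX : X.ShortExact)

include hX in
/-- `chi S` is subadditive on short exact sequences (no `H³` input). -/
theorem chi_le_add (hsm : IsSmooth (levelsS S) X.X₂)
    (h1 : ∀ i, i ≤ 2 → Module.Finite (ZMod p) (H (levelsS S) X.X₁ i))
    (h2 : ∀ i, i ≤ 2 → Module.Finite (ZMod p) (H (levelsS S) X.X₂ i))
    (h3 : ∀ i, i ≤ 2 → Module.Finite (ZMod p) (H (levelsS S) X.X₃ i)) :
    chi S X.X₂ ≤ chi S X.X₁ + chi S X.X₃ :=
  SubAdd.chi_le_add hX hsm h1 h2 h3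

include hX in
/-- `chiInf` is additive on short exact sequences for `p` odd. -/
theorem chiInf_add (hp2 : p ≠ 2) [Module.Finite (ZMod p) X.X₂] :
    chiInf X.X₂ = chiInf X.X₁ + chiInf X.X₃ := by
  have e1 := SubAdd.finrank_fix_add hX complexConjugation complexConjugation_mul_self'
    (two_ne_zero_of_odd hp2)
  have e2 := SubAdd.finrank_add hX
  unfold chiInf fixConj
  change Module.finrank (ZMod p) (SubAdd.fixOf X.X₂ complexConjugation) = _ at e1
  zify at e1 e2
  linarith

include hX in
/-- **`defect S` is subadditive on short exact sequences** (`p` odd). -/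
theorem defect_le_add (hp2 : p ≠ 2) (hsm : IsSmooth (levelsS S) X.X₂)
    [Module.Finite (ZMod p) X.X₂]
    (h1 : ∀ i, i ≤ 2 → Module.Finite (ZMod p) (H (levelsS S) X.X₁ i))
    (h2 : ∀ i, i ≤ 2 → Module.Finite (ZMod p) (H (levelsS S) X.X₂ i))
    (h3 : ∀ i, i ≤ 2 → Module.Finite (ZMod p) (H (levelsS S) X.X₃ i)) :
    defect S X.X₂ ≤ defect S X.X₁ + defect S X.X₃ := by
  have ha := chi_le_add S hX hsm h1 h2 h3
  have hb := chiInf_add hX hp2
  unfold defect
  linarith

omit hX in
/-- `defect S` is additive on direct sums. -/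
theorem defect_split {Sr A Z : Rep.{0} (ZMod p) GQ} (d : Split.SplitData Sr A Z)
    [Module.Finite (ZMod p) A] [Module.Finite (ZMod p) Z]
    (hA : ∀ i, i ≤ 2 → Module.Finite (ZMod p) (H (levelsS S) A i))
    (hZ : ∀ i, i ≤ 2 → Module.Finite (ZMod p) (H (levelsS S) Z i)) :
    defect S Sr = defect S A + defect S Z := by
  have := hA 0 (by norm_num); have := hA 1 (by norm_num); have := hA 2 (by norm_num)
  have := hZ 0 (by norm_num); have := hZ 1 (by norm_num); have := hZ 2 (by norm_num)
  have e0 := d.finrank_H (levelsS S) 0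
  have e1 := d.finrank_H (levelsS S) 1
  have e2 := d.finrank_H (levelsS S) 2
  have e3 := d.finrank_fix complexConjugation
  have e4 := d.finrank_V
  unfold defect chi chiInf fixConj h
  zify at e0 e1 e2 e3 e4
  linarith

end Fermat.Agent.S56.Base.EC.SubAddEC
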