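/-
PROJECT T (S56), block (a1-II) Base / EC, REDUCE (A2) (helper26): `defect S M ≤ 0` FROM THE
`ε`-SUMMAND FORMULA OF E3.

`E3Hyp p S` is the export of E3 (`EC/Assemble.lean`, helper11) as a hypothesis: every `N` such that
`resScalars (phi p) N` is an `ε`-summand of a power of `XRep μ_p` (for open `U' ⊴ U` with `μ_p`
trivial on `U'` and `ε` idempotent modulo `p`) has `defect S N = 0` and finite-dimensional `Hⁱ`,
`i ≤ 2`.  From it:

* Step E (`defect_of_iso_sInd_of_higman`): `sInd U N₀` (`N₀` trivial on `U'`, Higman over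
  `Δ = U ⧸ U'`) has defect `0` [`EC/HigmanEps.lean`];
* Step M (`defect_sInd_of_coprime`): Maschke, `p ∤ #Δ`;
* Step A (`defect_sInd_le_zero`): if `p ∤ [U : U']` and `U'` acts on `N₀` through elements of
  order dividing `p`, then `defect S (sInd U N₀) ≤ 0`: filtration by `U'`-invariants and
  subadditivity of the defect (`SubAddEC.defect_le_add`);
* Step Z (`defect_zRep`): the sum-zero part `Z` of `sInd UB (Res M) = M ⊕ Z` is a projective
  `𝔽_p[G_ℚ ⧸ K]`-module (`ReduceDesc.isHigman_sumZero_desc`), hence has defect `0`;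
* **`defect_le_zero`**: `defect S M = defect S (sInd UB (Res M)) - defect S Z ≤ 0`.
-/
import Fermat.Agent.S56.Base.EC.HigmanEps
import Fermat.Agent.S56.Base.EC.SubAddEC
import Fermat.Agent.S56.Base.EC.ReduceLemmas
import Fermat.Agent.S56.Base.EC.ReduceDesc
import Fermat.Agent.CFT.D.ZpModel

set_option autoImplicit false
set_option linter.unusedSectionVars false
set_option linter.style.haveILetI false

noncomputable section

namespace Fermat.Agent.S56.Base.EC.Reduce

open CategoryTheory ExtCitation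
open Fermat.Agent.CFT.LC Fermat.Agent.CFT.Bridge Fermat.Agent.CFT.D.CoeffChange
  Fermat.Agent.CFT.D.DualTwist Fermat.Agent.CFT.D.ZpModel
open Fermat.Agent.S56.Base.EC Fermat.Agent.S56.Base.TI.Proj

variable (p : ℕ) [Fact p.Prime] (S : Finset Nat.Primes)

/-- **The export of E3** (`EC/Assemble.lean`), as a hypothesis: an `ε`-summand of a power of
`XRep μ_p` has defect `0` and finite-dimensional cohomology in degrees `≤ 2`. -/
def E3Hyp : Prop :=
  ∀ (U' U : Subgroup GQ) [(U'.subgroupOf U).Normal] (hle : U' ≤ U),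
    (levelsS S).IsOpen U' → (∀ u ∈ U', cycloChar p u = 1) →
    ∀ {n : ℕ} (ε : Matrix (Fin n) (Fin n) (MonoidAlgebra ℤ (DeltaGrp U' U))), IdemModP p ε →
    ∀ (N : Rep.{0} (ZMod p) GQ) [Module.Finite (ZMod p) N.V],
      EpsSummand (levelsS S) U' U hle ε (resScalars (phi p) (chiRep (cycloChar p)))
        (resScalars (phi p) N) →
      defect S N = 0 ∧ ∀ i, i ≤ 2 → Module.Finite (ZMod p) (H (levelsS S) N i)

variable {p S}

section StepE

variable (U' U : Subgroup GQ) [hn : (U'.subgroupOf U).Normal] (hle : U' ≤ U)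
  (hU' : (levelsS S).IsOpen U') (hcyc : ∀ u ∈ U', cycloChar p u = 1)
  (N₀ : Rep.{0} (ZMod p) ↥U) [Module.Finite (ZMod p) N₀.V]
  (hN₀ : ∀ u : ↥U, (u : GQ) ∈ U' → N₀.ρ u = 1)

include hU' hN₀ in
/-- a representation of `U` trivial on the open subgroup `U'` is smooth -/
theorem isSmooth_of_trivial : IsSmooth ((levelsS S).restrict U) N₀ := by
  intro a
  obtain ⟨V, hV, hVU'⟩ := hU'
  refine ⟨V.subgroupOf U, Levels.subgroupOf_mem_restrict hV U, fun s hs => ?_⟩
  rw [hN₀ s (hVU' (Subgroup.mem_subgroupOf.1 hs)), Module.End.one_apply]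

include hle hU' in
theorem finite_delta : Finite (DeltaGrp U' U) := by
  have h1 : U'.FiniteIndex := hU'.finiteIndex
  have h2 : (U'.subgroupOf U).FiniteIndex := inferInstance
  exact Subgroup.finite_quotient_of_finiteIndex

include hle hU' hcyc in
/-- **Step E**: the E3 export applied to a module isomorphic to an induced module with a Higman
operator. -/
theorem defect_of_iso_sInd_of_higman (hE3 : E3Hyp p S) [Fintype (DeltaGrp U' U)]
    (t : N₀.V →ₗ[ZMod p] N₀.V)
    (ht : ∀ y, ∑ δ, HigmanEps.rhoDelta U' U N₀ hN₀ δ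
      (t (HigmanEps.rhoDelta U' U N₀ hN₀ δ⁻¹ y)) = y)
    (N : Rep.{0} (ZMod p) GQ) [Module.Finite (ZMod p) N.V] (e : sInd (levelsS S) U N₀ ≅ N) :
    defect S N = 0 ∧ ∀ i, i ≤ 2 → Module.Finite (ZMod p) (H (levelsS S) N i) := by
  obtain ⟨n, ε, hε, ⟨d⟩⟩ := HigmanEps.exists_epsSummand (phi p) (levelsS S) U' U hle
    (cycloChar p) hcyc N₀ hN₀ t ht
  exact hE3 U' U hle hU' hcyc ε hε N (HigmanEps.ofIsoRes (phi p) (levelsS S) U' U hle d e)

include hle hU' hcyc in
/-- **Step E** for the induced module itself. -/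
theorem defect_sInd_of_higman (hE3 : E3Hyp p S) [Fintype (DeltaGrp U' U)]
    (t : N₀.V →ₗ[ZMod p] N₀.V)
    (ht : ∀ y, ∑ δ, HigmanEps.rhoDelta U' U N₀ hN₀ δ
      (t (HigmanEps.rhoDelta U' U N₀ hN₀ δ⁻¹ y)) = y) :
    defect S (sInd (levelsS S) U N₀) = 0 ∧
      ∀ i, i ≤ 2 → Module.Finite (ZMod p) (H (levelsS S) (sInd (levelsS S) U N₀) i) := by
  have hUo : (levelsS S).IsOpen U := hU'.mono hle
  haveI : Module.Finite (ZMod p) (sInd (levelsS S) U N₀).V :=
    ReduceLemmas.finite_sInd (levelsS S) hUo N₀ (isSmooth_of_trivial U' U hU' N₀ hN₀)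
  exact defect_of_iso_sInd_of_higman U' U hle hU' hcyc N₀ hN₀ hE3 t ht _ (Iso.refl _)

include hle hU' hcyc hN₀ in
/-- **Step M**: Maschke: if `p ∤ #Δ`, every `Δ`-module satisfies Higman's criterion. -/
theorem defect_sInd_of_coprime (hE3 : E3Hyp p S) [Finite (DeltaGrp U' U)]
    (hcop : ¬ p ∣ Nat.card (DeltaGrp U' U)) :
    defect S (sInd (levelsS S) U N₀) = 0 ∧
      ∀ i, i ≤ 2 → Module.Finite (ZMod p) (H (levelsS S) (sInd (levelsS S) U N₀) i) := by
  letI : Fintype (DeltaGrp U' U) := Fintype.ofFinite _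
  have hunit : IsUnit ((Fintype.card (DeltaGrp U' U) : ℕ) : ZMod p) := by
    rw [← Nat.card_eq_fintype_card]
    rw [isUnit_iff_ne_zero, Ne, ZMod.natCast_eq_zero_iff]
    exact hcop
  obtain ⟨t, ht⟩ := isHigman_of_isUnit_card (HigmanEps.rhoDelta U' U N₀ hN₀) hunit
  exact defect_sInd_of_higman U' U hle hU' hcyc N₀ hN₀ hE3 t ht

end StepE

section StepA

variable (U' U : Subgroup GQ) [hn : (U'.subgroupOf U).Normal] (hle : U' ≤ U)
  (hU' : (levelsS S).IsOpen U') (hcyc : ∀ u ∈ U', cycloChar p u = 1)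
  (hE3 : E3Hyp p S) (hp2 : p ≠ 2) [Finite (DeltaGrp U' U)]
  (hcop : ¬ p ∣ Nat.card (DeltaGrp U' U))

include hle hU' hcyc hE3 hp2 hcop in
theorem defect_sInd_le_zero_aux (d : ℕ) :
    ∀ (N₀ : Rep.{0} (ZMod p) ↥U) [Module.Finite (ZMod p) N₀.V],
      Module.finrank (ZMod p) N₀.V = d → IsSmooth ((levelsS S).restrict U) N₀ →
      (∀ u : ↥U, (u : GQ) ∈ U' → N₀.ρ (u ^ p) = 1) →
      defect S (sInd (levelsS S) U N₀) ≤ 0 ∧
        ∀ i, i ≤ 2 → Module.Finite (ZMod p) (H (levelsS S) (sInd (levelsS S) U N₀) i) := by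
  induction d using Nat.strong_induction_on with
  | _ d ih =>
    intro N₀ _ hd hsm hunip
    have hUo : (levelsS S).IsOpen U := hU'.mono hle
    set W := ReduceLemmas.invSub N₀ (U'.subgroupOf U) with hWdef
    have hW : ∀ g, W ≤ W.comap (N₀.ρ g) := ReduceLemmas.invSub_stable N₀ (U'.subgroupOf U)
    by_cases htop : W = ⊤
    · have hN₀ : ∀ u : ↥U, (u : GQ) ∈ U' → N₀.ρ u = 1 := fun u hu =>
        (ReduceLemmas.invSub_eq_top_iff N₀ (U'.subgroupOf U)).1 htop u
          (Subgroup.mem_subgroupOf.2 hu)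
      obtain ⟨h0, hfin⟩ := defect_sInd_of_coprime U' U hle hU' hcyc N₀ hN₀ hE3 hcop
      exact ⟨h0.le, hfin⟩
    · -- the invariants are a non-zero proper subspace
      haveI : Nontrivial N₀.V := by
        by_contra hnt
        rw [not_nontrivial_iff_subsingleton] at hnt
        exact htop (Subsingleton.elim _ _)
      have hne : W ≠ ⊥ := by
        obtain ⟨v, hv0, hv⟩ := ReduceLemmas.exists_fixed_ne_zero N₀.ρ (U'.subgroupOf U)
          (fun h hh => by
            rw [← map_pow]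
            exact hunip h (Subgroup.mem_subgroupOf.1 hh))
        intro hbot
        have hvW : v ∈ W := hv
        rw [hbot, Submodule.mem_bot] at hvW
        exact hv0 hvW
      have hX := ReduceLemmas.ses_shortExact N₀ W hW
      have hX' := map_sIndFunctor_shortExact (levelsS S) U hX hsm
      -- the sub
      have hsub : ∀ u : ↥U, (u : GQ) ∈ U' → (ReduceLemmas.subRep N₀ W hW).ρ u = 1 :=
        fun u hu => ReduceLemmas.subRep_ρ_eq_one N₀ W hW
          (fun x hx => hx u (Subgroup.mem_subgroupOf.2 hu))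
      obtain ⟨e1, f1⟩ := defect_sInd_of_coprime U' U hle hU' hcyc
        (ReduceLemmas.subRep N₀ W hW) hsub hE3 hcop
      -- the quotient
      have hlt : Module.finrank (ZMod p) (ReduceLemmas.quoRep N₀ W hW).V < d := by
        rw [← hd]
        exact ReduceLemmas.finrank_quoRep_lt N₀ W hW hne
      obtain ⟨e3, f3⟩ := ih _ hlt (ReduceLemmas.quoRep N₀ W hW) rfl
        (ReduceLemmas.isSmooth_quoRep N₀ W hW hsm)
        (fun u hu => ReduceLemmas.quoRep_ρ_eq_one N₀ W hW (hunip u hu))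
      -- the middle
      have hsmI : IsSmooth (levelsS S) (sInd (levelsS S) U N₀) := isSmooth_sInd (levelsS S) U N₀
      have f1' : ∀ i, i ≤ 2 → Module.Finite (ZMod p) (H (levelsS S)
          ((ReduceLemmas.ses N₀ W hW).map (sIndFunctor (ZMod p) (levelsS S) U)).X₁ i) := f1
      have f3' : ∀ i, i ≤ 2 → Module.Finite (ZMod p) (H (levelsS S)
          ((ReduceLemmas.ses N₀ W hW).map (sIndFunctor (ZMod p) (levelsS S) U)).X₃ i) := f3
      have f2' : ∀ i, i ≤ 2 → Module.Finite (ZMod p) (H (levelsS S)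
          ((ReduceLemmas.ses N₀ W hW).map (sIndFunctor (ZMod p) (levelsS S) U)).X₂ i) :=
        fun i hi => by
          haveI := f1' i hi
          haveI := f3' i hi
          exact ReduceLemmas.finite_H_middle hX' hsmI i
      have f2 : ∀ i, i ≤ 2 →
          Module.Finite (ZMod p) (H (levelsS S) (sInd (levelsS S) U N₀) i) := f2'
      haveI : Module.Finite (ZMod p)
          ((ReduceLemmas.ses N₀ W hW).map (sIndFunctor (ZMod p) (levelsS S) U)).X₂ :=
        ReduceLemmas.finite_sInd (levelsS S) hUo N₀ hsm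
      have hle' := SubAddEC.defect_le_add S hX' hp2 hsmI f1' f2' f3'
      refine ⟨?_, f2⟩
      have hle'' : defect S (sInd (levelsS S) U N₀) ≤
          defect S (sInd (levelsS S) U (ReduceLemmas.subRep N₀ W hW)) +
            defect S (sInd (levelsS S) U (ReduceLemmas.quoRep N₀ W hW)) := hle'
      linarith

include hle hU' hcyc hE3 hp2 hcop in
/-- **Step A**: if `p ∤ [U : U']` and `U'` acts on `N₀` through elements of order dividing `p`,
then `defect S (sInd U N₀) ≤ 0`. -/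
theorem defect_sInd_le_zero (N₀ : Rep.{0} (ZMod p) ↥U) [Module.Finite (ZMod p) N₀.V]
    (hsm : IsSmooth ((levelsS S).restrict U) N₀)
    (hunip : ∀ u : ↥U, (u : GQ) ∈ U' → N₀.ρ (u ^ p) = 1) :
    defect S (sInd (levelsS S) U N₀) ≤ 0 ∧
      ∀ i, i ≤ 2 → Module.Finite (ZMod p) (H (levelsS S) (sInd (levelsS S) U N₀) i) :=
  defect_sInd_le_zero_aux U' U hle hU' hcyc hE3 hp2 hcop _ N₀ rfl hsm hunip

end StepA

section Main

variable (hp2 : p ≠ 2) (hE3 : E3Hyp p S)
  (M : Rep.{0} (ZMod p) GQ) [Module.Finite (ZMod p) M.V]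
  (K UP UB : Subgroup GQ) [hKn : K.Normal] (hK : (levelsS S).IsOpen K)
  (hKP : K ≤ UP) (hPB : UP ≤ UB)
  (hMK : ∀ g ∈ K, M.ρ g = 1) (hχK : ∀ g ∈ K, cycloChar p g = 1)
  (hnorm : ∀ b ∈ UB, ∀ x ∈ UP, b * x * b⁻¹ ∈ UP)
  (hpow : ∀ x ∈ UP, x ^ p ∈ K)
  (hidx : ¬ p ∣ UP.index)
  (hTI : ∀ g, g ∉ UB → ∀ x ∈ UP, g⁻¹ * x * g ∈ UB → x ∈ K)

include hK hMK in
theorem isSmooth_of_trivial_on_level : IsSmooth (levelsS S) M := by
  intro a
  obtain ⟨V, hV, hVK⟩ := hK
  exact ⟨V, hV, fun s hs => by rw [hMK s (hVK hs), Module.End.one_apply]⟩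

include hχK hpow in
theorem cycloChar_eq_one_of_mem (x : GQ) (hx : x ∈ UP) : cycloChar p x = 1 := by
  have h1 : (cycloChar p x) ^ p = 1 := by rw [← map_pow]; exact hχK _ (hpow x hx)
  have h2 : (cycloChar p x) ^ (p - 1) = 1 := ZMod.units_pow_card_sub_one_eq_one p _
  have hp1 : (p - 1) + 1 = p := by
    have := (Fact.out : p.Prime).one_lt
    omega
  have h3 : (cycloChar p x) ^ ((p - 1) + 1) = 1 := by rw [hp1]; exact h1
  rw [pow_succ, h2, one_mul] at h3
  exact h3

include hKP hPB in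
theorem smul_quotient_of_mem (x : GQ) (hx : x ∈ K) (ω : GQ ⧸ UB) : x • ω = ω := by
  induction ω using QuotientGroup.induction_on with
  | H g =>
    change ((x * g : GQ) : GQ ⧸ UB) = (g : GQ ⧸ UB)
    rw [QuotientGroup.eq]
    have h1 : g⁻¹ * x⁻¹ * g ∈ K := by
      have := hKn.conj_mem x⁻¹ (K.inv_mem hx) g⁻¹
      rwa [inv_inv] at this
    have e : (x * g)⁻¹ * g = g⁻¹ * x⁻¹ * g := by group
    rw [e]
    exact hPB (hKP h1)

include hE3 hK hKP hPB hMK hχK hidx hTI in
/-- **Step Z**: the sum-zero part `Z` of `sInd UB (Res M)` has defect `0`. -/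
theorem defect_zRep [Fintype (GQ ⧸ UB)] (u : (ZMod p)ˣ)
    (hu : (u : ZMod p) = Fintype.card (GQ ⧸ UB)) :
    defect S (Split.zRep UB M) = 0 ∧
      ∀ i, i ≤ 2 → Module.Finite (ZMod p) (H (levelsS S) (Split.zRep UB M) i) := by
  classical
  have hM := isSmooth_of_trivial_on_level M K hK hMK
  have hUB : (levelsS S).IsOpen UB := hK.mono (hKP.trans hPB)
  have hZ : IsSmooth (levelsS S) (Split.zRep UB M) :=
    Split.isSmooth_zRep (levelsS S) hUB M hM u hu
  have hΩ : ∀ x ∈ K.subgroupOf (⊤ : Subgroup GQ), ∀ ω : GQ ⧸ UB, x • ω = ω := fun x hx ω =>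
    smul_quotient_of_mem K UP UB hKP hPB (x : GQ) (Subgroup.mem_subgroupOf.1 hx) ω
  have hρ : ∀ x ∈ K.subgroupOf (⊤ : Subgroup GQ),
      (M.ρ.comp (⊤ : Subgroup GQ).subtype) x = 1 := fun x hx =>
    hMK _ (Subgroup.mem_subgroupOf.1 hx)
  have hN₀ : ∀ u : ↥(⊤ : Subgroup GQ), (u : GQ) ∈ K →
      (Rep.res (⊤ : Subgroup GQ).subtype (Split.zRep UB M)).ρ u = 1 := fun u hu =>
    ReduceDesc.sumZeroRep_eq_one (K.subgroupOf (⊤ : Subgroup GQ)) (GQ ⧸ UB) hΩ
      (M.ρ.comp (⊤ : Subgroup GQ).subtype) hρ u (Subgroup.mem_subgroupOf.2 hu)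
  haveI : Finite (DeltaGrp K (⊤ : Subgroup GQ)) := finite_delta K ⊤ le_top hK
  letI : Fintype (DeltaGrp K (⊤ : Subgroup GQ)) := Fintype.ofFinite _
  have hidx' : IsUnit (((UP.subgroupOf (⊤ : Subgroup GQ)).index : ℕ) : ZMod p) := by
    have e : (UP.subgroupOf (⊤ : Subgroup GQ)).index = UP.index := Subgroup.relIndex_top_right UP
    rw [e, isUnit_iff_ne_zero, Ne, ZMod.natCast_eq_zero_iff]
    exact hidx
  have hHig : IsHigman (HigmanEps.rhoDelta K (⊤ : Subgroup GQ)
      (Rep.res (⊤ : Subgroup GQ).subtype (Split.zRep UB M)) hN₀) := by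
    have h := ReduceDesc.isHigman_sumZero_desc (K.subgroupOf (⊤ : Subgroup GQ)) (GQ ⧸ UB) hΩ
      (M.ρ.comp (⊤ : Subgroup GQ).subtype) hρ ((1 : GQ) : GQ ⧸ UB)
      (UP.subgroupOf (⊤ : Subgroup GQ))
      (fun x hx => Subgroup.mem_subgroupOf.2 (hKP (Subgroup.mem_subgroupOf.1 hx)))
      (fun x hx => by
        change (((x : GQ) * 1 : GQ) : GQ ⧸ UB) = ((1 : GQ) : GQ ⧸ UB)
        rw [mul_one, QuotientGroup.eq, mul_one]
        exact UB.inv_mem (hPB (Subgroup.mem_subgroupOf.1 hx)))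
      hidx'
      (fun ω hω x hx hfix => by
        induction ω using QuotientGroup.induction_on with
        | H g =>
          have hg : g ∉ UB := by
            intro hg
            apply hω
            rw [QuotientGroup.eq, mul_one]
            exact UB.inv_mem hg
          have hfix' : (((x : GQ) * g : GQ) : GQ ⧸ UB) = (g : GQ ⧸ UB) := hfix
          rw [QuotientGroup.eq] at hfix'
          have h1 : g⁻¹ * (x : GQ) * g ∈ UB := by
            have := UB.inv_mem hfix'
            have e : (((x : GQ) * g)⁻¹ * g)⁻¹ = g⁻¹ * (x : GQ) * g := by group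
            rwa [e] at this
          exact Subgroup.mem_subgroupOf.2
            (hTI g hg (x : GQ) (Subgroup.mem_subgroupOf.1 hx) h1))
    exact h
  obtain ⟨t, ht⟩ := hHig
  exact defect_of_iso_sInd_of_higman K ⊤ le_top hK hχK
    (Rep.res (⊤ : Subgroup GQ).subtype (Split.zRep UB M)) hN₀ hE3 t ht (Split.zRep UB M)
    (ReduceLemmas.sIndTopIso (levelsS S) (Split.zRep UB M) hZ)

include hp2 hE3 hK hKP hPB hMK hχK hnorm hpow hidx hTI in
/-- **Reduce (A2)**: `defect S M ≤ 0` for a finite-dimensional `𝔽_p`-representation `M` of `G_ℚ`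
trivial on an open normal subgroup `K` on which the cyclotomic character is trivial, given
subgroups `K ≤ UP ≤ UB` with `UP` normal in `UB`, of exponent `p` modulo `K`, of index prime to
`p`, and trivial intersection property `g⁻¹ UP g ∩ UB ⊆ K` for `g ∉ UB`
(the pull-back of a Sylow `p`-subgroup and its normaliser in a finite subgroup of `GL₂(k)`). -/
theorem defect_le_zero :
    defect S M ≤ 0 ∧ ∀ i, i ≤ 2 → Module.Finite (ZMod p) (H (levelsS S) M i) := by
  classical
  have hM := isSmooth_of_trivial_on_level M K hK hMK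
  have hUP : (levelsS S).IsOpen UP := hK.mono hKP
  have hUB : (levelsS S).IsOpen UB := hUP.mono hPB
  have hfiB : UB.FiniteIndex := hUB.finiteIndex
  haveI : Fintype (GQ ⧸ UB) := Fintype.ofFinite _
  -- the index of `UB` is invertible
  have hcardB : ¬ p ∣ Fintype.card (GQ ⧸ UB) := by
    rw [← Nat.card_eq_fintype_card, ← Subgroup.index_eq_card]
    exact fun h => hidx (h.trans (Subgroup.index_dvd_of_le hPB))
  have hunitB : IsUnit ((Fintype.card (GQ ⧸ UB) : ℕ) : ZMod p) := by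
    rw [isUnit_iff_ne_zero, Ne, ZMod.natCast_eq_zero_iff]
    exact hcardB
  obtain ⟨u, hu⟩ := hunitB
  -- the splitting
  let d := Split.splitSIndRes (levelsS S) hUB M hM u hu
  -- the induced part
  haveI : (UP.subgroupOf UB).Normal :=
    (Subgroup.normal_subgroupOf_iff hPB).2 fun h k hh hk => hnorm k hk h hh
  haveI : Finite (DeltaGrp UP UB) := finite_delta UP UB hPB hUP
  have hcop : ¬ p ∣ Nat.card (DeltaGrp UP UB) := by
    have e : Nat.card (DeltaGrp UP UB) = UP.relIndex UB := (Subgroup.index_eq_card _).symm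
    rw [e]
    exact fun h => hidx (h.trans (Subgroup.relIndex_dvd_index_of_le hPB))
  have hcycP : ∀ x ∈ UP, cycloChar p x = 1 := cycloChar_eq_one_of_mem K UP hχK hpow
  haveI : Module.Finite (ZMod p) (Rep.res UB.subtype M).V :=
    inferInstanceAs (Module.Finite (ZMod p) M.V)
  obtain ⟨eS, fS⟩ := defect_sInd_le_zero UP UB hPB hUP hcycP hE3 hp2 hcop
    (Rep.res UB.subtype M) (IsSmooth.res hM UB.subtype)
    (fun x hx => by
      change M.ρ ((x ^ p : ↥UB) : GQ) = 1
      rw [Subgroup.coe_pow]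
      exact hMK _ (hpow _ hx))
  -- the sum-zero part
  obtain ⟨eZ, fZ⟩ := defect_zRep hE3 M K UP UB hK hKP hPB hMK hχK hidx hTI u hu
  -- conclusion
  have fM : ∀ i, i ≤ 2 → Module.Finite (ZMod p) (H (levelsS S) M i) := fun i hi => by
    haveI := fS i hi
    exact (ReduceLemmas.finite_H_of_split d i).1
  have hsplit := SubAddEC.defect_split S d fM fZ
  refine ⟨?_, fM⟩
  linarith

end Main

end Fermat.Agent.S56.Base.EC.Reduce
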