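/-
PROJECT T (S56), block (a1-II) Base / EC, Reduce for `Md = ad⁰ ρbar (1)` (helper26).

`k` a finite field of characteristic `p` (`[Algebra (ZMod p) k]`), `rbar : G_ℚ →* GL₂(k)` with
`det rbar` the mod `p` cyclotomic character and `ker rbar` a level of `G_{ℚ,S}`,
`Md = resScalars (algebraMap 𝔽_p k) (MrepTw rbar)`.  The finite group `G_ℚ ⧸ ker rbar` embeds in
`GL₂(k)`; helper4's `TI.exists_borel` gives a Sylow `p`-subgroup `P` and its normaliser `B`, whose
pull-backs to `G_ℚ` satisfy the hypotheses of `Reduce.defect_le_zero`: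
**`defect_Md_le_zero : defect S Md ≤ 0 ∧ ∀ i ≤ 2, Hⁱ(G_S, Md) finite`** (under `E3Hyp p S`).
-/
import Fermat.Agent.S56.Base.EC.Reduce
import Fermat.Agent.S56.Base.TI.Sylow
import Fermat.Agent.S56.Coh.CocDefs
import Fermat.Agent.S56.Base.TwistDict

set_option autoImplicit false
set_option linter.unusedSectionVars false
set_option linter.style.haveILetI false

noncomputable section

namespace Fermat.Agent.S56.Base.EC.ReduceGL2

open CategoryTheory ExtCitation Matrix
open Fermat.Agent.CFT.LC Fermat.Agent.CFT.Bridge Fermat.Agent.CFT.D.CoeffChange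
open Fermat.Agent.S56.Base.EC Fermat.Agent.S56.Coh.CocDefs

variable {k : Type} [Field k] [Finite k] (p : ℕ) [Fact p.Prime] [Algebra (ZMod p) k]
  (rbar : GQ →* GL (Fin 2) k)

/-- `Md = ad⁰ ρbar (1)` as an `𝔽_p`-representation -/
abbrev Md : Rep.{0} (ZMod p) GQ := resScalars (algebraMap (ZMod p) k) (MrepTw rbar)

theorem Md_ρ_apply (σ : GQ) (X : sl2 k) :
    (Md p rbar).ρ σ (toRes (algebraMap (ZMod p) k) (MrepTw rbar) X) =
      toRes (algebraMap (ZMod p) k) (MrepTw rbar) ((MrepTw rbar).ρ σ X) := rfl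

instance finite_Md : Finite (Md p rbar).V := inferInstanceAs (Finite (sl2 k))

instance moduleFinite_Md : Module.Finite (ZMod p) (Md p rbar).V := Module.Finite.of_finite

/-- `Md` is trivial on the kernel of `rbar` -/
theorem Md_ρ_eq_one_of_mem_ker (g : GQ) (hg : g ∈ rbar.ker) : (Md p rbar).ρ g = 1 := by
  apply LinearMap.ext
  intro X
  have h1 : rbar g = 1 := hg
  have h2 : ∀ Y : sl2 k, (MrepTw rbar).ρ g Y = Y := fun Y => by
    apply Subtype.ext
    rw [MrepTw_ρ_coe, h1, inv_one, Units.val_one, Matrix.det_one, one_smul, Matrix.one_mul,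
      Matrix.mul_one]
  exact h2 X

variable {p rbar}

theorem cycloChar_eq_one_of_mem_ker (hdet : TwistDict.DetCyclo p rbar) (g : GQ) (hg : g ∈ rbar.ker) :
    cycloChar p g = 1 := by
  have h1 : rbar g = 1 := hg
  have h2 := hdet g
  rw [h1, Units.val_one, Matrix.det_one] at h2
  have h3 : algebraMap (ZMod p) k ((cycloChar p g : (ZMod p)ˣ) : ZMod p) =
      algebraMap (ZMod p) k 1 := by rw [← h2, map_one]
  exact Units.ext ((algebraMap (ZMod p) k).injective h3)

/-- the faithful representation of `G_ℚ ⧸ ker rbar` on `k²` -/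
def rhoFin : Representation k (GQ ⧸ rbar.ker) (Fin 2 → k) :=
  (MonoidHomClass.toMonoidHom (Matrix.toLinAlgEquiv' (R := k) (n := Fin 2))).comp
    ((Units.coeHom (Matrix (Fin 2) (Fin 2) k)).comp (QuotientGroup.kerLift rbar))

theorem rhoFin_injective : Function.Injective (rhoFin (rbar := rbar)) := by
  intro a b hab
  apply QuotientGroup.kerLift_injective rbar
  apply Units.ext
  exact (Matrix.toLinAlgEquiv' (R := k) (n := Fin 2)).injective hab

/-- **Reduce for `Md = ad⁰ ρbar (1)`**: `defect S Md ≤ 0`, and `Hⁱ(G_S, Md)` is finite for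
`i ≤ 2`. -/
theorem defect_Md_le_zero (hp2 : p ≠ 2) (S : Finset Nat.Primes) (hE3 : Reduce.E3Hyp p S)
    (hdet : TwistDict.DetCyclo p rbar) (hker : rbar.ker ∈ (levelsS S).sets) :
    defect S (Md p rbar) ≤ 0 ∧
      ∀ i, i ≤ 2 → Module.Finite (ZMod p) (H (levelsS S) (Md p rbar) i) := by
  classical
  haveI : CharP k p := charP_of_injective_algebraMap (algebraMap (ZMod p) k).injective p
  have hK : (levelsS S).IsOpen rbar.ker := Levels.isOpen_of_mem hker
  have hfi : rbar.ker.FiniteIndex := hK.finiteIndex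
  haveI : Finite (GQ ⧸ rbar.ker) := Subgroup.finite_quotient_of_finiteIndex
  have hV : Module.finrank k (Fin 2 → k) = 2 := by simp
  obtain ⟨v, B, P, ψ1, ψ2, hv, hB, hψ, hP, hPp, hidx, hnorm, hTI⟩ :=
    TI.exists_borel (p := p) hV (rhoFin (rbar := rbar)) rhoFin_injective
  have hPB : P ≤ B := fun g hg => ((hP g).1 hg).1
  have hπ : Function.Surjective (QuotientGroup.mk' rbar.ker) := QuotientGroup.mk'_surjective _
  refine Reduce.defect_le_zero hp2 hE3 (Md p rbar) rbar.ker
    (P.comap (QuotientGroup.mk' rbar.ker)) (B.comap (QuotientGroup.mk' rbar.ker)) hK ?_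
    (Subgroup.comap_mono hPB) (Md_ρ_eq_one_of_mem_ker p rbar)
    (cycloChar_eq_one_of_mem_ker hdet) ?_ ?_ ?_ ?_
  · intro x hx
    rw [Subgroup.mem_comap]
    have : QuotientGroup.mk' rbar.ker x = 1 := (QuotientGroup.eq_one_iff x).2 hx
    rw [this]
    exact P.one_mem
  · intro b hb x hx
    rw [Subgroup.mem_comap] at hb hx ⊢
    rw [map_mul, map_mul, map_inv]
    exact hnorm _ hb _ hx
  · intro x hx
    rw [Subgroup.mem_comap] at hx
    have h1 := hPp _ hx
    rw [← map_pow] at h1
    exact (QuotientGroup.eq_one_iff _).1 h1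
  · rw [Subgroup.index_comap_of_surjective P hπ]
    exact hidx
  · intro g hg x hx hgx
    rw [Subgroup.mem_comap] at hg hx hgx
    rw [map_mul, map_mul, map_inv] at hgx
    have h1 := hTI _ hg _ hx hgx
    exact (QuotientGroup.eq_one_iff _).1 h1

end Fermat.Agent.S56.Base.EC.ReduceGL2
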