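/-
PROJECT T (S56), block (a1-II) Base / EC (helper26): THE STATEMENT CONSUMED BY `Count`
(helper23 #4161 (4), chief #4317 (1)), under the export of E3 as a hypothesis `Reduce.E3Hyp p S`:

  `chi S (ad⁰ρbar(1)) ≤ -[k : 𝔽_p]`   and   `Hⁱ(G_S, ad⁰ρbar(1))` finite-dimensional, `i ≤ 2`,

for `rbar : G_ℚ →* GL₂(k)` with `det rbar = χ_p` (`TwistDict.DetCyclo p rbar`) and `ker rbar` a level
of `G_{ℚ,S}`.  `defect ≤ 0` is `ReduceGL2.defect_Md_le_zero`; the archimedean term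
`chiInf = -[k : 𝔽_p]` is helper10's `Arch.chiInf_MrepTw` (main).
-/
import Fermat.Agent.S56.Base.EC.ReduceGL2
import Fermat.Agent.S56.Base.Arch

set_option autoImplicit false

noncomputable section

namespace Fermat.Agent.S56.Base.EC.ChiAdTw

open Fermat.Agent.CFT.LC Fermat.Agent.CFT.Bridge Fermat.Agent.CFT.D.CoeffChange
open Fermat.Agent.S56.Base.EC Fermat.Agent.S56.Coh.CocDefs

variable {k : Type} [Field k] [Finite k] (p : ℕ) [Fact p.Prime] [Algebra (ZMod p) k]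
  (rbar : GQ →* GL (Fin 2) k)

/-- `defect S (ad⁰ρbar(1)) ≤ 0` and finiteness, under `E3Hyp p S`. -/
theorem defect_adTw_le_zero_of_E3 (hp2 : p ≠ 2) (S : Finset Nat.Primes)
    (hE3 : Reduce.E3Hyp p S) (hdet : TwistDict.DetCyclo p rbar)
    (hker : rbar.ker ∈ (levelsS S).sets) :
    defect S (resScalars (TwistDict.phi k p) (MrepTw rbar)) ≤ 0 ∧
      ∀ i, i ≤ 2 → Module.Finite (ZMod p)
        (H (levelsS S) (resScalars (TwistDict.phi k p) (MrepTw rbar)) i) :=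
  ReduceGL2.defect_Md_le_zero hp2 S hE3 hdet hker

/-- **`χ_S(ad⁰ρbar(1)) ≤ -[k : 𝔽_p]`**, under `E3Hyp p S`. -/
theorem chi_adTw_le_of_E3 (hp2 : p ≠ 2) (S : Finset Nat.Primes) (hE3 : Reduce.E3Hyp p S)
    (hdet : TwistDict.DetCyclo p rbar) (hker : rbar.ker ∈ (levelsS S).sets) :
    chi S (resScalars (TwistDict.phi k p) (MrepTw rbar)) ≤
      -(Module.finrank (ZMod p) k : ℤ) := by
  have h1 := (defect_adTw_le_zero_of_E3 p rbar hp2 S hE3 hdet hker).1
  have h3 := Arch.chiInf_MrepTw rbar hp2 hdet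
  rw [defect_def] at h1
  linarith

/-- `Hⁱ(G_S, ad⁰ρbar(1))` is finite-dimensional for `i ≤ 2`, under `E3Hyp p S`. -/
theorem finite_H_adTw_of_E3 (hp2 : p ≠ 2) (S : Finset Nat.Primes) (hE3 : Reduce.E3Hyp p S)
    (hdet : TwistDict.DetCyclo p rbar) (hker : rbar.ker ∈ (levelsS S).sets) (i : ℕ) (hi : i ≤ 2) :
    Module.Finite (ZMod p)
      (H (levelsS S) (resScalars (TwistDict.phi k p) (MrepTw rbar)) i) :=
  (defect_adTw_le_zero_of_E3 p rbar hp2 S hE3 hdet hker).2 i hi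

/-- `H¹(G_S, ad⁰ρbar(1))` is finite-dimensional, under `E3Hyp p S`. -/
theorem finite_H1_adTw_of_E3 (hp2 : p ≠ 2) (S : Finset Nat.Primes) (hE3 : Reduce.E3Hyp p S)
    (hdet : TwistDict.DetCyclo p rbar) (hker : rbar.ker ∈ (levelsS S).sets) :
    Module.Finite (ZMod p)
      (H (levelsS S) (resScalars (TwistDict.phi k p) (MrepTw rbar)) 1) :=
  finite_H_adTw_of_E3 p rbar hp2 S hE3 hdet hker 1 (by norm_num)

/-- `H²(G_S, ad⁰ρbar(1))` is finite-dimensional, under `E3Hyp p S`. -/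
theorem finite_H2_adTw_of_E3 (hp2 : p ≠ 2) (S : Finset Nat.Primes) (hE3 : Reduce.E3Hyp p S)
    (hdet : TwistDict.DetCyclo p rbar) (hker : rbar.ker ∈ (levelsS S).sets) :
    Module.Finite (ZMod p)
      (H (levelsS S) (resScalars (TwistDict.phi k p) (MrepTw rbar)) 2) :=
  finite_H_adTw_of_E3 p rbar hp2 S hE3 hdet hker 2 le_rfl

end Fermat.Agent.S56.Base.EC.ChiAdTw
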