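/-
PROJECT T (S56), block (a1-II)/B3/E3 (helper11), file 2c: THE PERMUTATION MODULES `F_p[U' \ G / C]`.

For subgroups `U' ≤ U` of `G` with `U'` normal in `U`, and any subgroup `C ≤ G`,
`dfun p U' C` is the group of functions `G → ZMod p` which are left `U'`-invariant and right
`C`-invariant (`= F_p[U' \ G / C]`); `Δ = U ⧸ U'` acts by left translation
`(u f)(g) = f (u⁻¹ g)`.  `DFun p U' U hle C` is the resulting `ℤ[Δ]`-module.
`C = ⊤`: the trivial module `F_p`; `C = ` a decomposition group: the places of the fixed field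
of `U'` above a prime; `C = ⟨c⟩`: the archimedean places.
-/
import Fermat.Agent.S56.Base.EC.CoeffAction

set_option autoImplicit false

noncomputable section

namespace Fermat.Agent.S56.Base.EC

variable {G : Type} [Group G] (p : ℕ) (U' U C : Subgroup G) [hn : (U'.subgroupOf U).Normal]

/-- functions `G → ZMod p`, left `U'`-invariant and right `C`-invariant -/
def dfun : AddSubgroup (G → ZMod p) where
  carrier := {f | ∀ u ∈ U', ∀ c ∈ C, ∀ g, f (u * g * c) = f g}
  zero_mem' := fun _ _ _ _ _ => rfl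
  add_mem' {f f'} hf hf' := fun u hu c hc g => by
    rw [Pi.add_apply, Pi.add_apply, hf u hu c hc g, hf' u hu c hc g]
  neg_mem' {f} hf := fun u hu c hc g => by
    rw [Pi.neg_apply, Pi.neg_apply, hf u hu c hc g]

variable {p U' C} in
theorem dfun_apply_mul (f : dfun p U' C) {u c : G} (hu : u ∈ U') (hc : c ∈ C) (g : G) :
    f.1 (u * g * c) = f.1 g := f.2 u hu c hc g

/-- left translation by `u ∈ U` on `dfun p U' C` -/
def dfunTranslate (hle : U' ≤ U) (u : U) : dfun p U' C →+ dfun p U' C where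
  toFun f := ⟨fun g => f.1 ((u : G)⁻¹ * g), fun u' hu' c hc g => by
    have h1 : (u : G)⁻¹ * (u' * g * c) = ((u : G)⁻¹ * u' * u) * ((u : G)⁻¹ * g) * c := by group
    change f.1 ((u : G)⁻¹ * (u' * g * c)) = f.1 ((u : G)⁻¹ * g)
    rw [h1]
    exact f.2 _ (conj_mem_of_le U hle u u' hu') c hc _⟩
  map_zero' := rfl
  map_add' _ _ := rfl

/-- the action of `U` on `dfun p U' C` -/
def dfunActHom (hle : U' ≤ U) : ↥U →* Module.End ℤ (dfun p U' C) where
  toFun u := (dfunTranslate p U' U C hle u).toIntLinearMap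
  map_one' := by
    apply LinearMap.ext
    intro f
    apply Subtype.ext
    funext g
    change f.1 (((1 : U) : G)⁻¹ * g) = f.1 g
    simp
  map_mul' u v := by
    apply LinearMap.ext
    intro f
    apply Subtype.ext
    funext g
    change f.1 (((u * v : U) : G)⁻¹ * g) = f.1 ((v : G)⁻¹ * ((u : G)⁻¹ * g))
    simp [mul_assoc]

/-- the representation of `Δ = U ⧸ U'` on `dfun p U' C` -/
def dfunRep (hle : U' ≤ U) : Representation ℤ (DeltaGrp U' U) (dfun p U' C) :=
  QuotientGroup.lift (U'.subgroupOf U) (dfunActHom p U' U C hle) fun u hu => by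
    apply LinearMap.ext
    intro f
    apply Subtype.ext
    funext g
    change f.1 ((u : G)⁻¹ * g) = f.1 g
    have h := f.2 (u : G)⁻¹ (U'.inv_mem (Subgroup.mem_subgroupOf.1 hu)) 1 C.one_mem g
    rwa [mul_one] at h

/-- **the `ℤ[Δ]`-module `F_p[U' \ G / C]`** -/
abbrev DFun (hle : U' ≤ U) : Type := (dfunRep p U' U C hle).asModule

theorem dfunRep_mk (hle : U' ≤ U) (u : U) (f : dfun p U' C) (g : G) :
    (dfunRep p U' U C hle (QuotientGroup.mk u) f).1 g = f.1 ((u : G)⁻¹ * g) := rfl

theorem nsmul_DFun [Fact p.Prime] (hle : U' ≤ U) (f : DFun p U' U C hle) : p • f = 0 := by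
  apply Subtype.ext
  funext g
  change p • f.1 g = 0
  rw [nsmul_eq_mul, ZMod.natCast_self, zero_mul]

end Fermat.Agent.S56.Base.EC
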