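/-
PROJECT T (S56), block (a1-II)/B3/E3 (helper11), file 0: THE FRAME OF E3 AND ITS TOP SEAM.

`p` an odd prime in `S`, `𝒰 = levelsS S` on `GQ`, `k = Zp p`, `muK p = μ_p`, `EK p S = E_S ⊗ k`
(main, `D/Datum`), `U' ≤ U` open subgroups of `GQ` with `U'` normal in `U` and `U'` fixing `μ_p`,
`Δ = U ⧸ U'`, `R = ℤ[Δ]`, `ε` an `n × n` matrix over `R`, idempotent modulo `p`.
`core_of_pieces` assembles the EULER CHARACTERISTIC FORMULA
`t(H⁰(U',μ_p)) · t(H²(U',μ_p)) · t(F_p[U'\GQ/⟨c⟩]) = t(H¹(U',μ_p))`  (`t = tCount ε`)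
from the six pieces (K0) (K1) (K2) [KummerLES], (C) [ClassGroupH1], (U) [UnitsClass],
(B) [BrauerH2], stated here LITERALLY as hypotheses.
-/
import Fermat.Agent.CFT.D.Datum.Build
import Fermat.Agent.S56.Base.EC.PermMod

set_option autoImplicit false

noncomputable section

namespace Fermat.Agent.S56.Base.EC

open CategoryTheory ExtCitation
open Fermat.Agent.CFT.LC Fermat.Agent.CFT.Bridge Fermat.Agent.CFT.D.Reduce
open Fermat.Agent.CFT.D.DatumBuild Fermat.Agent.CFT.D.CoeffChange Fermat.Agent.CFT.D.DualTwist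
open Fermat.Agent.CFT.D.ZpModel

variable (p : ℕ) [Fact p.Prime] (S : Finset Nat.Primes)

/-- `μ_p` as a representation of `GQ` over `Zp p` -/
abbrev muK : Rep.{0} (Zp p) GQ := resScalars (phi p) (chiRep (cycloChar p))

/-- the decomposition group at `q ∈ S` -/
abbrev decompGrp (q : ↥S) : Subgroup GQ := (rv S q).range

/-- the decomposition group at infinity -/
abbrev infGrp : Subgroup GQ := Subgroup.zpowers complexConjugation

section Core

variable {p S}
variable (U' U : Subgroup GQ) [(U'.subgroupOf U).Normal] (hle : U' ≤ U)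
  {n : ℕ} (ε : Matrix (Fin n) (Fin n) (MonoidAlgebra ℤ (DeltaGrp U' U)))

/-- **The top seam of E3**: the Euler characteristic formula from the six pieces. -/
theorem core_of_pieces (hε : IdemModP p ε)
    (hK0 : tCount ε (HX (levelsS S) U' U hle (muK p) 0) =
      tCount ε (torP (MonoidAlgebra ℤ (DeltaGrp U' U)) p (HX (levelsS S) U' U hle (EK p S) 0)))
    (hK1 : tCount ε (HX (levelsS S) U' U hle (muK p) 1) =
      tCount ε (modP (MonoidAlgebra ℤ (DeltaGrp U' U)) p (HX (levelsS S) U' U hle (EK p S) 0)) *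
        tCount ε (torP (MonoidAlgebra ℤ (DeltaGrp U' U)) p (HX (levelsS S) U' U hle (EK p S) 1)))
    (hK2 : tCount ε (HX (levelsS S) U' U hle (muK p) 2) =
      tCount ε (modP (MonoidAlgebra ℤ (DeltaGrp U' U)) p (HX (levelsS S) U' U hle (EK p S) 1)) *
        tCount ε (torP (MonoidAlgebra ℤ (DeltaGrp U' U)) p (HX (levelsS S) U' U hle (EK p S) 2)))
    (hC : Finite (HX (levelsS S) U' U hle (EK p S) 1))
    (hU : tCount ε (modP (MonoidAlgebra ℤ (DeltaGrp U' U)) p
          (HX (levelsS S) U' U hle (EK p S) 0)) * tCount ε (DFun p U' U ⊤ hle) =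
        tCount ε (torP (MonoidAlgebra ℤ (DeltaGrp U' U)) p
          (HX (levelsS S) U' U hle (EK p S) 0)) *
          (∏ q : ↥S, tCount ε (DFun p U' U (decompGrp S q) hle)) *
          tCount ε (DFun p U' U infGrp hle))
    (hB : tCount ε (torP (MonoidAlgebra ℤ (DeltaGrp U' U)) p
          (HX (levelsS S) U' U hle (EK p S) 2)) * tCount ε (DFun p U' U ⊤ hle) =
        ∏ q : ↥S, tCount ε (DFun p U' U (decompGrp S q) hle))
    (hfin : Finite (DFun p U' U ⊤ hle)) :
    tCount ε (HX (levelsS S) U' U hle (muK p) 0) * tCount ε (HX (levelsS S) U' U hle (muK p) 2) *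
        tCount ε (DFun p U' U infGrp hle) =
      tCount ε (HX (levelsS S) U' U hle (muK p) 1) := by
  have hM4 := tCount_torP_eq_modP hε (HX (levelsS S) U' U hle (EK p S) 1)
  have hpos : 0 < tCount ε (DFun p U' U ⊤ hle) := tCount_pos ε
  apply Nat.eq_of_mul_eq_mul_right hpos
  rw [hK0, hK1, hK2, ← hM4]
  set a := tCount ε (torP (MonoidAlgebra ℤ (DeltaGrp U' U)) p
    (HX (levelsS S) U' U hle (EK p S) 0))
  set b := tCount ε (torP (MonoidAlgebra ℤ (DeltaGrp U' U)) p
    (HX (levelsS S) U' U hle (EK p S) 1))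
  set c := tCount ε (torP (MonoidAlgebra ℤ (DeltaGrp U' U)) p
    (HX (levelsS S) U' U hle (EK p S) 2))
  set d := tCount ε (DFun p U' U ⊤ hle)
  set e := tCount ε (DFun p U' U infGrp hle)
  set m := tCount ε (modP (MonoidAlgebra ℤ (DeltaGrp U' U)) p
    (HX (levelsS S) U' U hle (EK p S) 0))
  set P := ∏ q : ↥S, tCount ε (DFun p U' U (decompGrp S q) hle)
  calc a * (b * c) * e * d = a * b * (c * d) * e := by ring
    _ = a * b * P * e := by rw [hB]
    _ = (a * P * e) * b := by ring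
    _ = (m * d) * b := by rw [hU]
    _ = m * b * d := by ring

end Core

end Fermat.Agent.S56.Base.EC
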