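/-
PROJECT T (S56), block (a1-II)/B3/E3 (owner helper11), piece (C) (helper13): FINITENESS OF
`H¹(U', E_S ⊗ ℤ_(p))`, the hypothesis `hC` of `Frame.core_of_pieces`, in its literal shape.
The mathematics is in `ClassGroupH1/{Arith, FiniteCoker, LCSeq, H1J, Main}`.
-/
import Fermat.Agent.S56.Base.EC.Frame
import Fermat.Agent.S56.Base.EC.ClassGroupH1.Main

set_option autoImplicit false

noncomputable section

namespace Fermat.Agent.S56.Base.EC.ClassGroupH1

open ExtCitation Fermat.Agent.CFT.LC Fermat.Agent.CFT.Bridge Fermat.Agent.CFT.D.Reduce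
open Fermat.Agent.CFT.D.DatumBuild Fermat.Agent.CFT.D.ZpModel

variable {p : ℕ} [Fact p.Prime] {S : Finset Nat.Primes}

/-- **piece (C) of E3**: `H¹(U', E_S ⊗ ℤ_(p))` is finite (the hypothesis `hC` of
`core_of_pieces`, literally). -/
theorem hC_of_global (U' U : Subgroup GQ) [(U'.subgroupOf U).Normal] (hle : U' ≤ U)
    (hopen : (levelsS S).IsOpen U') (hpS : pPrime p ∈ S) (g : GlobalInputs p S) :
    Finite (HX (levelsS S) U' U hle (EK p S) 1) := by
  have h2 : Finite (H (levelsS S) (XRep (levelsS S) U' (EK p S)) 1) :=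
    finite_H1_sInd_EK U' hopen hpS g
  exact Finite.of_equiv _ (rhoHX (levelsS S) U' U hle (EK p S) 1).asModuleEquiv.symm.toEquiv

end Fermat.Agent.S56.Base.EC.ClassGroupH1
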