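/-
PROJECT T (S56), block (a1-II)/B3/E3 (helper11), file 9a: FROM CARDINALITIES TO THE DEFECT.

For `N : Rep (ZMod p) GQ` finite, `N' = resScalars (phi p) N` over `Zp p`: if the groups
`Hⁱ_S(N')`, `i ≤ 2`, are finite and `#H⁰ · #H² · #N = #H¹ · #N^{c}`, then `defect S N = 0`
(the seam `Base/EC.lean` of helper23) and the `Hⁱ_S(N)` are finite-dimensional.
-/
import Fermat.Agent.S56.Base.EC
import Fermat.Agent.CFT.D.CoeffChange
import Fermat.Agent.CFT.D.ZpModel

set_option autoImplicit false

noncomputable section

namespace Fermat.Agent.S56.Base.EC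

open ExtCitation Fermat.Agent.CFT.LC Fermat.Agent.CFT.Bridge
open Fermat.Agent.CFT.D.CoeffChange Fermat.Agent.CFT.D.ZpModel

variable {p : ℕ} [Fact p.Prime] (S : Finset Nat.Primes)

/-- finiteness of `Hⁱ_S(N)` from the finiteness over `Zp p` -/
theorem moduleFinite_H_of_finite (N : Rep.{0} (ZMod p) GQ) (i : ℕ)
    (hfin : Finite (H (levelsS S) (resScalars (phi p) N) i)) :
    Module.Finite (ZMod p) (H (levelsS S) N i) := by
  have : Finite (H (levelsS S) N i) :=
    Finite.of_equiv _ (hEquiv (phi p) (levelsS S) N i).symm.toEquiv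
  exact Module.Finite.of_finite

/-- **from cardinalities to the defect** -/
theorem defect_eq_zero_of_card (N : Rep.{0} (ZMod p) GQ) [Module.Finite (ZMod p) N.V]
    (hfin : ∀ i, i ≤ 2 → Finite (H (levelsS S) (resScalars (phi p) N) i))
    (hcard : Nat.card (H (levelsS S) (resScalars (phi p) N) 0) *
        Nat.card (H (levelsS S) (resScalars (phi p) N) 2) * Nat.card (resScalars (phi p) N).V =
      Nat.card (H (levelsS S) (resScalars (phi p) N) 1) *
        Nat.card {x : (resScalars (phi p) N).V //
          (resScalars (phi p) N).ρ complexConjugation x = x}) :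
    defect S N = 0 := by
  have hp : p.Prime := Fact.out
  have hF : ∀ i, i ≤ 2 → Module.Finite (ZMod p) (H (levelsS S) N i) := fun i hi =>
    moduleFinite_H_of_finite S N i (hfin i hi)
  have hc : ∀ i, i ≤ 2 → Nat.card (H (levelsS S) (resScalars (phi p) N) i) =
      p ^ Module.finrank (ZMod p) (H (levelsS S) N i) := fun i hi => by
    have := hF i hi
    rw [← Nat.card_congr (hEquiv (phi p) (levelsS S) N i).toEquiv,
      Module.natCard_eq_pow_finrank (K := ZMod p), Nat.card_zmod]
  have hN : Nat.card (resScalars (phi p) N).V = p ^ Module.finrank (ZMod p) N.V := by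
    rw [← Nat.card_congr (toRes (phi p) N).toEquiv,
      Module.natCard_eq_pow_finrank (K := ZMod p), Nat.card_zmod]
  have hNc : Nat.card {x : (resScalars (phi p) N).V //
      (resScalars (phi p) N).ρ complexConjugation x = x} =
      p ^ Module.finrank (ZMod p) (fixConj N) := by
    have e : {x : (resScalars (phi p) N).V //
        (resScalars (phi p) N).ρ complexConjugation x = x} ≃ fixConj N :=
      { toFun := fun x => ⟨x.1, (mem_fixConj _).2 x.2⟩
        invFun := fun x => ⟨x.1, (mem_fixConj _).1 x.2⟩
        left_inv := fun _ => rfl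
        right_inv := fun _ => rfl }
    rw [Nat.card_congr e, Module.natCard_eq_pow_finrank (K := ZMod p), Nat.card_zmod]
  rw [hc 0 (by omega), hc 1 (by omega), hc 2 le_rfl, hN, hNc, ← pow_add, ← pow_add, ← pow_add]
    at hcard
  have hexp := Nat.pow_right_injective hp.two_le hcard
  rw [defect_def, chi_def, chiInf]
  unfold h
  have hexp' : (Module.finrank (ZMod p) (H (levelsS S) N 0) : ℤ) +
      Module.finrank (ZMod p) (H (levelsS S) N 2) + Module.finrank (ZMod p) N.V =
      Module.finrank (ZMod p) (H (levelsS S) N 1) + Module.finrank (ZMod p) (fixConj N) := by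
    exact_mod_cast hexp
  linarith

end Fermat.Agent.S56.Base.EC
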