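/-
PROJECT T (S56), block (a1-II)/B3/E3, file 5c: THE ABSTRACT DICTIONARY COUNT (leaf (L2) of helper11
#4193, typed by helper5).

A `ℤ[Δ]`-module `X` whose `p`-torsion is identified, through evaluation maps `ev q : X → (G → T q)`
(`T q` with `p`-torsion of order `p`), with the families of left-`U'`-, right-`D q`-invariant
functions, has `tCount ε (X[p]) = ∏_q tCount ε (F_p[U' \ G / D q])`.

* `ePartPiEquiv`, `tCount_pi'`        : the `ε`-part of a finite product is the product of the
                                        `ε`-parts (no idempotency needed);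
* `torsionEquiv`                      : `T[p] ≃+ ZMod p` when `T[p]` has order `p`;
* `dictHom` (+ `_injective`, `_surjective`) : `X₀[p] →+ ∀ q, dfun p U' (D q)`;
* `toTorsion`, `dictComp`, `dictLin`  : the same as a `ℤ[Δ]`-linear map on `torP ℤ[Δ] p ρ.asModule`;
* `tCount_torP_eq_prod_DFun`, `finite_torP_of_dict` : the two exports (statements of the skeleton
  on origin/helper11 1db36356, verbatim).
-/
import Fermat.Agent.CFT.D.Count
import Fermat.Agent.S56.Base.EC.PermMod

set_option autoImplicit false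

noncomputable section

namespace Fermat.Agent.S56.Base.EC.DictCount

open Fermat.Agent.S56.Base.EC Fermat.Agent.CFT.D

section Pi

variable {R : Type*} [Ring R] {n : ℕ} {ι : Type*} (Y : ι → Type*) [∀ q, AddCommGroup (Y q)]
  [∀ q, Module R (Y q)]

/-- the `ε`-part of a product is the product of the `ε`-parts -/
def ePartPiEquiv (ε : Matrix (Fin n) (Fin n) R) :
    ePart ε (∀ q, Y q) ≃ ∀ q, ePart ε (Y q) where
  toFun x q := ⟨fun a => x.1 a q, by
    have h := mact_map ε (LinearMap.proj q : (∀ q, Y q) →ₗ[R] Y q) x.1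
    have hx : mact ε x.1 = x.1 := x.2
    rw [hx] at h
    exact h⟩
  invFun y := ⟨fun a q => (y q).1 a, by
    change mact ε _ = _
    funext a q
    rw [mact_apply, Finset.sum_apply]
    have h := congrFun (y q).2 a
    rw [mact_apply] at h
    exact h⟩
  left_inv x := Subtype.ext rfl
  right_inv y := funext fun q => Subtype.ext rfl

/-- `tCount` of a finite product -/
theorem tCount_pi' [Fintype ι] (ε : Matrix (Fin n) (Fin n) R) :
    tCount ε (∀ q, Y q) = ∏ q, tCount ε (Y q) := by
  unfold tCount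
  rw [Nat.card_congr (ePartPiEquiv Y ε), Nat.card_pi]

end Pi

section Dict

variable {G : Type} [Group G] {p : ℕ} [Fact p.Prime]

/-- a group whose `p`-torsion has order `p`: the `p`-torsion is `ZMod p` -/
def torsionEquiv {T : Type} [AddCommGroup T] (hT : Nat.card (torsionP p T) = p) :
    torsionP p T ≃+ ZMod p :=
  (zmodAddCyclicAddEquiv (isAddCyclic_of_prime_card hT)).symm.trans
    (ZMod.ringEquivCongr hT).toAddEquiv

variable (U' U : Subgroup G) [(U'.subgroupOf U).Normal] (hle : U' ≤ U)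
  {ι : Type} (D : ι → Subgroup G)
  {X₀ : Type} [AddCommGroup X₀]
  (T : ι → Type) [∀ q, AddCommGroup (T q)] (hT : ∀ q, Nat.card (torsionP p (T q)) = p)
  (ev : ∀ q, X₀ →+ (G → T q))
  (hinv : ∀ q x, ∀ u ∈ U', ∀ d ∈ D q, ∀ g, ev q x (u * g * d) = ev q x g)

omit [Group G] [Fact p.Prime] in
/-- the values of `ev` on `p`-torsion elements are `p`-torsion -/
theorem ev_mem_torsionP (q : ι) (x : torsionP p X₀) (g : G) : ev q x.1 g ∈ torsionP p (T q) := by
  change p • ev q x.1 g = 0
  have h : p • ev q x.1 = 0 := by rw [← map_nsmul, x.2, map_zero]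
  exact congrFun h g

/-- the dictionary map on the `p`-torsion of `X₀` -/
def dictHom : torsionP p X₀ →+ ∀ q, dfun p U' (D q) where
  toFun x q := ⟨fun g => torsionEquiv (hT q) ⟨ev q x.1 g, ev_mem_torsionP T ev q x g⟩,
    fun u hu d hd g => by
      have h := hinv q x.1 u hu d hd g
      exact congrArg (torsionEquiv (hT q)) (Subtype.ext h)⟩
  map_zero' := by
    funext q
    apply Subtype.ext
    funext g
    change torsionEquiv (hT q) ⟨ev q (0 : X₀) g, _⟩ = 0
    have h : (⟨ev q (0 : X₀) g, ev_mem_torsionP T ev q 0 g⟩ : torsionP p (T q)) = 0 :=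
      Subtype.ext (by
        change ev q (0 : X₀) g = 0
        rw [map_zero]
        rfl)
    rw [h, map_zero]
  map_add' x y := by
    funext q
    apply Subtype.ext
    funext g
    change torsionEquiv (hT q) ⟨ev q (x.1 + y.1) g, _⟩ =
      torsionEquiv (hT q) ⟨ev q x.1 g, _⟩ + torsionEquiv (hT q) ⟨ev q y.1 g, _⟩
    rw [← map_add]
    refine congrArg (torsionEquiv (hT q)) (Subtype.ext ?_)
    change ev q (x.1 + y.1) g = ev q x.1 g + ev q y.1 g
    rw [map_add]
    rfl

theorem dictHom_apply (x : torsionP p X₀) (q : ι) (g : G) :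
    (dictHom U' D T hT ev hinv x q).1 g =
      torsionEquiv (hT q) ⟨ev q x.1 g, ev_mem_torsionP T ev q x g⟩ := rfl

include hinv in
omit [(U'.subgroupOf U).Normal] in
theorem dictHom_injective (hinj : ∀ x : X₀, p • x = 0 → (∀ q g, ev q x g = 0) → x = 0) :
    Function.Injective (dictHom U' D T hT ev hinv) := by
  rw [injective_iff_map_eq_zero]
  intro x hx
  apply Subtype.ext
  refine hinj x.1 x.2 fun q g => ?_
  have h1 : (dictHom U' D T hT ev hinv x q).1 g = 0 := by rw [hx]; rfl
  rw [dictHom_apply] at h1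
  have h2 := (AddEquiv.map_eq_zero_iff (torsionEquiv (hT q))).1 h1
  exact congrArg Subtype.val h2

include hinv in
omit [(U'.subgroupOf U).Normal] in
theorem dictHom_surjective
    (hsurj : ∀ w : ∀ q, G → T q, (∀ q g, p • w q g = 0) →
      (∀ q, ∀ u ∈ U', ∀ d ∈ D q, ∀ g, w q (u * g * d) = w q g) →
      ∃ x : X₀, p • x = 0 ∧ ∀ q g, ev q x g = w q g) :
    Function.Surjective (dictHom U' D T hT ev hinv) := by
  intro f
  obtain ⟨x, hx, hev⟩ := hsurj (fun q g => ((torsionEquiv (hT q)).symm ((f q).1 g)).1)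
    (fun q g => ((torsionEquiv (hT q)).symm ((f q).1 g)).2)
    (fun q u hu d hd g => by
      rw [(f q).2 u hu d hd g])
  refine ⟨⟨x, hx⟩, ?_⟩
  funext q
  apply Subtype.ext
  funext g
  rw [dictHom_apply]
  have h : (⟨ev q x g, ev_mem_torsionP T ev q ⟨x, hx⟩ g⟩ : torsionP p (T q)) =
      (torsionEquiv (hT q)).symm ((f q).1 g) := Subtype.ext (hev q g)
  rw [h, AddEquiv.apply_symm_apply]

/-! ### The `ℤ[Δ]`-linear form of the dictionary -/

variable (ρ : Representation ℤ (DeltaGrp U' U) X₀)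

/-- the `p`-torsion of `ρ.asModule`, as `p`-torsion elements of `X₀` -/
def toTorsion :
    ↥(torP (MonoidAlgebra ℤ (DeltaGrp U' U)) p ρ.asModule) →+ torsionP p X₀ where
  toFun x := ⟨ρ.asModuleEquiv x.1, by
    change p • ρ.asModuleEquiv x.1 = 0
    rw [← map_nsmul]
    have h : p • x.1 = 0 := congrArg Subtype.val (nsmul_torP x)
    rw [h, map_zero]⟩
  map_zero' := Subtype.ext (map_zero _)
  map_add' x y := Subtype.ext (map_add ρ.asModuleEquiv x.1 y.1)

omit [Fact p.Prime] in
theorem toTorsion_coe (x : ↥(torP (MonoidAlgebra ℤ (DeltaGrp U' U)) p ρ.asModule)) :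
    (toTorsion U' U ρ x).1 = ρ.asModuleEquiv x.1 := rfl

omit [Fact p.Prime] in
theorem toTorsion_bijective : Function.Bijective (toTorsion (p := p) U' U ρ) := by
  constructor
  · intro x y h
    have h1 := congrArg Subtype.val h
    rw [toTorsion_coe, toTorsion_coe] at h1
    exact Subtype.ext (ρ.asModuleEquiv.injective h1)
  · intro y
    have hy : ρ.asModuleEquiv.symm y.1 ∈ torP (MonoidAlgebra ℤ (DeltaGrp U' U)) p ρ.asModule := by
      rw [LinearMap.mem_ker, pMul_apply, ← map_nsmul, y.2, map_zero]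
    refine ⟨⟨ρ.asModuleEquiv.symm y.1, hy⟩, Subtype.ext ?_⟩
    rw [toTorsion_coe]
    exact ρ.asModuleEquiv.apply_symm_apply y.1

variable (hequiv : ∀ q (u : U) x g, ev q (ρ (QuotientGroup.mk u) x) g = ev q x ((u : G)⁻¹ * g))

/-- the `q`-component of the dictionary, as an additive map on the `p`-torsion of `ρ.asModule` -/
def dictComp (q : ι) :
    ↥(torP (MonoidAlgebra ℤ (DeltaGrp U' U)) p ρ.asModule) →+ DFun p U' U (D q) hle :=
  ((dfunRep p U' U (D q) hle).asModuleEquiv.symm.toLinearMap.toAddMonoidHom.comp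
    ((Pi.evalAddMonoidHom (fun q => dfun p U' (D q)) q).comp (dictHom U' D T hT ev hinv))).comp
    (toTorsion U' U ρ)

theorem dictComp_apply (q : ι) (x : ↥(torP (MonoidAlgebra ℤ (DeltaGrp U' U)) p ρ.asModule)) :
    (dfunRep p U' U (D q) hle).asModuleEquiv (dictComp U' U hle D T hT ev hinv ρ q x) =
      dictHom U' D T hT ev hinv (toTorsion U' U ρ x) q :=
  (dfunRep p U' U (D q) hle).asModuleEquiv.apply_symm_apply _

include hequiv in
theorem dictComp_smul (q : ι) (δ : DeltaGrp U' U)
    (x : ↥(torP (MonoidAlgebra ℤ (DeltaGrp U' U)) p ρ.asModule)) :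
    dictComp U' U hle D T hT ev hinv ρ q (MonoidAlgebra.single δ (1 : ℤ) • x) =
      MonoidAlgebra.single δ (1 : ℤ) • dictComp U' U hle D T hT ev hinv ρ q x := by
  obtain ⟨u, rfl⟩ := QuotientGroup.mk_surjective δ
  apply (dfunRep p U' U (D q) hle).asModuleEquiv.injective
  rw [Representation.asModuleEquiv_map_smul, Representation.asAlgebraHom_single_one,
    dictComp_apply, dictComp_apply]
  apply Subtype.ext
  funext g
  rw [dfunRep_mk, dictHom_apply, dictHom_apply]
  refine congrArg (torsionEquiv (hT q)) (Subtype.ext ?_)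
  change ev q (toTorsion U' U ρ (MonoidAlgebra.single (QuotientGroup.mk u) (1 : ℤ) • x)).1 g =
    ev q (toTorsion U' U ρ x).1 ((u : G)⁻¹ * g)
  rw [toTorsion_coe, toTorsion_coe, Submodule.coe_smul, Representation.asModuleEquiv_map_smul,
    Representation.asAlgebraHom_single_one]
  exact hequiv q u _ g

/-- the dictionary as a `ℤ[Δ]`-linear map -/
def dictLin :
    ↥(torP (MonoidAlgebra ℤ (DeltaGrp U' U)) p ρ.asModule) →ₗ[MonoidAlgebra ℤ (DeltaGrp U' U)]
      ∀ q, DFun p U' U (D q) hle :=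
  MonoidAlgebra.equivariantOfLinearOfComm
    (LinearMap.pi fun q => (dictComp U' U hle D T hT ev hinv ρ q).toIntLinearMap)
    (fun δ x => by
      funext q
      exact dictComp_smul U' U hle D T hT ev hinv ρ hequiv q δ x)

theorem dictLin_apply (x : ↥(torP (MonoidAlgebra ℤ (DeltaGrp U' U)) p ρ.asModule)) (q : ι) :
    dictLin U' U hle D T hT ev hinv ρ hequiv x q = dictComp U' U hle D T hT ev hinv ρ q x := rfl

theorem dictLin_bijective
    (hinj : ∀ x : X₀, p • x = 0 → (∀ q g, ev q x g = 0) → x = 0)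
    (hsurj : ∀ w : ∀ q, G → T q, (∀ q g, p • w q g = 0) →
      (∀ q, ∀ u ∈ U', ∀ d ∈ D q, ∀ g, w q (u * g * d) = w q g) →
      ∃ x : X₀, p • x = 0 ∧ ∀ q g, ev q x g = w q g) :
    Function.Bijective (dictLin U' U hle D T hT ev hinv ρ hequiv) := by
  constructor
  · intro x y h
    apply (toTorsion_bijective U' U ρ).1
    apply dictHom_injective U' D T hT ev hinv hinj
    funext q
    have h1 := congrFun h q
    rw [dictLin_apply, dictLin_apply] at h1
    have h2 := congrArg (dfunRep p U' U (D q) hle).asModuleEquiv h1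
    rw [dictComp_apply, dictComp_apply] at h2
    exact h2
  · intro w
    obtain ⟨t, ht⟩ := dictHom_surjective U' D T hT ev hinv hsurj
      (fun q => (dfunRep p U' U (D q) hle).asModuleEquiv (w q))
    obtain ⟨x, rfl⟩ := (toTorsion_bijective U' U ρ).2 t
    refine ⟨x, ?_⟩
    funext q
    apply (dfunRep p U' U (D q) hle).asModuleEquiv.injective
    rw [dictLin_apply, dictComp_apply, ht]

end Dict

/-- **The abstract dictionary count.** -/
theorem tCount_torP_eq_prod_DFun {G : Type} [Group G] {p : ℕ} [Fact p.Prime] (U' U : Subgroup G)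
    [(U'.subgroupOf U).Normal] (hle : U' ≤ U) {n : ℕ}
    (ε : Matrix (Fin n) (Fin n) (MonoidAlgebra ℤ (DeltaGrp U' U))) (hε : IdemModP p ε)
    {ι : Type} [Fintype ι] (D : ι → Subgroup G)
    {X₀ : Type} [AddCommGroup X₀] (ρ : Representation ℤ (DeltaGrp U' U) X₀)
    (T : ι → Type) [∀ q, AddCommGroup (T q)] (hT : ∀ q, Nat.card (torsionP p (T q)) = p)
    (ev : ∀ q, X₀ →+ (G → T q))
    (hinv : ∀ q x, ∀ u ∈ U', ∀ d ∈ D q, ∀ g, ev q x (u * g * d) = ev q x g)
    (hequiv : ∀ q (u : U) x g, ev q (ρ (QuotientGroup.mk u) x) g = ev q x ((u : G)⁻¹ * g))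
    (hinj : ∀ x, p • x = 0 → (∀ q g, ev q x g = 0) → x = 0)
    (hsurj : ∀ w : ∀ q, G → T q, (∀ q g, p • w q g = 0) →
      (∀ q, ∀ u ∈ U', ∀ d ∈ D q, ∀ g, w q (u * g * d) = w q g) →
      ∃ x, p • x = 0 ∧ ∀ q g, ev q x g = w q g) :
    tCount ε (torP (MonoidAlgebra ℤ (DeltaGrp U' U)) p ρ.asModule) =
      ∏ q, tCount ε (DFun p U' U (D q) hle) := by
  have _ := hε
  have hbij := dictLin_bijective U' U hle D T hT ev hinv ρ hequiv hinj hsurj
  rw [tCount_congr ε (LinearEquiv.ofBijective (dictLin U' U hle D T hT ev hinv ρ hequiv) hbij),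
    tCount_pi']

/-- finiteness of the `p`-torsion under the same dictionary (only `hinv`, `hinj` are used) -/
theorem finite_torP_of_dict {G : Type} [Group G] {p : ℕ} [Fact p.Prime] (U' U : Subgroup G)
    [(U'.subgroupOf U).Normal] [Finite (G ⧸ U')]
    {ι : Type} [Fintype ι] (D : ι → Subgroup G)
    {X₀ : Type} [AddCommGroup X₀] (ρ : Representation ℤ (DeltaGrp U' U) X₀)
    (T : ι → Type) [∀ q, AddCommGroup (T q)] (hT : ∀ q, Nat.card (torsionP p (T q)) = p)
    (ev : ∀ q, X₀ →+ (G → T q))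
    (hinv : ∀ q x, ∀ u ∈ U', ∀ d ∈ D q, ∀ g, ev q x (u * g * d) = ev q x g)
    (hinj : ∀ x, p • x = 0 → (∀ q g, ev q x g = 0) → x = 0) :
    Finite (torP (MonoidAlgebra ℤ (DeltaGrp U' U)) p ρ.asModule) := by
  have hp : p.Prime := Fact.out
  have hfinT : ∀ q, Finite (torsionP p (T q)) := fun q =>
    Nat.finite_of_card_ne_zero (by rw [hT q]; exact hp.ne_zero)
  -- the values at the inverses of the coset representatives
  let F : torsionP p X₀ → ∀ q : ι, (G ⧸ U' → torsionP p (T q)) := fun x q c =>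
    ⟨ev q x.1 (Quotient.out c)⁻¹, ev_mem_torsionP T ev q x _⟩
  have hF : Function.Injective F := by
    intro x y hxy
    have hz : x - y = 0 := by
      apply Subtype.ext
      refine hinj (x - y).1 (x - y).2 fun q g => ?_
      obtain ⟨u, hu⟩ := QuotientGroup.mk_out_eq_mul U' g⁻¹
      have hg : g = (u : G) * (Quotient.out (QuotientGroup.mk g⁻¹ : G ⧸ U'))⁻¹ * 1 := by
        rw [hu]
        group
      have h1 : ev q (x - y).1 g =
          ev q (x - y).1 (Quotient.out (QuotientGroup.mk g⁻¹ : G ⧸ U'))⁻¹ := by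
        conv_lhs => rw [hg]
        exact hinv q (x - y).1 (u : G) u.2 1 (D q).one_mem _
      have h2 := congrArg Subtype.val (congrFun (congrFun hxy q) (QuotientGroup.mk g⁻¹ : G ⧸ U'))
      change ev q x.1 (Quotient.out (QuotientGroup.mk g⁻¹ : G ⧸ U'))⁻¹ =
        ev q y.1 (Quotient.out (QuotientGroup.mk g⁻¹ : G ⧸ U'))⁻¹ at h2
      rw [h1, AddSubgroup.coe_sub, map_sub, Pi.sub_apply, h2, sub_self]
    exact sub_eq_zero.1 hz
  exact Finite.of_injective (F ∘ toTorsion U' U ρ) (hF.comp (toTorsion_bijective U' U ρ).1)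

end Fermat.Agent.S56.Base.EC.DictCount
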