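/-
PROJECT T (S56), block (a1-II)/B3/E3 (helper11), file 5a: THE PERMUTATION LATTICE `k[G/U']`.

`BL k U' = k[G ⧸ U']` with `G` acting by left translation.  An element `u ∈ G` normalising `U'`
acts on `BL k U'` by the `G`-automorphism `rTr u : [x U'] ↦ [x u U']`.  For every `Y : Rep k G`
there is a morphism `theta Y : XRep 𝒰 U' Y ⟶ homRep (BL k U') Y`, `f ↦ ([x U'] ↦ x • f (x⁻¹))`,
natural in `Y`, bijective when `Y` is smooth and `U'` is open, and transforming `lam u` into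
`homRes (rTr u) Y`.
-/
import Fermat.Agent.CFT.A7.HomRepLC
import Fermat.Agent.CFT.A7.HomSplit
import Fermat.Agent.CFT.D.PermH1
import Fermat.Agent.S56.Base.EC.Summand

set_option autoImplicit false

noncomputable section

namespace Fermat.Agent.S56.Base.EC

open CategoryTheory Fermat.Agent.CFT.LC Fermat.Agent.CFT.A7.HomRep

variable {k G : Type} [CommRing k] [Group G]

/-! ### The lattice -/

section Lattice

variable (k) (U' : Subgroup G)

/-- the permutation lattice `k[G ⧸ U']` -/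
abbrev BL : Rep.{0} k G := Rep.ofMulAction k G (G ⧸ U')

/-- its canonical basis -/
def blBasis : Module.Basis (G ⧸ U') k (BL k U') := MonoidAlgebra.basis (G ⧸ U') k

theorem BL_ρ_basis (g : G) (y : G ⧸ U') :
    (BL k U').ρ g (blBasis k U' y) = blBasis k U' (g • y) :=
  Representation.ofMulAction_single g y 1

instance free_BL : Module.Free k (BL k U').V := Module.Free.of_basis (blBasis k U')

instance finite_BL [Finite (G ⧸ U')] : Module.Finite k (BL k U').V :=
  Module.Finite.of_basis (blBasis k U')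

variable {U'} in
/-- a normal subgroup contained in `U'` acts trivially on `G ⧸ U'` -/
theorem smul_quot_of_mem {U₀ : Subgroup G} [U₀.Normal] (h : U₀ ≤ U') {s : G} (hs : s ∈ U₀)
    (y : G ⧸ U') : s • y = y := by
  induction y using QuotientGroup.induction_on with
  | H x =>
    change ((s * x : G) : G ⧸ U') = (x : G ⧸ U')
    rw [eq_comm, QuotientGroup.eq]
    have h1 : x⁻¹ * (s * x) ∈ U₀ := by
      have := (inferInstance : U₀.Normal).conj_mem s hs x⁻¹
      simpa [mul_assoc] using this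
    exact h h1

variable {U'} in
/-- a normal subgroup contained in `U'` acts trivially on `BL k U'` -/
theorem BL_trivial {U₀ : Subgroup G} [U₀.Normal] (h : U₀ ≤ U') {s : G} (hs : s ∈ U₀)
    (b : (BL k U').V) : (BL k U').ρ s b = b := by
  have h1 : (BL k U').ρ s = LinearMap.id := (blBasis k U').ext fun y => by
    rw [BL_ρ_basis, smul_quot_of_mem h hs, LinearMap.id_apply]
  rw [h1, LinearMap.id_apply]

variable {U'} in
theorem isSmooth_BL {𝒰 : Levels G} (hopen : 𝒰.IsOpen U') : IsSmooth 𝒰 (BL k U') := by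
  obtain ⟨U₀, hU₀, hle⟩ := hopen
  have : U₀.Normal := 𝒰.normal U₀ hU₀
  exact fun b => ⟨U₀, hU₀, fun s hs => BL_trivial k hle hs b⟩

end Lattice

/-! ### Right translation -/

section RightTranslation

variable {U' : Subgroup G}

/-- right multiplication by `u` on `G ⧸ U'`, for `u` normalising `U'` -/
def rmulQ (u : G) (hu : ∀ d ∈ U', u⁻¹ * d * u ∈ U') : G ⧸ U' → G ⧸ U' :=
  Quotient.map' (fun x => x * u) fun x x' h => by
    rw [QuotientGroup.leftRel_apply] at h ⊢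
    have h1 := hu _ h
    have h2 : (x * u)⁻¹ * (x' * u) = u⁻¹ * (x⁻¹ * x') * u := by group
    rw [h2]
    exact h1

@[simp] theorem rmulQ_mk (u : G) (hu : ∀ d ∈ U', u⁻¹ * d * u ∈ U') (x : G) :
    rmulQ u hu (x : G ⧸ U') = ((x * u : G) : G ⧸ U') := rfl

theorem smul_rmulQ (u : G) (hu : ∀ d ∈ U', u⁻¹ * d * u ∈ U') (g : G) (y : G ⧸ U') :
    g • rmulQ u hu y = rmulQ u hu (g • y) := by
  induction y using QuotientGroup.induction_on with
  | H x =>
    change (((g * (x * u) : G)) : G ⧸ U') = ((g * x * u : G) : G ⧸ U')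
    rw [mul_assoc]

variable (k) in
/-- the `G`-endomorphism `[x U'] ↦ [x u U']` of `k[G ⧸ U']` -/
def rTr (u : G) (hu : ∀ d ∈ U', u⁻¹ * d * u ∈ U') : BL k U' ⟶ BL k U' :=
  mkHom ((blBasis k U').constr k fun y => blBasis k U' (rmulQ u hu y)) fun g b => by
    have h1 : ((blBasis k U').constr k fun y => blBasis k U' (rmulQ u hu y)) ∘ₗ (BL k U').ρ g =
        (BL k U').ρ g ∘ₗ ((blBasis k U').constr k fun y => blBasis k U' (rmulQ u hu y)) :=
      (blBasis k U').ext fun y => by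
        rw [LinearMap.comp_apply, LinearMap.comp_apply, BL_ρ_basis, Module.Basis.constr_basis,
          Module.Basis.constr_basis, BL_ρ_basis, smul_rmulQ]
    exact LinearMap.congr_fun h1 b

@[simp] theorem rTr_basis (u : G) (hu : ∀ d ∈ U', u⁻¹ * d * u ∈ U') (y : G ⧸ U') :
    (rTr k u hu).hom (blBasis k U' y) = blBasis k U' (rmulQ u hu y) :=
  (blBasis k U').constr_basis k _ _

end RightTranslation

/-! ### The comparison `XRep Y ⟶ Hom(k[G/U'], Y)` -/

section Theta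

variable (𝒰 : Levels G) (U' : Subgroup G)

/-- the value of `theta f` on the basis vector `[x U']`: `x • f (x⁻¹)` -/
def thetaVal (Y : Rep.{0} k G) (f : XRep 𝒰 U' Y) : G ⧸ U' → Y.V :=
  Quotient.lift (fun x : G => Y.ρ x (iFn f x⁻¹)) fun x x' h => by
    have h1 : x⁻¹ * x' ∈ U' := QuotientGroup.leftRel_apply.1 h
    have h2 : x⁻¹ = ((⟨x⁻¹ * x', h1⟩ : U') : G) * x'⁻¹ := by simp
    have h3 := iFn_equivariant f (⟨x⁻¹ * x', h1⟩ : U') x'⁻¹
    change Y.ρ x (iFn f x⁻¹) = Y.ρ x' (iFn f x'⁻¹)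
    rw [h2, h3]
    change Y.ρ x (Y.ρ (x⁻¹ * x') (iFn f x'⁻¹)) = _
    rw [← Module.End.mul_apply, ← map_mul, mul_inv_cancel_left]

@[simp] theorem thetaVal_mk (Y : Rep.{0} k G) (f : XRep 𝒰 U' Y) (x : G) :
    thetaVal 𝒰 U' Y f (x : G ⧸ U') = Y.ρ x (iFn f x⁻¹) := rfl

/-- the linear map underlying `theta` -/
def thetaLin (Y : Rep.{0} k G) : (XRep 𝒰 U' Y).V →ₗ[k] ((BL k U').V →ₗ[k] Y.V) where
  toFun f := (blBasis k U').constr k (thetaVal 𝒰 U' Y f)
  map_add' f f' := by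
    refine (blBasis k U').ext fun y => ?_
    rw [LinearMap.add_apply, Module.Basis.constr_basis, Module.Basis.constr_basis,
      Module.Basis.constr_basis]
    induction y using QuotientGroup.induction_on with
    | H x => simp
  map_smul' c f := by
    refine (blBasis k U').ext fun y => ?_
    rw [LinearMap.smul_apply, Module.Basis.constr_basis, Module.Basis.constr_basis]
    induction y using QuotientGroup.induction_on with
    | H x => simp

theorem thetaLin_basis (Y : Rep.{0} k G) (f : XRep 𝒰 U' Y) (x : G) :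
    thetaLin 𝒰 U' Y f (blBasis k U' (x : G ⧸ U')) = Y.ρ x (iFn f x⁻¹) :=
  (blBasis k U').constr_basis k _ _

/-- **the comparison** `XRep Y ⟶ Hom(k[G/U'], Y)` -/
def theta (Y : Rep.{0} k G) : XRep 𝒰 U' Y ⟶ homRep (BL k U') Y :=
  mkHom (A := XRep 𝒰 U' Y) (B := homRep (BL k U') Y) (thetaLin 𝒰 U' Y) fun g f => by
    refine (blBasis k U').ext fun y => ?_
    induction y using QuotientGroup.induction_on with
    | H x =>
      change thetaLin 𝒰 U' Y ((XRep 𝒰 U' Y).ρ g f) (blBasis k U' (x : G ⧸ U')) =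
        Y.ρ g (thetaLin 𝒰 U' Y f ((BL k U').ρ g⁻¹ (blBasis k U' (x : G ⧸ U'))))
      rw [BL_ρ_basis]
      change _ = Y.ρ g (thetaLin 𝒰 U' Y f (blBasis k U' ((g⁻¹ * x : G) : G ⧸ U')))
      rw [thetaLin_basis, thetaLin_basis, ← Module.End.mul_apply, ← map_mul, mul_inv_cancel_left,
        mul_inv_rev, inv_inv]
      rfl

theorem toLin_theta_basis (Y : Rep.{0} k G) (f : XRep 𝒰 U' Y) (x : G) :
    toLin ((theta 𝒰 U' Y).hom f) (blBasis k U' (x : G ⧸ U')) = Y.ρ x (iFn f x⁻¹) :=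
  thetaLin_basis 𝒰 U' Y f x

/-- `theta` is natural in the coefficients -/
theorem theta_naturality {Y Y' : Rep.{0} k G} (ψ : Y ⟶ Y') :
    XMap 𝒰 U' ψ ≫ theta 𝒰 U' Y' = theta 𝒰 U' Y ≫ homMap (BL k U') ψ := by
  have key : ∀ f, (XMap 𝒰 U' ψ ≫ theta 𝒰 U' Y').hom f =
      (theta 𝒰 U' Y ≫ homMap (BL k U') ψ).hom f := by
    intro f
    refine (toLin (P := BL k U') (X := Y')).injective ((blBasis k U').ext fun y => ?_)
    induction y using QuotientGroup.induction_on with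
    | H x =>
      change thetaLin 𝒰 U' Y' ((XMap 𝒰 U' ψ).hom f) (blBasis k U' (x : G ⧸ U')) =
        ψ.hom (thetaLin 𝒰 U' Y f (blBasis k U' (x : G ⧸ U')))
      rw [thetaLin_basis, thetaLin_basis]
      change Y'.ρ x (ψ.hom (iFn f x⁻¹)) = ψ.hom (Y.ρ x (iFn f x⁻¹))
      exact (Rep.hom_comm_apply ψ x _).symm
  ext f v
  exact congrArg (fun φ : (homRep (BL k U') Y').V => toLin φ v) (key f)


/-- `theta` transforms `lam u` into `homRes (rTr u)` -/
theorem lam_theta (u : G) (hu : ∀ d ∈ U', u⁻¹ * d * u ∈ U') (Y : Rep.{0} k G) :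
    lam (𝒰 := 𝒰) u hu Y ≫ theta 𝒰 U' Y = theta 𝒰 U' Y ≫ homRes (rTr k u hu) Y := by
  have key : ∀ f, (lam (𝒰 := 𝒰) u hu Y ≫ theta 𝒰 U' Y).hom f =
      (theta 𝒰 U' Y ≫ homRes (rTr k u hu) Y).hom f := by
    intro f
    refine (toLin (P := BL k U') (X := Y)).injective ((blBasis k U').ext fun y => ?_)
    induction y using QuotientGroup.induction_on with
    | H x =>
      change thetaLin 𝒰 U' Y ((lam (𝒰 := 𝒰) u hu Y).hom f) (blBasis k U' (x : G ⧸ U')) =
        thetaLin 𝒰 U' Y f ((rTr k u hu).hom (blBasis k U' (x : G ⧸ U')))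
      rw [rTr_basis, rmulQ_mk, thetaLin_basis, thetaLin_basis, iFn_lam, ← Module.End.mul_apply,
        ← map_mul, mul_inv_rev]
  ext f v
  exact congrArg (fun φ : (homRep (BL k U') Y).V => toLin φ v) (key f)

theorem theta_injective (Y : Rep.{0} k G) : Function.Injective (theta 𝒰 U' Y).hom := by
  intro f f' h
  refine iFn_ext fun x => ?_
  have h1 : toLin ((theta 𝒰 U' Y).hom f) (blBasis k U' ((x⁻¹ : G) : G ⧸ U')) =
      toLin ((theta 𝒰 U' Y).hom f') (blBasis k U' ((x⁻¹ : G) : G ⧸ U')) := by rw [h]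
  rw [toLin_theta_basis, toLin_theta_basis, inv_inv] at h1
  have h2 := congrArg (Y.ρ x) h1
  rwa [← Module.End.mul_apply, ← Module.End.mul_apply, ← map_mul, mul_inv_cancel, map_one,
    Module.End.one_apply, Module.End.one_apply] at h2

theorem theta_surjective [Finite (G ⧸ U')] (hopen : 𝒰.IsOpen U') (Y : Rep.{0} k G)
    (hY : IsSmooth 𝒰 Y) : Function.Surjective (theta 𝒰 U' Y).hom := by
  intro φ
  obtain ⟨V, hV, hφ⟩ := isSmooth_homRep (isSmooth_BL k hopen) hY φ
  have hφ' : ∀ s ∈ V, ∀ b, Y.ρ s (toLin φ ((BL k U').ρ s⁻¹ b)) = toLin φ b := fun s hs b => by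
    rw [← toLin_ρ, hφ s hs]
  refine ⟨iMk (𝒰 := 𝒰) (D := U') (B := Rep.res U'.subtype Y)
    (fun x => Y.ρ x (toLin φ (blBasis k U' ((x⁻¹ : G) : G ⧸ U')))) (fun d x => ?_)
    ⟨V, hV, fun x s hs => ?_⟩, ?_⟩
  · change Y.ρ ((d : G) * x) (toLin φ (blBasis k U' ((((d : G) * x)⁻¹ : G) : G ⧸ U'))) =
      Y.ρ (d : G) (Y.ρ x (toLin φ (blBasis k U' ((x⁻¹ : G) : G ⧸ U'))))
    have h1 : ((((d : G) * x)⁻¹ : G) : G ⧸ U') = ((x⁻¹ : G) : G ⧸ U') := by
      rw [QuotientGroup.eq]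
      have : (((d : G) * x)⁻¹)⁻¹ * x⁻¹ = (d : G) := by group
      rw [this]
      exact d.2
    rw [h1, map_mul, Module.End.mul_apply]
  · have h1 : (blBasis k U' (((x * s)⁻¹ : G) : G ⧸ U')) =
        (BL k U').ρ s⁻¹ (blBasis k U' ((x⁻¹ : G) : G ⧸ U')) := by
      rw [BL_ρ_basis]
      change _ = blBasis k U' (((s⁻¹ * x⁻¹ : G)) : G ⧸ U')
      rw [mul_inv_rev]
    rw [h1, map_mul, Module.End.mul_apply, hφ' s hs]
  · refine (blBasis k U').ext fun y => ?_
    induction y using QuotientGroup.induction_on with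
    | H x =>
      change thetaLin 𝒰 U' Y _ (blBasis k U' (x : G ⧸ U')) = toLin φ (blBasis k U' (x : G ⧸ U'))
      rw [thetaLin_basis]
      change Y.ρ x (Y.ρ x⁻¹ (toLin φ (blBasis k U' (((x⁻¹)⁻¹ : G) : G ⧸ U')))) = _
      rw [← Module.End.mul_apply, ← map_mul, mul_inv_cancel, map_one, Module.End.one_apply,
        inv_inv]

theorem isIso_theta [Finite (G ⧸ U')] (hopen : 𝒰.IsOpen U') (Y : Rep.{0} k G)
    (hY : IsSmooth 𝒰 Y) : IsIso (theta 𝒰 U' Y) :=
  (ConcreteCategory.isIso_iff_bijective (theta 𝒰 U' Y)).2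
    ⟨theta_injective 𝒰 U' Y, theta_surjective 𝒰 U' hopen Y hY⟩

/-- `Hⁱ(G, XRep Y) → Hⁱ(G, Hom(k[G/U'], Y))` is bijective -/
theorem mapId_theta_bijective [Finite (G ⧸ U')] (hopen : 𝒰.IsOpen U') (Y : Rep.{0} k G)
    (hY : IsSmooth 𝒰 Y) (i : ℕ) : Function.Bijective (mapId (𝒰 := 𝒰) (theta 𝒰 U' Y) i).hom := by
  have := isIso_theta 𝒰 U' hopen Y hY
  have h1 : IsIso (mapId (𝒰 := 𝒰) (theta 𝒰 U' Y) i) := by
    rw [mapId_eq_functor_map]
    exact Functor.map_isIso _ _
  exact (ConcreteCategory.isIso_iff_bijective _).1 h1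

end Theta

end Fermat.Agent.S56.Base.EC
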