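/-
PROJECT T (S56), block (a1-II)/B3/E3, file 5b: ORBIT SUMS IN `k[G/U']`.

For a subgroup `D ≤ G` the `D`-invariants of `BL k U' = k[G ⧸ U']` are freely spanned by the orbit
sums `orbSum k D y = ∑_{z ∈ D • y} [z]`.
-/
import Fermat.Agent.S56.Base.EC.PermLat

set_option autoImplicit false
set_option linter.unusedSectionVars false

noncomputable section

namespace Fermat.Agent.S56.Base.EC.OrbitSum

open Fermat.Agent.S56.Base.EC

variable (k : Type) {G : Type} [CommRing k] [Group G] {U' : Subgroup G} [Finite (G ⧸ U')]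
  (D : Subgroup G)

/-- the orbit sum of `y ∈ G ⧸ U'` under `D` -/
def orbSum (y : G ⧸ U') : (BL k U').V :=
  ∑ z ∈ (Set.toFinite (MulAction.orbit D y)).toFinset, blBasis k U' z

theorem repr_orbSum (y z : G ⧸ U') [Decidable (z ∈ MulAction.orbit D y)] :
    (blBasis k U').repr (orbSum k D y) z = if z ∈ MulAction.orbit D y then 1 else 0 := by
  classical
  unfold orbSum
  rw [map_sum, Finsupp.finsetSum_apply]
  simp only [Module.Basis.repr_self, Finsupp.single_apply]
  rw [Finset.sum_ite_eq' ((Set.toFinite (MulAction.orbit D y)).toFinset) z (fun _ => (1 : k))]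
  simp only [Set.Finite.mem_toFinset]

/-- the coefficient of `g • b` at `g • z` is the coefficient of `b` at `z` -/
theorem repr_ρ_smul (g : G) (b : (BL k U').V) (z : G ⧸ U') :
    (blBasis k U').repr ((BL k U').ρ g b) (g • z) = (blBasis k U').repr b z := by
  classical
  have h1 : (Finsupp.lapply (g • z)) ∘ₗ (blBasis k U').repr.toLinearMap ∘ₗ (BL k U').ρ g =
      (Finsupp.lapply z) ∘ₗ (blBasis k U').repr.toLinearMap :=
    (blBasis k U').ext fun y => by
      simp only [LinearMap.comp_apply, LinearEquiv.coe_coe, Finsupp.lapply_apply]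
      rw [BL_ρ_basis, Module.Basis.repr_self, Module.Basis.repr_self, Finsupp.single_apply,
        Finsupp.single_apply]
      simp only [smul_left_cancel_iff]
  exact LinearMap.congr_fun h1 b

theorem smul_mem_orbit_iff' {d : G} (hd : d ∈ D) (y z : G ⧸ U') :
    d • z ∈ MulAction.orbit D y ↔ z ∈ MulAction.orbit D y := by
  constructor
  · intro h
    have h2 := MulAction.mem_orbit_of_mem_orbit (⟨d, hd⟩⁻¹ : D) h
    have h3 : ((⟨d, hd⟩⁻¹ : D)) • (d • z) = z := by
      change (d⁻¹ : G) • (d • z) = z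
      rw [inv_smul_smul]
    rwa [h3] at h2
  · intro h
    exact MulAction.mem_orbit_of_mem_orbit (⟨d, hd⟩ : D) h

theorem orbSum_invariant (y : G ⧸ U') {d : G} (hd : d ∈ D) :
    (BL k U').ρ d (orbSum k D y) = orbSum k D y := by
  classical
  refine (blBasis k U').repr.injective (Finsupp.ext fun z => ?_)
  have h1 : z = d • (d⁻¹ • z) := (smul_inv_smul d z).symm
  rw [h1, repr_ρ_smul, repr_orbSum, repr_orbSum]
  simp only [smul_mem_orbit_iff' D hd]

theorem orbSum_eq_of_mem_orbit {y y' : G ⧸ U'} (h : y' ∈ MulAction.orbit D y) :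
    orbSum k D y' = orbSum k D y := by
  have h1 : MulAction.orbit D y' = MulAction.orbit D y := MulAction.orbit_eq_iff.2 h
  unfold orbSum
  refine Finset.sum_congr ?_ fun _ _ => rfl
  ext z
  simp only [Set.Finite.mem_toFinset, h1]

theorem rmulQ_surjective (u : G) (hu : ∀ d ∈ U', u⁻¹ * d * u ∈ U') :
    Function.Surjective (rmulQ u hu) := by
  intro y
  induction y using QuotientGroup.induction_on with
  | H x =>
    refine ⟨((x * u⁻¹ : G) : G ⧸ U'), ?_⟩
    rw [rmulQ_mk, inv_mul_cancel_right]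

theorem rmulQ_injective (u : G) (hu : ∀ d ∈ U', u⁻¹ * d * u ∈ U') :
    Function.Injective (rmulQ u hu) :=
  Finite.injective_iff_surjective.2 (rmulQ_surjective u hu)

theorem image_orbit_rmulQ (u : G) (hu : ∀ d ∈ U', u⁻¹ * d * u ∈ U') (y : G ⧸ U')
    [DecidableEq (G ⧸ U')] :
    (Set.toFinite (MulAction.orbit D y)).toFinset.image (rmulQ u hu) =
      (Set.toFinite (MulAction.orbit D (rmulQ u hu y))).toFinset := by
  ext w
  rw [Finset.mem_image, Set.Finite.mem_toFinset, MulAction.mem_orbit_iff]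
  constructor
  · rintro ⟨z, hz, rfl⟩
    rw [Set.Finite.mem_toFinset, MulAction.mem_orbit_iff] at hz
    obtain ⟨d, rfl⟩ := hz
    exact ⟨d, smul_rmulQ u hu d y⟩
  · rintro ⟨d, rfl⟩
    refine ⟨d • y, ?_, (smul_rmulQ u hu d y).symm⟩
    rw [Set.Finite.mem_toFinset]
    exact MulAction.mem_orbit y d

theorem rTr_orbSum (u : G) (hu : ∀ d ∈ U', u⁻¹ * d * u ∈ U') (y : G ⧸ U') :
    (rTr k u hu).hom (orbSum k D y) = orbSum k D (rmulQ u hu y) := by
  classical
  unfold orbSum
  rw [map_sum, ← image_orbit_rmulQ D u hu y,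
    Finset.sum_image (f := fun w => blBasis k U' w) (fun a _ b _ h => rmulQ_injective u hu h)]
  exact Finset.sum_congr rfl fun x _ => rTr_basis u hu x

/-- the coefficients of a `D`-invariant vector are constant on `D`-orbits -/
theorem repr_smul_of_invariant {b : (BL k U').V} (hb : ∀ d ∈ D, (BL k U').ρ d b = b)
    {d : G} (hd : d ∈ D) (z : G ⧸ U') :
    (blBasis k U').repr b (d • z) = (blBasis k U').repr b z := by
  have h1 := repr_ρ_smul k d b z
  rwa [hb d hd] at h1

theorem repr_eq_of_mem_orbit {b : (BL k U').V} (hb : ∀ d ∈ D, (BL k U').ρ d b = b)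
    {z z' : G ⧸ U'} (h : z' ∈ MulAction.orbit D z) :
    (blBasis k U').repr b z' = (blBasis k U').repr b z := by
  obtain ⟨d, rfl⟩ := MulAction.mem_orbit_iff.1 h
  exact repr_smul_of_invariant k D hb d.2 z

theorem mem_orbit_out_iff (O : MulAction.orbitRel.Quotient D (G ⧸ U')) (z : G ⧸ U') :
    z ∈ MulAction.orbit D O.out ↔ Quotient.mk'' z = O := by
  rw [← MulAction.orbitRel_apply]
  constructor
  · intro h
    have h1 : (Quotient.mk'' z : MulAction.orbitRel.Quotient D (G ⧸ U')) = Quotient.mk'' O.out :=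
      Quotient.sound' h
    rw [h1, Quotient.out_eq']
  · intro h
    have h1 : (Quotient.mk'' z : MulAction.orbitRel.Quotient D (G ⧸ U')) = Quotient.mk'' O.out := by
      rw [h, Quotient.out_eq']
    exact Quotient.exact' h1

/-- a `D`-invariant vector is the combination of the orbit sums with its own coefficients -/
theorem eq_sum_orbSum [Fintype (MulAction.orbitRel.Quotient D (G ⧸ U'))] {b : (BL k U').V}
    (hb : ∀ d ∈ D, (BL k U').ρ d b = b) :
    b = ∑ O : MulAction.orbitRel.Quotient D (G ⧸ U'),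
      (blBasis k U').repr b O.out • orbSum k D O.out := by
  classical
  refine (blBasis k U').repr.injective (Finsupp.ext fun z => ?_)
  rw [map_sum, Finsupp.finsetSum_apply]
  simp only [map_smul, Finsupp.smul_apply, repr_orbSum k D, mem_orbit_out_iff D, smul_eq_mul,
    mul_ite, mul_one, mul_zero]
  rw [Finset.sum_ite_eq Finset.univ (Quotient.mk'' z : MulAction.orbitRel.Quotient D (G ⧸ U'))
    (fun O => (blBasis k U').repr b O.out), if_pos (Finset.mem_univ _)]
  exact repr_eq_of_mem_orbit k D hb ((mem_orbit_out_iff D _ z).2 rfl)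

variable {k}

/-- the functional `b ↦ ∑_O b(O.out) • t(O.out)` -/
def orbFunctional [Fintype (MulAction.orbitRel.Quotient D (G ⧸ U'))] {T : Type} [AddCommGroup T]
    [Module k T] (t : G ⧸ U' → T) : (BL k U').V →ₗ[k] T :=
  ∑ O : MulAction.orbitRel.Quotient D (G ⧸ U'),
    (LinearMap.toSpanSingleton k T (t O.out)) ∘ₗ
      ((Finsupp.lapply O.out) ∘ₗ (blBasis k U').repr.toLinearMap)

theorem orbFunctional_orbSum [Fintype (MulAction.orbitRel.Quotient D (G ⧸ U'))] {T : Type}
    [AddCommGroup T] [Module k T] (t : G ⧸ U' → T)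
    (ht : ∀ d ∈ D, ∀ y, t (d • y) = t y) (y : G ⧸ U') :
    orbFunctional D t (orbSum k D y) = t y := by
  classical
  unfold orbFunctional
  rw [LinearMap.sum_apply]
  simp only [LinearMap.comp_apply, LinearEquiv.coe_coe, Finsupp.lapply_apply,
    LinearMap.toSpanSingleton_apply, repr_orbSum k D, ite_smul, one_smul, zero_smul]
  have h1 : ∀ O : MulAction.orbitRel.Quotient D (G ⧸ U'),
      (O.out ∈ MulAction.orbit D y) ↔ (Quotient.mk'' y = O) := by
    intro O
    rw [← mem_orbit_out_iff, ← MulAction.orbit_eq_iff, ← MulAction.orbit_eq_iff, eq_comm]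
  simp only [h1]
  rw [Finset.sum_ite_eq Finset.univ (Quotient.mk'' y : MulAction.orbitRel.Quotient D (G ⧸ U'))
    (fun O => t O.out), if_pos (Finset.mem_univ _)]
  obtain ⟨d, hd⟩ := MulAction.mem_orbit_iff.1 ((h1 _).2 rfl)
  rw [← hd]
  exact ht d d.2 y

end Fermat.Agent.S56.Base.EC.OrbitSum
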