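/-
PROJECT T (S56), block (a1-II)/B3/E3 (helper11), file 5e: THE TATE–NAKAYAMA DICTIONARY.

`cf` a class formation on `(G', 𝒱, C')`, `φ : G' →* G`, `B = Res_φ k[G/U']`.  Evaluation at the
orbit sums of `φ.range` on `G ⧸ U'` identifies the `p`-torsion of `H²_LC(G', Hom(B, C'))` with the
functions `G → H²_LC(G', C')[p]` which are left `U'`-invariant and right `φ.range`-invariant,
compatibly with right translation by elements normalising `U'`.
-/
import Fermat.Agent.S56.Base.EC.EvH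
import Fermat.Agent.S56.Base.EC.OrbitSum

set_option autoImplicit false

noncomputable section

namespace Fermat.Agent.S56.Base.EC

open CategoryTheory Fermat.Agent.CFT.LC Fermat.Agent.CFT.A7 Fermat.Agent.CFT.A7.HomRep
open Fermat.Agent.CFT.A5 (AddHomsLinear)
open Fermat.Agent.S56.Base.TNLC Fermat.Agent.S56.Base.EC.OrbitSum

variable {k : Type} [CommRing k] {G : Type} [Group G] (U' : Subgroup G) [Finite (G ⧸ U')]
  {G' : Type} [Group G'] (𝒱 : Levels G') (φ : G' →* G) (C' : Rep.{0} k G')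

/-- the orbit sum of `[g⁻¹]` under `φ.range`, as an invariant element of `Res_φ k[G/U']` -/
def orbInv (g : G) : (Rep.res φ (BL k U')).ρ.invariants :=
  ⟨orbSum k φ.range ((g⁻¹ : G) : G ⧸ U'), fun g' => orbSum_invariant k φ.range _ ⟨g', rfl⟩⟩

/-- evaluation at the orbit sums -/
def evOrb : H 𝒱 (homRep (Rep.res φ (BL k U')) C') 2 →+ (G → H 𝒱 C' 2) where
  toFun x g := evMap 𝒱 (Rep.res φ (BL k U')) C' x (orbInv U' φ g)
  map_zero' := by
    funext g
    simp
  map_add' x y := by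
    funext g
    simp

theorem evOrb_apply (x : H 𝒱 (homRep (Rep.res φ (BL k U')) C') 2) (g : G) :
    evOrb U' 𝒱 φ C' x g = evMap 𝒱 (Rep.res φ (BL k U')) C' x (orbInv U' φ g) := rfl

theorem orbInv_mul {u d : G} (hu : u ∈ U') (hd : d ∈ φ.range) (g : G) :
    orbInv (k := k) U' φ (u * g * d) = orbInv U' φ g := by
  apply Subtype.ext
  change orbSum k φ.range (((u * g * d)⁻¹ : G) : G ⧸ U') = orbSum k φ.range ((g⁻¹ : G) : G ⧸ U')
  apply orbSum_eq_of_mem_orbit
  refine ⟨⟨d⁻¹, φ.range.inv_mem hd⟩, ?_⟩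
  change ((d⁻¹ * g⁻¹ : G) : G ⧸ U') = (((u * g * d)⁻¹ : G) : G ⧸ U')
  rw [QuotientGroup.eq]
  have h : (d⁻¹ * g⁻¹)⁻¹ * (u * g * d)⁻¹ = u⁻¹ := by group
  rw [h]
  exact U'.inv_mem hu

/-- invariance of the evaluations -/
theorem evOrb_mul (x : H 𝒱 (homRep (Rep.res φ (BL k U')) C') 2) {u d : G} (hu : u ∈ U')
    (hd : d ∈ φ.range) (g : G) : evOrb U' 𝒱 φ C' x (u * g * d) = evOrb U' 𝒱 φ C' x g := by
  rw [evOrb_apply, evOrb_apply, orbInv_mul U' φ hu hd]

/-- equivariance for right translation of the lattice -/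
theorem evOrb_rTr (u : G) (hu : ∀ d ∈ U', u⁻¹ * d * u ∈ U')
    (x : H 𝒱 (homRep (Rep.res φ (BL k U')) C') 2) (g : G) :
    evOrb U' 𝒱 φ C'
        ((mapId (𝒰 := 𝒱) (homRes ((Rep.resFunctor φ).map (rTr k u hu)) C') 2).hom x) g =
      evOrb U' 𝒱 φ C' x (u⁻¹ * g) := by
  rw [evOrb_apply, evOrb_apply]
  have hb : ∀ g' : G', (Rep.res φ (BL k U')).ρ g'
      (((Rep.resFunctor φ).map (rTr k u hu)).hom (orbInv (k := k) U' φ g).1) =
      ((Rep.resFunctor φ).map (rTr k u hu)).hom (orbInv (k := k) U' φ g).1 := by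
    intro g'
    change (BL k U').ρ (φ g') ((rTr k u hu).hom (orbSum k φ.range ((g⁻¹ : G) : G ⧸ U'))) =
      (rTr k u hu).hom (orbSum k φ.range ((g⁻¹ : G) : G ⧸ U'))
    rw [rTr_orbSum]
    exact orbSum_invariant k φ.range _ ⟨g', rfl⟩
  rw [evMap_homRes 𝒱 (Rep.res φ (BL k U')) C' ((Rep.resFunctor φ).map (rTr k u hu))
    (orbInv U' φ g) hb]
  congr 1
  apply Subtype.ext
  change (rTr k u hu).hom (orbSum k φ.range ((g⁻¹ : G) : G ⧸ U')) =
    orbSum k φ.range (((u⁻¹ * g)⁻¹ : G) : G ⧸ U')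
  rw [rTr_orbSum, rmulQ_mk, mul_inv_rev, inv_inv]

/-- evaluation of torsion classes is torsion -/
theorem nsmul_evOrb (m : ℕ) (x : H 𝒱 (homRep (Rep.res φ (BL k U')) C') 2) (g : G) :
    m • evOrb U' 𝒱 φ C' x g = evOrb U' 𝒱 φ C' (m • x) g := by
  rw [map_nsmul]
  rfl

section ClassFormation

variable [IsDomain k] [IsPrincipalIdealRing k] [CharZero k] {𝒱 C'}
  (hR : AddHomsLinear k) (cf : ClassFormation 𝒱 C')

include hR cf in
/-- **injectivity**: a class all of whose evaluations at orbit sums vanish is zero -/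
theorem eq_zero_of_evOrb_eq_zero (V₀ : Subgroup G') (hV₀ : V₀ ∈ 𝒱.sets)
    (hB : ∀ v ∈ V₀, ∀ b : (Rep.res φ (BL k U')).V, (Rep.res φ (BL k U')).ρ v b = b)
    (x : H 𝒱 (homRep (Rep.res φ (BL k U')) C') 2) (hx : ∀ g, evOrb U' 𝒱 φ C' x g = 0) :
    x = 0 := by
  classical
  have : Module.Free k (Rep.res φ (BL k U')).V := free_BL k U'
  have : Module.Finite k (Rep.res φ (BL k U')).V := finite_BL k U'
  refine tnc20_injective hR cf (Rep.res φ (BL k U')) V₀ hV₀ hB x fun b hb => ?_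
  have : Fintype (MulAction.orbitRel.Quotient φ.range (G ⧸ U')) := Fintype.ofFinite _
  have hb' : ∀ d ∈ φ.range, (BL k U').ρ d b = b := by
    rintro d ⟨g', rfl⟩
    exact hb g'
  have hdec := eq_sum_orbSum k φ.range hb'
  have hmem : ∀ O : MulAction.orbitRel.Quotient φ.range (G ⧸ U'),
      orbSum k φ.range O.out = (orbInv (k := k) U' φ (O.out.out)⁻¹).1 := by
    intro O
    change _ = orbSum k φ.range ((((O.out.out)⁻¹)⁻¹ : G) : G ⧸ U')
    rw [inv_inv, QuotientGroup.out_eq']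
  have hsub : (⟨b, hb⟩ : (Rep.res φ (BL k U')).ρ.invariants) =
      ∑ O : MulAction.orbitRel.Quotient φ.range (G ⧸ U'),
        (blBasis k U').repr b O.out • orbInv (k := k) U' φ (O.out.out)⁻¹ := by
    apply Subtype.ext
    rw [AddSubmonoidClass.coe_finsetSum]
    refine hdec.trans (Finset.sum_congr rfl fun O _ => ?_)
    rw [hmem O]
    rfl
  have h1 : evMap 𝒱 (Rep.res φ (BL k U')) C' x ⟨b, hb⟩ = 0 := by
    rw [hsub, map_sum]
    refine Finset.sum_eq_zero fun O _ => ?_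
    rw [evMap_smul, ← evOrb_apply, hx, smul_zero]
  exact h1

include hR cf in
/-- **surjectivity**: every invariant family of `p`-torsion classes is the family of evaluations
of a `p`-torsion class -/
theorem exists_evOrb_eq (p : ℕ) [Fact p.Prime] (V₀ : Subgroup G') (hV₀ : V₀ ∈ 𝒱.sets)
    (hB : ∀ v ∈ V₀, ∀ b : (Rep.res φ (BL k U')).V, (Rep.res φ (BL k U')).ρ v b = b)
    (hdiv : ∀ V₀ ∈ 𝒱.sets, ∃ V ∈ 𝒱.sets, V ≤ V₀ ∧ p ∣ V.relIndex V₀)
    (w : G → H 𝒱 C' 2) (hw : ∀ g, p • w g = 0)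
    (hinv : ∀ u ∈ U', ∀ d ∈ φ.range, ∀ g, w (u * g * d) = w g) :
    ∃ x : H 𝒱 (homRep (Rep.res φ (BL k U')) C') 2, p • x = 0 ∧ ∀ g, evOrb U' 𝒱 φ C' x g = w g := by
  classical
  have : Module.Free k (Rep.res φ (BL k U')).V := free_BL k U'
  have : Module.Finite k (Rep.res φ (BL k U')).V := finite_BL k U'
  have : Fintype (MulAction.orbitRel.Quotient φ.range (G ⧸ U')) := Fintype.ofFinite _
  -- the values on the cosets
  let t : G ⧸ U' → H 𝒱 C' 2 := fun y => w (y.out)⁻¹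
  have ht_mk : ∀ x : G, t (x : G ⧸ U') = w x⁻¹ := by
    intro x
    obtain ⟨u, hu⟩ := QuotientGroup.mk_out_eq_mul U' x
    change w ((x : G ⧸ U').out)⁻¹ = w x⁻¹
    rw [hu, mul_inv_rev]
    have := hinv (u : G)⁻¹ (U'.inv_mem u.2) 1 φ.range.one_mem x⁻¹
    rwa [mul_one] at this
  have ht : ∀ d ∈ φ.range, ∀ y, t (d • y) = t y := by
    intro d hd y
    induction y using QuotientGroup.induction_on with
    | H x =>
      change t ((d * x : G) : G ⧸ U') = t (x : G ⧸ U')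
      rw [ht_mk, ht_mk, mul_inv_rev]
      have := hinv 1 U'.one_mem d⁻¹ (φ.range.inv_mem hd) x⁻¹
      rwa [one_mul] at this
  -- the functional
  let F : (BL k U').V →ₗ[k] H 𝒱 C' 2 := orbFunctional φ.range t
  have hF : ∀ b, p • F b = 0 := by
    intro b
    change p • (orbFunctional φ.range t) b = 0
    unfold orbFunctional
    rw [LinearMap.sum_apply, Finset.smul_sum]
    refine Finset.sum_eq_zero fun O _ => ?_
    simp only [LinearMap.comp_apply, LinearMap.toSpanSingleton_apply]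
    rw [smul_comm, hw, smul_zero]
  let f : (Rep.res φ (BL k U')).ρ.invariants →+ H 𝒱 C' 2 :=
    F.toAddMonoidHom.comp (Rep.res φ (BL k U')).ρ.invariants.subtype.toAddMonoidHom
  obtain ⟨x, hx⟩ := exists_class_of_functional hR cf (Rep.res φ (BL k U')) p V₀ hV₀ hB hdiv f
    (fun b => hF b.1)
  have hev : ∀ g, evOrb U' 𝒱 φ C' x g = w g := by
    intro g
    rw [evOrb_apply, evMap_apply]
    refine (hx _ _).trans ?_
    change F (orbSum k φ.range ((g⁻¹ : G) : G ⧸ U')) = w g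
    change orbFunctional φ.range t (orbSum k φ.range ((g⁻¹ : G) : G ⧸ U')) = w g
    rw [orbFunctional_orbSum φ.range t ht, ht_mk, inv_inv]
  refine ⟨x, ?_, hev⟩
  refine eq_zero_of_evOrb_eq_zero U' φ hR cf V₀ hV₀ hB _ fun g => ?_
  rw [← nsmul_evOrb, hev, hw]

end ClassFormation

end Fermat.Agent.S56.Base.EC
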