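/-
PROJECT T (S56), block (a1-II)/B3/E3 (helper11), file 5: (B) = THE BRAUER PIECE.

`t(H²(U', E)[p]) · t(F_p) = ∏_{q ∈ S} t(F_p[U' \ GQ / G_q])` (`hB` of `core_of_pieces`), from
`0 → H²(U',E)[p] → H²(U',J)[p] → H²(U',C)[p] → 0` and the Tate–Nakayama dictionaries
`H²(U',J)[p] = ∏_q F_p[U' \ GQ / G_q]`, `H²(U',C)[p] = F_p`.
-/
import Fermat.Agent.S56.Base.EC.TNDict
import Fermat.Agent.S56.Base.EC.DictCount
import Fermat.Agent.S56.Base.EC.Frame

set_option autoImplicit false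

noncomputable section

namespace Fermat.Agent.S56.Base.EC

open CategoryTheory ExtCitation
open Fermat.Agent.CFT.LC Fermat.Agent.CFT.Bridge Fermat.Agent.CFT.D.Reduce
open Fermat.Agent.CFT.D.DatumBuild Fermat.Agent.CFT.D.CoeffChange Fermat.Agent.CFT.D.DualTwist
open Fermat.Agent.CFT.D.ZpModel Fermat.Agent.CFT.A7 Fermat.Agent.CFT.A7.HomRep
open Fermat.Agent.CFT.D (torsionP locHom)
open Fermat.Agent.CFT.A5 (AddHomsLinear)
open Fermat.Agent.S56.Base.TNLC

/-! ### The comparison on cohomology -/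

section ThetaH

variable {k G : Type} [CommRing k] [Group G] (𝒰 : Levels G) (U' : Subgroup G)

/-- `Hⁱ(G, XRep Y) → Hⁱ(G, Hom(k[G/U'], Y))` -/
def thetaH (Y : Rep.{0} k G) (i : ℕ) :
    H 𝒰 (XRep 𝒰 U' Y) i →+ H 𝒰 (homRep (BL k U') Y) i :=
  (mapId (𝒰 := 𝒰) (theta 𝒰 U' Y) i).hom.toAddMonoidHom

theorem thetaH_bijective [Finite (G ⧸ U')] (hopen : 𝒰.IsOpen U') (Y : Rep.{0} k G)
    (hY : IsSmooth 𝒰 Y) (i : ℕ) : Function.Bijective (thetaH 𝒰 U' Y i) :=
  mapId_theta_bijective 𝒰 U' hopen Y hY i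

theorem thetaH_XMap {Y Y' : Rep.{0} k G} (ψ : Y ⟶ Y') (i : ℕ) (x : H 𝒰 (XRep 𝒰 U' Y) i) :
    thetaH 𝒰 U' Y' i ((mapId (𝒰 := 𝒰) (XMap 𝒰 U' ψ) i).hom x) =
      (mapId (𝒰 := 𝒰) (homMap (BL k U') ψ) i).hom (thetaH 𝒰 U' Y i x) := by
  change (mapId (𝒰 := 𝒰) (XMap 𝒰 U' ψ) i ≫ mapId (𝒰 := 𝒰) (theta 𝒰 U' Y') i).hom x =
    (mapId (𝒰 := 𝒰) (theta 𝒰 U' Y) i ≫ mapId (𝒰 := 𝒰) (homMap (BL k U') ψ) i).hom x
  rw [← mapId_comp, ← mapId_comp, theta_naturality]

theorem thetaH_lam (u : G) (hu : ∀ d ∈ U', u⁻¹ * d * u ∈ U') (Y : Rep.{0} k G) (i : ℕ)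
    (x : H 𝒰 (XRep 𝒰 U' Y) i) :
    thetaH 𝒰 U' Y i ((mapId (𝒰 := 𝒰) (lam (𝒰 := 𝒰) u hu Y) i).hom x) =
      (mapId (𝒰 := 𝒰) (homRes (rTr k u hu) Y) i).hom (thetaH 𝒰 U' Y i x) := by
  change (mapId (𝒰 := 𝒰) (lam (𝒰 := 𝒰) u hu Y) i ≫ mapId (𝒰 := 𝒰) (theta 𝒰 U' Y) i).hom x =
    (mapId (𝒰 := 𝒰) (theta 𝒰 U' Y) i ≫ mapId (𝒰 := 𝒰) (homRes (rTr k u hu) Y) i).hom x
  rw [← mapId_comp, ← mapId_comp, lam_theta]

end ThetaH

/-! ### Left exactness of the `p`-torsion -/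

section TorExact

variable {R : Type*} [Ring R] {n : ℕ} {ε : Matrix (Fin n) (Fin n) R} {p : ℕ}
  {X Y Z : Type*} [AddCommGroup X] [Module R X] [AddCommGroup Y] [Module R Y]
  [AddCommGroup Z] [Module R Z]

/-- `0 → X → Y → Z` exact and `Y[p] → Z[p]` onto: `t(Y[p]) = t(X[p]) t(Z[p])` -/
theorem tCount_torP_of_exact (hε : IdemModP p ε) (f : X →ₗ[R] Y) (g : Y →ₗ[R] Z)
    (hf : Function.Injective f) (hfg : Function.Exact f g)
    (hsurj : ∀ z : Z, p • z = 0 → ∃ y : Y, p • y = 0 ∧ g y = z) :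
    tCount ε (torP R p Y) = tCount ε (torP R p X) * tCount ε (torP R p Z) := by
  have hfm : ∀ x ∈ torP R p X, f x ∈ torP R p Y := fun x hx => by
    rw [LinearMap.mem_ker, pMul_apply] at hx ⊢
    rw [← map_nsmul, hx, map_zero]
  have hgm : ∀ y ∈ torP R p Y, g y ∈ torP R p Z := fun y hy => by
    rw [LinearMap.mem_ker, pMul_apply] at hy ⊢
    rw [← map_nsmul, hy, map_zero]
  refine tCount_mul_of_exact (hε.idemOn_torP X) (hε.idemOn_torP Y) (f.restrict hfm)
    (g.restrict hgm)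
    ?_ ?_ ?_
  · intro a b h
    exact Subtype.ext (hf (congrArg Subtype.val h))
  · rintro ⟨z, hz⟩
    rw [LinearMap.mem_ker, pMul_apply] at hz
    obtain ⟨y, hy1, hy2⟩ := hsurj z hz
    exact ⟨⟨y, by rw [LinearMap.mem_ker, pMul_apply]; exact hy1⟩, Subtype.ext hy2⟩
  · rintro ⟨y, hy⟩
    constructor
    · intro h
      have h0 : g y = 0 := congrArg Subtype.val h
      obtain ⟨x, rfl⟩ := (hfg y).1 h0
      rw [LinearMap.mem_ker, pMul_apply, ← map_nsmul] at hy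
      have hx : p • x = 0 := hf (by rw [hy, map_zero])
      exact ⟨⟨x, by rw [LinearMap.mem_ker, pMul_apply]; exact hx⟩, rfl⟩
    · rintro ⟨⟨x, hx⟩, hxy⟩
      apply Subtype.ext
      have h1 : f x = y := congrArg Subtype.val hxy
      change g y = 0
      rw [← h1]
      exact (hfg (f x)).2 ⟨x, rfl⟩

end TorExact

/-! ### The two dictionaries -/

section Brauer

variable {p : ℕ} [Fact p.Prime] {S : Finset Nat.Primes} (hpS : pPrime p ∈ S)
  (g : GlobalInputs p S) (U' U : Subgroup GQ) [(U'.subgroupOf U).Normal] (hle : U' ≤ U)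

/-- localisation at `q` on `H²(Hom(k[G/U'], J))` -/
def locJ (q : ↥S) : H (levelsS S) (homRep (BL (Zp p) U') (theDatum hpS g).SES.X₂) 2 →+
    H (Uv S q) (homRep (Rep.res (rv S q) (BL (Zp p) U')) ((theDatum hpS g).Dloc q)) 2 :=
  (map (A := homRep (BL (Zp p) U') (theDatum hpS g).SES.X₂)
    (B := homRep (Rep.res (rv S q) (BL (Zp p) U')) ((theDatum hpS g).Dloc q)) (hrv S q)
    (locHom (rv S) q (BL (Zp p) U') (theDatum hpS g).SES.X₂ ((theDatum hpS g).π q))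
    2).hom.toAddMonoidHom

theorem locJ_homRes (q : ↥S) (u : GQ) (hu : ∀ d ∈ U', u⁻¹ * d * u ∈ U')
    (y : H (levelsS S) (homRep (BL (Zp p) U') (theDatum hpS g).SES.X₂) 2) :
    locJ hpS g U' q ((mapId (𝒰 := levelsS S)
        (homRes (rTr (Zp p) u hu) (theDatum hpS g).SES.X₂) 2).hom y) =
      (mapId (𝒰 := Uv S q) (homRes ((Rep.resFunctor (rv S q)).map (rTr (Zp p) u hu))
        ((theDatum hpS g).Dloc q)) 2).hom (locJ hpS g U' q y) := by
  have h := map_naturality (𝒰 := levelsS S) (𝒰' := Uv S q) (hrv S q)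
    (homRes (rTr (Zp p) u hu) (theDatum hpS g).SES.X₂)
    (homRes ((Rep.resFunctor (rv S q)).map (rTr (Zp p) u hu)) ((theDatum hpS g).Dloc q))
    (locHom (rv S) q (BL (Zp p) U') (theDatum hpS g).SES.X₂ ((theDatum hpS g).π q))
    (locHom (rv S) q (BL (Zp p) U') (theDatum hpS g).SES.X₂ ((theDatum hpS g).π q))
    (by ext φ; rfl) 2
  exact congrArg (fun F => F.hom y) h

variable [Finite (GQ ⧸ U')]

/-- the evaluations of a class of `H²(U', J)` at the places above `q` -/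
def evJ (q : ↥S) : H (levelsS S) (XRep (levelsS S) U' (theDatum hpS g).SES.X₂) 2 →+
    (GQ → H (Uv S q) ((theDatum hpS g).Dloc q) 2) :=
  ((evOrb U' (Uv S q) (rv S q) ((theDatum hpS g).Dloc q)).comp (locJ hpS g U' q)).comp
    (thetaH (levelsS S) U' (theDatum hpS g).SES.X₂ 2)

/-- the evaluation of a class of `H²(U', C)` -/
def evC : H (levelsS S) (XRep (levelsS S) U' (theDatum hpS g).SES.X₃) 2 →+
    (GQ → H (levelsS S) (theDatum hpS g).SES.X₃ 2) :=
  (evOrb U' (levelsS S) (MonoidHom.id GQ) (theDatum hpS g).SES.X₃).comp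
    (thetaH (levelsS S) U' (theDatum hpS g).SES.X₃ 2)

variable {n : ℕ} (ε : Matrix (Fin n) (Fin n) (MonoidAlgebra ℤ (DeltaGrp U' U)))

omit [Finite (GQ ⧸ U')] in
/-- a level below `U'`, pulled back to the local group, acts trivially on `Res k[G/U']` -/
theorem exists_local_level (hopen : (levelsS S).IsOpen U') (q : ↥S) :
    ∃ V₀ ∈ (Uv S q).sets, ∀ v ∈ V₀, ∀ b : (Rep.res (rv S q) (BL (Zp p) U')).V,
      (Rep.res (rv S q) (BL (Zp p) U')).ρ v b = b := by
  obtain ⟨U₀, hU₀, hle₀⟩ := hopen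
  have : U₀.Normal := (levelsS S).normal U₀ hU₀
  exact ⟨U₀.comap (rv S q), Levels.mem_comap_sets (mem_levelsAll_of_mem_levelsS S hU₀),
    fun v hv b => BL_trivial (Zp p) hle₀ hv b⟩

omit [Finite (GQ ⧸ U')] in
theorem exists_global_level (hopen : (levelsS S).IsOpen U') :
    ∃ U₀ ∈ (levelsS S).sets, ∀ u ∈ U₀, ∀ b : (BL (Zp p) U').V, (BL (Zp p) U').ρ u b = b := by
  obtain ⟨U₀, hU₀, hle₀⟩ := hopen
  have : U₀.Normal := (levelsS S).normal U₀ hU₀
  exact ⟨U₀, hU₀, fun u hu b => BL_trivial (Zp p) hle₀ hu b⟩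

/-- invariance of the evaluations on `H²(U', J)` -/
theorem evJ_mul (q : ↥S) (x : H (levelsS S) (XRep (levelsS S) U' (theDatum hpS g).SES.X₂) 2)
    {u d : GQ} (hu : u ∈ U') (hd : d ∈ decompGrp S q) (g' : GQ) :
    evJ hpS g U' q x (u * g' * d) = evJ hpS g U' q x g' :=
  evOrb_mul U' (Uv S q) (rv S q) ((theDatum hpS g).Dloc q) _ hu hd g'

/-- joint injectivity of the evaluations on `H²(U', J)` -/
theorem eq_zero_of_evJ_eq_zero (hopen : (levelsS S).IsOpen U')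
    (x : H (levelsS S) (XRep (levelsS S) U' (theDatum hpS g).SES.X₂) 2)
    (hev : ∀ q g', evJ hpS g U' q x g' = 0) : x = 0 := by
  have hθ := thetaH_bijective (levelsS S) U' hopen (theDatum hpS g).SES.X₂
    (theDatum hpS g).smJ 2
  apply hθ.1
  rw [map_zero]
  refine (theDatum hpS g).h4_two (BL (Zp p) U') (exists_global_level (p := p) U' hopen) _ ?_
  intro q
  obtain ⟨V₀, hV₀, hB⟩ := exists_local_level (p := p) U' hopen q
  exact eq_zero_of_evOrb_eq_zero U' (rv S q) (addHomsLinear p) ((theDatum hpS g).cfD q) V₀ hV₀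
    hB _ (fun g' => hev q g')

/-- **the dictionary for `J`**: `t(H²(U',J)[p]) = ∏_q t(F_p[U' \\ GQ / G_q])` -/
theorem tCount_torP_HX_J (hε : IdemModP p ε) (hopen : (levelsS S).IsOpen U')
    (hTq : ∀ q : ↥S, Nat.card (torsionP p (H (Uv S q) ((theDatum hpS g).Dloc q) 2)) = p)
    (hdivq : ∀ q : ↥S, ∀ V₀ ∈ (Uv S q).sets, ∃ V ∈ (Uv S q).sets, V ≤ V₀ ∧ p ∣ V.relIndex V₀)
    (hloc : ∀ y : ∀ q : ↥S, H (Uv S q)
        (homRep (Rep.res (rv S q) (BL (Zp p) U')) ((theDatum hpS g).Dloc q)) 2,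
      (∀ q, ((p : ℕ) : Zp p) • y q = 0) →
      ∃ x : H (levelsS S) (homRep (BL (Zp p) U') (theDatum hpS g).SES.X₂) 2,
        ∀ q, locJ hpS g U' q x = y q) :
    tCount ε (torP (MonoidAlgebra ℤ (DeltaGrp U' U)) p
        (HX (levelsS S) U' U hle (theDatum hpS g).SES.X₂ 2)) =
      ∏ q : ↥S, tCount ε (DFun p U' U (decompGrp S q) hle) := by
  have hinjJ : ∀ y : H (levelsS S) (homRep (BL (Zp p) U') (theDatum hpS g).SES.X₂) 2,
      (∀ q, locJ hpS g U' q y = 0) → y = 0 := fun y hy =>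
    (theDatum hpS g).h4_two (BL (Zp p) U') (exists_global_level (p := p) U' hopen) y hy
  have hθ := thetaH_bijective (levelsS S) U' hopen (theDatum hpS g).SES.X₂
    (theDatum hpS g).smJ 2
  refine DictCount.tCount_torP_eq_prod_DFun U' U hle ε hε (fun q => decompGrp S q)
    (rhoHX (levelsS S) U' U hle (theDatum hpS g).SES.X₂ 2)
    (fun q => H (Uv S q) ((theDatum hpS g).Dloc q) 2) hTq (evJ hpS g U') ?_ ?_ ?_ ?_
  · intro q x u hu d hd g'
    exact evJ_mul hpS g U' q x hu hd g'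
  · intro q u x g'
    change evOrb U' (Uv S q) (rv S q) ((theDatum hpS g).Dloc q) (locJ hpS g U' q
      (thetaH (levelsS S) U' (theDatum hpS g).SES.X₂ 2
        (rhoHX (levelsS S) U' U hle (theDatum hpS g).SES.X₂ 2 (QuotientGroup.mk u) x))) g' = _
    rw [rhoHX_mk, thetaH_lam, locJ_homRes, evOrb_rTr]
    rfl
  · intro x _ hev
    exact eq_zero_of_evJ_eq_zero hpS g U' hopen x hev
  · intro w hw hinv
    have hy : ∀ q : ↥S, ∃ y : H (Uv S q)
        (homRep (Rep.res (rv S q) (BL (Zp p) U')) ((theDatum hpS g).Dloc q)) 2,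
        p • y = 0 ∧ ∀ g', evOrb U' (Uv S q) (rv S q) ((theDatum hpS g).Dloc q) y g' = w q g' := by
      intro q
      obtain ⟨V₀, hV₀, hB⟩ := exists_local_level (p := p) U' hopen q
      exact exists_evOrb_eq U' (rv S q) (addHomsLinear p) ((theDatum hpS g).cfD q) p V₀ hV₀ hB
        (hdivq q) (w q) (hw q) (hinv q)
    choose y hy1 hy2 using hy
    obtain ⟨x', hx'⟩ := hloc y (fun q => by rw [Nat.cast_smul_eq_nsmul]; exact hy1 q)
    obtain ⟨x, hx⟩ := hθ.2 x'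
    refine ⟨x, ?_, fun q g' => ?_⟩
    · apply hθ.1
      rw [map_nsmul, map_zero, hx]
      apply hinjJ
      intro q
      rw [map_nsmul, hx', hy1]
    · change evOrb U' (Uv S q) (rv S q) ((theDatum hpS g).Dloc q) (locJ hpS g U' q
        (thetaH (levelsS S) U' (theDatum hpS g).SES.X₂ 2 x)) g' = _
      rw [hx, hx', hy2]

/-- finiteness of `H²(U', J)[p]` -/
theorem finite_torP_HX_J (hopen : (levelsS S).IsOpen U')
    (hTq : ∀ q : ↥S, Nat.card (torsionP p (H (Uv S q) ((theDatum hpS g).Dloc q) 2)) = p) :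
    Finite (torP (MonoidAlgebra ℤ (DeltaGrp U' U)) p
      (HX (levelsS S) U' U hle (theDatum hpS g).SES.X₂ 2)) :=
  DictCount.finite_torP_of_dict U' U (fun q => decompGrp S q)
    (rhoHX (levelsS S) U' U hle (theDatum hpS g).SES.X₂ 2)
    (fun q => H (Uv S q) ((theDatum hpS g).Dloc q) 2) hTq (evJ hpS g U')
    (fun q x _ hu _ hd g' => evJ_mul hpS g U' q x hu hd g')
    (fun x _ hev => eq_zero_of_evJ_eq_zero hpS g U' hopen x hev)

/-- **the dictionary for `C`**: `t(H²(U',C)[p]) = t(F_p)` -/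
theorem tCount_torP_HX_C (hε : IdemModP p ε) (hopen : (levelsS S).IsOpen U')
    (hdiv : ∀ V₀ ∈ (levelsS S).sets, ∃ V ∈ (levelsS S).sets, V ≤ V₀ ∧ p ∣ V.relIndex V₀) :
    tCount ε (torP (MonoidAlgebra ℤ (DeltaGrp U' U)) p
        (HX (levelsS S) U' U hle (theDatum hpS g).SES.X₃ 2)) =
      tCount ε (DFun p U' U ⊤ hle) := by
  have hθ := thetaH_bijective (levelsS S) U' hopen (theDatum hpS g).SES.X₃
    (theDatum hpS g).smC 2
  obtain ⟨U₀, hU₀, hB⟩ := exists_global_level (p := p) U' hopen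
  have h := DictCount.tCount_torP_eq_prod_DFun U' U hle ε hε (fun _ : Unit => (⊤ : Subgroup GQ))
    (rhoHX (levelsS S) U' U hle (theDatum hpS g).SES.X₃ 2)
    (fun _ => H (levelsS S) (theDatum hpS g).SES.X₃ 2) (fun _ => (theDatum hpS g).hT)
    (fun _ => evC hpS g U') ?_ ?_ ?_ ?_
  · simpa using h
  · intro _ x u hu d _ g'
    exact evOrb_mul U' (levelsS S) (MonoidHom.id GQ) (theDatum hpS g).SES.X₃ _ hu ⟨d, rfl⟩ g'
  · intro _ u x g'
    change evOrb U' (levelsS S) (MonoidHom.id GQ) (theDatum hpS g).SES.X₃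
      (thetaH (levelsS S) U' (theDatum hpS g).SES.X₃ 2
        (rhoHX (levelsS S) U' U hle (theDatum hpS g).SES.X₃ 2 (QuotientGroup.mk u) x)) g' = _
    rw [rhoHX_mk, thetaH_lam]
    exact evOrb_rTr U' (levelsS S) (MonoidHom.id GQ) (theDatum hpS g).SES.X₃ (u : GQ)
      (conj_mem_of_le U hle u) _ g'
  · intro x _ hev
    apply hθ.1
    rw [map_zero]
    exact eq_zero_of_evOrb_eq_zero U' (MonoidHom.id GQ) (addHomsLinear p) (theDatum hpS g).cf U₀
      hU₀ hB _ (fun g' => hev () g')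
  · intro w hw hinv
    obtain ⟨x', hx'1, hx'2⟩ := exists_evOrb_eq U' (MonoidHom.id GQ) (addHomsLinear p)
      (theDatum hpS g).cf p U₀ hU₀ hB hdiv (w ()) (hw ())
      (fun u hu d _ g' => hinv () u hu d (Subgroup.mem_top d) g')
    obtain ⟨x, hx⟩ := hθ.2 x'
    refine ⟨x, ?_, fun _ g' => ?_⟩
    · apply hθ.1
      rw [map_nsmul, map_zero, hx, hx'1]
    · change evOrb U' (levelsS S) (MonoidHom.id GQ) (theDatum hpS g).SES.X₃
        (thetaH (levelsS S) U' (theDatum hpS g).SES.X₃ 2 x) g' = _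
      rw [hx, hx'2]

/-! ### The exact sequence and the count -/

omit [Finite (GQ ⧸ U')] in
/-- `H¹(U', C) = 0` -/
theorem subsingleton_HX_C_one (hopen : (levelsS S).IsOpen U') :
    Subsingleton (HX (levelsS S) U' U hle (theDatum hpS g).SES.X₃ 1) := by
  have hsm : IsSmooth ((levelsS S).restrict U') (Rep.res U'.subtype (theDatum hpS g).SES.X₃) :=
    IsSmooth.res_of_continuous (Levels.continuous_comap U'.subtype (levelsS S))
      (theDatum hpS g).smC
  have hz : Limits.IsZero (H (levelsS S) (XRep (levelsS S) U' (theDatum hpS g).SES.X₃) 1) :=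
    Limits.IsZero.of_iso ((theDatum hpS g).cf.isZero_H1_restrict U' hopen)
      (shIso (levelsS S) U' 1 _ hsm)
  exact (ModuleCat.isZero_iff_subsingleton).1 hz

omit [Finite (GQ ⧸ U')] in
/-- `H²(U', E) → H²(U', J)` is injective -/
theorem HXmap_f_two_injective (hopen : (levelsS S).IsOpen U') :
    Function.Injective (HXmap (levelsS S) U' U hle (theDatum hpS g).SES.f 2) := by
  have := subsingleton_HX_C_one hpS g U' U hle hopen
  rw [injective_iff_map_eq_zero]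
  intro x hx
  obtain ⟨c, rfl⟩ := (HX_exact₁ (levelsS S) U' U hle (theDatum hpS g).exact
    (theDatum hpS g).smJ 1 2 rfl x).1 hx
  rw [Subsingleton.elim c 0, map_zero]

/-- `H²(U', J)[p] → H²(U', C)[p]` is onto, given one torsion class which does not die -/
theorem exists_torsion_preimage (hopen : (levelsS S).IsOpen U')
    (hne : ∃ x : H (levelsS S) (homRep (BL (Zp p) U') (theDatum hpS g).SES.X₂) 2,
      ((p : ℕ) : Zp p) • x = 0 ∧
        (mapId (𝒰 := levelsS S) (homMap (BL (Zp p) U') (theDatum hpS g).SES.g) 2).hom x ≠ 0)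
    (z : H (levelsS S) (XRep (levelsS S) U' (theDatum hpS g).SES.X₃) 2) (hz : p • z = 0) :
    ∃ y : H (levelsS S) (XRep (levelsS S) U' (theDatum hpS g).SES.X₂) 2, p • y = 0 ∧
      (mapId (𝒰 := levelsS S) (XMap (levelsS S) U' (theDatum hpS g).SES.g) 2).hom y = z := by
  have hθJ := thetaH_bijective (levelsS S) U' hopen (theDatum hpS g).SES.X₂
    (theDatum hpS g).smJ 2
  have hθC := thetaH_bijective (levelsS S) U' hopen (theDatum hpS g).SES.X₃
    (theDatum hpS g).smC 2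
  obtain ⟨U₀, hU₀, hB⟩ := exists_global_level (p := p) U' hopen
  obtain ⟨x', hx'1, hx'2⟩ := hne
  obtain ⟨y₀, hy₀⟩ := hθJ.2 x'
  -- `y₀` is `p`-torsion
  have hy₀p : p • y₀ = 0 := by
    apply hθJ.1
    rw [map_nsmul, map_zero, hy₀, ← Nat.cast_smul_eq_nsmul (Zp p)]
    exact hx'1
  -- its image `c₀`
  set c₀ : H (levelsS S) (XRep (levelsS S) U' (theDatum hpS g).SES.X₃) 2 :=
    (mapId (𝒰 := levelsS S) (XMap (levelsS S) U' (theDatum hpS g).SES.g) 2).hom y₀ with hc₀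
  have hc₀p : p • c₀ = 0 := by rw [hc₀, ← map_nsmul, hy₀p, map_zero]
  have hc₀θ : thetaH (levelsS S) U' (theDatum hpS g).SES.X₃ 2 c₀ ≠ 0 := by
    rw [hc₀, thetaH_XMap, hy₀]
    exact hx'2
  -- evaluation at `1`
  have hconst : ∀ (c : H (levelsS S) (XRep (levelsS S) U' (theDatum hpS g).SES.X₃) 2) (g' : GQ),
      evC hpS g U' c g' = evC hpS g U' c 1 := by
    intro c g'
    have := evOrb_mul U' (levelsS S) (MonoidHom.id GQ) (theDatum hpS g).SES.X₃
      (thetaH (levelsS S) U' (theDatum hpS g).SES.X₃ 2 c) U'.one_mem ⟨g', rfl⟩ 1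
    rw [one_mul, one_mul] at this
    exact this
  have hinj : ∀ c : H (levelsS S) (XRep (levelsS S) U' (theDatum hpS g).SES.X₃) 2,
      evC hpS g U' c 1 = 0 → c = 0 := by
    intro c hc
    apply hθC.1
    rw [map_zero]
    exact eq_zero_of_evOrb_eq_zero U' (MonoidHom.id GQ) (addHomsLinear p) (theDatum hpS g).cf U₀
      hU₀ hB _ (fun g' => (hconst c g').trans hc)
  -- the two values in the torsion of `H²(C)`
  have hmemT : ∀ c : H (levelsS S) (XRep (levelsS S) U' (theDatum hpS g).SES.X₃) 2, p • c = 0 →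
      evC hpS g U' c 1 ∈ torsionP p (H (levelsS S) (theDatum hpS g).SES.X₃ 2) := by
    intro c hc
    change p • evC hpS g U' c 1 = 0
    have h1 : p • evC hpS g U' c = 0 := by rw [← map_nsmul, hc, map_zero]
    exact congrFun h1 1
  let a : torsionP p (H (levelsS S) (theDatum hpS g).SES.X₃ 2) :=
    ⟨evC hpS g U' c₀ 1, hmemT c₀ hc₀p⟩
  let b : torsionP p (H (levelsS S) (theDatum hpS g).SES.X₃ 2) := ⟨evC hpS g U' z 1, hmemT z hz⟩
  have ha : a ≠ 0 := by
    intro h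
    apply hc₀θ
    rw [hinj c₀ (congrArg Subtype.val h), map_zero]
  obtain ⟨m, hm⟩ := AddSubgroup.mem_zmultiples_iff.1
    (mem_zmultiples_of_prime_card (theDatum hpS g).hT (g := a) (g' := b) ha)
  have hm' : m • evC hpS g U' c₀ 1 = evC hpS g U' z 1 := by
    have := congrArg Subtype.val hm
    simpa using this
  refine ⟨m • y₀, ?_, ?_⟩
  · rw [smul_comm, hy₀p, smul_zero]
  · rw [map_zsmul]
    change m • c₀ = z
    have h0 : evC hpS g U' (z - m • c₀) 1 = 0 := by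
      rw [map_sub, map_zsmul, Pi.sub_apply, Pi.smul_apply, hm', sub_self]
    exact (sub_eq_zero.1 (hinj _ h0)).symm

/-- **(B)**: `t(H²(U',E)[p]) · t(F_p) = ∏_q t(F_p[U' \ GQ / G_q])` -/
theorem brauer_count (hε : IdemModP p ε) (hopen : (levelsS S).IsOpen U')
    (hdiv : ∀ V₀ ∈ (levelsS S).sets, ∃ V ∈ (levelsS S).sets, V ≤ V₀ ∧ p ∣ V.relIndex V₀)
    (hTq : ∀ q : ↥S, Nat.card (torsionP p (H (Uv S q) ((theDatum hpS g).Dloc q) 2)) = p)
    (hdivq : ∀ q : ↥S, ∀ V₀ ∈ (Uv S q).sets, ∃ V ∈ (Uv S q).sets, V ≤ V₀ ∧ p ∣ V.relIndex V₀)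
    (hloc : ∀ y : ∀ q : ↥S, H (Uv S q)
        (homRep (Rep.res (rv S q) (BL (Zp p) U')) ((theDatum hpS g).Dloc q)) 2,
      (∀ q, ((p : ℕ) : Zp p) • y q = 0) →
      ∃ x : H (levelsS S) (homRep (BL (Zp p) U') (theDatum hpS g).SES.X₂) 2,
        ∀ q, locJ hpS g U' q x = y q)
    (hne : ∃ x : H (levelsS S) (homRep (BL (Zp p) U') (theDatum hpS g).SES.X₂) 2,
      ((p : ℕ) : Zp p) • x = 0 ∧
        (mapId (𝒰 := levelsS S) (homMap (BL (Zp p) U') (theDatum hpS g).SES.g) 2).hom x ≠ 0) :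
    tCount ε (torP (MonoidAlgebra ℤ (DeltaGrp U' U)) p
        (HX (levelsS S) U' U hle (EK p S) 2)) * tCount ε (DFun p U' U ⊤ hle) =
      ∏ q : ↥S, tCount ε (DFun p U' U (decompGrp S q) hle) := by
  have h1 := tCount_torP_of_exact hε
    (HXmap (levelsS S) U' U hle (theDatum hpS g).SES.f 2)
    (HXmap (levelsS S) U' U hle (theDatum hpS g).SES.g 2)
    (HXmap_f_two_injective hpS g U' U hle hopen)
    (HX_exact₂ (levelsS S) U' U hle (theDatum hpS g).exact (theDatum hpS g).smJ 2)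
    (fun z hz => exists_torsion_preimage hpS g U' hopen hne z hz)
  rw [tCount_torP_HX_J hpS g U' U hle ε hε hopen hTq hdivq hloc,
    tCount_torP_HX_C hpS g U' U hle ε hε hopen hdiv] at h1
  exact h1.symm

/-- finiteness of `H²(U', E)[p]` -/
theorem finite_torP_HX_E (hopen : (levelsS S).IsOpen U')
    (hTq : ∀ q : ↥S, Nat.card (torsionP p (H (Uv S q) ((theDatum hpS g).Dloc q) 2)) = p) :
    Finite (torP (MonoidAlgebra ℤ (DeltaGrp U' U)) p (HX (levelsS S) U' U hle (EK p S) 2)) := by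
  have := finite_torP_HX_J hpS g U' U hle hopen hTq
  have hfm : ∀ x ∈ torP (MonoidAlgebra ℤ (DeltaGrp U' U)) p
      (HX (levelsS S) U' U hle (theDatum hpS g).SES.X₁ 2),
      HXmap (levelsS S) U' U hle (theDatum hpS g).SES.f 2 x ∈
        torP (MonoidAlgebra ℤ (DeltaGrp U' U)) p
          (HX (levelsS S) U' U hle (theDatum hpS g).SES.X₂ 2) := fun x hx => by
    rw [LinearMap.mem_ker, pMul_apply] at hx ⊢
    rw [← map_nsmul, hx, map_zero]
  exact Finite.of_injective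
    ((HXmap (levelsS S) U' U hle (theDatum hpS g).SES.f 2).restrict hfm)
    (fun a b h => Subtype.ext
      (HXmap_f_two_injective hpS g U' U hle hopen (congrArg Subtype.val h)))

end Brauer

end Fermat.Agent.S56.Base.EC
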