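/-
PROJECT T (S56), block (a1-II)/B3/E3 (helper11), file 9c: THE ARITHMETIC INPUTS OF (B), DISCHARGED.

`hdiv` (global), `hdivq`, `hTq` (local), `hloc` (semilocal Shapiro onto on `p`-torsion) of
`BrauerH2.brauer_count`, from helper9 `Arith/LocalDegree`, helper22 `LocalN3/Div`, helper4
`Tail/LocSurj`.
-/
import Fermat.Agent.S56.Base.EC.BrauerH2
import Fermat.Agent.S56.Base.Tail.LocSurj
import Fermat.Agent.S56.Base.Pairing.LocalN3.Div

set_option autoImplicit false

noncomputable section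

namespace Fermat.Agent.S56.Base.EC

open CategoryTheory ExtCitation
open Fermat.Agent.CFT.LC Fermat.Agent.CFT.Bridge Fermat.Agent.CFT.D.Reduce
open Fermat.Agent.CFT.D.DatumBuild Fermat.Agent.CFT.D.ZpModel Fermat.Agent.CFT.A7
open Fermat.Agent.CFT.A7.HomRep
open Fermat.Agent.CFT.D (torsionP locHom)

/-- relative indices of preimages divide relative indices, for a normal subgroup -/
theorem relIndex_comap_dvd {G G' : Type*} [Group G] [Group G'] (f : G' →* G) (H K : Subgroup G)
    [H.Normal] (hHK : H ≤ K) : (H.comap f).relIndex (K.comap f) ∣ H.relIndex K := by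
  rw [Subgroup.relIndex_comap, Subgroup.map_comap_eq, ← Subgroup.relIndex_sup_right (f.range ⊓ K) H]
  exact Dvd.intro _ (Subgroup.relIndex_mul_relIndex H ((f.range ⊓ K) ⊔ H) K le_sup_right
    (sup_le inf_le_right hHK))

variable {p : ℕ} [Fact p.Prime] {S : Finset Nat.Primes}

/-- `p` divides relative indices cofinally in `levelsS S` -/
theorem global_hdiv (hpS : pPrime p ∈ S) :
    ∀ V₀ ∈ (levelsS S).sets, ∃ V ∈ (levelsS S).sets, V ≤ V₀ ∧ p ∣ V.relIndex V₀ := by
  intro V₀ hV₀
  obtain ⟨V, hV, hle, hq⟩ := Arith.LocalDegree.exists_level_le_dvd_relIndex S p hpS V₀ hV₀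
  have : V.Normal := (levelsS S).normal V hV
  exact ⟨V, hV, hle, (hq ⟨pPrime p, hpS⟩).trans (relIndex_comap_dvd _ V V₀ hle)⟩

/-- the `p`-torsion of the local Brauer groups has order `p` -/
theorem local_hTq (hpS : pPrime p ∈ S) (g : GlobalInputs p S) (q : ↥S) :
    Nat.card (torsionP p (H (Uv S q) ((theDatum hpS g).Dloc q) 2)) = p := by
  obtain ⟨V₀, hV₀⟩ := (Uv S q).nonempty
  obtain ⟨V, hV, hle, hpV⟩ := Pairing.LocalN3.Div.exists_level_dvd_relIndex_Uv p S q V₀ hV₀
  have hVn := (Uv S q).normal V hV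
  have hpV' : p ∣ Nat.card (Gv S q ⧸ V) := by
    rw [← Subgroup.index_eq_card, ← Subgroup.relIndex_mul_index hle]
    exact Dvd.dvd.mul_right hpV _
  exact ((theDatum hpS g).cfD q).card_torsionP p V hV hpV' (Fact.out : p.Prime).ne_zero
    (card_quotient_span_p p)

/-- semilocal Shapiro is onto on `p`-torsion, in the shape of `brauer_count` -/
theorem hloc_of_surjective_loc (hpS : pPrime p ∈ S) (g : GlobalInputs p S) (U' : Subgroup GQ)
    [Finite (GQ ⧸ U')] (hopen : (levelsS S).IsOpen U')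
    (y : ∀ q : ↥S, H (Uv S q)
      (homRep (Rep.res (rv S q) (BL (Zp p) U')) ((theDatum hpS g).Dloc q)) 2)
    (hy : ∀ q, ((p : ℕ) : Zp p) • y q = 0) :
    ∃ x : H (levelsS S) (homRep (BL (Zp p) U') (theDatum hpS g).SES.X₂) 2,
      ∀ q, locJ hpS g U' q x = y q :=
  Tail.LocSurj.surjective_loc p S hpS (BL (Zp p) U') (exists_global_level (p := p) U' hopen) y hy

end Fermat.Agent.S56.Base.EC
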