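/-
PROJECT T (S56), block (a1-II)/B3/E3 (helper11), file 9b: FINITENESS BOOKKEEPING.

`XRep Y` is finite for finite `Y` and open `U'`; `H⁰(U', Y)` is finite; the cohomology of an
`ε`-summand `N` of `(XRep A)^n` is finite in every degree where `Hⁱ(U', A)` is.
-/
import Fermat.Agent.S56.Base.EC.PermLat

set_option autoImplicit false

noncomputable section

namespace Fermat.Agent.S56.Base.EC

open CategoryTheory Fermat.Agent.CFT.LC Fermat.Agent.CFT.A7 Fermat.Agent.CFT.A7.HomRep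

variable {k G : Type} [CommRing k] [Group G] (𝒰 : Levels G) (U' : Subgroup G)

/-- `XRep Y` is finite when `Y` is finite and `U'` has finite index -/
theorem finite_XRep [Finite (G ⧸ U')] (Y : Rep.{0} k G) [Finite Y.V] :
    Finite (XRep 𝒰 U' Y).V := by
  have h1 : Finite ((BL k U').V →ₗ[k] Y.V) :=
    Finite.of_injective (fun f : (BL k U').V →ₗ[k] Y.V => fun y : G ⧸ U' => f (blBasis k U' y))
      (fun f f' h => (blBasis k U').ext fun y => congrFun h y)
  exact Finite.of_injective (fun f : (XRep 𝒰 U' Y).V => (toLin ((theta 𝒰 U' Y).hom f)))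
    (fun f f' h => theta_injective 𝒰 U' Y (toLin.injective h))

/-- `H⁰(U', Y)` is finite for finite `Y` -/
theorem finite_H_XRep_zero [Finite (G ⧸ U')] (Y : Rep.{0} k G) [Finite Y.V] :
    Finite (H 𝒰 (XRep 𝒰 U' Y) 0) := by
  have := finite_XRep 𝒰 U' Y
  exact Finite.of_injective (fun x => ((h0Equiv 𝒰 (XRep 𝒰 U' Y) x : (XRep 𝒰 U' Y).ρ.invariants) :
    (XRep 𝒰 U' Y).V)) (fun x y h => (h0Equiv 𝒰 (XRep 𝒰 U' Y)).injective (Subtype.ext h))

variable {𝒰 U'} in
/-- the cohomology of an `ε`-summand is finite where `Hⁱ(U', A)` is -/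
theorem EpsSummand.finite_H {U : Subgroup G} [(U'.subgroupOf U).Normal] {hle : U' ≤ U} {n : ℕ}
    {ε : Matrix (Fin n) (Fin n) (MonoidAlgebra ℤ (DeltaGrp U' U))} {A N : Rep.{0} k G}
    (d : EpsSummand 𝒰 U' U hle ε A N) (i : ℕ) [Finite (HX 𝒰 U' U hle A i)] :
    Finite (H 𝒰 N i) :=
  Finite.of_equiv _ (d.equivEPart i).symm

end Fermat.Agent.S56.Base.EC
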