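/-
PROJECT T (S56), block (a1-II)/B3/E3 FILE 8 (helper24), abstract core of the archimedean
dictionary, in the language of helper11's E3 skeleton (`CoeffAction`, `Summand`).

`G` a group with levels `𝒰`, `U' ≤ U` with `U'` normal in `U`, `Δ = U ⧸ U'`, `A : Rep k G`,
`P = XRep 𝒰 U' A`, `c ∈ G` an involution acting by `-1` on `A`, `2` invertible in `k`.

* `rhoX` : the representation of `Δ` on `P.V` (`δ = ↑u` acts by `lam u`); `rAct_hom_apply`
  identifies `rAct r` with the module action of `r : ℤ[Δ]` on `(rhoX ..).asModule`.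
* `epsEnd_hom_apply` : `epsEnd ε A` is `mact ε` on `Fin n → (rhoX ..).asModule`.
* `bifun`, `bifunRep` : functions `G → A`, left `U'`-invariant and right `C`-invariant, with `Δ`
  acting by left translation (`= dfun`, `dfunRep` of `PermMod` for general values).
* `thetaEquiv` : `(P^{c}) × bifun ≃+ P`, `Δ`-equivariant.
* `card_fix_mul_tCount` : for an `EpsSummand` `N` of `P^n`:
  `Nat.card (N^{c}) * tCount ε (bifun-module) = Nat.card N`.
-/
import Fermat.Agent.S56.Base.EC.Summand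

set_option autoImplicit false

noncomputable section

namespace Fermat.Agent.S56.Base.EC.InfCore

open CategoryTheory Fermat.Agent.CFT.LC Fermat.Agent.S56.Base.EC

variable {k G : Type} [CommRing k] [Group G]

/-! ### The representation of `Δ` on `XRep A` -/

/-- endomorphisms of a representation as additive endomorphisms of the underlying group -/
def endToInt (P : Rep.{0} k G) : End P →+* Module.End ℤ P.V where
  toFun f := f.hom.toLinearMap.toAddMonoidHom.toIntLinearMap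
  map_one' := rfl
  map_mul' _ _ := rfl
  map_zero' := rfl
  map_add' _ _ := rfl

@[simp] theorem endToInt_apply (P : Rep.{0} k G) (f : End P) (v : P.V) :
    endToInt P f v = f.hom v := rfl

variable (𝒰 : Levels G) (U' U : Subgroup G) [hn : (U'.subgroupOf U).Normal] (hle : U' ≤ U)
  (A : Rep.{0} k G)

/-- the representation of `Δ = U ⧸ U'` on the underlying group of `XRep A` -/
def rhoX : Representation ℤ (DeltaGrp U' U) (XRep 𝒰 U' A).V :=
  (endToInt (XRep 𝒰 U' A)).toMonoidHom.comp (lamDelta 𝒰 U' U hle A)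

theorem rhoX_mk (u : U) (φ : (XRep 𝒰 U' A).V) :
    rhoX 𝒰 U' U hle A (QuotientGroup.mk u) φ =
      (lam (𝒰 := 𝒰) (u : G) (conj_mem_of_le U hle u) A).hom φ := rfl

/-- `XRep A` as a `ℤ[Δ]`-module -/
abbrev XMod : Type := (rhoX 𝒰 U' U hle A).asModule

/-- the action of `r : ℤ[Δ]` through `rAct` is the module action on `XMod` -/
theorem rAct_hom_apply (r : MonoidAlgebra ℤ (DeltaGrp U' U)) (v : XMod 𝒰 U' U hle A) :
    (rhoX 𝒰 U' U hle A).asModuleEquiv.symm
      ((rAct 𝒰 U' U hle A r : XRep 𝒰 U' A ⟶ XRep 𝒰 U' A).hom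
        ((rhoX 𝒰 U' U hle A).asModuleEquiv v)) = r • v := by
  have key : (endToInt (XRep 𝒰 U' A)).comp (rAct 𝒰 U' U hle A).toRingHom =
      (rhoX 𝒰 U' U hle A).asAlgebraHom.toRingHom := by
    refine MonoidAlgebra.ringHom_ext' (Subsingleton.elim _ _) (MonoidHom.ext fun δ => ?_)
    change endToInt (XRep 𝒰 U' A) (rAct 𝒰 U' U hle A (MonoidAlgebra.of ℤ _ δ)) =
      (rhoX 𝒰 U' U hle A).asAlgebraHom (MonoidAlgebra.of ℤ _ δ)
    rw [Representation.asAlgebraHom_of]
    unfold rAct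
    rw [MonoidAlgebra.lift_of]
    rfl
  have h := congrArg (fun F => F r ((rhoX 𝒰 U' U hle A).asModuleEquiv v)) key
  exact congrArg (rhoX 𝒰 U' U hle A).asModuleEquiv.symm h

/-- tuples of elements of `XMod` as elements of `piRep n (XRep A)` -/
def toPi (n : ℕ) : (Fin n → XMod 𝒰 U' U hle A) ≃+ (piRep n (XRep 𝒰 U' A)).V where
  toFun y := fun a => (rhoX 𝒰 U' U hle A).asModuleEquiv (y a)
  invFun z := fun a => (rhoX 𝒰 U' U hle A).asModuleEquiv.symm ((z : Fin n → (XRep 𝒰 U' A).V) a)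
  left_inv _ := rfl
  right_inv _ := rfl
  map_add' _ _ := rfl

theorem toPi_apply (n : ℕ) (y : Fin n → XMod 𝒰 U' U hle A) (a : Fin n) :
    (toPi 𝒰 U' U hle A n y : Fin n → (XRep 𝒰 U' A).V) a =
      (rhoX 𝒰 U' U hle A).asModuleEquiv (y a) := rfl

/-- the components of a "matrix" endomorphism of `piRep n P` -/
theorem matrixEnd_comp_piProj {n : ℕ} (P : Rep.{0} k G) (M : Fin n → Fin n → (P ⟶ P))
    (a : Fin n) :
    (∑ a', ∑ b, piProj n P b ≫ M a' b ≫ piIncl n P a') ≫ piProj n P a =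
      ∑ b, piProj n P b ≫ M a b := by
  classical
  rw [Preadditive.sum_comp]
  rw [Finset.sum_eq_single a]
  · rw [Preadditive.sum_comp]
    refine Finset.sum_congr rfl fun b _ => ?_
    rw [Category.assoc, Category.assoc, piIncl_piProj_self, Category.comp_id]
  · intro a' _ ha'
    rw [Preadditive.sum_comp]
    refine Finset.sum_eq_zero fun b _ => ?_
    rw [Category.assoc, Category.assoc, piIncl_piProj_ne n P ha', Limits.comp_zero,
      Limits.comp_zero]
  · intro h
    exact absurd (Finset.mem_univ a) h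

theorem matrixEnd_hom_apply {n : ℕ} (P : Rep.{0} k G) (M : Fin n → Fin n → (P ⟶ P))
    (z : (piRep n P).V) (a : Fin n) :
    (((∑ a', ∑ b, piProj n P b ≫ M a' b ≫ piIncl n P a').hom z : (piRep n P).V) :
      Fin n → P.V) a = ∑ b, (M a b).hom ((z : Fin n → P.V) b) := by
  have h1 : (((∑ a', ∑ b, piProj n P b ≫ M a' b ≫ piIncl n P a').hom z : (piRep n P).V) :
      Fin n → P.V) a =
      ((∑ a', ∑ b, piProj n P b ≫ M a' b ≫ piIncl n P a') ≫ piProj n P a).hom z := rfl
  rw [h1, matrixEnd_comp_piProj, Rep.sum_hom, Representation.IntertwiningMap.sum_apply]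
  rfl

/-- `epsEnd ε A` is the matrix action `mact ε` on tuples of elements of `XMod` -/
theorem epsEnd_hom_apply {n : ℕ} (ε : Matrix (Fin n) (Fin n) (MonoidAlgebra ℤ (DeltaGrp U' U)))
    (y : Fin n → XMod 𝒰 U' U hle A) :
    (epsEnd 𝒰 U' U hle ε A).hom (toPi 𝒰 U' U hle A n y) = toPi 𝒰 U' U hle A n (mact ε y) := by
  funext a
  unfold epsEnd
  rw [matrixEnd_hom_apply (XRep 𝒰 U' A)
    (fun a b => (rAct 𝒰 U' U hle A (ε a b) : XRep 𝒰 U' A ⟶ XRep 𝒰 U' A)), toPi_apply,
    mact_apply, map_sum]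
  refine Finset.sum_congr rfl fun b _ => ?_
  rw [← rAct_hom_apply, LinearEquiv.apply_symm_apply]
  rfl

/-! ### Bi-invariant functions with values in an abelian group -/

section BiFun

variable (T : Type) [AddCommGroup T] (C : Subgroup G)

/-- functions `G → T`, left `U'`-invariant and right `C`-invariant -/
def bifun : AddSubgroup (G → T) where
  carrier := {f | ∀ u ∈ U', ∀ c ∈ C, ∀ g, f (u * g * c) = f g}
  zero_mem' := fun _ _ _ _ _ => rfl
  add_mem' {f f'} hf hf' := fun u hu c hc g => by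
    rw [Pi.add_apply, Pi.add_apply, hf u hu c hc g, hf' u hu c hc g]
  neg_mem' {f} hf := fun u hu c hc g => by
    rw [Pi.neg_apply, Pi.neg_apply, hf u hu c hc g]

variable {T C U'} in
theorem bifun_left (f : bifun U' T C) {u : G} (hu : u ∈ U') (g : G) : f.1 (u * g) = f.1 g := by
  have h := f.2 u hu 1 C.one_mem g
  rwa [mul_one] at h

variable {T C U'} in
theorem bifun_right (f : bifun U' T C) {c : G} (hc : c ∈ C) (g : G) : f.1 (g * c) = f.1 g := by
  have h := f.2 1 U'.one_mem c hc g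
  rwa [one_mul] at h

/-- left translation by `u ∈ U` on `bifun U' T C` -/
def bifunTranslate (u : U) : bifun U' T C →+ bifun U' T C where
  toFun f := ⟨fun g => f.1 ((u : G)⁻¹ * g), fun u' hu' c hc g => by
    have h1 : (u : G)⁻¹ * (u' * g * c) = ((u : G)⁻¹ * u' * u) * ((u : G)⁻¹ * g) * c := by group
    change f.1 ((u : G)⁻¹ * (u' * g * c)) = f.1 ((u : G)⁻¹ * g)
    rw [h1]
    exact f.2 _ (conj_mem_of_le U hle u u' hu') c hc _⟩
  map_zero' := rfl
  map_add' _ _ := rfl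

/-- the action of `U` on `bifun U' T C` -/
def bifunActHom : ↥U →* Module.End ℤ (bifun U' T C) where
  toFun u := (bifunTranslate U' U hle T C u).toIntLinearMap
  map_one' := by
    apply LinearMap.ext
    intro f
    apply Subtype.ext
    funext g
    change f.1 (((1 : U) : G)⁻¹ * g) = f.1 g
    simp
  map_mul' u v := by
    apply LinearMap.ext
    intro f
    apply Subtype.ext
    funext g
    change f.1 (((u * v : U) : G)⁻¹ * g) = f.1 ((v : G)⁻¹ * ((u : G)⁻¹ * g))
    simp [mul_assoc]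

/-- the representation of `Δ = U ⧸ U'` on `bifun U' T C` -/
def bifunRep : Representation ℤ (DeltaGrp U' U) (bifun U' T C) :=
  QuotientGroup.lift (U'.subgroupOf U) (bifunActHom U' U hle T C) fun u hu => by
    apply LinearMap.ext
    intro f
    apply Subtype.ext
    funext g
    change f.1 ((u : G)⁻¹ * g) = f.1 g
    exact bifun_left f (U'.inv_mem (Subgroup.mem_subgroupOf.1 hu)) g

theorem bifunRep_mk (u : U) (f : bifun U' T C) (g : G) :
    (bifunRep U' U hle T C (QuotientGroup.mk u) f).1 g = f.1 ((u : G)⁻¹ * g) := rfl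

/-- the `ℤ[Δ]`-module of bi-invariant functions -/
abbrev BiFun : Type := (bifunRep U' U hle T C).asModule

end BiFun

/-! ### The untwisting map -/

section Untwist

variable (C : Subgroup G)

/-- `J f = (x ↦ x • f x)`: bi-invariant functions with values in `A` as elements of `XRep A` -/
def jFun (hopen : 𝒰.IsOpen U') (hAlev : ∃ V ∈ 𝒰.sets, ∀ s ∈ V, ∀ v : A.V, A.ρ s v = v)
    (f : bifun U' A.V C) : (XRep 𝒰 U' A).V :=
  iMk (𝒰 := 𝒰) (D := U') (B := Rep.res U'.subtype A) (fun x => A.ρ x (f.1 x))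
    (fun d x => by
      change A.ρ ((d : G) * x) (f.1 ((d : G) * x)) = A.ρ (d : G) (A.ρ x (f.1 x))
      rw [bifun_left f d.2, map_mul, Module.End.mul_apply])
    (by
      obtain ⟨V₁, hV₁, hle₁⟩ := hopen
      obtain ⟨V₂, hV₂, h₂⟩ := hAlev
      obtain ⟨W, hW, hWle⟩ := 𝒰.directed V₁ hV₁ V₂ hV₂
      have hWn := 𝒰.normal W hW
      refine ⟨W, hW, fun x s hs => ?_⟩
      have h3 : x * s = (x * s * x⁻¹) * x := by group
      have h4 : x * s * x⁻¹ ∈ U' := hle₁ (hWle.trans inf_le_left (hWn.conj_mem s hs x))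
      change A.ρ (x * s) (f.1 (x * s)) = A.ρ x (f.1 x)
      rw [map_mul, Module.End.mul_apply, h₂ s (hWle.trans inf_le_right hs), h3,
        bifun_left f h4])

variable (hopen : 𝒰.IsOpen U') (hAlev : ∃ V ∈ 𝒰.sets, ∀ s ∈ V, ∀ v : A.V, A.ρ s v = v)

@[simp] theorem iFn_jFun (f : bifun U' A.V C) (x : G) :
    iFn (jFun 𝒰 U' A C hopen hAlev f) x = A.ρ x (f.1 x) := rfl

theorem jFun_add (f f' : bifun U' A.V C) :
    jFun 𝒰 U' A C hopen hAlev (f + f') =
      jFun 𝒰 U' A C hopen hAlev f + jFun 𝒰 U' A C hopen hAlev f' := by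
  refine iFn_ext fun x => ?_
  change A.ρ x (f.1 x + f'.1 x) = A.ρ x (f.1 x) + A.ρ x (f'.1 x)
  rw [map_add]

theorem jFun_injective : Function.Injective (jFun 𝒰 U' A C hopen hAlev) := by
  intro f f' h
  apply Subtype.ext
  funext x
  have h1 := congrArg (fun φ => iFn φ x) h
  simp only [iFn_jFun] at h1
  have h2 := congrArg (A.ρ x⁻¹) h1
  rwa [← Module.End.mul_apply, ← Module.End.mul_apply, ← map_mul, inv_mul_cancel, map_one,
    Module.End.one_apply, Module.End.one_apply] at h2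

/-- `J f` is anti-invariant under `c ∈ C` acting by `-1` on `A` -/
theorem ρ_jFun (c : G) (hc : c ∈ C) (hAc : ∀ v : A.V, A.ρ c v = -v) (f : bifun U' A.V C) :
    (XRep 𝒰 U' A).ρ c (jFun 𝒰 U' A C hopen hAlev f) = -jFun 𝒰 U' A C hopen hAlev f := by
  refine iFn_ext fun x => ?_
  change A.ρ (x * c) (f.1 (x * c)) = -A.ρ x (f.1 x)
  rw [bifun_right f hc, map_mul, Module.End.mul_apply, hAc, map_neg]

/-- `lam u (J f) = J (u f)` -/
theorem lam_jFun (u : U) (f : bifun U' A.V C) :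
    (lam (𝒰 := 𝒰) (u : G) (conj_mem_of_le U hle u) A).hom (jFun 𝒰 U' A C hopen hAlev f) =
      jFun 𝒰 U' A C hopen hAlev (bifunTranslate U' U hle A.V C u f) := by
  refine iFn_ext fun x => ?_
  change A.ρ (u : G) (A.ρ ((u : G)⁻¹ * x) (f.1 ((u : G)⁻¹ * x))) = A.ρ x (f.1 ((u : G)⁻¹ * x))
  rw [← Module.End.mul_apply, ← map_mul, mul_inv_cancel_left]

end Untwist

/-! ### Anti-invariants are untwisted functions -/

section Anti

variable (c : G)

theorem exists_jFun_eq (hopen : 𝒰.IsOpen U')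
    (hAlev : ∃ V ∈ 𝒰.sets, ∀ s ∈ V, ∀ v : A.V, A.ρ s v = v) (hcc : c * c = 1)
    (hAc : ∀ v : A.V, A.ρ c v = -v) (φ : (XRep 𝒰 U' A).V)
    (hφ : (XRep 𝒰 U' A).ρ c φ = -φ) :
    ∃ f : bifun U' A.V (Subgroup.zpowers c),
      jFun 𝒰 U' A (Subgroup.zpowers c) hopen hAlev f = φ := by
  have hφc : ∀ x, iFn φ (x * c) = -iFn φ x := fun x => by
    have := congrArg (fun ψ => iFn ψ x) hφ
    exact this
  have hcinv : c⁻¹ = c := inv_eq_of_mul_eq_one_right hcc
  let F : G → A.V := fun x => A.ρ x⁻¹ (iFn φ x)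
  have hFl : ∀ u ∈ U', ∀ x, F (u * x) = F x := by
    intro u hu x
    have h1 := iFn_equivariant φ (⟨u, hu⟩ : U') x
    change iFn φ (u * x) = A.ρ u (iFn φ x) at h1
    change A.ρ (u * x)⁻¹ (iFn φ (u * x)) = A.ρ x⁻¹ (iFn φ x)
    rw [h1, ← Module.End.mul_apply, ← map_mul, mul_inv_rev, inv_mul_cancel_right]
  have hFc : ∀ x, F (x * c) = F x := by
    intro x
    change A.ρ (x * c)⁻¹ (iFn φ (x * c)) = A.ρ x⁻¹ (iFn φ x)
    rw [hφc, mul_inv_rev, hcinv, map_mul, Module.End.mul_apply, map_neg, hAc, neg_neg]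
  -- right invariance under the whole group generated by `c`
  have hFC : ∀ c' ∈ Subgroup.zpowers c, ∀ x, F (x * c') = F x := by
    let S : Subgroup G :=
      { carrier := {c' | ∀ x, F (x * c') = F x}
        mul_mem' := fun {a b} ha hb x => by rw [← mul_assoc, hb, ha]
        one_mem' := fun x => by rw [mul_one]
        inv_mem' := fun {a} ha x => by
          have := ha (x * a⁻¹)
          rw [inv_mul_cancel_right] at this
          exact this.symm }
    have hS : Subgroup.zpowers c ≤ S := by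
      rw [Subgroup.zpowers_le]
      exact hFc
    exact fun c' hc' => hS hc'
  refine ⟨⟨F, fun u hu c' hc' g => ?_⟩, iFn_ext fun x => ?_⟩
  · rw [hFC c' hc', hFl u hu]
  · change A.ρ x (A.ρ x⁻¹ (iFn φ x)) = iFn φ x
    rw [← Module.End.mul_apply, ← map_mul, mul_inv_cancel, map_one, Module.End.one_apply]

end Anti

/-! ### The equivariant splitting -/

section Split

/-- the module action of `ℤ[Δ]` on `XMod`, read in `XRep A` -/
theorem asModuleEquiv_smul (r : MonoidAlgebra ℤ (DeltaGrp U' U)) (v : XMod 𝒰 U' U hle A) :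
    (rhoX 𝒰 U' U hle A).asModuleEquiv (r • v) =
      (rAct 𝒰 U' U hle A r : XRep 𝒰 U' A ⟶ XRep 𝒰 U' A).hom
        ((rhoX 𝒰 U' U hle A).asModuleEquiv v) := by
  rw [← rAct_hom_apply, LinearEquiv.apply_symm_apply]

variable (c : G)

/-- the `c`-invariants of `XRep A`, as a `ℤ[Δ]`-submodule -/
def fixSub : Submodule (MonoidAlgebra ℤ (DeltaGrp U' U)) (XMod 𝒰 U' U hle A) where
  carrier := {v | (XRep 𝒰 U' A).ρ c ((rhoX 𝒰 U' U hle A).asModuleEquiv v) =
    (rhoX 𝒰 U' U hle A).asModuleEquiv v}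
  add_mem' {v w} hv hw := by
    change (XRep 𝒰 U' A).ρ c ((rhoX 𝒰 U' U hle A).asModuleEquiv (v + w)) = _
    rw [map_add, map_add, hv, hw]
  zero_mem' := by
    change (XRep 𝒰 U' A).ρ c ((rhoX 𝒰 U' U hle A).asModuleEquiv 0) = _
    rw [map_zero, map_zero]
  smul_mem' r v hv := by
    change (XRep 𝒰 U' A).ρ c ((rhoX 𝒰 U' U hle A).asModuleEquiv (r • v)) = _
    rw [asModuleEquiv_smul, ← Rep.hom_comm_apply, hv]

theorem mem_fixSub (v : XMod 𝒰 U' U hle A) :
    v ∈ fixSub 𝒰 U' U hle A c ↔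
      (XRep 𝒰 U' A).ρ c ((rhoX 𝒰 U' U hle A).asModuleEquiv v) =
        (rhoX 𝒰 U' U hle A).asModuleEquiv v := Iff.rfl

variable (hopen : 𝒰.IsOpen U') (hAlev : ∃ V ∈ 𝒰.sets, ∀ s ∈ V, ∀ v : A.V, A.ρ s v = v)
  (C : Subgroup G)

/-- the untwisting map as a `ℤ[Δ]`-linear map -/
def jLin : BiFun U' U hle A.V C →ₗ[MonoidAlgebra ℤ (DeltaGrp U' U)] XMod 𝒰 U' U hle A :=
  asModuleHom (bifunRep U' U hle A.V C) (rhoX 𝒰 U' U hle A)
    { toFun := jFun 𝒰 U' A C hopen hAlev
      map_zero' := by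
        refine iFn_ext fun x => ?_
        change A.ρ x 0 = 0
        rw [map_zero]
      map_add' := jFun_add 𝒰 U' A C hopen hAlev }
    (fun δ f => by
      obtain ⟨u, rfl⟩ := QuotientGroup.mk_surjective δ
      rw [rhoX_mk]
      exact (lam_jFun 𝒰 U' U hle A C hopen hAlev u f).symm)

theorem jLin_apply (f : BiFun U' U hle A.V C) :
    (rhoX 𝒰 U' U hle A).asModuleEquiv (jLin 𝒰 U' U hle A hopen hAlev C f) =
      jFun 𝒰 U' A C hopen hAlev ((bifunRep U' U hle A.V C).asModuleEquiv f) := rfl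

theorem jLin_injective : Function.Injective (jLin 𝒰 U' U hle A hopen hAlev C) := by
  intro f f' h
  have h1 := congrArg (rhoX 𝒰 U' U hle A).asModuleEquiv h
  rw [jLin_apply, jLin_apply] at h1
  exact (bifunRep U' U hle A.V C).asModuleEquiv.injective
    (jFun_injective 𝒰 U' A C hopen hAlev h1)

/-- `Θ (φ, f) = φ + J f` -/
def thetaLin : (fixSub 𝒰 U' U hle A c × BiFun U' U hle A.V (Subgroup.zpowers c))
    →ₗ[MonoidAlgebra ℤ (DeltaGrp U' U)] XMod 𝒰 U' U hle A :=
  (fixSub 𝒰 U' U hle A c).subtype.coprod (jLin 𝒰 U' U hle A hopen hAlev (Subgroup.zpowers c))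

theorem thetaLin_apply (φ : fixSub 𝒰 U' U hle A c)
    (f : BiFun U' U hle A.V (Subgroup.zpowers c)) :
    thetaLin 𝒰 U' U hle A c hopen hAlev (φ, f) =
      φ.1 + jLin 𝒰 U' U hle A hopen hAlev (Subgroup.zpowers c) f := rfl

theorem thetaLin_bijective (hcc : c * c = 1) (hAc : ∀ v : A.V, A.ρ c v = -v)
    (h2 : IsUnit (2 : k)) : Function.Bijective (thetaLin 𝒰 U' U hle A c hopen hAlev) := by
  set e := (rhoX 𝒰 U' U hle A).asModuleEquiv with he
  have hρcc : ∀ φ : (XRep 𝒰 U' A).V, (XRep 𝒰 U' A).ρ c ((XRep 𝒰 U' A).ρ c φ) = φ := fun φ => by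
    rw [← Module.End.mul_apply, ← map_mul, hcc, map_one, Module.End.one_apply]
  obtain ⟨t, ht⟩ := h2
  have ht1 : ((t⁻¹ : kˣ) : k) * 2 = 1 := by rw [← ht, Units.inv_mul]
  have hJ : ∀ f : BiFun U' U hle A.V (Subgroup.zpowers c),
      (XRep 𝒰 U' A).ρ c (e (jLin 𝒰 U' U hle A hopen hAlev (Subgroup.zpowers c) f)) =
        -e (jLin 𝒰 U' U hle A hopen hAlev (Subgroup.zpowers c) f) := fun f => by
    rw [he, jLin_apply]
    exact ρ_jFun 𝒰 U' A (Subgroup.zpowers c) hopen hAlev c (Subgroup.mem_zpowers c) hAc _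
  constructor
  · rw [← LinearMap.ker_eq_bot, LinearMap.ker_eq_bot']
    rintro ⟨⟨φ, hφ⟩, f⟩ h0
    rw [thetaLin_apply] at h0
    rw [mem_fixSub] at hφ
    change φ + jLin 𝒰 U' U hle A hopen hAlev (Subgroup.zpowers c) f = 0 at h0
    have h0' : e φ + e (jLin 𝒰 U' U hle A hopen hAlev (Subgroup.zpowers c) f) = 0 := by
      rw [← map_add, h0, map_zero]
    have h1 := congrArg ((XRep 𝒰 U' A).ρ c) h0'
    rw [map_add, hφ, hJ, map_zero] at h1
    have h3 : (2 : k) • e φ = 0 := by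
      rw [two_smul]
      have := congrArg₂ (· + ·) h0' h1
      simp only [add_zero] at this
      rw [← this]
      abel
    have hφ0 : e φ = 0 := by
      have := congrArg (fun w => ((t⁻¹ : kˣ) : k) • w) h3
      simp only [smul_smul, ht1, one_smul, smul_zero] at this
      exact this
    have hφ0' : φ = 0 := e.injective (by rw [hφ0, map_zero])
    rw [hφ0', zero_add] at h0
    have hf0 : f = 0 := jLin_injective 𝒰 U' U hle A hopen hAlev _ (by rw [h0, map_zero])
    rw [Prod.mk_eq_zero]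
    exact ⟨Subtype.ext hφ0', hf0⟩
  · intro ψ
    set ψ' := e ψ with hψ'
    have hminus : (XRep 𝒰 U' A).ρ c (((t⁻¹ : kˣ) : k) • (ψ' - (XRep 𝒰 U' A).ρ c ψ')) =
        -(((t⁻¹ : kˣ) : k) • (ψ' - (XRep 𝒰 U' A).ρ c ψ')) := by
      rw [map_smul, map_sub, hρcc, ← smul_neg, neg_sub]
    obtain ⟨f, hf⟩ := exists_jFun_eq 𝒰 U' A c hopen hAlev hcc hAc _ hminus
    have hplus : e.symm (((t⁻¹ : kˣ) : k) • (ψ' + (XRep 𝒰 U' A).ρ c ψ')) ∈
        fixSub 𝒰 U' U hle A c := by
      rw [mem_fixSub, LinearEquiv.apply_symm_apply, map_smul, map_add, hρcc, add_comm]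
    refine ⟨(⟨_, hplus⟩, (bifunRep U' U hle A.V (Subgroup.zpowers c)).asModuleEquiv.symm f), ?_⟩
    rw [thetaLin_apply]
    apply e.injective
    rw [map_add, jLin_apply, LinearEquiv.apply_symm_apply, LinearEquiv.apply_symm_apply, hf,
      ← smul_add]
    have : ψ' + (XRep 𝒰 U' A).ρ c ψ' + (ψ' - (XRep 𝒰 U' A).ρ c ψ') = (2 : k) • ψ' := by
      rw [two_smul]
      abel
    rw [this, smul_smul, ht1, one_smul]

/-- the `ℤ[Δ]`-linear splitting `(XRep A)^{c} × BiFun ≃ XRep A` -/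
def thetaEquiv (hcc : c * c = 1) (hAc : ∀ v : A.V, A.ρ c v = -v) (h2 : IsUnit (2 : k)) :
    (fixSub 𝒰 U' U hle A c × BiFun U' U hle A.V (Subgroup.zpowers c))
      ≃ₗ[MonoidAlgebra ℤ (DeltaGrp U' U)] XMod 𝒰 U' U hle A :=
  LinearEquiv.ofBijective (thetaLin 𝒰 U' U hle A c hopen hAlev)
    (thetaLin_bijective 𝒰 U' U hle A c hopen hAlev hcc hAc h2)

end Split

/-! ### The `ε`-part of a submodule -/

section EPartSub

variable {R : Type*} [Ring R] {n : ℕ} {M : Type*} [AddCommGroup M] [Module R M]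

/-- the `ε`-part of a submodule consists of the tuples of the `ε`-part with entries in it -/
def ePartSubEquiv (ε : Matrix (Fin n) (Fin n) R) (S : Submodule R M) :
    ePart ε S ≃ {y : ePart ε M // ∀ a, y.1 a ∈ S} where
  toFun y := ⟨⟨fun a => ((y.1 a : S) : M), by
    rw [mem_ePart]
    have h := mact_map ε S.subtype y.1
    have hy : mact ε y.1 = y.1 := y.2
    rw [hy] at h
    exact h⟩, fun a => (y.1 a).2⟩
  invFun z := ⟨fun a => ⟨z.1.1 a, z.2 a⟩, by
    rw [mem_ePart]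
    funext a
    apply Subtype.ext
    have h := congrFun (mact_map ε S.subtype (fun a => (⟨z.1.1 a, z.2 a⟩ : S))) a
    have hz : mact ε z.1.1 = z.1.1 := z.1.2
    change mact ε z.1.1 a = S.subtype (mact ε (fun a => (⟨z.1.1 a, z.2 a⟩ : S)) a) at h
    rw [hz] at h
    exact h.symm⟩
  left_inv _ := rfl
  right_inv _ := rfl

end EPartSub

/-! ### The `ε`-summand -/

section Summand

variable {𝒰 U' U hle A}
variable {n : ℕ} {ε : Matrix (Fin n) (Fin n) (MonoidAlgebra ℤ (DeltaGrp U' U))}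
  {N : Rep.{0} k G} (d : EpsSummand 𝒰 U' U hle ε A N)

include d in
theorem epsEnd_idem : epsEnd 𝒰 U' U hle ε A ≫ epsEnd 𝒰 U' U hle ε A = epsEnd 𝒰 U' U hle ε A := by
  rw [← d.q_j, Category.assoc, ← Category.assoc d.j, d.j_q, Category.id_comp]

include d in
/-- `ε` acts as an idempotent on `XMod` -/
theorem idemOn_XMod : IdemOn ε (XMod 𝒰 U' U hle A) := by
  intro y
  apply (toPi 𝒰 U' U hle A n).injective
  rw [← epsEnd_hom_apply, ← epsEnd_hom_apply]
  have h := epsEnd_idem d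
  exact congrArg (fun F : piRep n (XRep 𝒰 U' A) ⟶ piRep n (XRep 𝒰 U' A) =>
    F.hom (toPi 𝒰 U' U hle A n y)) h

theorem q_j_apply (x : N.V) : d.q.hom (d.j.hom x) = x := by
  have h := d.j_q
  exact congrArg (fun F : N ⟶ N => F.hom x) h

theorem j_q_apply (z : (piRep n (XRep 𝒰 U' A)).V) :
    d.j.hom (d.q.hom z) = (epsEnd 𝒰 U' U hle ε A).hom z := by
  have h := d.q_j
  exact congrArg (fun F : piRep n (XRep 𝒰 U' A) ⟶ piRep n (XRep 𝒰 U' A) => F.hom z) h

/-- `N` is the `ε`-part of `XMod` -/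
def equivEPart : N.V ≃ ePart ε (XMod 𝒰 U' U hle A) where
  toFun x := ⟨(toPi 𝒰 U' U hle A n).symm (d.j.hom x), by
    rw [mem_ePart]
    apply (toPi 𝒰 U' U hle A n).injective
    rw [← epsEnd_hom_apply, AddEquiv.apply_symm_apply, ← j_q_apply d, q_j_apply d]⟩
  invFun y := d.q.hom (toPi 𝒰 U' U hle A n y.1)
  left_inv x := by
    change d.q.hom (toPi 𝒰 U' U hle A n ((toPi 𝒰 U' U hle A n).symm (d.j.hom x))) = x
    rw [AddEquiv.apply_symm_apply, q_j_apply d]
  right_inv y := by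
    apply Subtype.ext
    change (toPi 𝒰 U' U hle A n).symm (d.j.hom (d.q.hom (toPi 𝒰 U' U hle A n y.1))) = y.1
    rw [j_q_apply d, epsEnd_hom_apply, AddEquiv.symm_apply_apply]
    exact y.2

include d in
theorem card_eq_tCount : Nat.card N.V = tCount ε (XMod 𝒰 U' U hle A) :=
  Nat.card_congr (equivEPart d)

theorem equivEPart_apply (x : N.V) (a : Fin n) :
    (rhoX 𝒰 U' U hle A).asModuleEquiv ((equivEPart d x).1 a) =
      (d.j.hom x : Fin n → (XRep 𝒰 U' A).V) a := rfl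

/-- the `c`-invariants of `N` correspond to the tuples with `c`-invariant entries -/
theorem fix_iff (c : G) (x : N.V) :
    N.ρ c x = x ↔ ∀ a, (equivEPart d x).1 a ∈ fixSub 𝒰 U' U hle A c := by
  have hcomm : d.j.hom (N.ρ c x) = (piRep n (XRep 𝒰 U' A)).ρ c (d.j.hom x) :=
    Rep.hom_comm_apply d.j c x
  constructor
  · intro hx a
    rw [mem_fixSub, equivEPart_apply]
    have h1 := congrFun (show ((piRep n (XRep 𝒰 U' A)).ρ c (d.j.hom x) :
      Fin n → (XRep 𝒰 U' A).V) = (d.j.hom x : Fin n → (XRep 𝒰 U' A).V) by rw [← hcomm, hx]) a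
    exact h1
  · intro h
    have h1 : (piRep n (XRep 𝒰 U' A)).ρ c (d.j.hom x) = d.j.hom x := by
      funext a
      have h2 := h a
      rw [mem_fixSub, equivEPart_apply] at h2
      exact h2
    rw [← hcomm] at h1
    have h3 := congrArg d.q.hom h1
    rwa [q_j_apply d, q_j_apply d] at h3

include d in
/-- the `c`-invariants of `N` are the `ε`-part of the `c`-invariants of `XMod` -/
theorem card_fix_eq_tCount (c : G) :
    Nat.card {x : N.V // N.ρ c x = x} = tCount ε (fixSub 𝒰 U' U hle A c) := by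
  refine Nat.card_congr (Equiv.trans ?_ (ePartSubEquiv ε (fixSub 𝒰 U' U hle A c)).symm)
  exact (equivEPart d).subtypeEquiv fun x => fix_iff d c x

include d in
/-- **The archimedean count**: `#N^{c} · t(F[U' \ G / ⟨c⟩] ⊗ A) = #N`. -/
theorem card_fix_mul_tCount (c : G) (hopen : 𝒰.IsOpen U')
    (hAlev : ∃ V ∈ 𝒰.sets, ∀ s ∈ V, ∀ v : A.V, A.ρ s v = v) (hcc : c * c = 1)
    (hAc : ∀ v : A.V, A.ρ c v = -v) (h2 : IsUnit (2 : k)) :
    Nat.card {x : N.V // N.ρ c x = x} * tCount ε (BiFun U' U hle A.V (Subgroup.zpowers c)) =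
      Nat.card N.V := by
  rw [card_fix_eq_tCount d c, card_eq_tCount d,
    ← tCount_congr ε (thetaEquiv 𝒰 U' U hle A c hopen hAlev hcc hAc h2)]
  have hX := idemOn_XMod d
  refine (tCount_prod ?_ ?_).symm
  · exact hX.of_injective (fixSub 𝒰 U' U hle A c).subtype (Submodule.subtype_injective _)
  · exact hX.of_injective (jLin 𝒰 U' U hle A hopen hAlev (Subgroup.zpowers c))
      (jLin_injective 𝒰 U' U hle A hopen hAlev _)

end Summand

end Fermat.Agent.S56.Base.EC.InfCore
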