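/-
PROJECT T (S56), block (a1-II)/B3/E3 FILE 8 (helper24): THE ARCHIMEDEAN DICTIONARY.

Frame of E3 (helper11, `Frame.lean`): `p` a prime, `𝒰 = levelsS S` on `GQ`, `k = Zp p`,
`muK p = μ_p`, `U' ≤ U` subgroups of `GQ` with `U'` normal in `U`, open, fixing `μ_p`,
`Δ = U ⧸ U'`, `ε` an `n × n` matrix over `ℤ[Δ]`, `N` an `ε`-summand of `(XRep μ_p)^n`.  Then for
`p` odd
  `#N^{c} · tCount ε (F_p[U' \ GQ / ⟨c⟩]) = #N`   (`c` = complex conjugation),
i.e. the archimedean factor of the Euler characteristic formula is `p ^ (-χ_∞(N))`.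
-/
import Fermat.Agent.CFT.Bridge.Cyclo
import Fermat.Agent.S56.Base.EC.Frame
import Fermat.Agent.S56.Base.EC.InfCore

set_option autoImplicit false

noncomputable section

namespace Fermat.Agent.S56.Base.EC.InfDict

open CategoryTheory ExtCitation
open Fermat.Agent.CFT.LC Fermat.Agent.CFT.Bridge Fermat.Agent.CFT.D.CoeffChange
open Fermat.Agent.CFT.D.DualTwist Fermat.Agent.CFT.D.ZpModel
open Fermat.Agent.S56.Base.EC Fermat.Agent.S56.Base.EC.InfCore

variable (p : ℕ) [Fact p.Prime]

/-! ### Complex conjugation acts by `-1` on `μ_p` -/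

/-- complex conjugation inverts the roots of unity -/
theorem complexConjugation_root {t : Qbar} {m : ℕ} (hm : m ≠ 0) (ht : t ^ m = 1) :
    complexConjugation t = t⁻¹ := by
  apply complexEmbedding.toRingHom.injective
  change complexEmbedding (complexConjugation t) = complexEmbedding t⁻¹
  rw [complexEmbedding_complexConjugation, map_inv₀]
  have hz : (complexEmbedding t) ^ m = 1 := by rw [← map_pow, ht, map_one]
  exact (Complex.inv_eq_conj (Complex.norm_eq_one_of_pow_eq_one hz hm)).symm

/-- `ω(c) = -1` for the prelude's cyclotomic character and complex conjugation -/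
theorem cycloChar_complexConjugation : cycloChar p complexConjugation = -1 := by
  have hp : p.Prime := Fact.out
  have hp1 : 1 < p := hp.one_lt
  have : Fact (1 < p) := ⟨hp1⟩
  obtain ⟨ζ, hζ⟩ := exists_isPrimitiveRoot_Qbar p
  have h1 := apply_eq_pow_cycloChar p hζ complexConjugation
  rw [complexConjugation_root hp.ne_zero hζ.pow_eq_one] at h1
  have hval : ((-1 : (ZMod p)ˣ) : ZMod p).val = p - 1 := by
    rw [Units.val_neg, Units.val_one, ZMod.neg_val, if_neg one_ne_zero, ZMod.val_one]
  have hinv : ζ⁻¹ = ζ ^ (p - 1) := by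
    symm
    apply eq_inv_of_mul_eq_one_left
    rw [← pow_succ, Nat.sub_add_cancel hp1.le, hζ.pow_eq_one]
  rw [hinv] at h1
  have h2 := hζ.pow_inj (Nat.sub_lt hp.pos one_pos) (ZMod.val_lt _) h1
  ext
  apply ZMod.val_injective p
  rw [hval, h2]

/-- the action of `GQ` on `μ_p` -/
theorem muK_ρ (g : GQ) (x : ZMod p) :
    (muK p).ρ g (toRes (phi p) (chiRep (cycloChar p)) x) =
      toRes (phi p) (chiRep (cycloChar p)) (((cycloChar p g : (ZMod p)ˣ) : ZMod p) * x) := rfl

/-! ### `BiFun` with values in `μ_p` is `DFun` -/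

section Compare

variable (U' U C : Subgroup GQ) [hn : (U'.subgroupOf U).Normal] (hle : U' ≤ U)

/-- bi-invariant functions with values in (the underlying group of) `μ_p` are bi-invariant
functions with values in `ZMod p` -/
def bifunEquivDfun : bifun U' (muK p).V C ≃+ dfun p U' C where
  toFun f := ⟨fun g => f.1 g, f.2⟩
  invFun f := ⟨fun g => f.1 g, f.2⟩
  left_inv _ := rfl
  right_inv _ := rfl
  map_add' _ _ := rfl

/-- the comparison as a `ℤ[Δ]`-linear map -/
def biFunToDFun : BiFun U' U hle (muK p).V C →ₗ[MonoidAlgebra ℤ (DeltaGrp U' U)]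
    DFun p U' U C hle :=
  asModuleHom (bifunRep U' U hle (muK p).V C) (dfunRep p U' U C hle)
    (bifunEquivDfun p U' C).toAddMonoidHom (fun δ f => by
      obtain ⟨u, rfl⟩ := QuotientGroup.mk_surjective δ
      rfl)

theorem biFunToDFun_bijective : Function.Bijective (biFunToDFun p U' U C hle) := by
  constructor
  · intro x y h
    have h1 := congrArg (dfunRep p U' U C hle).asModuleEquiv h
    change bifunEquivDfun p U' C ((bifunRep U' U hle (muK p).V C).asModuleEquiv x) =
      bifunEquivDfun p U' C ((bifunRep U' U hle (muK p).V C).asModuleEquiv y) at h1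
    exact (bifunRep U' U hle (muK p).V C).asModuleEquiv.injective
      ((bifunEquivDfun p U' C).injective h1)
  · intro z
    refine ⟨(bifunRep U' U hle (muK p).V C).asModuleEquiv.symm
      ((bifunEquivDfun p U' C).symm ((dfunRep p U' U C hle).asModuleEquiv z)), ?_⟩
    apply (dfunRep p U' U C hle).asModuleEquiv.injective
    change bifunEquivDfun p U' C ((bifunRep U' U hle (muK p).V C).asModuleEquiv
      ((bifunRep U' U hle (muK p).V C).asModuleEquiv.symm
        ((bifunEquivDfun p U' C).symm ((dfunRep p U' U C hle).asModuleEquiv z)))) = _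
    rw [LinearEquiv.apply_symm_apply, AddEquiv.apply_symm_apply]

/-- `BiFun` with values in `μ_p` is `DFun` -/
def biFunEquivDFun : BiFun U' U hle (muK p).V C ≃ₗ[MonoidAlgebra ℤ (DeltaGrp U' U)]
    DFun p U' U C hle :=
  LinearEquiv.ofBijective (biFunToDFun p U' U C hle) (biFunToDFun_bijective p U' U C hle)

end Compare

/-! ### The archimedean factor -/

section Main

variable {p} {S : Finset Nat.Primes}
variable (U' U : Subgroup GQ) [hn : (U'.subgroupOf U).Normal] (hle : U' ≤ U)
  {n : ℕ} (ε : Matrix (Fin n) (Fin n) (MonoidAlgebra ℤ (DeltaGrp U' U)))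

/-- **E3, archimedean dictionary.**  For an `ε`-summand `N` of `(XRep μ_p)^n`, `p` odd:
`#N^{c} · tCount ε (F_p[U' \ GQ / ⟨c⟩]) = #N`. -/
theorem card_fix_mul_tCount_infGrp (N : Rep.{0} (Zp p) GQ)
    (d : EpsSummand (levelsS S) U' U hle ε (muK p) N)
    (hμ : ∀ u ∈ U', cycloChar p u = 1) (hp2 : p ≠ 2) (hopen : (levelsS S).IsOpen U') :
    Nat.card {x : N.V // N.ρ complexConjugation x = x} * tCount ε (DFun p U' U infGrp hle) =
      Nat.card N.V := by
  have hAlev : ∃ V ∈ (levelsS S).sets, ∀ s ∈ V, ∀ v : (muK p).V, (muK p).ρ s v = v := by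
    obtain ⟨V, hV, hle'⟩ := hopen
    refine ⟨V, hV, fun s hs v => ?_⟩
    obtain ⟨x, rfl⟩ := (toRes (phi p) (chiRep (cycloChar p))).surjective v
    rw [muK_ρ, hμ s (hle' hs), Units.val_one, one_mul]
  have hAc : ∀ v : (muK p).V, (muK p).ρ complexConjugation v = -v := by
    intro v
    obtain ⟨x, rfl⟩ := (toRes (phi p) (chiRep (cycloChar p))).surjective v
    rw [muK_ρ, cycloChar_complexConjugation, Units.val_neg, Units.val_one, neg_one_mul, map_neg]
  have h2 : IsUnit (2 : Zp p) := by
    have hcop : Nat.Coprime 2 p :=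
      (Nat.coprime_primes Nat.prime_two (Fact.out : p.Prime)).2 (Ne.symm hp2)
    have := isUnit_natCast_of_coprime p 2 hcop
    exact_mod_cast this
  rw [← tCount_congr ε (biFunEquivDFun p U' U infGrp hle)]
  exact InfCore.card_fix_mul_tCount d complexConjugation hopen hAlev complexConjugation_mul_self
    hAc h2

end Main

end Fermat.Agent.S56.Base.EC.InfDict
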