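/-
PROJECT T (S56), block (a1-II)/B3/E3, file 3 (helper19): THE KUMMER LONG EXACT SEQUENCE.

`0 → μ_p → E → E → 0` (`E = E_S ⊗ Zp`, second map = multiplication by `p`) is a short exact
sequence of smooth `G_S`-modules; its long exact sequence of `ℤ[Δ]`-modules `HX`

  `HX E i --p--> HX E i --δ--> HX μ_p (i+1) --ι--> HX E (i+1) --p--> HX E (i+1)`

gives, for every matrix `ε` idempotent modulo `p`,

* `hK_succ` : `t(Hⁱ⁺¹(U',μ_p)) = t(Hⁱ(U',E)/p) · t(Hⁱ⁺¹(U',E)[p])`  (`hK1`, `hK2` of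
  `core_of_pieces`);
* `hK0`     : `t(H⁰(U',μ_p)) = t(H⁰(U',E)[p])`;
* `finite_HX_mu_succ` : `Hⁱ⁺¹(U',μ_p)` is finite as soon as `Hⁱ(U',E)/p` and `Hⁱ⁺¹(U',E)[p]` are;
* `finite_HX_mu_zero` : `H⁰(U',μ_p)` is finite as soon as `H⁰(U',E)[p]` is.
-/
import Fermat.Agent.S56.Base.EC.Frame

set_option autoImplicit false

noncomputable section

namespace Fermat.Agent.S56.Base.EC.KummerLES

open CategoryTheory ExtCitation
open Fermat.Agent.CFT.LC Fermat.Agent.CFT.Bridge Fermat.Agent.CFT.D.Reduce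
open Fermat.Agent.CFT.D.DatumBuild Fermat.Agent.CFT.D.CoeffChange Fermat.Agent.CFT.D.DualTwist
open Fermat.Agent.CFT.D.ZpModel Fermat.Agent.S56.Base.EC Fermat.Agent.CFT.C7.SES

/-! ### Finiteness of the middle of an exact sequence -/

section Fin

variable {R : Type*} [Ring R] {A B C D G : Type*} [AddCommGroup A] [Module R A] [AddCommGroup B]
  [Module R B] [AddCommGroup C] [Module R C] [AddCommGroup D] [Module R D] [AddCommGroup G]
  [Module R G]

/-- a module with a finite submodule and finite quotient is finite -/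
theorem finite_of_submodule_quotient (N : Submodule R C) [Finite N] [Finite (C ⧸ N)] : Finite C := by
  have h1 : Finite N.toAddSubgroup := ‹Finite N›
  have h2 : Finite (C ⧸ N.toAddSubgroup) := ‹Finite (C ⧸ N)›
  exact Finite.of_addSubgroup_quotient N.toAddSubgroup

/-- the middle term of `A → B → C → D → G`, exact at `B`, `C`, `D`, is finite as soon as
`coker (A → B)` and `ker (D → G)` are -/
theorem finite_mid (α : A →ₗ[R] B) (β : B →ₗ[R] C) (γ : C →ₗ[R] D) (ε' : D →ₗ[R] G)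
    (hαβ : Function.Exact α β) (hβγ : Function.Exact β γ) (hγε : Function.Exact γ ε')
    [Finite (B ⧸ LinearMap.range α)] [Finite (LinearMap.ker ε')] : Finite C := by
  have hle : LinearMap.range α ≤ LinearMap.ker β := by
    rintro _ ⟨a, rfl⟩
    exact hαβ.apply_apply_eq_zero a
  let f : (B ⧸ LinearMap.range α) →ₗ[R] C := (LinearMap.range α).liftQ β hle
  have hrf : LinearMap.range f = LinearMap.range β := Submodule.range_liftQ _ _ _
  have h1 : Finite (LinearMap.range f) :=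
    Finite.of_surjective f.rangeRestrict f.surjective_rangeRestrict
  have h2 : Finite (LinearMap.ker γ) := by
    rw [LinearMap.exact_iff.1 hβγ, ← hrf]
    exact h1
  have h3 : Finite (LinearMap.range γ) := by
    rw [← LinearMap.exact_iff.1 hγε]
    infer_instance
  have h4 : Finite (C ⧸ LinearMap.ker γ) :=
    Finite.of_equiv _ γ.quotKerEquivRange.toEquiv.symm
  exact finite_of_submodule_quotient (LinearMap.ker γ)

end Fin

/-! ### Generalities on `HX` -/

section General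

variable {k G : Type} [CommRing k] [Group G] (𝒰 : Levels G) (U' U : Subgroup G)
  [hn : (U'.subgroupOf U).Normal] (hle : U' ≤ U)

theorem mapId_nsmul {A B : Rep.{0} k G} (m : ℕ) (φ : A ⟶ B) (i : ℕ) :
    mapId (𝒰 := 𝒰) (m • φ) i = m • mapId φ i := by
  rw [mapId_eq_functor_map, Functor.map_nsmul]
  rfl

theorem XMap_natCast_smul_id (A : Rep.{0} k G) (c : ℕ) :
    XMap 𝒰 U' (((c : ℕ) : k) • 𝟙 A) = c • 𝟙 (XRep 𝒰 U' A) := by
  rw [← Nat.cast_smul_eq_nsmul k c (𝟙 (XRep 𝒰 U' A))]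
  ext φ
  refine iFn_ext fun x => ?_
  rfl

/-- multiplication by `c` on the coefficients induces multiplication by `c` on `HX` -/
theorem HXmap_natCast_smul_id (A : Rep.{0} k G) (c : ℕ) (i : ℕ) :
    HXmap 𝒰 U' U hle (((c : ℕ) : k) • 𝟙 A) i =
      pMul (MonoidAlgebra ℤ (DeltaGrp U' U)) c (HX 𝒰 U' U hle A i) := by
  apply LinearMap.ext
  intro x
  rw [HXmap_apply, pMul_apply, XMap_natCast_smul_id, mapId_nsmul, mapId_id]
  rfl

/-- a morphism killed by `c` induces maps killed by `c`: `c • x = 0` on `HX A i` when `c` kills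
`A` -/
theorem nsmul_HX_eq_zero (A : Rep.{0} k G) (c : ℕ) (hA : ∀ a : A.V, ((c : ℕ) : k) • a = 0)
    (i : ℕ) (x : HX 𝒰 U' U hle A i) : c • x = 0 := by
  have h0 : (((c : ℕ) : k) • 𝟙 A : A ⟶ A) = 0 := by
    ext a
    exact hA a
  have h1 := HXmap_natCast_smul_id 𝒰 U' U hle A c i
  have h2 : HXmap 𝒰 U' U hle (((c : ℕ) : k) • 𝟙 A) i x = 0 := by
    rw [HXmap_apply, h0]
    have : XMap 𝒰 U' (0 : A ⟶ A) = 0 := by
      ext φ
      refine iFn_ext fun x => ?_
      rfl
    rw [this, mapId_zero]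
    rfl
  rw [h1, pMul_apply] at h2
  exact h2

variable [𝒰.IsFin]

/-- in degree `0` an injective morphism of coefficients induces an injective map -/
theorem HXmap_injective_zero {X : ShortComplex (Rep.{0} k G)} (hX : X.ShortExact)
    (hsm : IsSmooth 𝒰 X.X₂) : Function.Injective (HXmap 𝒰 U' U hle X.f 0) := by
  have hS := map_lcFunctor_shortExact (XSES_shortExact 𝒰 U' hX hsm) (isSmooth_XSES 𝒰 U' X)
  have := hS.mono_f
  have hm : Mono (HomologicalComplex.homologyMap ((XSES 𝒰 U' X).map (lcFunctor 𝒰)).f 0) :=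
    HomologicalComplex.mono_homologyMap_of_mono_of_not_rel _ 0 (by simp)
  have hinj : Function.Injective (mapId (𝒰 := 𝒰) (XMap 𝒰 U' X.f) 0).hom :=
    (ModuleCat.mono_iff_injective _).1 hm
  intro x y hxy
  exact hinj hxy

end General

/-! ### The Kummer sequence -/

variable (p : ℕ) [Fact p.Prime] (S : Finset Nat.Primes)

theorem iotaK_torsion (hpS : pPrime p ∈ S) (c : (muK p).V) :
    ((p : ℕ) : Zp p) • (iotaK p S hpS).hom c = 0 := by
  rw [← map_smul]
  have : ((p : ℕ) : Zp p) • c = 0 := natCast_smul_resScalars (phi p) (chiRep (cycloChar p)) c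
  rw [this, map_zero]

/-- the Kummer sequence `0 → μ_p → E → E → 0` -/
def kummerSC (hpS : pPrime p ∈ S) : ShortComplex (Rep.{0} (Zp p) GQ) :=
  ShortComplex.mk (iotaK p S hpS) (((p : ℕ) : Zp p) • 𝟙 (EK p S)) (by
    ext c
    exact iotaK_torsion p S hpS c)

theorem kummerSC_g_apply (hpS : pPrime p ∈ S) (e : (EK p S).V) :
    (kummerSC p S hpS).g.hom e = ((p : ℕ) : Zp p) • e := rfl

theorem kummerSC_shortExact (hpS : pPrime p ∈ S) : (kummerSC p S hpS).ShortExact :=
  Fermat.Agent.CFT.A7.HomRep.shortExact_of_elementwise _ (iotaK_injective p S hpS)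
    (fun e he => iotaK_range p S hpS e he)
    (fun e => seqK_divE p (Zp p) hpS e)

theorem isSmooth_kummerSC_X₂ (hpS : pPrime p ∈ S) :
    IsSmooth (levelsS S) (kummerSC p S hpS).X₂ := isSmooth_seqK_X₁ S p (Zp p)


/-! ### The three pieces (K0), (K1), (K2) of `core_of_pieces` -/

section Pieces

variable {p S}
variable (U' U : Subgroup GQ) [(U'.subgroupOf U).Normal] (hle : U' ≤ U)
  {n : ℕ} (ε : Matrix (Fin n) (Fin n) (MonoidAlgebra ℤ (DeltaGrp U' U)))

/-- `p` kills `Hⁱ(U', μ_p)` -/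
theorem nsmul_HX_muK (i : ℕ) (x : HX (levelsS S) U' U hle (muK p) i) : p • x = 0 :=
  nsmul_HX_eq_zero (levelsS S) U' U hle (muK p) p
    (natCast_smul_resScalars (phi p) (chiRep (cycloChar p))) i x

theorem idemOn_HX_muK (hε : IdemModP p ε) (i : ℕ) :
    IdemOn ε (HX (levelsS S) U' U hle (muK p) i) :=
  hε.idemOn (nsmul_HX_muK U' U hle i)

/-- **(K1), (K2) in all degrees**: `t(Hⁱ⁺¹(U',μ_p)) = t(Hⁱ(U',E)/p) · t(Hⁱ⁺¹(U',E)[p])` -/
theorem hK_succ (hpS : pPrime p ∈ S) (hε : IdemModP p ε) (i : ℕ) :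
    tCount ε (HX (levelsS S) U' U hle (muK p) (i + 1)) =
      tCount ε (modP (MonoidAlgebra ℤ (DeltaGrp U' U)) p (HX (levelsS S) U' U hle (EK p S) i)) *
        tCount ε (torP (MonoidAlgebra ℤ (DeltaGrp U' U)) p
          (HX (levelsS S) U' U hle (EK p S) (i + 1))) := by
  have hX := kummerSC_shortExact p S hpS
  have hsm := isSmooth_kummerSC_X₂ p S hpS
  have h := tCount_mid (idemOn_HX_muK U' U hle ε hε (i + 1))
    (HXmap (levelsS S) U' U hle (kummerSC p S hpS).g i)
    (HXδ (levelsS S) U' U hle hX hsm i (i + 1) rfl)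
    (HXmap (levelsS S) U' U hle (kummerSC p S hpS).f (i + 1))
    (HXmap (levelsS S) U' U hle (kummerSC p S hpS).g (i + 1))
    (HX_exact₃ (levelsS S) U' U hle hX hsm i (i + 1) rfl)
    (HX_exact₁ (levelsS S) U' U hle hX hsm i (i + 1) rfl)
    (HX_exact₂ (levelsS S) U' U hle hX hsm (i + 1))
  have hg : ∀ j, HXmap (levelsS S) U' U hle (kummerSC p S hpS).g j =
      pMul (MonoidAlgebra ℤ (DeltaGrp U' U)) p (HX (levelsS S) U' U hle (EK p S) j) := fun j =>
    HXmap_natCast_smul_id (levelsS S) U' U hle (EK p S) p j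
  rw [hg i, hg (i + 1)] at h
  exact h

/-- **(K1)** -/
theorem hK1 (hpS : pPrime p ∈ S) (hε : IdemModP p ε) :
    tCount ε (HX (levelsS S) U' U hle (muK p) 1) =
      tCount ε (modP (MonoidAlgebra ℤ (DeltaGrp U' U)) p (HX (levelsS S) U' U hle (EK p S) 0)) *
        tCount ε (torP (MonoidAlgebra ℤ (DeltaGrp U' U)) p (HX (levelsS S) U' U hle (EK p S) 1)) :=
  hK_succ U' U hle ε hpS hε 0

/-- **(K2)** -/
theorem hK2 (hpS : pPrime p ∈ S) (hε : IdemModP p ε) :
    tCount ε (HX (levelsS S) U' U hle (muK p) 2) =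
      tCount ε (modP (MonoidAlgebra ℤ (DeltaGrp U' U)) p (HX (levelsS S) U' U hle (EK p S) 1)) *
        tCount ε (torP (MonoidAlgebra ℤ (DeltaGrp U' U)) p (HX (levelsS S) U' U hle (EK p S) 2)) :=
  hK_succ U' U hle ε hpS hε 1

/-- `H⁰(U',μ_p) ≃ H⁰(U',E)[p]` as `ℤ[Δ]`-modules -/
def equivTorZero (hpS : pPrime p ∈ S) :
    HX (levelsS S) U' U hle (muK p) 0 ≃ₗ[MonoidAlgebra ℤ (DeltaGrp U' U)]
      torP (MonoidAlgebra ℤ (DeltaGrp U' U)) p (HX (levelsS S) U' U hle (EK p S) 0) :=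
  (LinearEquiv.ofInjective (HXmap (levelsS S) U' U hle (kummerSC p S hpS).f 0)
    (HXmap_injective_zero (levelsS S) U' U hle (kummerSC_shortExact p S hpS)
      (isSmooth_kummerSC_X₂ p S hpS))).trans
  (LinearEquiv.ofEq _ _ (by
    have h := LinearMap.exact_iff.1 (HX_exact₂ (levelsS S) U' U hle (kummerSC_shortExact p S hpS)
      (isSmooth_kummerSC_X₂ p S hpS) 0)
    rw [← h]
    exact congrArg LinearMap.ker
      (HXmap_natCast_smul_id (levelsS S) U' U hle (EK p S) p 0)))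

/-- **(K0)** -/
theorem hK0 (hpS : pPrime p ∈ S) :
    tCount ε (HX (levelsS S) U' U hle (muK p) 0) =
      tCount ε (torP (MonoidAlgebra ℤ (DeltaGrp U' U)) p (HX (levelsS S) U' U hle (EK p S) 0)) :=
  tCount_congr ε (equivTorZero U' U hle hpS)

/-- finiteness of `Hⁱ⁺¹(U',μ_p)` -/
theorem finite_HX_mu_succ (hpS : pPrime p ∈ S) (i : ℕ)
    (h1 : Finite (modP (MonoidAlgebra ℤ (DeltaGrp U' U)) p (HX (levelsS S) U' U hle (EK p S) i)))
    (h2 : Finite (torP (MonoidAlgebra ℤ (DeltaGrp U' U)) p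
      (HX (levelsS S) U' U hle (EK p S) (i + 1)))) :
    Finite (HX (levelsS S) U' U hle (muK p) (i + 1)) := by
  have hX := kummerSC_shortExact p S hpS
  have hsm := isSmooth_kummerSC_X₂ p S hpS
  have hg : ∀ j, HXmap (levelsS S) U' U hle (kummerSC p S hpS).g j =
      pMul (MonoidAlgebra ℤ (DeltaGrp U' U)) p (HX (levelsS S) U' U hle (EK p S) j) := fun j =>
    HXmap_natCast_smul_id (levelsS S) U' U hle (EK p S) p j
  have e1 : Finite (HX (levelsS S) U' U hle (EK p S) i ⧸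
      LinearMap.range (HXmap (levelsS S) U' U hle (kummerSC p S hpS).g i)) := by
    rw [hg i]
    exact h1
  have e2 : Finite (LinearMap.ker (HXmap (levelsS S) U' U hle (kummerSC p S hpS).g (i + 1))) := by
    rw [hg (i + 1)]
    exact h2
  exact finite_mid
    (HXmap (levelsS S) U' U hle (kummerSC p S hpS).g i)
    (HXδ (levelsS S) U' U hle hX hsm i (i + 1) rfl)
    (HXmap (levelsS S) U' U hle (kummerSC p S hpS).f (i + 1))
    (HXmap (levelsS S) U' U hle (kummerSC p S hpS).g (i + 1))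
    (HX_exact₃ (levelsS S) U' U hle hX hsm i (i + 1) rfl)
    (HX_exact₁ (levelsS S) U' U hle hX hsm i (i + 1) rfl)
    (HX_exact₂ (levelsS S) U' U hle hX hsm (i + 1))

/-- finiteness of `H⁰(U',μ_p)` -/
theorem finite_HX_mu_zero (hpS : pPrime p ∈ S)
    (h : Finite (torP (MonoidAlgebra ℤ (DeltaGrp U' U)) p
      (HX (levelsS S) U' U hle (EK p S) 0))) :
    Finite (HX (levelsS S) U' U hle (muK p) 0) :=
  Finite.of_equiv _ (equivTorZero U' U hle hpS).toEquiv.symm

end Pieces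

end Fermat.Agent.S56.Base.EC.KummerLES
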