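/-
PROJECT T (S56), block (a1-II) = S56/Base, E3 (B) leaf (L3) (helper4; literal of helper11):
for every lattice `B` with an invariant element `b₀` and a functional `l` with `l b₀ = 1` there is
a `p`-torsion class of `H²(G_S, Hom(B, J))` which does not die in `H²(G_S, Hom(B, C))`.
-/
import Fermat.Agent.S56.Base.Tail.LocSurj
import Fermat.Agent.S56.Base.Arith.LocalDegree
import Fermat.Agent.S56.Base.TNLC
import Fermat.Agent.CFT.D.Datum.Build

set_option autoImplicit false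

noncomputable section

namespace Fermat.Agent.S56.Base.EC.SuppClass2

open CategoryTheory groupCohomology ExtCitation Fermat.Agent.CFT.LC Fermat.Agent.CFT.LC.El
  Fermat.Agent.CFT.Bridge Fermat.Agent.CFT.A7 Fermat.Agent.CFT.A7.HomRep
  Fermat.Agent.CFT.A7.BaseChange Fermat.Agent.CFT.D Fermat.Agent.CFT.D.Main
  Fermat.Agent.CFT.D.Reduce
  Fermat.Agent.CFT.D.ZpModel Fermat.Agent.CFT.D.DatumBuild Fermat.Agent.CFT.D.DatumInjFrob

theorem exists_torsion_class_ne_zero {p : ℕ} [Fact p.Prime] {S : Finset Nat.Primes}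
    (hpS : pPrime p ∈ S) (g : GlobalInputs p S) (B : Rep.{0} (Zp p) GQ) [Module.Free (Zp p) B.V]
    [Module.Finite (Zp p) B.V] (hB : ∃ U ∈ (levelsS S).sets, ∀ u ∈ U, ∀ b : B.V, B.ρ u b = b)
    (b₀ : B.V) (hb₀ : ∀ s : GQ, B.ρ s b₀ = b₀) (l : B.V →ₗ[Zp p] Zp p) (hl : l b₀ = 1) :
    ∃ x : H (levelsS S) (homRep B (theDatum hpS g).SES.X₂) 2, ((p : ℕ) : Zp p) • x = 0 ∧
      (mapId (𝒰 := levelsS S) (homMap B (theDatum hpS g).SES.g) 2).hom x ≠ 0 := by
  classical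
  have hp : p.Prime := Fact.out
  obtain ⟨U₁, hU₁, hBU⟩ := hB
  let q₀ : ↥S := ⟨pPrime p, hpS⟩
  have hmem : ∀ U ∈ (levelsS S).sets, U.comap (rv S q₀) ∈ (Uv S q₀).sets := fun U hU =>
    Levels.mem_comap_sets (mem_levelsAll_of_mem_levelsS S hU)
  -- (i) a nonzero `p`-torsion class of `H²(G_{q₀}, D_{q₀})`
  obtain ⟨W, hW, hWdvd⟩ := Arith.LocalDegree.exists_level_pow_dvd S p hpS 1
  have hWN : W.Normal := (levelsS S).normal W hW
  have hWdvd' : p ∣ Nat.card (Gv S q₀ ⧸ W.comap (rv S q₀)) := by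
    simpa using hWdvd q₀
  set t₀ : H (Uv S q₀) (Dloc p S q₀) 2 :=
    (cfDloc p S q₀).pClass p (W.comap (rv S q₀)) (hmem W hW) with ht₀def
  have ht₀ : t₀ ≠ 0 := by
    intro h0
    have h1 := ((cfDloc p S q₀).smul_pClass_eq_zero_iff p (W.comap (rv S q₀)) (hmem W hW)
      hWdvd' hp.ne_zero (1 : Zp p)).1 (by rw [one_smul]; exact h0)
    exact not_isUnit_p p (isUnit_iff_dvd_one.2 h1)
  have hpt₀ : ((p : ℕ) : Zp p) • t₀ = 0 := by
    have h1 := (cfDloc p S q₀).smul_pClass_mem_torsion p (W.comap (rv S q₀)) (hmem W hW)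
      hWdvd' hp.ne_zero (1 : Zp p)
    rwa [one_smul] at h1
  -- (ii) the local class `y₀` with evaluations `b ↦ l b • t₀`
  obtain ⟨U₂, hU₂, hle, hdvd⟩ :=
    Arith.LocalDegree.exists_level_le_dvd_relIndex S p hpS U₁ hU₁
  have hU₂N : U₂.Normal := (levelsS S).normal U₂ hU₂
  have hfree : Module.Free (Zp p) (Rep.res (rv S q₀) B).V := ‹Module.Free (Zp p) B.V›
  have hfin : Module.Finite (Zp p) (Rep.res (rv S q₀) B).V := ‹Module.Finite (Zp p) B.V›
  let f : (Rep.res (rv S q₀) B).ρ.invariants →+ H (Uv S q₀) (Dloc p S q₀) 2 :=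
    { toFun := fun b => l (b.1 : B.V) • t₀
      map_zero' := by
        show l (0 : B.V) • t₀ = 0
        rw [map_zero, zero_smul]
      map_add' := fun a b => by
        show l ((a.1 : B.V) + (b.1 : B.V)) • t₀ = l (a.1 : B.V) • t₀ + l (b.1 : B.V) • t₀
        rw [map_add, add_smul] }
  have hfapp : ∀ b : (Rep.res (rv S q₀) B).ρ.invariants, f b = l (b.1 : B.V) • t₀ := fun _ => rfl
  have hBloc : ∀ u ∈ U₁.comap (rv S q₀), ∀ b : (Rep.res (rv S q₀) B).V,
      (Rep.res (rv S q₀) B).ρ u b = b := fun u hu b => hBU _ hu b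
  obtain ⟨y', hy'⟩ := TNLC.tnc20_surjective_torsion (addHomsLinear p) (cfDloc p S q₀)
    (Rep.res (rv S q₀) B) p hp.ne_zero (U₁.comap (rv S q₀)) hBloc (U₂.comap (rv S q₀))
    (hmem U₂ hU₂) (Subgroup.comap_mono hle) (hdvd q₀) f (fun b => by
      rw [hfapp, ← Nat.cast_smul_eq_nsmul (Zp p), smul_comm, hpt₀, smul_zero])
  set y₀ : H (Uv S q₀) (homRep (Rep.res (rv S q₀) B) (Dloc p S q₀)) 2 :=
    infl (Uv S q₀) (homRep (Rep.res (rv S q₀) B) (Dloc p S q₀)) (U₂.comap (rv S q₀))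
      (hmem U₂ hU₂) 2 y' with hy₀def
  have hpy₀ : ((p : ℕ) : Zp p) • y₀ = 0 := by
    refine TNLC.tnc20_injective (addHomsLinear p) (cfDloc p S q₀) (Rep.res (rv S q₀) B)
      (U₁.comap (rv S q₀)) (hmem U₁ hU₁) hBloc _ (fun b hb => ?_)
    rw [map_smul, hy' b hb, hfapp, smul_comm, hpt₀, smul_zero]
  -- (iii) the global class `x` with localisations `y₀` at `q₀` and `0` elsewhere
  let y₀' : H (Uv S q₀) (homRep (Rep.res (rv S q₀) B) (DlocK S (Zp p) q₀)) 2 := y₀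
  let y : ∀ q : ↥S, H (Uv S q) (homRep (Rep.res (rv S q) B) (DlocK S (Zp p) q)) 2 :=
    Pi.single q₀ y₀'
  have hyq₀' : y q₀ = y₀' :=
    Pi.single_eq_same (M := fun q : ↥S =>
      H (Uv S q) (homRep (Rep.res (rv S q) B) (DlocK S (Zp p) q)) 2) q₀ y₀'
  have hyq₀ : y q₀ = y₀ := hyq₀'
  have hyne : ∀ q, q ≠ q₀ → y q = 0 := fun q hq =>
    Pi.single_eq_of_ne (M := fun q : ↥S =>
      H (Uv S q) (homRep (Rep.res (rv S q) B) (DlocK S (Zp p) q)) 2) hq y₀'
  have hy : ∀ q, ((p : ℕ) : Zp p) • y q = 0 := by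
    intro q
    by_cases hq : q = q₀
    · rw [hq, hyq₀]
      exact hpy₀
    · rw [hyne q hq, smul_zero]
  have hBex : ∃ U ∈ (levelsS S).sets, ∀ u ∈ U, ∀ b : B.V, B.ρ u b = b := ⟨U₁, hU₁, hBU⟩
  obtain ⟨x, hx⟩ : ∃ x : H (levelsS S) (homRep B (theDatum hpS g).SES.X₂) 2,
      ∀ q, map (A := homRep B (theDatum hpS g).SES.X₂)
        (B := homRep (Rep.res (rv S q) B) ((theDatum hpS g).Dloc q)) (hrv S q)
        (locHom (rv S) q B (theDatum hpS g).SES.X₂ ((theDatum hpS g).π q)) 2 x = y q :=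
    Tail.LocSurj.surjective_loc p S hpS B hBex y hy
  refine ⟨x, ?_, ?_⟩
  · refine (theDatum hpS g).h4_two B hBex _ (fun q => ?_)
    rw [map_smul, hx q]
    exact hy q
  · intro hgx
    -- (iv) evaluate at `b₀`
    set z : H (levelsS S) (theDatum hpS g).SES.X₂ 2 :=
      mapId (𝒰 := levelsS S) (HomSplit.evHom B (theDatum hpS g).SES.X₂ b₀ hb₀) 2 x with hz
    have hgz : mapId (𝒰 := levelsS S) (theDatum hpS g).SES.g 2 z = 0 := by
      rw [hz, mapId_mapId_apply, ← HomSplit.ihom_map_evHom, ← mapId_mapId_apply]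
      exact (congrArg (mapId (𝒰 := levelsS S)
        (HomSplit.evHom B (theDatum hpS g).SES.X₃ b₀ hb₀) 2).hom hgx).trans (map_zero _)
    have hb₀' : ∀ q : ↥S, ∀ s : Gv S q, (Rep.res (rv S q) B).ρ s b₀ = b₀ := fun q s => hb₀ _
    have hloc : ∀ q : ↥S, map (A := (theDatum hpS g).SES.X₂) (B := (theDatum hpS g).Dloc q)
        (hrv S q) ((theDatum hpS g).π q) 2 z =
        mapId (𝒰 := Uv S q)
          (HomSplit.evHom (Rep.res (rv S q) B) ((theDatum hpS g).Dloc q) b₀ (hb₀' q)) 2 (y q) := by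
      intro q
      rw [hz, mapId_map_apply, ← hx q, map_mapId_apply]
      rfl
    have hz0 : z = 0 := (theDatum hpS g).supp q₀ z (fun q' hq' => by
      rw [hloc q', hyne q' hq']
      exact map_zero _) hgz
    have h1 := hloc q₀
    rw [hz0, map_zero, hyq₀] at h1
    have h2 := hy' b₀ (hb₀' q₀)
    rw [hfapp] at h2
    apply ht₀
    have h3 : l b₀ • t₀ = 0 := h2.symm.trans h1.symm
    rwa [hl, one_smul] at h3

end Fermat.Agent.S56.Base.EC.SuppClass2
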