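/-
PROJECT T (S56), block (a1-II)/B3/E3 (helper11), file 9: THE FINAL EXPORT OF E3.

For `N : Rep (ZMod p) GQ` finite such that `resScalars (phi p) N` is an `ε`-summand of
`(XRep μ_p)^n` (`U' ≤ U` open, `U'` normal in `U`, `U'` fixing `μ_p`, `ε` idempotent mod `p` over
`ℤ[U/U']`): `defect S N = 0` (Tate's global Euler characteristic formula for `N`) and the
`Hⁱ_S(N)`, `i ≤ 2`, are finite-dimensional.  The pieces: (K) helper19 `KummerLES`, (C) helper13
`ClassGroupH1`, (U) helper17 `UnitsClass` [hypotheses `hU`, `hfinU` here], (B) `BrauerH2` +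
helper4 `SuppClass2`, (∞) helper24 `InfDict`, (HS) `Summand`.
-/
import Fermat.Agent.S56.Base.EC.KummerLES
import Fermat.Agent.S56.Base.EC.ClassGroupH1
import Fermat.Agent.S56.Base.EC.InfDict
import Fermat.Agent.S56.Base.EC.SuppClass2
import Fermat.Agent.S56.Base.EC.Discharge
import Fermat.Agent.S56.Base.EC.FinH
import Fermat.Agent.S56.Base.EC.Convert
import Fermat.Agent.CFT.C7.GlobalCF
import Fermat.Agent.CFT.D.Datum.SuppClass
import Fermat.Agent.CFT.C7.F2Final

set_option autoImplicit false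

noncomputable section

namespace Fermat.Agent.S56.Base.EC

open CategoryTheory ExtCitation
open Fermat.Agent.CFT Fermat.Agent.CFT.LC Fermat.Agent.CFT.Bridge Fermat.Agent.CFT.D.Reduce
open Fermat.Agent.CFT.D.DatumBuild Fermat.Agent.CFT.D.CoeffChange Fermat.Agent.CFT.D.DualTwist
open Fermat.Agent.CFT.D.ZpModel Fermat.Agent.CFT.A7 Fermat.Agent.CFT.A7.HomRep

/-! ### Small inputs -/

section Small

variable {G : Type} [Group G] (p : ℕ) [Fact p.Prime] (U' U C : Subgroup G)
  [(U'.subgroupOf U).Normal]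

/-- `F_p[U' \ G / C]` is finite when `U'` has finite index -/
theorem finite_DFun [Finite (G ⧸ U')] (hle : U' ≤ U) : Finite (DFun p U' U C hle) := by
  refine Finite.of_injective
    (fun f : DFun p U' U C hle => fun y : G ⧸ U' => (f : dfun p U' C).1 (y.out)⁻¹) ?_
  intro f f' h
  apply Subtype.ext
  funext g
  obtain ⟨u, hu⟩ := QuotientGroup.mk_out_eq_mul U' g⁻¹
  have h1 := congrFun h ((g⁻¹ : G) : G ⧸ U')
  simp only [hu, mul_inv_rev, inv_inv] at h1
  have e1 := (f : dfun p U' C).2 (u : G)⁻¹ (U'.inv_mem u.2) 1 C.one_mem g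
  have e2 := (f' : dfun p U' C).2 (u : G)⁻¹ (U'.inv_mem u.2) 1 C.one_mem g
  rw [mul_one] at e1 e2
  exact e1.symm.trans (h1.trans e2)

end Small

section Norm

variable {k G : Type} [CommRing k] [Group G] (U' : Subgroup G) [Fintype (G ⧸ U')]

/-- the norm element `∑_y [y]` of `k[G/U']` -/
def blNorm : (BL k U').V := ∑ y : G ⧸ U', blBasis k U' y

theorem blNorm_invariant (g : G) : (BL k U').ρ g (blNorm (k := k) U') = blNorm U' := by
  unfold blNorm
  rw [map_sum]
  exact Fintype.sum_equiv (MulAction.toPerm g) _ _ (fun y => BL_ρ_basis k U' g y)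

/-- the coefficient at the base point -/
def blCoeff : (BL k U').V →ₗ[k] k :=
  (Finsupp.lapply ((1 : G) : G ⧸ U')) ∘ₗ (blBasis k U').repr.toLinearMap

theorem blCoeff_blNorm : blCoeff (k := k) U' (blNorm U') = 1 := by
  classical
  unfold blCoeff blNorm
  rw [map_sum]
  simp only [LinearMap.comp_apply, LinearEquiv.coe_coe, Module.Basis.repr_self,
    Finsupp.lapply_apply, Finsupp.single_apply]
  rw [Finset.sum_ite_eq' Finset.univ]
  simp

end Norm

/-! ### The final export -/

section Final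

variable {p : ℕ} [Fact p.Prime] {S : Finset Nat.Primes}

/-- the three global inputs, from the global class formation (as in `S55`) -/
def globalInputs (hp2 : p ≠ 2) (hpS : pPrime p ∈ S) : GlobalInputs p S :=
  ⟨C7.GlobalCF.globalCF S p hp2 ⟨_, hpS⟩,
    supp_of_cf p S hp2 hpS (C7.GlobalCF.globalCF S p hp2 ⟨_, hpS⟩),
    C7.F2Final.n3_Zp_of_cf p S hp2 hpS (C7.GlobalCF.globalCF S p hp2 ⟨_, hpS⟩)⟩

variable (U' U : Subgroup GQ) [(U'.subgroupOf U).Normal] (hle : U' ≤ U)
  {n : ℕ} (ε : Matrix (Fin n) (Fin n) (MonoidAlgebra ℤ (DeltaGrp U' U)))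

/-- **piece (B)**, all inputs discharged -/
theorem hB_final (hp2 : p ≠ 2) (hpS : pPrime p ∈ S) (hopen : (levelsS S).IsOpen U')
    (hε : IdemModP p ε) :
    tCount ε (torP (MonoidAlgebra ℤ (DeltaGrp U' U)) p
        (HX (levelsS S) U' U hle (EK p S) 2)) * tCount ε (DFun p U' U ⊤ hle) =
      ∏ q : ↥S, tCount ε (DFun p U' U (decompGrp S q) hle) := by
  classical
  have hfi : U'.FiniteIndex := hopen.finiteIndex
  have : Finite (GQ ⧸ U') := Subgroup.finite_quotient_of_finiteIndex
  let _ : Fintype (GQ ⧸ U') := Fintype.ofFinite _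
  exact brauer_count hpS (globalInputs hp2 hpS) U' U hle ε hε
    hopen (global_hdiv hpS) (local_hTq hpS (globalInputs hp2 hpS))
    (fun q => Pairing.LocalN3.Div.exists_level_dvd_relIndex_Uv p S q)
    (hloc_of_surjective_loc hpS (globalInputs hp2 hpS) U' hopen)
    (SuppClass2.exists_torsion_class_ne_zero hpS (globalInputs hp2 hpS) (BL (Zp p) U')
      (exists_global_level (p := p) U' hopen) (blNorm U') (blNorm_invariant U') (blCoeff U')
      (blCoeff_blNorm U'))

/-- **Tate's global Euler characteristic formula for `ε`-summands**, cardinality form over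
`Zp p`, with the unit piece (U) as hypotheses -/
theorem card_formula_of_units (hp2 : p ≠ 2) (hpS : pPrime p ∈ S)
    (hopen : (levelsS S).IsOpen U') (hcyc : ∀ u ∈ U', cycloChar p u = 1) (hε : IdemModP p ε)
    (hU : tCount ε (modP (MonoidAlgebra ℤ (DeltaGrp U' U)) p
          (HX (levelsS S) U' U hle (EK p S) 0)) * tCount ε (DFun p U' U ⊤ hle) =
        tCount ε (torP (MonoidAlgebra ℤ (DeltaGrp U' U)) p
          (HX (levelsS S) U' U hle (EK p S) 0)) *
          (∏ q : ↥S, tCount ε (DFun p U' U (decompGrp S q) hle)) *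
          tCount ε (DFun p U' U infGrp hle))
    (hfinU : Finite (modP (MonoidAlgebra ℤ (DeltaGrp U' U)) p
      (HX (levelsS S) U' U hle (EK p S) 0)))
    (N : Rep.{0} (Zp p) GQ) (d : EpsSummand (levelsS S) U' U hle ε (muK p) N) :
    (∀ i, i ≤ 2 → Finite (H (levelsS S) N i)) ∧
      Nat.card (H (levelsS S) N 0) * Nat.card (H (levelsS S) N 2) * Nat.card N.V =
        Nat.card (H (levelsS S) N 1) *
          Nat.card {x : N.V // N.ρ complexConjugation x = x} := by
  have hfi : U'.FiniteIndex := hopen.finiteIndex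
  have : Finite (GQ ⧸ U') := Subgroup.finite_quotient_of_finiteIndex
  have hC : Finite (HX (levelsS S) U' U hle (EK p S) 1) :=
    ClassGroupH1.hC_of_global U' U hle hopen hpS (globalInputs hp2 hpS)
  have hfinT : Finite (DFun p U' U ⊤ hle) := finite_DFun p U' U ⊤ hle
  have hfinI : Finite (DFun p U' U infGrp hle) := finite_DFun p U' U infGrp hle
  have hcore := core_of_pieces U' U hle ε hε (KummerLES.hK0 U' U hle ε hpS)
    (KummerLES.hK1 U' U hle ε hpS hε) (KummerLES.hK2 U' U hle ε hpS hε) hC hU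
    (hB_final U' U hle ε hp2 hpS hopen hε) hfinT
  have hinf := InfDict.card_fix_mul_tCount_infGrp U' U hle ε N d hcyc hp2 hopen
  -- finiteness of `Hⁱ(U', μ_p)`
  have hμfin : Finite (muK p).V := inferInstanceAs (Finite (ZMod p))
  have hF0 : Finite (HX (levelsS S) U' U hle (muK p) 0) := by
    have h0 := finite_H_XRep_zero (levelsS S) U' (muK p)
    exact Finite.of_equiv _ (rhoHX (levelsS S) U' U hle (muK p) 0).asModuleEquiv.symm.toEquiv
  have hF1 : Finite (HX (levelsS S) U' U hle (muK p) 1) :=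
    KummerLES.finite_HX_mu_succ U' U hle hpS 0 hfinU inferInstance
  have hF2 : Finite (HX (levelsS S) U' U hle (muK p) 2) :=
    KummerLES.finite_HX_mu_succ U' U hle hpS 1
      (Finite.of_surjective _ (Submodule.mkQ_surjective _))
      (finite_torP_HX_E hpS (globalInputs hp2 hpS) U' U hle hopen
        (local_hTq hpS (globalInputs hp2 hpS)))
  refine ⟨fun i hi => ?_, ?_⟩
  · interval_cases i
    · exact d.finite_H 0
    · exact d.finite_H 1
    · exact d.finite_H 2
  · rw [d.card_H 0, d.card_H 1, d.card_H 2, ← hinf, ← hcore]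
    ring

/-- **the final export of E3 with the unit piece (U) as hypotheses**: `defect S N = 0` and
finiteness of `Hⁱ_S(N)`, `i ≤ 2`, for `N` over `ZMod p` whose restriction of scalars is an
`ε`-summand of `(XRep μ_p)^n` -/
theorem defect_eq_zero_of_units (hp2 : p ≠ 2) (hpS : pPrime p ∈ S)
    (hopen : (levelsS S).IsOpen U') (hcyc : ∀ u ∈ U', cycloChar p u = 1) (hε : IdemModP p ε)
    (hU : tCount ε (modP (MonoidAlgebra ℤ (DeltaGrp U' U)) p
          (HX (levelsS S) U' U hle (EK p S) 0)) * tCount ε (DFun p U' U ⊤ hle) =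
        tCount ε (torP (MonoidAlgebra ℤ (DeltaGrp U' U)) p
          (HX (levelsS S) U' U hle (EK p S) 0)) *
          (∏ q : ↥S, tCount ε (DFun p U' U (decompGrp S q) hle)) *
          tCount ε (DFun p U' U infGrp hle))
    (hfinU : Finite (modP (MonoidAlgebra ℤ (DeltaGrp U' U)) p
      (HX (levelsS S) U' U hle (EK p S) 0)))
    (N : Rep.{0} (ZMod p) GQ) [Module.Finite (ZMod p) N.V]
    (hN : EpsSummand (levelsS S) U' U hle ε (muK p) (resScalars (phi p) N)) :
    defect S N = 0 ∧ ∀ i, i ≤ 2 → Module.Finite (ZMod p) (H (levelsS S) N i) := by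
  obtain ⟨hfin, hcard⟩ := card_formula_of_units U' U hle ε hp2 hpS hopen hcyc hε hU hfinU
    (resScalars (phi p) N) hN
  exact ⟨defect_eq_zero_of_card S N hfin hcard,
    fun i hi => moduleFinite_H_of_finite S N i (hfin i hi)⟩

end Final

end Fermat.Agent.S56.Base.EC
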