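/-
PROJECT T (S56), block (a1-II)/B3/E3, file 4b (helper17): `H⁰(U', A)` AS A `ℤ[Δ]`-MODULE.

For the frame of `EC/CoeffAction.lean` (`U' ≤ U` subgroups of `G`, `U'` normal in `U`,
`Δ = U ⧸ U'`): the `ℤ[Δ]`-module `HX 𝒰 U' U hle A 0 = H⁰(G, sInd_{U'}^G Res A)` is the module of
`U'`-invariants of `A`, with `u ∈ U` acting by `A.ρ u`.

* `invSub U' A`, `invRep U' U hle A : Representation ℤ Δ (invSub U' A)`, `InvMod U' U hle A`;
* `hx0Equiv : HX 𝒰 U' U hle A 0 ≃ₗ[ℤ[Δ]] InvMod U' U hle A`.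
-/
import Fermat.Agent.S56.Base.EC.CoeffAction
import Fermat.Agent.CFT.LC.LowDegree

set_option autoImplicit false

noncomputable section

namespace Fermat.Agent.S56.Base.EC.H0Dict

open CategoryTheory groupCohomology Fermat.Agent.CFT.LC Fermat.Agent.S56.Base.EC

variable {k G : Type} [CommRing k] [Group G]

/-! ### `H⁰` of a representation: the invariants -/

section Generic

variable (𝒰 : Levels G) (A : Rep.{0} k G)

/-- the `G`-invariants of `A` -/
def fixedSub : Submodule k A where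
  carrier := {a | ∀ g : G, A.ρ g a = a}
  zero_mem' := fun g => map_zero _
  add_mem' {a b} ha hb := fun g => by rw [map_add, ha g, hb g]
  smul_mem' c a ha := fun g => by rw [map_smul, ha g]

theorem mem_fixedSub {a : A} : a ∈ fixedSub A ↔ ∀ g : G, A.ρ g a = a := Iff.rfl

/-- the constant `0`-cocycle attached to an invariant -/
def constCocycle (a : fixedSub A) : cocyclesLC 𝒰 A 0 :=
  ⟨⟨(cochainsIso₀ A).inv a.1, by
    obtain ⟨U, hU⟩ := 𝒰.nonempty
    exact ⟨U, hU, (isLCAt_inv₀ a.1).2 fun s _ => a.2 s⟩⟩, by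
    rw [mem_cocyclesLC_iff, d_inv₀]
    have h0 : (d₀₁ A).hom a.1 = 0 := by
      funext g
      rw [d₀₁_hom_apply, a.2 g, sub_self]
      rfl
    rw [h0, map_zero]⟩

theorem constCocycle_val (a : fixedSub A) (g : Fin 0 → G) :
    ((constCocycle 𝒰 A a).1.1 : (Fin 0 → G) → A) g = a.1 := rfl

/-- the map `A^G → H⁰(G, A)` -/
def toH0 : fixedSub A →ₗ[k] H 𝒰 A 0 where
  toFun a := Hπ 𝒰 A 0 (constCocycle 𝒰 A a)
  map_add' a b := by
    rw [← map_add]
    congr 1
  map_smul' c a := by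
    rw [RingHom.id_apply, ← map_smul]
    congr 1

theorem toH0_injective : Function.Injective (toH0 𝒰 A) := by
  rw [← LinearMap.ker_eq_bot, LinearMap.ker_eq_bot']
  intro a ha
  have h1 : constCocycle 𝒰 A a = 0 := (Hπ_eq_zero_iff_zero 𝒰 A _).1 ha
  apply Subtype.ext
  have h2 := congrArg (fun z : cocyclesLC 𝒰 A 0 => (z.1.1 : (Fin 0 → G) → A) default) h1
  exact h2

theorem toH0_surjective : Function.Surjective (toH0 𝒰 A) := by
  intro x
  induction x using H_induction_on with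
  | h z =>
    have hz := (mem_cocyclesLC_iff 𝒰 A z.1).1 z.2
    have hz' : z.1.1 = (cochainsIso₀ A).inv (z.1.1 default) := by
      funext g
      rw [cochainsIso₀_inv_apply]
      exact congrArg (z.1.1 : (Fin 0 → G) → A) (Subsingleton.elim g default)
    have hfix : ∀ g : G, A.ρ g (z.1.1 default) = z.1.1 default := by
      intro g
      rw [hz', d_inv₀] at hz
      have h1 : (d₀₁ A).hom (z.1.1 default) = 0 := by
        apply inv₁_injective
        rw [hz, map_zero]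
      have h2 := congrFun h1 g
      rw [d₀₁_hom_apply] at h2
      exact sub_eq_zero.1 h2
    refine ⟨⟨z.1.1 default, hfix⟩, ?_⟩
    change Hπ 𝒰 A 0 _ = Hπ 𝒰 A 0 z
    congr 1
    apply Subtype.ext
    apply Subtype.ext
    exact hz'.symm

/-- **`H⁰(G, A) = A^G`** -/
def h0Equiv : fixedSub A ≃ₗ[k] H 𝒰 A 0 :=
  LinearEquiv.ofBijective (toH0 𝒰 A) ⟨toH0_injective 𝒰 A, toH0_surjective 𝒰 A⟩

variable {A} in
/-- naturality of `toH0` -/
theorem mapId_toH0 {B : Rep.{0} k G} (ψ : A ⟶ B) (a : fixedSub A)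
    (hb : ψ.hom a.1 ∈ fixedSub B) :
    (mapId (𝒰 := 𝒰) ψ 0).hom (toH0 𝒰 A a) = toH0 𝒰 B ⟨ψ.hom a.1, hb⟩ := by
  change (map (Levels.continuous_id 𝒰) ψ 0).hom (Hπ 𝒰 A 0 (constCocycle 𝒰 A a)) = _
  rw [map_Hπ]
  change Hπ 𝒰 B 0 _ = Hπ 𝒰 B 0 _
  congr 1

end Generic

/-! ### The invariants of `U'` and the module `H⁰(U', A)` -/

section Inv

variable (𝒰 : Levels G) (U' : Subgroup G) (A : Rep.{0} k G)

/-- the `U'`-invariants of `A` -/
def invSub : Submodule k A where
  carrier := {a | ∀ d ∈ U', A.ρ d a = a}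
  zero_mem' := fun d _ => map_zero _
  add_mem' {a b} ha hb := fun d hd => by rw [map_add, ha d hd, hb d hd]
  smul_mem' c a ha := fun d hd => by rw [map_smul, ha d hd]

theorem mem_invSub {a : A} : a ∈ invSub U' A ↔ ∀ d ∈ U', A.ρ d a = a := Iff.rfl

/-- the constant function with value a `U'`-invariant, as an element of `XRep A` -/
def constFn (a : invSub U' A) : XRep 𝒰 U' A :=
  iMk (𝒰 := 𝒰) (D := U') (B := Rep.res U'.subtype A) (fun _ => a.1)
    (fun d _ => (a.2 d d.2).symm)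
    (by
      obtain ⟨V, hV⟩ := 𝒰.nonempty
      exact ⟨V, hV, fun _ _ _ => rfl⟩)

@[simp] theorem iFn_constFn (a : invSub U' A) (x : G) : iFn (constFn 𝒰 U' A a) x = a.1 := rfl

theorem constFn_mem_fixedSub (a : invSub U' A) : constFn 𝒰 U' A a ∈ fixedSub (XRep 𝒰 U' A) := by
  intro g
  refine iFn_ext fun x => ?_
  rw [iFn_ρ, iFn_constFn, iFn_constFn]

/-- an invariant element of `XRep A` is a constant function -/
theorem iFn_eq_of_mem_fixedSub (φ : fixedSub (XRep 𝒰 U' A)) (x : G) :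
    iFn φ.1 x = iFn φ.1 1 := by
  have h := congrArg (fun ψ : XRep 𝒰 U' A => iFn ψ 1) (φ.2 x)
  simp only [iFn_ρ, one_mul] at h
  exact h

theorem iFn_one_mem_invSub (φ : fixedSub (XRep 𝒰 U' A)) : iFn φ.1 1 ∈ invSub U' A := by
  intro d hd
  have h := iFn_equivariant φ.1 (⟨d, hd⟩ : U') 1
  rw [iFn_eq_of_mem_fixedSub] at h
  exact h.symm

/-- **the invariants of `XRep A` are the `U'`-invariants of `A`** -/
def fixedEquiv : invSub U' A ≃ₗ[k] fixedSub (XRep 𝒰 U' A) where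
  toFun a := ⟨constFn 𝒰 U' A a, constFn_mem_fixedSub 𝒰 U' A a⟩
  invFun φ := ⟨iFn φ.1 1, iFn_one_mem_invSub 𝒰 U' A φ⟩
  left_inv _ := Subtype.ext rfl
  right_inv φ := Subtype.ext (iFn_ext fun x => (iFn_eq_of_mem_fixedSub 𝒰 U' A φ x).symm)
  map_add' _ _ := Subtype.ext (iFn_ext fun _ => rfl)
  map_smul' _ _ := Subtype.ext (iFn_ext fun _ => rfl)

/-- `A^{U'} ≃ H⁰(G, XRep A)` -/
def invEquivH0 : invSub U' A ≃ₗ[k] H 𝒰 (XRep 𝒰 U' A) 0 :=
  (fixedEquiv 𝒰 U' A).trans (h0Equiv 𝒰 (XRep 𝒰 U' A))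

theorem invEquivH0_apply (a : invSub U' A) :
    invEquivH0 𝒰 U' A a =
      toH0 𝒰 (XRep 𝒰 U' A) ⟨constFn 𝒰 U' A a, constFn_mem_fixedSub 𝒰 U' A a⟩ := rfl

variable (U : Subgroup G) [hn : (U'.subgroupOf U).Normal]

/-- the action of `u ∈ U` on the `U'`-invariants -/
def invAct (hle : U' ≤ U) (u : U) : invSub U' A →ₗ[ℤ] invSub U' A where
  toFun a := ⟨A.ρ (u : G) a.1, fun d hd => by
    have h1 := conj_mem_of_le U hle u d hd
    have h2 : (d : G) * u = u * ((u : G)⁻¹ * d * u) := by group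
    rw [← Module.End.mul_apply, ← map_mul, h2, map_mul, Module.End.mul_apply, a.2 _ h1]⟩
  map_add' a b := Subtype.ext (map_add _ _ _)
  map_smul' n a := Subtype.ext (by
    change A.ρ (u : G) (n • a.1) = n • A.ρ (u : G) a.1
    exact map_zsmul _ _ _)

/-- the action of `U` on the `U'`-invariants, as a monoid homomorphism -/
def invActHom (hle : U' ≤ U) : ↥U →* Module.End ℤ (invSub U' A) where
  toFun u := invAct U' A U hle u
  map_one' := by
    apply LinearMap.ext
    intro a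
    apply Subtype.ext
    change A.ρ ((1 : U) : G) a.1 = a.1
    rw [Subgroup.coe_one, map_one, Module.End.one_apply]
  map_mul' u v := by
    apply LinearMap.ext
    intro a
    apply Subtype.ext
    change A.ρ ((u * v : U) : G) a.1 = A.ρ (u : G) (A.ρ (v : G) a.1)
    rw [Subgroup.coe_mul, map_mul, Module.End.mul_apply]

/-- the representation of `Δ = U ⧸ U'` on the `U'`-invariants of `A` -/
def invRep (hle : U' ≤ U) : Representation ℤ (DeltaGrp U' U) (invSub U' A) :=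
  QuotientGroup.lift (U'.subgroupOf U) (invActHom U' A U hle) fun u hu => by
    apply LinearMap.ext
    intro a
    apply Subtype.ext
    exact a.2 (u : G) (Subgroup.mem_subgroupOf.1 hu)

theorem invRep_mk (hle : U' ≤ U) (u : U) (a : invSub U' A) :
    ((invRep U' A U hle (QuotientGroup.mk u) a : invSub U' A) : A) = A.ρ (u : G) a.1 := rfl

/-- **the `ℤ[Δ]`-module `A^{U'}`** -/
abbrev InvMod (hle : U' ≤ U) : Type := (invRep U' A U hle).asModule

/-- **`H⁰(U', A) = A^{U'}` as `ℤ[Δ]`-modules** -/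
def hx0Equiv (hle : U' ≤ U) :
    InvMod U' A U hle ≃ₗ[MonoidAlgebra ℤ (DeltaGrp U' U)] HX 𝒰 U' U hle A 0 :=
  LinearEquiv.ofBijective
    (asModuleHom (invRep U' A U hle) (rhoHX 𝒰 U' U hle A 0)
      (invEquivH0 𝒰 U' A).toLinearMap.toAddMonoidHom (by
        intro δ a
        obtain ⟨u, rfl⟩ := QuotientGroup.mk_surjective δ
        rw [rhoHX_mk]
        change invEquivH0 𝒰 U' A _ = (mapId (𝒰 := 𝒰) _ 0).hom (invEquivH0 𝒰 U' A a)
        rw [invEquivH0_apply, invEquivH0_apply, mapId_toH0 𝒰 _ _ (by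
          intro g
          refine iFn_ext fun x => ?_
          rw [iFn_ρ, iFn_lam, iFn_lam, iFn_constFn, iFn_constFn])]
        congr 1))
    ⟨(invEquivH0 𝒰 U' A).injective, (invEquivH0 𝒰 U' A).surjective⟩

theorem hx0Equiv_apply (hle : U' ≤ U) (a : InvMod U' A U hle) :
    hx0Equiv 𝒰 U' A U hle a = invEquivH0 𝒰 U' A ((invRep U' A U hle).asModuleEquiv a) := rfl

end Inv

end Fermat.Agent.S56.Base.EC.H0Dict
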