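/-
PROJECT T (S56), block (a1-II)/B3/E3, file 4a (helper17): THE UNIT COUNT, ABSTRACT HALF.

Complements to `EC/Mult.lean` (helper11): reduction modulo `p` of short exact sequences and of
products, `ℤ[G]`-linear maps between `Representation.asModule`s from equivariant additive maps,
the permutation representation on functions, and the abstract form of step (U) of the chain E3:

`0 → Tors → A → Q → 0` exact, `Q` and `Z` without `p`-torsion, `Tors` finite, `P → Q × Z`
injective with finite cokernel.  Then `t(A/p) · t(Z/p) = t(A[p]) · t(P/p)`.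
-/
import Mathlib
import Fermat.Agent.S56.Base.EC.Mult

set_option autoImplicit false

noncomputable section

namespace Fermat.Agent.S56.Base.EC.UnitsAbs

open Fermat.Agent.S56.Base.EC

/-! ### Functoriality of the reduction modulo `p` -/

section ModP

variable {R : Type*} [Ring R] {n : ℕ} {p : ℕ}

variable {X Y Z : Type*} [AddCommGroup X] [Module R X] [AddCommGroup Y] [Module R Y]
  [AddCommGroup Z] [Module R Z]

theorem modPMap_comp (g : Y →ₗ[R] Z) (f : X →ₗ[R] Y) :
    modPMap p (g ∘ₗ f) = modPMap p g ∘ₗ modPMap p f := by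
  apply LinearMap.ext
  intro x
  obtain ⟨x, rfl⟩ := Submodule.Quotient.mk_surjective _ x
  rfl

theorem modPMap_id : modPMap p (LinearMap.id : X →ₗ[R] X) = LinearMap.id := by
  apply LinearMap.ext
  intro x
  obtain ⟨x, rfl⟩ := Submodule.Quotient.mk_surjective _ x
  rfl

theorem modPMap_surjective (g : Y →ₗ[R] Z) (hg : Function.Surjective g) :
    Function.Surjective (modPMap p g) := by
  intro z
  obtain ⟨z, rfl⟩ := Submodule.Quotient.mk_surjective _ z
  obtain ⟨y, rfl⟩ := hg z
  exact ⟨Submodule.Quotient.mk y, rfl⟩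

theorem modP_mk_eq_zero_iff (x : X) :
    (Submodule.Quotient.mk x : modP R p X) = 0 ↔ ∃ y : X, p • y = x := by
  rw [Submodule.Quotient.mk_eq_zero]
  constructor
  · rintro ⟨y, hy⟩
    exact ⟨y, hy⟩
  · rintro ⟨y, hy⟩
    exact ⟨y, hy⟩

/-- reduction modulo `p` of a short exact sequence whose cokernel has no `p`-torsion -/
theorem modPMap_exact (f : X →ₗ[R] Y) (g : Y →ₗ[R] Z) (hg : Function.Surjective g)
    (hfg : Function.Exact f g) : Function.Exact (modPMap p f) (modPMap p g) := by
  intro y
  obtain ⟨y, rfl⟩ := Submodule.Quotient.mk_surjective _ y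
  constructor
  · intro hy
    rw [modPMap_mk, modP_mk_eq_zero_iff] at hy
    obtain ⟨z, hz⟩ := hy
    obtain ⟨y', rfl⟩ := hg z
    have h0 : g (y - p • y') = 0 := by
      rw [map_sub, map_nsmul, hz, sub_self]
    obtain ⟨x, hx⟩ := (hfg _).1 h0
    refine ⟨Submodule.Quotient.mk x, ?_⟩
    rw [modPMap_mk, hx, Submodule.Quotient.mk_sub, sub_eq_self, modP_mk_eq_zero_iff]
    exact ⟨y', rfl⟩
  · rintro ⟨x, hx⟩
    obtain ⟨x, rfl⟩ := Submodule.Quotient.mk_surjective _ x
    rw [← hx, modPMap_mk, modPMap_mk, hfg.apply_apply_eq_zero]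
    rfl

theorem modPMap_injective (f : X →ₗ[R] Y) (g : Y →ₗ[R] Z) (hf : Function.Injective f)
    (hfg : Function.Exact f g) (hZ : ∀ z : Z, p • z = 0 → z = 0) :
    Function.Injective (modPMap p f) := by
  rw [injective_iff_map_eq_zero]
  intro x hx
  obtain ⟨x, rfl⟩ := Submodule.Quotient.mk_surjective _ x
  rw [modPMap_mk, modP_mk_eq_zero_iff] at hx
  obtain ⟨y, hy⟩ := hx
  have h0 : g y = 0 := by
    apply hZ
    rw [← map_nsmul, hy, hfg.apply_apply_eq_zero]
  obtain ⟨x', rfl⟩ := (hfg _).1 h0
  rw [modP_mk_eq_zero_iff]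
  refine ⟨x', hf ?_⟩
  rw [map_nsmul, hy]

variable {ε : Matrix (Fin n) (Fin n) R}

/-- `t(Y/p) = t(X/p) · t(Z/p)` for `0 → X → Y → Z → 0` exact with `Z` without `p`-torsion -/
theorem tCount_modP_of_exact (hε : IdemModP p ε) (f : X →ₗ[R] Y) (g : Y →ₗ[R] Z)
    (hf : Function.Injective f) (hg : Function.Surjective g) (hfg : Function.Exact f g)
    (hZ : ∀ z : Z, p • z = 0 → z = 0) :
    tCount ε (modP R p Y) = tCount ε (modP R p X) * tCount ε (modP R p Z) :=
  tCount_mul_of_exact (hε.idemOn_modP X) (hε.idemOn_modP Y) (modPMap p f) (modPMap p g)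
    (modPMap_injective f g hf hfg hZ) (modPMap_surjective g hg) (modPMap_exact f g hg hfg)

/-- `t((X × Y)/p) = t(X/p) · t(Y/p)` -/
theorem tCount_modP_prod (hε : IdemModP p ε) (X Y : Type*) [AddCommGroup X] [Module R X]
    [AddCommGroup Y] [Module R Y] :
    tCount ε (modP R p (X × Y)) = tCount ε (modP R p X) * tCount ε (modP R p Y) := by
  refine tCount_mul_of_exact (hε.idemOn_modP X) (hε.idemOn_modP (X × Y))
    (modPMap p (LinearMap.inl R X Y)) (modPMap p (LinearMap.snd R X Y)) ?_
    (modPMap_surjective _ LinearMap.snd_surjective)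
    (modPMap_exact _ _ LinearMap.snd_surjective ?_)
  · have h : modPMap p (LinearMap.fst R X Y) ∘ₗ modPMap p (LinearMap.inl R X Y) =
        LinearMap.id := by
      rw [← modPMap_comp, LinearMap.fst_comp_inl, modPMap_id]
    exact Function.LeftInverse.injective (g := modPMap p (LinearMap.fst R X Y))
      fun x => LinearMap.congr_fun h x
  · intro z
    constructor
    · intro hz
      exact ⟨z.1, Prod.ext rfl (by simpa using hz.symm)⟩
    · rintro ⟨x, rfl⟩
      rfl

/-- the `p`-torsion of a submodule containing all the `p`-torsion -/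
def torPCongrOfLE (i : X →ₗ[R] Y) (hi : Function.Injective i)
    (h : ∀ y : Y, p • y = 0 → ∃ x, i x = y) : torP R p X ≃ₗ[R] torP R p Y :=
  LinearEquiv.ofBijective
    ((i ∘ₗ (torP R p X).subtype).codRestrict (torP R p Y) (fun x => by
      rw [LinearMap.mem_ker, pMul_apply, LinearMap.comp_apply, ← map_nsmul]
      have hx : p • (x : X) = 0 := x.2
      rw [Submodule.subtype_apply, hx, map_zero]))
    ⟨fun x y hxy => Subtype.ext (hi (congrArg Subtype.val hxy)), fun y => by
      obtain ⟨x, hx⟩ := h y.1 y.2
      refine ⟨⟨x, ?_⟩, Subtype.ext hx⟩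
      rw [LinearMap.mem_ker, pMul_apply]
      apply hi
      rw [map_nsmul, hx, map_zero]
      exact y.2⟩

end ModP

/-! ### `ℤ[G]`-modules from representations, permutation modules -/

section AsModule

variable {G : Type*} [Monoid G]
variable {V W : Type*} [AddCommGroup V] [AddCommGroup W]

/-- a `ℤ[G]`-linear map between `asModule`s from an equivariant additive map -/
def linOfEquivariant (ρ : Representation ℤ G V) (σ : Representation ℤ G W) (f : V →+ W)
    (hf : ∀ g v, f (ρ g v) = σ g (f v)) : ρ.asModule →ₗ[MonoidAlgebra ℤ G] σ.asModule where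
  toFun x := σ.asModuleEquiv.symm (f (ρ.asModuleEquiv x))
  map_add' x y := by
    rw [map_add, map_add, map_add]
  map_smul' r x := by
    simp only [RingHom.id_apply]
    induction r using MonoidAlgebra.induction_linear with
    | zero => simp
    | add a b ha hb =>
      rw [add_smul, map_add, map_add, map_add, ha, hb, add_smul]
    | single g a =>
      apply σ.asModuleEquiv.injective
      rw [LinearEquiv.apply_symm_apply, Representation.asModuleEquiv_map_smul,
        Representation.asModuleEquiv_map_smul, LinearEquiv.apply_symm_apply,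
        Representation.asAlgebraHom_single, Representation.asAlgebraHom_single]
      simp only [LinearMap.smul_apply]
      rw [map_zsmul, hf]

@[simp] theorem linOfEquivariant_apply (ρ : Representation ℤ G V) (σ : Representation ℤ G W)
    (f : V →+ W) (hf : ∀ g v, f (ρ g v) = σ g (f v)) (x : ρ.asModule) :
    σ.asModuleEquiv (linOfEquivariant ρ σ f hf x) = f (ρ.asModuleEquiv x) :=
  LinearEquiv.apply_symm_apply _ _

theorem linOfEquivariant_injective (ρ : Representation ℤ G V) (σ : Representation ℤ G W)
    (f : V →+ W) (hf : ∀ g v, f (ρ g v) = σ g (f v)) (hinj : Function.Injective f) :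
    Function.Injective (linOfEquivariant ρ σ f hf) := by
  intro x y hxy
  apply ρ.asModuleEquiv.injective
  apply hinj
  rw [← linOfEquivariant_apply ρ σ f hf, ← linOfEquivariant_apply ρ σ f hf, hxy]

theorem linOfEquivariant_surjective (ρ : Representation ℤ G V) (σ : Representation ℤ G W)
    (f : V →+ W) (hf : ∀ g v, f (ρ g v) = σ g (f v)) (hsurj : Function.Surjective f) :
    Function.Surjective (linOfEquivariant ρ σ f hf) := by
  intro y
  obtain ⟨v, hv⟩ := hsurj (σ.asModuleEquiv y)
  refine ⟨ρ.asModuleEquiv.symm v, ?_⟩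
  apply σ.asModuleEquiv.injective
  rw [linOfEquivariant_apply, LinearEquiv.apply_symm_apply, hv]

/-- a `ℤ[G]`-linear equivalence between `asModule`s from an equivariant additive equivalence -/
def linEquivOfEquivariant (ρ : Representation ℤ G V) (σ : Representation ℤ G W) (e : V ≃+ W)
    (he : ∀ g v, e (ρ g v) = σ g (e v)) : ρ.asModule ≃ₗ[MonoidAlgebra ℤ G] σ.asModule :=
  LinearEquiv.ofBijective (linOfEquivariant ρ σ e.toAddMonoidHom he)
    ⟨linOfEquivariant_injective ρ σ _ he e.injective,
      linOfEquivariant_surjective ρ σ _ he e.surjective⟩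

end AsModule

section ModPEquiv

variable {R : Type*} [Ring R] {p : ℕ}
variable {X Y : Type*} [AddCommGroup X] [Module R X] [AddCommGroup Y] [Module R Y]

/-- `X/p ≃ Y` for a surjection `X → Y` with kernel `pX` -/
def modPEquivOfSurjective (f : X →ₗ[R] Y) (hf : Function.Surjective f)
    (hker : ∀ x, f x = 0 → ∃ y, p • y = x) (hY : ∀ y : Y, p • y = 0) : modP R p X ≃ₗ[R] Y :=
  LinearEquiv.ofBijective
    ((LinearMap.range (pMul R p X)).liftQ f (by
      rintro _ ⟨x, rfl⟩
      rw [LinearMap.mem_ker, pMul_apply, map_nsmul, hY]))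
    ⟨by
      rw [← LinearMap.ker_eq_bot, Submodule.ker_liftQ_eq_bot']
      apply le_antisymm
      · rintro _ ⟨x, rfl⟩
        rw [LinearMap.mem_ker, pMul_apply, map_nsmul, hY]
      · intro x hx
        obtain ⟨y, hy⟩ := hker x hx
        exact ⟨y, hy⟩, by
      intro y
      obtain ⟨x, rfl⟩ := hf y
      exact ⟨Submodule.Quotient.mk x, rfl⟩⟩

end ModPEquiv

section FunRep

variable {G : Type*} [Group G] (X : Type*) [MulAction G X] (M : Type*) [AddCommGroup M]

/-- the permutation representation on functions: `(g f) x = f (g⁻¹ • x)` -/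
def funRep : Representation ℤ G (X → M) where
  toFun g :=
    { toFun := fun f x => f (g⁻¹ • x)
      map_add' := fun _ _ => rfl
      map_smul' := fun _ _ => rfl }
  map_one' := by
    apply LinearMap.ext
    intro f
    funext x
    simp
  map_mul' g h := by
    apply LinearMap.ext
    intro f
    funext x
    simp [mul_smul]

@[simp] theorem funRep_apply (g : G) (f : X → M) (x : X) : funRep X M g f x = f (g⁻¹ • x) := rfl

variable {X M}

/-- an equivariant bijection of `G`-sets induces an isomorphism of permutation modules -/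
def funRepCongr {Y : Type*} [MulAction G Y] (e : X ≃ Y) (he : ∀ (g : G) (x : X), e (g • x) = g • e x) :
    (funRep (G := G) X M).asModule ≃ₗ[MonoidAlgebra ℤ G] (funRep (G := G) Y M).asModule :=
  linEquivOfEquivariant _ _
    { toFun := fun f y => f (e.symm y)
      invFun := fun f x => f (e x)
      left_inv := fun f => by funext x; simp
      right_inv := fun f => by funext y; simp
      map_add' := fun _ _ => rfl }
    (fun g f => by
      funext y
      change f (g⁻¹ • e.symm y) = f (e.symm (g⁻¹ • y))
      congr 1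
      apply e.injective
      rw [he, e.apply_symm_apply, e.apply_symm_apply])

/-- the permutation module of a disjoint union -/
def funRepSum {Y : Type*} [MulAction G Y] :
    (funRep (G := G) (X ⊕ Y) M).asModule ≃ₗ[MonoidAlgebra ℤ G]
      ((funRep (G := G) X M).asModule × (funRep (G := G) Y M).asModule) :=
  LinearEquiv.ofBijective
    (LinearMap.prod
      (linOfEquivariant (funRep (X ⊕ Y) M) (funRep X M)
        { toFun := fun f x => f (Sum.inl x), map_zero' := rfl, map_add' := fun _ _ => rfl }
        (fun _ _ => rfl))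
      (linOfEquivariant (funRep (X ⊕ Y) M) (funRep Y M)
        { toFun := fun f y => f (Sum.inr y), map_zero' := rfl, map_add' := fun _ _ => rfl }
        (fun _ _ => rfl)))
    ⟨by
      intro f f' h
      have h1 := congrArg Prod.fst h
      have h2 := congrArg Prod.snd h
      funext z
      rcases z with x | y
      · exact congrFun h1 x
      · exact congrFun h2 y, by
      rintro ⟨f1, f2⟩
      exact ⟨Sum.elim f1 f2, rfl⟩⟩

variable (G X) in
/-- reduction modulo `p` of functions -/
def castFun (p : ℕ) : (X → ℤ) →+ (X → ZMod p) where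
  toFun f x := (f x : ZMod p)
  map_zero' := by funext x; simp
  map_add' f f' := by funext x; simp

variable (G X) in
/-- `ℤ[X]/p = 𝔽_p[X]` -/
def modPFunRep (p : ℕ) :
    modP (MonoidAlgebra ℤ G) p (funRep (G := G) X ℤ).asModule ≃ₗ[MonoidAlgebra ℤ G]
      (funRep (G := G) X (ZMod p)).asModule :=
  modPEquivOfSurjective
    (linOfEquivariant (funRep X ℤ) (funRep X (ZMod p)) (castFun X p) (fun _ _ => rfl))
    (linOfEquivariant_surjective _ _ _ _ (fun y => by
      choose f hf using fun x => ZMod.intCast_surjective (y x)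
      exact ⟨f, funext hf⟩))
    (fun f hf => by
      have h0 := linOfEquivariant_apply (funRep (G := G) X ℤ) (funRep X (ZMod p)) (castFun X p)
        (fun _ _ => rfl) f
      rw [hf, map_zero] at h0
      have h : ∀ x, ((p : ℤ)) ∣ (funRep (G := G) X ℤ).asModuleEquiv f x := fun x =>
        (ZMod.intCast_zmod_eq_zero_iff_dvd _ p).1 (congrFun h0.symm x)
      choose g hg using h
      refine ⟨(funRep (G := G) X ℤ).asModuleEquiv.symm g, ?_⟩
      apply (funRep (G := G) X ℤ).asModuleEquiv.injective
      rw [map_nsmul, LinearEquiv.apply_symm_apply]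
      funext x
      rw [hg x, Pi.smul_apply, nsmul_eq_mul])
    (fun y => by
      apply (funRep (G := G) X (ZMod p)).asModuleEquiv.injective
      rw [map_nsmul, map_zero]
      funext x
      rw [Pi.smul_apply, nsmul_eq_mul, ZMod.natCast_self, zero_mul, Pi.zero_apply])

variable (G) in
/-- `ℤ/p = 𝔽_p` with the trivial action -/
def modPTriv (p : ℕ) :
    modP (MonoidAlgebra ℤ G) p (Representation.trivial ℤ G ℤ).asModule ≃ₗ[MonoidAlgebra ℤ G]
      (Representation.trivial ℤ G (ZMod p)).asModule :=
  modPEquivOfSurjective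
    (linOfEquivariant (Representation.trivial ℤ G ℤ) (Representation.trivial ℤ G (ZMod p))
      (Int.castAddHom (ZMod p)) (fun _ _ => rfl))
    (linOfEquivariant_surjective _ _ _ _ ZMod.intCast_surjective)
    (fun a ha => by
      have h0 := linOfEquivariant_apply (Representation.trivial ℤ G ℤ)
        (Representation.trivial ℤ G (ZMod p)) (Int.castAddHom (ZMod p)) (fun _ _ => rfl) a
      rw [ha, map_zero] at h0
      obtain ⟨b, hb⟩ := (ZMod.intCast_zmod_eq_zero_iff_dvd _ p).1 h0.symm
      refine ⟨(Representation.trivial ℤ G ℤ).asModuleEquiv.symm b, ?_⟩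
      apply (Representation.trivial ℤ G ℤ).asModuleEquiv.injective
      rw [map_nsmul, LinearEquiv.apply_symm_apply, hb, nsmul_eq_mul])
    (fun y => by
      apply (Representation.trivial ℤ G (ZMod p)).asModuleEquiv.injective
      rw [map_nsmul, map_zero, nsmul_eq_mul, ZMod.natCast_self, zero_mul])

end FunRep

/-! ### The abstract unit count -/

section Abstract

universe u

variable {R : Type*} [Ring R] {n : ℕ} {p : ℕ} {ε : Matrix (Fin n) (Fin n) R}

/-- **Step (U), abstract form.**  `0 → Tors → A → Q → 0` exact with `Tors` finite and `Q` without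
`p`-torsion, `Z` without `p`-torsion, `ψ : P → Q × Z` injective with finite cokernel.  Then
`t(A/p) · t(Z/p) = t(A[p]) · t(P/p)`. -/
theorem tCount_units_abstract (hε : IdemModP p ε) {Tors : Type u} {A : Type*} {Q Z : Type u}
    {P : Type*}
    [AddCommGroup Tors] [Module R Tors] [AddCommGroup A] [Module R A] [AddCommGroup Q] [Module R Q]
    [AddCommGroup Z] [Module R Z] [AddCommGroup P] [Module R P] [Finite Tors]
    (i : Tors →ₗ[R] A) (π : A →ₗ[R] Q) (hi : Function.Injective i) (hπ : Function.Surjective π)
    (hiπ : Function.Exact i π) (hQ : ∀ x : Q, p • x = 0 → x = 0) (hZ : ∀ x : Z, p • x = 0 → x = 0)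
    (ψ : P →ₗ[R] Q × Z) (hψ : Function.Injective ψ) [Finite ((Q × Z) ⧸ LinearMap.range ψ)] :
    tCount ε (modP R p A) * tCount ε (modP R p Z) =
      tCount ε (torP R p A) * tCount ε (modP R p P) := by
  have h1 : tCount ε (modP R p A) = tCount ε (modP R p Tors) * tCount ε (modP R p Q) :=
    tCount_modP_of_exact hε i π hi hπ hiπ hQ
  have h2 : tCount ε (modP R p (Q × Z)) = tCount ε (modP R p Q) * tCount ε (modP R p Z) :=
    tCount_modP_prod hε Q Z
  have hQZ : ∀ x : Q × Z, p • x = 0 → x = 0 := by
    rintro ⟨q, z⟩ h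
    have h' : (p • q, p • z) = ((0 : Q), (0 : Z)) := h
    exact Prod.ext (hQ q (congrArg Prod.fst h')) (hZ z (congrArg Prod.snd h'))
  have h3 : tCount ε (modP R p P) = tCount ε (modP R p (Q × Z)) :=
    tCount_modP_of_finite_coker hε (Q × Z) hQZ ψ hψ
  have h4 : tCount ε (torP R p Tors) = tCount ε (modP R p Tors) := tCount_torP_eq_modP hε Tors
  have h5 : tCount ε (torP R p Tors) = tCount ε (torP R p A) := by
    refine tCount_congr ε (torPCongrOfLE i hi fun a ha => ?_)
    refine (hiπ a).1 (hQ _ ?_)
    rw [← map_nsmul, ha, map_zero]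
  rw [h1, ← h5, h4, h3, h2, mul_assoc]

end Abstract

end Fermat.Agent.S56.Base.EC.UnitsAbs
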