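/-
PROJECT T (S56), block (a1-II)/B3/E3 step (U) (helper17), file 4: THE FIXED FIELD OF `U'`.

`U' ≤ U ≤ GQ`, `U'` normal in `U` and open for `levelsS S`.  `LF U' = ` the fixed field `L` of `U'`
(a number field unramified outside `S`, `L.fixingSubgroup = U'`); `Δ = U ⧸ U'` acts on `L` by ring
automorphisms (`deltaHom`, `deltaAct`); `KF U' U hle = L^Δ` (a `Subfield ↥L`), `L/K` is Galois and
`eHom : Δ →* Gal(L/K)`.  Main result: `atEquiv : AT K L (aboveQ K S) ≃+ invSub U' (QS.E S)`,
the `U'`-invariants of `E_S` are the `S`-units of `L` (additively, main's `TUnitsLattice.AT`),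
equivariantly (`atEquiv_galAdd`).
-/
import Fermat.Agent.S56.Base.EC.H0Dict
import Fermat.Agent.S56.Base.EC.UnitsAbs
import Fermat.Agent.S56.Base.EC.Frame
import Fermat.Agent.CFT.SUnit.TUnitsLattice
import Fermat.Agent.CFT.Idele.LevelD
import Fermat.Agent.CFT.Idele.QS
import Fermat.Agent.CFT.C7.SES
import Fermat.Agent.CFT.C7.PlaceDict

set_option autoImplicit false

noncomputable section

namespace Fermat.Agent.S56.Base.EC.FieldAct

open Fermat.Agent.CFT.Bridge Fermat.Agent.CFT.LC
open Fermat.Agent.CFT.SUnit.TUnitsLattice Fermat.Agent.CFT.C3.SUnitHerbrand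
open Fermat.Agent.CFT.C3.ClassGen Fermat.Agent.CFT.Idele
open Fermat.Agent.S56.Base.EC.H0Dict
open NumberField IsDedekindDomain
open scoped Fermat.Agent.CFT.Idele

attribute [local instance 2000] IntermediateField.algebra'

variable {S : Finset Nat.Primes} (U' U : Subgroup GQ)

/-- the fixed field of `U'` -/
abbrev LF : IntermediateField ℚ Qbar := IntermediateField.fixedField U'

theorem exists_field_of_isOpen (hopen : (levelsS S).IsOpen U') :
    ∃ F : IntermediateField ℚ Qbar, F.IsUnramifiedOutside S ∧ F.fixingSubgroup ≤ U' := by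
  obtain ⟨V, ⟨-, F, hF, rfl⟩, hV⟩ := hopen
  exact ⟨F, hF, hV⟩

theorem isUnramifiedOutside_LF (hopen : (levelsS S).IsOpen U') :
    (LF U').IsUnramifiedOutside S := by
  obtain ⟨F, hF, hle⟩ := exists_field_of_isOpen U' hopen
  refine hF.of_le ?_
  have h1 := IntermediateField.fixedField_antitone hle
  rwa [InfiniteGalois.fixedField_fixingSubgroup] at h1

theorem finiteDimensional_LF (hopen : (levelsS S).IsOpen U') : FiniteDimensional ℚ (LF U') :=
  (isUnramifiedOutside_LF U' hopen).1

theorem fixingSubgroup_LF (hopen : (levelsS S).IsOpen U') : (LF U').fixingSubgroup = U' := by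
  obtain ⟨F, hF, hle⟩ := exists_field_of_isOpen U' hopen
  have := hF.1
  have hF_open : IsOpen (F.fixingSubgroup : Set GQ) := IntermediateField.fixingSubgroup_isOpen F
  have hU'_open : IsOpen (U' : Set GQ) := Subgroup.isOpen_mono hle hF_open
  have hclosed : IsClosed (U' : Set GQ) := Subgroup.isClosed_of_isOpen U' hU'_open
  exact InfiniteGalois.fixingSubgroup_fixedField ⟨U', hclosed⟩

theorem numberField_LF (hopen : (levelsS S).IsOpen U') : NumberField ↥(LF U') :=
  haveI := finiteDimensional_LF U' hopen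
  Fermat.Agent.CFT.C7.PlaceDict.numberField_of_finiteDimensional _

theorem finiteIndex_of_isOpen (hopen : (levelsS S).IsOpen U') : U'.FiniteIndex := by
  obtain ⟨V, hV, hVU⟩ := hopen
  have := Levels.IsFin.finiteIndex V hV
  exact Subgroup.finiteIndex_of_le hVU

variable [hn : (U'.subgroupOf U).Normal] (hle : U' ≤ U)

omit hn in
theorem finite_deltaGrp (hopen : (levelsS S).IsOpen U') : Finite (DeltaGrp U' U) := by
  have := finiteIndex_of_isOpen U' hopen
  exact Subgroup.finite_quotient_of_finiteIndex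

include hn hle in
theorem map_mem_LF (u : U) {x : Qbar} (hx : x ∈ LF U') : (u : GQ) x ∈ LF U' := by
  rw [IntermediateField.mem_fixedField_iff] at hx ⊢
  intro d hd
  have h1 := conj_mem_of_le U hle u d hd
  have h2 := hx _ h1
  have h3 : (d : GQ) * u = u * ((u : GQ)⁻¹ * d * u) := by group
  calc d ((u : GQ) x) = ((d : GQ) * u) x := rfl
    _ = (u * ((u : GQ)⁻¹ * d * u)) x := by rw [h3]
    _ = (u : GQ) (((u : GQ)⁻¹ * d * u) x) := rfl
    _ = (u : GQ) x := by rw [h2]

/-- `u ∈ U` acts on the fixed field of `U'` -/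
def resAut (u : U) : RingAut ↥(LF U') where
  toFun x := ⟨(u : GQ) x.1, map_mem_LF U' U hle u x.2⟩
  invFun x := ⟨((u⁻¹ : U) : GQ) x.1, map_mem_LF U' U hle u⁻¹ x.2⟩
  left_inv x := Subtype.ext (by
    change ((u⁻¹ : U) : GQ) ((u : GQ) x.1) = x.1
    rw [Subgroup.coe_inv]
    exact (u : GQ).symm_apply_apply x.1)
  right_inv x := Subtype.ext (by
    change (u : GQ) (((u⁻¹ : U) : GQ) x.1) = x.1
    rw [Subgroup.coe_inv]
    exact (u : GQ).apply_symm_apply x.1)
  map_mul' x y := Subtype.ext (map_mul (u : GQ) x.1 y.1)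
  map_add' x y := Subtype.ext (map_add (u : GQ) x.1 y.1)

/-- the action of `U` on the fixed field of `U'` -/
def resHom : ↥U →* RingAut ↥(LF U') where
  toFun u := resAut U' U hle u
  map_one' := by
    apply RingEquiv.ext
    intro x
    apply Subtype.ext
    rfl
  map_mul' u v := by
    apply RingEquiv.ext
    intro x
    apply Subtype.ext
    rfl

/-- the action of `Δ = U ⧸ U'` on the fixed field of `U'` -/
def deltaHom : DeltaGrp U' U →* RingAut ↥(LF U') :=
  QuotientGroup.lift (U'.subgroupOf U) (resHom U' U hle) fun u hu => by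
    apply RingEquiv.ext
    intro x
    apply Subtype.ext
    exact (IntermediateField.mem_fixedField_iff _ _).1 x.2 (u : GQ) (Subgroup.mem_subgroupOf.1 hu)

/-- the action of `Δ` on `L` (NOT an instance) -/
@[reducible] def deltaAct : MulSemiringAction (DeltaGrp U' U) ↥(LF U') :=
  MulSemiringAction.compHom _ (deltaHom U' U hle)

/-- the fixed field `K` of `Δ` in `L` -/
abbrev KF : Subfield ↥(LF U') :=
  letI := deltaAct U' U hle
  FixedPoints.subfield (DeltaGrp U' U) ↥(LF U')

/-- `Δ → Gal(L/K)` -/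
def eHom : DeltaGrp U' U →* (↥(LF U') ≃ₐ[↥(KF U' U hle)] ↥(LF U')) :=
  letI := deltaAct U' U hle
  MulSemiringAction.toAlgAut (DeltaGrp U' U) ↥(KF U' U hle) ↥(LF U')

theorem eHom_mk_coe (u : U) (x : ↥(LF U')) :
    ((eHom U' U hle (QuotientGroup.mk u) x : ↥(LF U')) : Qbar) = (u : GQ) x.1 := rfl

theorem isGalois_KF [Finite (DeltaGrp U' U)] : IsGalois ↥(KF U' U hle) ↥(LF U') :=
  letI := deltaAct U' U hle
  IsGalois.of_fixed_field ↥(LF U') (DeltaGrp U' U)

/-! ### The `S`-units -/

section Units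

variable (S)

/-- the set of primes of `K` above `S` -/
abbrev TK [NumberField ↥(LF U')] : Finset (HeightOneSpectrum (𝓞 ↥(KF U' U hle))) :=
  aboveQ ↥(KF U' U hle) S

theorem mem_TUnits_iff [NumberField ↥(LF U')] (a : (↥(LF U'))ˣ) :
    a ∈ Fermat.Agent.CFT.C3.SUnitRank.TUnits ↥(LF U')
        (above ↥(KF U' U hle) ↥(LF U') (TK S U' U hle)) ↔
      a ∈ Fermat.Agent.CFT.Idele.TUnits ↥(LF U') (S : Set Nat.Primes) := by
  rw [mem_TUnits_above_aboveQ_iff, Fermat.Agent.CFT.C7.SES.mem_TUnits_iff_valuation']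
  constructor
  · intro h w q hq hqS
    exact h w q hq (fun h' => hqS (Finset.mem_coe.mpr h'))
  · intro h w q hq hqS
    exact h w q hq (fun h' => hqS (Finset.mem_coe.mp h'))

variable (hopen : (levelsS S).IsOpen U')

/-- the `T`-units of `L` inside `E_S` -/
def toE [NumberField ↥(LF U')] :
    AT ↥(KF U' U hle) ↥(LF U') (TK S U' U hle) →+ (QS.E S).V :=
  (MonoidHom.toAdditive
    ((ED.ofLevel (isFieldFilter_unram S) (S : Set Nat.Primes)
        (isUnramifiedOutside_LF U' hopen)).comp
      (Subgroup.inclusion fun a ha => (mem_TUnits_iff S U' U hle a).1 ha)) :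
    Additive (Fermat.Agent.CFT.C3.SUnitRank.TUnits ↥(LF U')
        (above ↥(KF U' U hle) ↥(LF U') (TK S U' U hle))) →+
      Additive (ED (isFieldFilter_unram S) (S : Set Nat.Primes)))

theorem toE_coe [NumberField ↥(LF U')]
    (x : AT ↥(KF U' U hle) ↥(LF U') (TK S U' U hle)) :
    (((Additive.toMul (toE S U' U hle hopen x) :
      ED (isFieldFilter_unram S) (S : Set Nat.Primes)) : Qbarˣ) : Qbar) =
      (((Additive.toMul x).1 : (↥(LF U'))ˣ) : ↥(LF U')) := rfl

theorem toE_mem_invSub [NumberField ↥(LF U')]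
    (x : AT ↥(KF U' U hle) ↥(LF U') (TK S U' U hle)) :
    toE S U' U hle hopen x ∈ invSub U' (QS.E S) := by
  intro d hd
  have hd' : d ∈ (LF U').fixingSubgroup := by
    rw [fixingSubgroup_LF U' hopen]
    exact hd
  have h := (ED.mem_range_ofLevel_iff (hP := isFieldFilter_unram S) (S := (S : Set Nat.Primes))
    (isUnramifiedOutside_LF U' hopen) (Additive.toMul (toE S U' U hle hopen x))).1 ⟨_, rfl⟩ d hd'
  exact congrArg Additive.ofMul h

theorem toE_injective [NumberField ↥(LF U')] : Function.Injective (toE S U' U hle hopen) := by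
  intro x y h
  have h1 := ED.ofLevel_injective (hP := isFieldFilter_unram S) (S := (S : Set Nat.Primes))
    (isUnramifiedOutside_LF U' hopen) (congrArg Additive.toMul h)
  exact Subgroup.inclusion_injective _ h1

theorem exists_toE_eq [NumberField ↥(LF U')] (a : invSub U' (QS.E S)) :
    ∃ x, toE S U' U hle hopen x = a.1 := by
  have h := (ED.mem_range_ofLevel_iff (hP := isFieldFilter_unram S) (S := (S : Set Nat.Primes))
    (isUnramifiedOutside_LF U' hopen) (Additive.toMul a.1)).2 (fun σ hσ => by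
      rw [fixingSubgroup_LF U' hopen] at hσ
      exact congrArg Additive.toMul (a.2 σ hσ))
  obtain ⟨b, hb⟩ := h
  refine ⟨Additive.ofMul ⟨b.1, (mem_TUnits_iff S U' U hle b.1).2 b.2⟩, ?_⟩
  exact congrArg Additive.ofMul hb

/-- **`E_S^{U'}` is the group of `S`-units of `L`** -/
def atEquiv [NumberField ↥(LF U')] :
    AT ↥(KF U' U hle) ↥(LF U') (TK S U' U hle) ≃+ invSub U' (QS.E S) :=
  AddEquiv.ofBijective
    ((toE S U' U hle hopen).codRestrict (invSub U' (QS.E S)) (toE_mem_invSub S U' U hle hopen))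
    ⟨fun x y h => toE_injective S U' U hle hopen (congrArg Subtype.val h), fun a => by
      obtain ⟨x, hx⟩ := exists_toE_eq S U' U hle hopen a
      exact ⟨x, Subtype.ext hx⟩⟩

theorem atEquiv_coe [NumberField ↥(LF U')]
    (x : AT ↥(KF U' U hle) ↥(LF U') (TK S U' U hle)) :
    (atEquiv S U' U hle hopen x : (QS.E S).V) = toE S U' U hle hopen x := rfl

/-- the equivariance of `atEquiv` -/
theorem atEquiv_galAdd [NumberField ↥(LF U')] [IsGalois ↥(KF U' U hle) ↥(LF U')] (u : U)
    (x : AT ↥(KF U' U hle) ↥(LF U') (TK S U' U hle)) :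
    atEquiv S U' U hle hopen
        (galAdd ↥(KF U' U hle) ↥(LF U') (TK S U' U hle) (eHom U' U hle (QuotientGroup.mk u)) x) =
      invRep U' (QS.E S) U hle (QuotientGroup.mk u) (atEquiv S U' U hle hopen x) := by
  apply Subtype.ext
  rw [invRep_mk]
  apply congrArg Additive.ofMul
  apply Subtype.ext
  apply Units.ext
  rfl

end Units

end Fermat.Agent.S56.Base.EC.FieldAct
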