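/-
PROJECT T (S56), block (a1-II) = S56/Base, E3 file 8 (archimedean dictionary), abstract part
(helper24): INVOLUTIONS ON SMOOTH INDUCED MODULES.  Pure group theory and linear algebra over
main's `CFT/LC/SmoothInd`.

* (8a-1) `finrank_fix_add_finrank_antifix`: an involution of a finite dimensional space over a
  field with `2 ≠ 0` splits it into its `+1` and `-1` eigenspaces.
* (8a-2) `twistEquiv`: for a character `ε : G →* kˣ` trivial on a level and a linear equivalence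
  `θ : B ≃ B'` with `B'.ρ d ∘ θ = ε d • θ ∘ B.ρ d`, the map `φ ↦ (x ↦ ε x • θ (φ x))` is a linear
  equivalence `sInd B ≃ sInd B'` which intertwines the two actions up to `ε`; if `c * c = 1` and
  `ε c = -1` this gives `finrank_fix_twist`:
  `dim (sInd B')^{c} + dim (sInd B)^{c} = dim sInd B`.
* `finite_sInd`: smooth induction from a subgroup of finite index preserves finite dimension.
* (8b-abs) `dict`: if `Φ : G → X` identifies the `Δ`-set `X` with `ker r \ G / ⟨c⟩`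
  (`r : D →* Δ` surjective), then the `Δ`-equivariant functions `X → M` are the `c`-invariants of
  `sInd_D^G M`.
-/
import Fermat.Agent.CFT.LC.SmoothInd

set_option autoImplicit false

universe u

namespace Fermat.Agent.S56.Base.EC.InvolutionInd

open Fermat.Agent.CFT.LC Module

/-! ### (8a-1) Involutions -/

section Involution

variable {k V : Type*} [Field k] [AddCommGroup V] [Module k V]

lemma ker_sub_one_eq_range_add_one (σ : V →ₗ[k] V) (hσ : ∀ v, σ (σ v) = v) (h2 : (2 : k) ≠ 0) :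
    LinearMap.ker (σ - 1) = LinearMap.range (σ + 1) := by
  ext v
  rw [LinearMap.mem_ker, LinearMap.mem_range]
  constructor
  · intro hv
    rw [LinearMap.sub_apply, Module.End.one_apply, sub_eq_zero] at hv
    refine ⟨(2 : k)⁻¹ • v, ?_⟩
    rw [LinearMap.add_apply, Module.End.one_apply, map_smul, hv, ← add_smul, ← two_mul,
      mul_inv_cancel₀ h2, one_smul]
  · rintro ⟨w, rfl⟩
    rw [LinearMap.sub_apply, Module.End.one_apply, LinearMap.add_apply, Module.End.one_apply,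
      map_add, hσ]
    abel

/-- An involution of a finite dimensional space over a field in which `2 ≠ 0` splits the space
into its `+1`- and `-1`-eigenspaces. -/
theorem finrank_fix_add_finrank_antifix [FiniteDimensional k V] (σ : V →ₗ[k] V)
    (hσ : ∀ v, σ (σ v) = v) (h2 : (2 : k) ≠ 0) :
    finrank k (LinearMap.ker (σ - 1)) + finrank k (LinearMap.ker (σ + 1)) = finrank k V := by
  rw [ker_sub_one_eq_range_add_one σ hσ h2]
  exact LinearMap.finrank_range_add_finrank_ker (σ + 1)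

end Involution

/-! ### (8a-2) Twisting a smooth induced module by a character of the big group -/

section Twist

variable {k G : Type u} [Field k] [Group G] (𝒰 : Levels G) (D : Subgroup G)

/-- The twist `φ ↦ (x ↦ ε x • θ (φ x))`. -/
noncomputable def twistMap (ε : G →* kˣ) (hε : ∃ U ∈ 𝒰.sets, ∀ s ∈ U, ε s = 1)
    {B B' : Rep.{u} k D} (θ : B →ₗ[k] B')
    (hθ : ∀ (d : D) (v : B), B'.ρ d (θ v) = ((ε (d : G) : kˣ) : k) • θ (B.ρ d v)) :
    sInd 𝒰 D B →ₗ[k] sInd 𝒰 D B' where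
  toFun φ := iMk (fun x => ((ε x : kˣ) : k) • θ (iFn φ x))
    (fun d x => by
      rw [iFn_equivariant, map_mul, Units.val_mul, map_smul, hθ, smul_smul, mul_comm])
    (by
      obtain ⟨U₁, hU₁, h₁⟩ := hε
      obtain ⟨U₂, hU₂, h₂⟩ := iFn_exists_level φ
      obtain ⟨W, hW, hWle⟩ := 𝒰.directed U₁ hU₁ U₂ hU₂
      refine ⟨W, hW, fun x s hs => ?_⟩
      rw [map_mul, h₁ s (hWle.trans inf_le_left hs), mul_one,
        h₂ x s (hWle.trans inf_le_right hs)])
  map_add' φ ψ := by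
    refine iFn_ext fun x => ?_
    change ((ε x : kˣ) : k) • θ (iFn φ x + iFn ψ x) =
      ((ε x : kˣ) : k) • θ (iFn φ x) + ((ε x : kˣ) : k) • θ (iFn ψ x)
    rw [map_add, smul_add]
  map_smul' a φ := by
    refine iFn_ext fun x => ?_
    change ((ε x : kˣ) : k) • θ (a • iFn φ x) = a • (((ε x : kˣ) : k) • θ (iFn φ x))
    rw [map_smul, smul_comm]

@[simp] lemma iFn_twistMap (ε : G →* kˣ) (hε : ∃ U ∈ 𝒰.sets, ∀ s ∈ U, ε s = 1)
    {B B' : Rep.{u} k D} (θ : B →ₗ[k] B')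
    (hθ : ∀ (d : D) (v : B), B'.ρ d (θ v) = ((ε (d : G) : kˣ) : k) • θ (B.ρ d v))
    (φ : sInd 𝒰 D B) (x : G) :
    iFn (twistMap 𝒰 D ε hε θ hθ φ) x = ((ε x : kˣ) : k) • θ (iFn φ x) := rfl

/-- The twist intertwines the two actions up to the character. -/
lemma ρ_twistMap (ε : G →* kˣ) (hε : ∃ U ∈ 𝒰.sets, ∀ s ∈ U, ε s = 1)
    {B B' : Rep.{u} k D} (θ : B →ₗ[k] B')
    (hθ : ∀ (d : D) (v : B), B'.ρ d (θ v) = ((ε (d : G) : kˣ) : k) • θ (B.ρ d v))
    (g : G) (φ : sInd 𝒰 D B) :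
    (sInd 𝒰 D B').ρ g (twistMap 𝒰 D ε hε θ hθ φ) =
      ((ε g : kˣ) : k) • twistMap 𝒰 D ε hε θ hθ ((sInd 𝒰 D B).ρ g φ) := by
  refine iFn_ext fun x => ?_
  rw [iFn_ρ, iFn_smul, iFn_twistMap, iFn_twistMap, iFn_ρ, map_mul, Units.val_mul, smul_smul,
    mul_comm]

/-- The twist by `(ε, θ)` for a linear equivalence `θ`, as a linear equivalence. -/
noncomputable def twistEquiv (ε : G →* kˣ) (hε : ∃ U ∈ 𝒰.sets, ∀ s ∈ U, ε s = 1)
    {B B' : Rep.{u} k D} (θ : B ≃ₗ[k] B')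
    (hθ : ∀ (d : D) (v : B), B'.ρ d (θ v) = ((ε (d : G) : kˣ) : k) • θ (B.ρ d v)) :
    sInd 𝒰 D B ≃ₗ[k] sInd 𝒰 D B' :=
  have hε' : ∃ U ∈ 𝒰.sets, ∀ s ∈ U, ε⁻¹ s = 1 := by
    obtain ⟨U, hU, h⟩ := hε
    exact ⟨U, hU, fun s hs => by rw [MonoidHom.inv_apply, h s hs, inv_one]⟩
  have hθ' : ∀ (d : D) (w : B'), B.ρ d (θ.symm w) =
      ((ε⁻¹ (d : G) : kˣ) : k) • θ.symm (B'.ρ d w) := by
    intro d w
    have h := hθ d (θ.symm w)
    rw [LinearEquiv.apply_symm_apply] at h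
    rw [h, map_smul, LinearEquiv.symm_apply_apply, smul_smul, MonoidHom.inv_apply,
      ← Units.val_mul, inv_mul_cancel, Units.val_one, one_smul]
  LinearEquiv.ofLinearMap (twistMap 𝒰 D ε hε θ.toLinearMap hθ)
    (twistMap 𝒰 D ε⁻¹ hε' θ.symm.toLinearMap hθ')
    (by
      refine LinearMap.ext fun ψ => iFn_ext fun x => ?_
      rw [LinearMap.comp_apply, iFn_twistMap, iFn_twistMap, LinearMap.id_apply]
      change ((ε x : kˣ) : k) • θ (((ε⁻¹ x : kˣ) : k) • θ.symm (iFn ψ x)) = iFn ψ x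
      rw [map_smul, LinearEquiv.apply_symm_apply, smul_smul, MonoidHom.inv_apply,
        ← Units.val_mul, mul_inv_cancel, Units.val_one, one_smul])
    (by
      refine LinearMap.ext fun φ => iFn_ext fun x => ?_
      rw [LinearMap.comp_apply, iFn_twistMap, iFn_twistMap, LinearMap.id_apply]
      change ((ε⁻¹ x : kˣ) : k) • θ.symm (((ε x : kˣ) : k) • θ (iFn φ x)) = iFn φ x
      rw [map_smul, LinearEquiv.symm_apply_apply, smul_smul, MonoidHom.inv_apply,
        ← Units.val_mul, inv_mul_cancel, Units.val_one, one_smul])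

@[simp] lemma iFn_twistEquiv (ε : G →* kˣ) (hε : ∃ U ∈ 𝒰.sets, ∀ s ∈ U, ε s = 1)
    {B B' : Rep.{u} k D} (θ : B ≃ₗ[k] B')
    (hθ : ∀ (d : D) (v : B), B'.ρ d (θ v) = ((ε (d : G) : kˣ) : k) • θ (B.ρ d v))
    (φ : sInd 𝒰 D B) (x : G) :
    iFn (twistEquiv 𝒰 D ε hε θ hθ φ) x = ((ε x : kˣ) : k) • θ (iFn φ x) := rfl

lemma ρ_twistEquiv (ε : G →* kˣ) (hε : ∃ U ∈ 𝒰.sets, ∀ s ∈ U, ε s = 1)
    {B B' : Rep.{u} k D} (θ : B ≃ₗ[k] B')
    (hθ : ∀ (d : D) (v : B), B'.ρ d (θ v) = ((ε (d : G) : kˣ) : k) • θ (B.ρ d v))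
    (g : G) (φ : sInd 𝒰 D B) :
    (sInd 𝒰 D B').ρ g (twistEquiv 𝒰 D ε hε θ hθ φ) =
      ((ε g : kˣ) : k) • twistEquiv 𝒰 D ε hε θ hθ ((sInd 𝒰 D B).ρ g φ) :=
  ρ_twistMap 𝒰 D ε hε θ.toLinearMap hθ g φ

lemma finrank_sInd_twist (ε : G →* kˣ) (hε : ∃ U ∈ 𝒰.sets, ∀ s ∈ U, ε s = 1)
    {B B' : Rep.{u} k D} (θ : B ≃ₗ[k] B')
    (hθ : ∀ (d : D) (v : B), B'.ρ d (θ v) = ((ε (d : G) : kˣ) : k) • θ (B.ρ d v)) :
    finrank k (sInd 𝒰 D B') = finrank k (sInd 𝒰 D B) :=
  (twistEquiv 𝒰 D ε hε θ hθ).finrank_eq.symm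

/-- If `ε c = -1`, the twist carries the `-1`-eigenspace of `c` on `sInd B` onto the
`c`-invariants of `sInd B'`. -/
lemma finrank_fix_twist_eq (ε : G →* kˣ) (hε : ∃ U ∈ 𝒰.sets, ∀ s ∈ U, ε s = 1)
    {B B' : Rep.{u} k D} (θ : B ≃ₗ[k] B')
    (hθ : ∀ (d : D) (v : B), B'.ρ d (θ v) = ((ε (d : G) : kˣ) : k) • θ (B.ρ d v))
    (c : G) (hεc : ((ε c : kˣ) : k) = -1) :
    finrank k (LinearMap.ker ((sInd 𝒰 D B').ρ c - 1)) =
      finrank k (LinearMap.ker ((sInd 𝒰 D B).ρ c + 1)) := by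
  set T := twistEquiv 𝒰 D ε hε θ hθ with hT
  have hcomap : (LinearMap.ker ((sInd 𝒰 D B').ρ c - 1)).comap T.toLinearMap =
      LinearMap.ker ((sInd 𝒰 D B).ρ c + 1) := by
    ext φ
    rw [Submodule.mem_comap, LinearMap.mem_ker, LinearMap.mem_ker, LinearMap.sub_apply,
      Module.End.one_apply, LinearMap.add_apply, Module.End.one_apply, LinearEquiv.coe_coe,
      ρ_twistEquiv, hεc, neg_smul, one_smul, neg_sub_left, neg_eq_zero, ← map_add,
      LinearEquiv.map_eq_zero_iff, add_comm]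
  rw [← hcomap]
  exact (T.ofSubmodule' (LinearMap.ker ((sInd 𝒰 D B').ρ c - 1))).finrank_eq.symm

/-- (8a) For an involution `c` of `G` and a character `ε` with `ε c = -1`:
`dim (sInd B')^{c} + dim (sInd B)^{c} = dim sInd B` when `B'` is the `ε`-twist of `B`. -/
theorem finrank_fix_twist (ε : G →* kˣ) (hε : ∃ U ∈ 𝒰.sets, ∀ s ∈ U, ε s = 1)
    {B B' : Rep.{u} k D} (θ : B ≃ₗ[k] B')
    (hθ : ∀ (d : D) (v : B), B'.ρ d (θ v) = ((ε (d : G) : kˣ) : k) • θ (B.ρ d v))
    (c : G) (hc : c * c = 1) (hεc : ((ε c : kˣ) : k) = -1) (h2 : (2 : k) ≠ 0)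
    [FiniteDimensional k (sInd 𝒰 D B)] :
    finrank k (LinearMap.ker ((sInd 𝒰 D B').ρ c - 1)) +
      finrank k (LinearMap.ker ((sInd 𝒰 D B).ρ c - 1)) = finrank k (sInd 𝒰 D B) := by
  rw [finrank_fix_twist_eq 𝒰 D ε hε θ hθ c hεc, add_comm]
  refine finrank_fix_add_finrank_antifix ((sInd 𝒰 D B).ρ c) (fun φ => ?_) h2
  rw [← Module.End.mul_apply, ← map_mul, hc, map_one, Module.End.one_apply]

end Twist

/-! ### Finite dimensionality of smooth induction from a subgroup of finite index -/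

section Finite

variable {k G : Type u} [Field k] [Group G] (𝒰 : Levels G) (D : Subgroup G)

/-- Evaluation at the inverses of left coset representatives. -/
noncomputable def evalReps (B : Rep.{u} k D) : sInd 𝒰 D B →ₗ[k] (G ⧸ D → B) where
  toFun φ q := iFn φ (q.out)⁻¹
  map_add' _ _ := rfl
  map_smul' _ _ := rfl

lemma evalReps_injective (B : Rep.{u} k D) : Function.Injective (evalReps 𝒰 D B) := by
  intro φ ψ h
  refine iFn_ext fun x => ?_
  obtain ⟨d, hd⟩ := QuotientGroup.mk_out_eq_mul D x⁻¹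
  have hq := congrFun h (QuotientGroup.mk x⁻¹ : G ⧸ D)
  change iFn φ ((QuotientGroup.mk x⁻¹ : G ⧸ D).out)⁻¹ =
    iFn ψ ((QuotientGroup.mk x⁻¹ : G ⧸ D).out)⁻¹ at hq
  rw [hd, mul_inv_rev, inv_inv] at hq
  have e : x = ((d : D) : G) * ((d : G)⁻¹ * x) := by group
  have h1 := iFn_equivariant φ d ((d : G)⁻¹ * x)
  have h2 := iFn_equivariant ψ d ((d : G)⁻¹ * x)
  rw [← e] at h1 h2
  rw [h1, h2, hq]

lemma finite_sInd [D.FiniteIndex] (B : Rep.{u} k D) [Module.Finite k B] :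
    Module.Finite k (sInd 𝒰 D B) := by
  have : Finite (G ⧸ D) := Subgroup.finite_quotient_of_finiteIndex
  exact Module.Finite.of_injective (evalReps 𝒰 D B) (evalReps_injective 𝒰 D B)

end Finite

/-! ### (8b-abs) The abstract dictionary -/

section Dict

variable {k : Type*} [CommRing k] {Δ X M : Type*} [Group Δ] [MulAction Δ X]
  [AddCommGroup M] [Module k M]

/-- The `Δ`-equivariant functions `X → M`. -/
def equivFun (ρM : Representation k Δ M) : Submodule k (X → M) where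
  carrier := {f | ∀ (δ : Δ) (x : X), f (δ • x) = ρM δ (f x)}
  add_mem' := by
    intro f f' h h' δ x
    rw [Pi.add_apply, Pi.add_apply, h, h', map_add]
  zero_mem' := by
    intro δ x
    simp
  smul_mem' := by
    intro a f h δ x
    rw [Pi.smul_apply, Pi.smul_apply, h, map_smul]

lemma mem_equivFun (ρM : Representation k Δ M) (f : X → M) :
    f ∈ equivFun (X := X) ρM ↔ ∀ (δ : Δ) (x : X), f (δ • x) = ρM δ (f x) := Iff.rfl

end Dict

section Dict2

variable {k G : Type u} [Field k] [Group G] (𝒰 : Levels G) (D : Subgroup G)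
  {Δ X : Type*} [Group Δ] [MulAction Δ X]

/-- `Φ : G → X` identifies the `Δ`-set `X` with `ker r \ G / ⟨c⟩`, compatibly with a surjection
`r : D →* Δ`, and the `D`-module `B` is inflated from the `Δ`-module `ρM` along `r`. -/
structure IsDict (r : D →* Δ) (B : Rep.{u} k D) (ρM : Representation k Δ B) (c : G)
    (Φ : G → X) : Prop where
  surj_r : Function.Surjective r
  infl : ∀ d : D, B.ρ d = ρM (r d)
  left : ∀ (d : D) (x : G), Φ (d * x) = r d • Φ x
  right : ∀ x, Φ (x * c) = Φ x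
  surj : Function.Surjective Φ
  fibre : ∀ x y, Φ x = Φ y → ∃ d : D, r d = 1 ∧ (y = d * x ∨ y = d * x * c)
  level : ∃ U ∈ 𝒰.sets, ∀ x, ∀ s ∈ U, Φ (x * s) = Φ x

variable {𝒰 D}
variable {r : D →* Δ} {B : Rep.{u} k D} {ρM : Representation k Δ B} {c : G} {Φ : G → X}

/-- Pull an equivariant function on `X` back to `G` along `Φ`. -/
noncomputable def dictFun (h : IsDict 𝒰 D r B ρM c Φ) (f : equivFun (X := X) ρM) :
    sInd 𝒰 D B :=
  iMk (fun x => f.1 (Φ x))
    (fun d x => by rw [h.left, f.2, h.infl])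
    (by
      obtain ⟨U, hU, hl⟩ := h.level
      exact ⟨U, hU, fun x s hs => by rw [hl x s hs]⟩)

@[simp] lemma iFn_dictFun (h : IsDict 𝒰 D r B ρM c Φ) (f : equivFun (X := X) ρM) (x : G) :
    iFn (dictFun h f) x = f.1 (Φ x) := rfl

lemma dictFun_mem (h : IsDict 𝒰 D r B ρM c Φ) (f : equivFun (X := X) ρM) :
    dictFun h f ∈ LinearMap.ker ((sInd 𝒰 D B).ρ c - 1) := by
  rw [LinearMap.mem_ker, LinearMap.sub_apply, Module.End.one_apply, sub_eq_zero]
  refine iFn_ext fun x => ?_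
  rw [iFn_ρ, iFn_dictFun, iFn_dictFun, h.right]

/-- The dictionary as a linear map. -/
noncomputable def dictMap (h : IsDict 𝒰 D r B ρM c Φ) :
    equivFun (X := X) ρM →ₗ[k] LinearMap.ker ((sInd 𝒰 D B).ρ c - 1) where
  toFun f := ⟨dictFun h f, dictFun_mem h f⟩
  map_add' _ _ := Subtype.ext (iFn_ext fun _ => rfl)
  map_smul' _ _ := Subtype.ext (iFn_ext fun _ => rfl)

lemma dictMap_injective (h : IsDict 𝒰 D r B ρM c Φ) : Function.Injective (dictMap h) := by
  intro f f' hff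
  refine Subtype.ext (funext fun w => ?_)
  obtain ⟨x, rfl⟩ := h.surj w
  have := congrArg (fun φ : LinearMap.ker ((sInd 𝒰 D B).ρ c - 1) => iFn φ.1 x) hff
  exact this

lemma dictMap_surjective (h : IsDict 𝒰 D r B ρM c Φ) : Function.Surjective (dictMap h) := by
  rintro ⟨φ, hφ⟩
  rw [LinearMap.mem_ker, LinearMap.sub_apply, Module.End.one_apply, sub_eq_zero] at hφ
  have hφc : ∀ x, iFn φ (x * c) = iFn φ x := fun x => by
    have := congrArg (fun ψ => iFn ψ x) hφ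
    exact this
  have hwd : ∀ x y, Φ x = Φ y → iFn φ x = iFn φ y := by
    intro x y hxy
    obtain ⟨d, hd, rfl | rfl⟩ := h.fibre x y hxy
    · rw [iFn_equivariant, h.infl, hd, map_one, Module.End.one_apply]
    · rw [hφc, iFn_equivariant, h.infl, hd, map_one, Module.End.one_apply]
  choose s hs using h.surj
  refine ⟨⟨fun w => iFn φ (s w), fun δ w => ?_⟩, ?_⟩
  · obtain ⟨d, rfl⟩ := h.surj_r δ
    have h1 : Φ (s (r d • w)) = Φ ((d : G) * s w) := by rw [hs, h.left, hs]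
    change iFn φ (s (r d • w)) = ρM (r d) (iFn φ (s w))
    rw [hwd _ _ h1, iFn_equivariant, h.infl]
  · refine Subtype.ext (iFn_ext fun x => ?_)
    change iFn φ (s (Φ x)) = iFn φ x
    exact hwd _ _ (hs _)

/-- (8b-abs) If `Φ : G → X` identifies the `Δ`-set `X` with `ker r \ G / ⟨c⟩`, then the
`Δ`-equivariant functions `X → B` are the `c`-invariants of the smooth induced module. -/
noncomputable def dict (h : IsDict 𝒰 D r B ρM c Φ) :
    equivFun (X := X) ρM ≃ₗ[k] LinearMap.ker ((sInd 𝒰 D B).ρ c - 1) :=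
  LinearEquiv.ofBijective (dictMap h) ⟨dictMap_injective h, dictMap_surjective h⟩

lemma finrank_equivFun (h : IsDict 𝒰 D r B ρM c Φ) :
    finrank k (equivFun (X := X) ρM) = finrank k (LinearMap.ker ((sInd 𝒰 D B).ρ c - 1)) :=
  (dict h).finrank_eq

end Dict2

end Fermat.Agent.S56.Base.EC.InvolutionInd
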