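/-
PROJECT T (S56), block (a1-II) = S56/Base, E3 file 8 (archimedean dictionary), number field part
(helper24): THE INFINITE PLACES OF A FINITE EXTENSION `L ⊆ ℚ̄` AS `U' \ G_ℚ / ⟨c⟩`.

With `ι = complexEmbedding : ℚ̄ → ℂ` and `c = complexConjugation` (both from the prelude) put
`Φ L x := ` the place of the embedding `a ↦ ι (x⁻¹ a)` of `L`.  Then
* `Φ_mul_conj`        : `Φ L (x * c) = Φ L x`;
* `Φ_surjective`      : every infinite place of `L` is some `Φ L x`;
* `Φ_eq_iff`          : `Φ L x = Φ L y ↔ y x⁻¹ ∈ Gal(ℚ̄/L) ∨ y c x⁻¹ ∈ Gal(ℚ̄/L)`;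
* `Φ_mul_left`        : `Φ L (u * x) = σ • Φ L x` whenever `σ : L ≃ₐ[K] L` agrees with `u` on `L`;
* `Φ_mul_right_level` : `Φ L (x * s) = Φ L x` for `s` in a normal subgroup fixing `L`;
* `isDict_infinitePlace` : these facts packaged as `InvolutionInd.IsDict`.
-/
import Fermat.Prelude.Def_GaloisRep_ComplexConjugation
import Fermat.Agent.CFT.Bridge.Levels
import Fermat.Agent.S56.Base.EC.InvolutionInd

set_option autoImplicit false

noncomputable section

namespace Fermat.Agent.S56.Base.EC.InfPlace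

open NumberField Fermat.Agent.CFT.LC Fermat.Agent.CFT.Bridge Fermat.Agent.S56.Base.EC.InvolutionInd

local instance isAlgebraicQbar_ip : Algebra.IsAlgebraic ℚ (AlgebraicClosure ℚ) :=
  AlgebraicClosure.isAlgebraic ℚ
local instance isAlgClosureQbar_ip : IsAlgClosure ℚ (AlgebraicClosure ℚ) :=
  ⟨inferInstance, inferInstance⟩
local instance normalQbar_ip : Normal ℚ (AlgebraicClosure ℚ) :=
  IsAlgClosure.normal ℚ (AlgebraicClosure ℚ)

variable (L : IntermediateField ℚ Qbar)

/-- The complex embedding `a ↦ ι (x⁻¹ a)` of `L` attached to `x ∈ G_ℚ`. -/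
def emb (x : GQ) : L →+* ℂ :=
  (complexEmbedding : Qbar →+* ℂ).comp (((x⁻¹ : GQ) : Qbar →+* Qbar).comp (algebraMap L Qbar))

lemma emb_apply (x : GQ) (a : L) : emb L x a = complexEmbedding ((x⁻¹ : GQ) (a : Qbar)) := rfl

/-- The infinite place of `L` attached to `x ∈ G_ℚ`. -/
def Φ (x : GQ) : InfinitePlace L := InfinitePlace.mk (emb L x)

lemma emb_mul_conj (x : GQ) :
    emb L (x * complexConjugation) = ComplexEmbedding.conjugate (emb L x) := by
  ext a
  rw [ComplexEmbedding.conjugate_coe_eq, emb_apply, emb_apply, mul_inv_rev,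
    complexConjugation_inv, AlgEquiv.mul_apply, complexEmbedding_complexConjugation]

/-- Right translation by complex conjugation does not change the place. -/
lemma Φ_mul_conj (x : GQ) : Φ L (x * complexConjugation) = Φ L x := by
  unfold Φ
  rw [emb_mul_conj, InfinitePlace.mk_conjugate_eq]

/-! ### Surjectivity -/

/-- Every ring homomorphism `ℚ̄ → ℂ` is `ι ∘ y` for some `y ∈ G_ℚ`. -/
lemma exists_eq_complexEmbedding_comp (ψ : Qbar →+* ℂ) :
    ∃ y : GQ, ∀ a : Qbar, ψ a = complexEmbedding (y a) := by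
  let _ : Algebra Qbar ℂ := complexEmbedding.toRingHom.toAlgebra
  have : IsScalarTower ℚ Qbar ℂ := IsScalarTower.of_algebraMap_eq' (Subsingleton.elim _ _)
  let ψ' : Qbar →ₐ[ℚ] ℂ := ψ.toRatAlgHom
  let y₀ : Qbar →ₐ[ℚ] Qbar := AlgHom.restrictNormal ψ' Qbar
  have hy₀ : ∀ a : Qbar, complexEmbedding (y₀ a) = ψ a := fun a =>
    AlgHom.restrictNormal_commutes ψ' Qbar a
  have hbij : Function.Bijective y₀ := Algebra.IsAlgebraic.algHom_bijective y₀
  refine ⟨AlgEquiv.ofBijective y₀ hbij, fun a => ?_⟩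
  rw [AlgEquiv.coe_ofBijective, hy₀]

/-- Every ring homomorphism `L → ℂ` extends to `ℚ̄`. -/
lemma exists_extension (φ : L →+* ℂ) : ∃ ψ : Qbar →+* ℂ, ∀ a : L, ψ (a : Qbar) = φ a := by
  let _ : Algebra L ℂ := φ.toAlgebra
  have : Algebra.IsAlgebraic L Qbar := Algebra.IsAlgebraic.tower_top (K := ℚ) L
  let ψ : Qbar →ₐ[L] ℂ := IsAlgClosed.lift
  exact ⟨ψ.toRingHom, fun a => ψ.commutes a⟩

/-- Every infinite place of `L` is of the form `Φ L x`. -/
lemma Φ_surjective : Function.Surjective (Φ L) := by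
  intro w
  obtain ⟨ψ, hψ⟩ := exists_extension L w.embedding
  obtain ⟨y, hy⟩ := exists_eq_complexEmbedding_comp ψ
  refine ⟨y⁻¹, ?_⟩
  have : emb L y⁻¹ = w.embedding := by
    ext a
    rw [emb_apply, inv_inv, ← hy, hψ]
  unfold Φ
  rw [this, InfinitePlace.mk_embedding]

/-! ### Fibres -/

lemma emb_eq_iff (x y : GQ) : emb L x = emb L y ↔ y * x⁻¹ ∈ L.fixingSubgroup := by
  rw [IntermediateField.mem_fixingSubgroup_iff]
  constructor
  · intro h a ha
    have h1 := RingHom.congr_fun h ⟨a, ha⟩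
    rw [emb_apply, emb_apply] at h1
    have h2 : (x⁻¹ : GQ) a = (y⁻¹ : GQ) a := complexEmbedding.toRingHom.injective h1
    rw [AlgEquiv.mul_apply, h2]
    exact AlgEquiv.apply_symm_apply y a
  · intro h
    ext a
    rw [emb_apply, emb_apply]
    congr 1
    have h1 := h a a.2
    rw [AlgEquiv.mul_apply] at h1
    have h2 := congrArg (y⁻¹ : GQ) h1
    rw [show (y⁻¹ : GQ) (y ((x⁻¹ : GQ) (a : Qbar))) = (x⁻¹ : GQ) (a : Qbar) from
      AlgEquiv.symm_apply_apply y _] at h2
    exact h2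

/-- Two elements of `G_ℚ` give the same place of `L` iff they differ by `Gal(ℚ̄/L)` on the left
and possibly complex conjugation on the right. -/
lemma Φ_eq_iff (x y : GQ) :
    Φ L x = Φ L y ↔
      y * x⁻¹ ∈ L.fixingSubgroup ∨ y * complexConjugation * x⁻¹ ∈ L.fixingSubgroup := by
  unfold Φ
  rw [InfinitePlace.mk_eq_iff, emb_eq_iff, ← emb_mul_conj, emb_eq_iff, mul_inv_rev,
    complexConjugation_inv, mul_assoc]

/-! ### Left translation -/

/-- Left translation by an element of `G_ℚ` which preserves `L` is the Galois action on places. -/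
lemma Φ_mul_left {K : Type*} [Field K] [Algebra K L] (u : GQ) (σ : L ≃ₐ[K] L)
    (hσ : ∀ a : L, ((σ a : L) : Qbar) = u (a : Qbar)) (x : GQ) :
    Φ L (u * x) = σ • Φ L x := by
  unfold Φ
  rw [InfinitePlace.smul_mk]
  congr 1
  ext a
  rw [RingHom.comp_apply, emb_apply, emb_apply, mul_inv_rev, AlgEquiv.mul_apply]
  congr 2
  have h1 := hσ (σ.symm a)
  rw [AlgEquiv.apply_symm_apply] at h1
  change (u⁻¹ : GQ) (a : Qbar) = ((σ.symm a : L) : Qbar)
  rw [h1]
  exact AlgEquiv.symm_apply_apply u _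

/-! ### Right translation by a level -/

/-- Right translation by a normal subgroup fixing `L` does not change the place. -/
lemma Φ_mul_right_level (U₀ : Subgroup GQ) [U₀.Normal] (hU₀ : U₀ ≤ L.fixingSubgroup)
    (x s : GQ) (hs : s ∈ U₀) : Φ L (x * s) = Φ L x := by
  rw [eq_comm, Φ_eq_iff]
  left
  refine hU₀ ?_
  have := Subgroup.Normal.conj_mem (inferInstance : U₀.Normal) s hs x
  exact this

/-! ### The dictionary -/

/-- The infinite places of `L` are `Gal(ℚ̄/L) \ G_ℚ / ⟨c⟩` as a set with an action of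
`Δ = L ≃ₐ[K] L`, in the form consumed by `InvolutionInd.dict`. -/
theorem isDict_infinitePlace (𝒰 : Levels GQ) (U : Subgroup GQ)
    (hlev : ∃ U₀ ∈ 𝒰.sets, U₀ ≤ L.fixingSubgroup) (hLU : L.fixingSubgroup ≤ U)
    {K : Type*} [Field K] [Algebra K L] (r : U →* (L ≃ₐ[K] L)) (hr : Function.Surjective r)
    (hru : ∀ (u : U) (a : L), ((r u a : L) : Qbar) = (u : GQ) (a : Qbar))
    {k : Type} [Field k] (B : Rep.{0} k U) (ρM : Representation k (L ≃ₐ[K] L) B)
    (hB : ∀ d : U, B.ρ d = ρM (r d)) :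
    IsDict 𝒰 U r B ρM complexConjugation (Φ L) where
  surj_r := hr
  infl := hB
  left d x := Φ_mul_left L (d : GQ) (r d) (hru d) x
  right := Φ_mul_conj L
  surj := Φ_surjective L
  fibre x y hxy := by
    have hker : ∀ g : GQ, ∀ hg : g ∈ L.fixingSubgroup, r ⟨g, hLU hg⟩ = 1 := by
      intro g hg
      refine AlgEquiv.ext fun a => Subtype.ext ?_
      rw [hru]
      exact (IntermediateField.mem_fixingSubgroup_iff L g).1 hg a a.2
    rcases (Φ_eq_iff L x y).1 hxy with h | h
    · refine ⟨⟨_, hLU h⟩, hker _ h, Or.inl ?_⟩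
      change y = y * x⁻¹ * x
      group
    · refine ⟨⟨_, hLU h⟩, hker _ h, Or.inr ?_⟩
      change y = y * complexConjugation * x⁻¹ * x * complexConjugation
      rw [inv_mul_cancel_right, mul_assoc, complexConjugation_mul_self, mul_one]
  level := by
    obtain ⟨U₀, hU₀, hle⟩ := hlev
    have := 𝒰.normal U₀ hU₀
    exact ⟨U₀, hU₀, fun x s hs => Φ_mul_right_level L U₀ hle x s hs⟩

end Fermat.Agent.S56.Base.EC.InfPlace
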