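/-
PROJECT T (S56), block (a1-II)/B3/E3 step (U) (helper17), file 5: DOUBLE COSET DICTIONARIES.

`U' ≤ U ≤ G`, `U'` normal in `U`, `Δ = U ⧸ U'`.  A `Δ`-set `X` with maps `Ψ i : G → X`
(`i : ι`), jointly surjective, with fibres the double cosets `U' g (C i)` and `U`-equivariant,
is the disjoint union of the `U' \ G / C i`; hence the permutation module `F_p[X]`
(`UnitsAbs.funRep`) is `∏ i, DFun p U' U (C i) hle` (helper11's `PermMod`).  Also
`DFun p U' U ⊤ hle` is the trivial module `F_p`, and `tCount` of a finite product.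
-/
import Fermat.Agent.S56.Base.EC.PermMod
import Fermat.Agent.S56.Base.EC.UnitsAbs

set_option autoImplicit false

noncomputable section

namespace Fermat.Agent.S56.Base.EC.PlacesAbs

open Fermat.Agent.S56.Base.EC Fermat.Agent.S56.Base.EC.UnitsAbs

/-! ### `tCount` of a finite product -/

section Pi

variable {R : Type*} [Ring R] {n : ℕ} {ι : Type*} (Y : ι → Type*) [∀ i, AddCommGroup (Y i)]
  [∀ i, Module R (Y i)]

theorem mact_pi_apply (ε : Matrix (Fin n) (Fin n) R) (x : Fin n → ∀ i, Y i) (a : Fin n) (i : ι) :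
    mact ε x a i = mact ε (fun b => x b i) a := by
  have h := congrFun (mact_map ε (LinearMap.proj i : (∀ i, Y i) →ₗ[R] Y i) x) a
  exact h.symm

/-- the `ε`-part of a product is the product of the `ε`-parts -/
def ePartPi (ε : Matrix (Fin n) (Fin n) R) : ePart ε (∀ i, Y i) ≃ ∀ i, ePart ε (Y i) where
  toFun x i := ⟨fun a => x.1 a i, by
    rw [mem_ePart]
    funext a
    rw [← mact_pi_apply]
    exact congrFun (congrFun (mem_ePart.1 x.2) a) i⟩
  invFun y := ⟨fun a i => (y i).1 a, by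
    rw [mem_ePart]
    funext a i
    rw [mact_pi_apply]
    exact congrFun (mem_ePart.1 (y i).2) a⟩
  left_inv _ := rfl
  right_inv _ := rfl

theorem tCount_pi [Fintype ι] (ε : Matrix (Fin n) (Fin n) R) :
    tCount ε (∀ i, Y i) = ∏ i, tCount ε (Y i) := by
  unfold tCount
  rw [Nat.card_congr (ePartPi Y ε), Nat.card_pi]

end Pi

variable {G : Type} [Group G] (p : ℕ) (U' U : Subgroup G) [hn : (U'.subgroupOf U).Normal]
  (hle : U' ≤ U)

/-! ### `DFun ⊤` is the trivial module -/

section Top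

/-- evaluation at `1` -/
def evalOne : dfun p U' (⊤ : Subgroup G) ≃+ ZMod p where
  toFun f := f.1 1
  invFun a := ⟨fun _ => a, fun _ _ _ _ _ => rfl⟩
  left_inv f := by
    apply Subtype.ext
    funext g
    have h := f.2 1 U'.one_mem g (Subgroup.mem_top g) 1
    rw [one_mul, one_mul] at h
    exact h.symm
  right_inv _ := rfl
  map_add' _ _ := rfl

/-- `F_p[U' \ G / G]` is the trivial module `F_p` -/
def dfunTopEquiv : DFun p U' U ⊤ hle ≃ₗ[MonoidAlgebra ℤ (DeltaGrp U' U)]
    (Representation.trivial ℤ (DeltaGrp U' U) (ZMod p)).asModule :=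
  linEquivOfEquivariant _ _ (evalOne p U') (by
    intro δ f
    obtain ⟨u, rfl⟩ := QuotientGroup.mk_surjective δ
    change (dfunRep p U' U ⊤ hle (QuotientGroup.mk u) f).1 1 = f.1 1
    rw [dfunRep_mk]
    have h := f.2 1 U'.one_mem ((u : G)⁻¹ * 1) (Subgroup.mem_top _) 1
    rw [one_mul, one_mul] at h
    exact h)

theorem tCount_dfun_top {n : ℕ} (ε : Matrix (Fin n) (Fin n) (MonoidAlgebra ℤ (DeltaGrp U' U))) :
    tCount ε (DFun p U' U ⊤ hle) =
      tCount ε (Representation.trivial ℤ (DeltaGrp U' U) (ZMod p)).asModule :=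
  tCount_congr ε (dfunTopEquiv p U' U hle)

end Top

/-! ### The dictionary -/

section Dict

variable {ι : Type} {X : Type} [MulAction (DeltaGrp U' U) X] (C : ι → Subgroup G)
  (Ψ : ι → G → X)
  (hfib : ∀ i j g g', Ψ i g = Ψ j g' ↔ i = j ∧ ∃ u ∈ U', ∃ c ∈ C i, g' = u * g * c)

/-- pull back a function on `X` along `Ψ i` -/
def pull (i : ι) : (X → ZMod p) →+ dfun p U' (C i) where
  toFun f := ⟨fun g => f (Ψ i g), fun u hu c hc g => by
    have h : Ψ i g = Ψ i (u * g * c) := (hfib i i g (u * g * c)).2 ⟨rfl, u, hu, c, hc, rfl⟩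
    change f (Ψ i (u * g * c)) = f (Ψ i g)
    rw [← h]⟩
  map_zero' := rfl
  map_add' _ _ := rfl

theorem pull_apply (i : ι) (f : X → ZMod p) (g : G) : (pull p U' C Ψ hfib i f).1 g = f (Ψ i g) :=
  rfl

variable (heq : ∀ i (u : U) g, Ψ i ((u : G) * g) = (QuotientGroup.mk u : DeltaGrp U' U) • Ψ i g)

include heq in
theorem pull_equivariant (i : ι) (δ : DeltaGrp U' U) (f : X → ZMod p) :
    pull p U' C Ψ hfib i (funRep X (ZMod p) δ f) =
      dfunRep p U' U (C i) hle δ (pull p U' C Ψ hfib i f) := by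
  obtain ⟨u, rfl⟩ := QuotientGroup.mk_surjective δ
  apply Subtype.ext
  funext g
  rw [dfunRep_mk, pull_apply, pull_apply, funRep_apply]
  congr 1
  have h := heq i u⁻¹ g
  rw [Subgroup.coe_inv] at h
  rw [h, QuotientGroup.mk_inv]

/-- the `ℤ[Δ]`-linear map `F_p[X] → ∏ i, F_p[U' \ G / C i]` -/
def dictLin : (funRep (G := DeltaGrp U' U) X (ZMod p)).asModule →ₗ[MonoidAlgebra ℤ (DeltaGrp U' U)]
    ∀ i, DFun p U' U (C i) hle :=
  LinearMap.pi fun i =>
    linOfEquivariant (funRep X (ZMod p)) (dfunRep p U' U (C i) hle) (pull p U' C Ψ hfib i)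
      (fun δ f => pull_equivariant p U' U hle C Ψ hfib heq i δ f)

theorem dictLin_apply (f : (funRep (G := DeltaGrp U' U) X (ZMod p)).asModule) (i : ι) (g : G) :
    ((dfunRep p U' U (C i) hle).asModuleEquiv (dictLin p U' U hle C Ψ hfib heq f i)).1 g =
      (funRep (G := DeltaGrp U' U) X (ZMod p)).asModuleEquiv f (Ψ i g) := rfl

variable (hsurj : ∀ x, ∃ i g, Ψ i g = x)

include hsurj in
theorem dictLin_injective : Function.Injective (dictLin p U' U hle C Ψ hfib heq) := by
  intro f f' h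
  apply (funRep (G := DeltaGrp U' U) X (ZMod p)).asModuleEquiv.injective
  funext x
  obtain ⟨i, g, rfl⟩ := hsurj x
  rw [← dictLin_apply p U' U hle C Ψ hfib heq f i g, ← dictLin_apply p U' U hle C Ψ hfib heq f' i g,
    h]

include hsurj in
theorem dictLin_surjective : Function.Surjective (dictLin p U' U hle C Ψ hfib heq) := by
  intro F
  choose ix gx hx using hsurj
  let f0 : X → ZMod p := fun x => ((dfunRep p U' U (C (ix x)) hle).asModuleEquiv (F (ix x))).1 (gx x)
  refine ⟨(funRep (G := DeltaGrp U' U) X (ZMod p)).asModuleEquiv.symm f0, ?_⟩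
  funext i
  apply (dfunRep p U' U (C i) hle).asModuleEquiv.injective
  apply Subtype.ext
  funext g
  rw [dictLin_apply, LinearEquiv.apply_symm_apply]
  change ((dfunRep p U' U (C (ix (Ψ i g))) hle).asModuleEquiv (F (ix (Ψ i g)))).1 (gx (Ψ i g)) = _
  obtain ⟨hi, u, hu, c, hc, hg⟩ := (hfib _ _ _ _).1 (hx (Ψ i g))
  generalize gx (Ψ i g) = g' at hg
  generalize ix (Ψ i g) = i' at hi hc
  subst hi
  rw [hg]
  exact (((dfunRep p U' U (C i') hle).asModuleEquiv (F i')).2 u hu c hc g').symm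

/-- **`F_p[X] = ∏ i, F_p[U' \ G / C i]`** -/
def dictEquiv : (funRep (G := DeltaGrp U' U) X (ZMod p)).asModule ≃ₗ[MonoidAlgebra ℤ (DeltaGrp U' U)]
    ∀ i, DFun p U' U (C i) hle :=
  LinearEquiv.ofBijective (dictLin p U' U hle C Ψ hfib heq)
    ⟨dictLin_injective p U' U hle C Ψ hfib heq hsurj,
      dictLin_surjective p U' U hle C Ψ hfib heq hsurj⟩

include hfib heq hsurj in
theorem tCount_funRep_eq_prod [Fintype ι] {n : ℕ}
    (ε : Matrix (Fin n) (Fin n) (MonoidAlgebra ℤ (DeltaGrp U' U))) :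
    tCount ε (funRep (G := DeltaGrp U' U) X (ZMod p)).asModule =
      ∏ i, tCount ε (DFun p U' U (C i) hle) := by
  rw [tCount_congr ε (dictEquiv p U' U hle C Ψ hfib heq hsurj)]
  exact tCount_pi (fun i => DFun p U' U (C i) hle) ε

end Dict

end Fermat.Agent.S56.Base.EC.PlacesAbs
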