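/-
PROJECT T (S56), block (a1-II)/B3/E3, leaf of (U) (typed by helper5 for helper17): RELATIVE
TRANSITIVITY (P1).

For a finite extension `L` of `ℚ` inside a Galois extension `K` of `ℚ` (in the application
`K = Qbar`), two valuation subrings `A`, `B` of `K` lying over the same rational prime `q` and
having the same centre on the algebraic integers of `L` are conjugate under
`Gal(K/L) = L.fixingSubgroup`.

The proof is main's `LocalBridge.exists_smul_eq_of_liesOverPrime` with the profinite group
`L.fixingSubgroup` acting on `integralClosure ℤ K`, whose ring of invariants is the ring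
`intSub L` of algebraic integers lying in `L` (infinite Galois theory).

* `exists_smul_eq_of_center`                  : generic `K`, hypothesis on the integral elements
                                                 of `K` lying in `L`;
* `exists_smul_eq_of_forall_mem_nonunits_iff` : `K = Qbar`, the literal form asked for;
* `exists_smul_eq_of_isIntegralElem`          : `K = Qbar`, integrality stated without any
                                                 `Algebra ℤ Qbar` instance;
* `exists_smul_eq_of_forall_integer`          : `K = Qbar`, hypothesis on `𝓞 ↥L`;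
* `exists_smul_eq_of_placeOf_eq`              : `K = Qbar`, hypothesis `placeOf ι A = placeOf ι B`;
* `mem_nonunits_smul_iff_of_mem_fixingSubgroup`, `placeOf_smul_eq` : the (easy) converse.
-/
import Fermat.Agent.CFT.LocalBridge.Conjugacy
import Fermat.Agent.CFT.C7.PlaceDict
import Fermat.Agent.CFT.Bridge.Levels

set_option autoImplicit false

open scoped Pointwise

namespace Fermat.Agent.S56.Base.EC.RelConj

open Fermat.Agent.CFT.Bridge Fermat.Agent.CFT.LocalBridge

section Generic

variable {K : Type*} [Field K] [Algebra ℚ K]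

/-- the algebraic integers of `K` lying in `L`, as a subalgebra of `integralClosure ℤ K` -/
def intSub (L : IntermediateField ℚ K) : Subalgebra ℤ (integralClosure ℤ K) where
  carrier := {b | (b : K) ∈ L}
  mul_mem' := fun ha hb => L.mul_mem ha hb
  one_mem' := L.one_mem
  add_mem' := fun ha hb => L.add_mem ha hb
  zero_mem' := L.zero_mem
  algebraMap_mem' := fun n => by
    change ((algebraMap ℤ (integralClosure ℤ K) n : integralClosure ℤ K) : K) ∈ L
    have h : ((algebraMap ℤ (integralClosure ℤ K) n : integralClosure ℤ K) : K) = (n : K) := by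
      simp
    rw [h]
    exact intCast_mem L n

theorem mem_intSub_iff (L : IntermediateField ℚ K) (b : integralClosure ℤ K) :
    b ∈ intSub L ↔ (b : K) ∈ L := Iff.rfl

theorem coe_smul_eq (L : IntermediateField ℚ K) (g : ↥L.fixingSubgroup)
    (b : integralClosure ℤ K) :
    ((g • b : integralClosure ℤ K) : K) = (g : K ≃ₐ[ℚ] K) (b : K) :=
  rfl

theorem smul_eq_of_mem_intSub (L : IntermediateField ℚ K) (g : ↥L.fixingSubgroup)
    (a : ↥(intSub L)) : g • (a : integralClosure ℤ K) = a := by
  apply Subtype.ext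
  rw [coe_smul_eq]
  exact (IntermediateField.mem_fixingSubgroup_iff L (g : K ≃ₐ[ℚ] K)).1 g.2 _ a.2

/-- the actions of `Gal(K/L)` and of `intSub L` on `integralClosure ℤ K` commute (a theorem, not
an instance: it is installed locally in the proof of `exists_smul_eq_of_center`) -/
theorem smulCommClass_intSub (L : IntermediateField ℚ K) :
    SMulCommClass ↥L.fixingSubgroup ↥(intSub L) (integralClosure ℤ K) where
  smul_comm g a b := by
    change g • ((a : integralClosure ℤ K) * b) = (a : integralClosure ℤ K) * g • b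
    rw [smul_mul', smul_eq_of_mem_intSub]

theorem isInvariant_intSub [IsGalois ℚ K] (L : IntermediateField ℚ K) :
    Algebra.IsInvariant ↥(intSub L) (integralClosure ℤ K) ↥L.fixingSubgroup := by
  refine ⟨fun b hb => ?_⟩
  have hmem : (b : K) ∈ IntermediateField.fixedField L.fixingSubgroup := by
    rw [IntermediateField.mem_fixedField_iff]
    intro g hg
    have := congrArg (fun z : integralClosure ℤ K => (z : K)) (hb ⟨g, hg⟩)
    exact this
  rw [InfiniteGalois.fixedField_fixingSubgroup] at hmem
  exact ⟨⟨b, hmem⟩, rfl⟩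

/-- **Relative transitivity (P1)**, generic form.  Two valuation subrings of a Galois extension
`K` of `ℚ` over `q` with the same centre on the algebraic integers of `L` are conjugate under
`Gal(K/L)`. -/
theorem exists_smul_eq_of_center [IsGalois ℚ K] (L : IntermediateField ℚ K)
    [FiniteDimensional ℚ L] {q : ℕ} (hq : q.Prime) {A B : ValuationSubring K}
    (hA : A.LiesOverPrime q) (hB : B.LiesOverPrime q)
    (h : ∀ x : K, x ∈ L → IsIntegral ℤ x → (x ∈ A.nonunits ↔ x ∈ B.nonunits)) :
    ∃ u : K ≃ₐ[ℚ] K, u ∈ L.fixingSubgroup ∧ u • A = B := by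
  let _ : TopologicalSpace (integralClosure ℤ K) := ⊥
  have : DiscreteTopology (integralClosure ℤ K) := ⟨rfl⟩
  have hcG : ContinuousSMul (K ≃ₐ[ℚ] K) (integralClosure ℤ K) := by
    rw [continuousSMul_iff_stabilizer_isOpen]
    intro b
    have h := stabilizer_isOpen_of_isIntegral (K := ℚ) (b : K)
    convert h using 1
    ext g
    simp only [SetLike.mem_coe, MulAction.mem_stabilizer_iff]
    exact Subtype.ext_iff
  have : ContinuousSMul ↥L.fixingSubgroup (integralClosure ℤ K) := inferInstance
  have : CompactSpace ↥L.fixingSubgroup :=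
    isCompact_iff_compactSpace.1 (IntermediateField.fixingSubgroup_isClosed L).isCompact
  have : Algebra.IsInvariant ↥(intSub L) (integralClosure ℤ K) ↥L.fixingSubgroup :=
    isInvariant_intSub L
  have : SMulCommClass ↥L.fixingSubgroup ↥(intSub L) (integralClosure ℤ K) :=
    smulCommClass_intSub L
  have hun : (center A).under ↥(intSub L) = (center B).under ↥(intSub L) := by
    ext a
    rw [Ideal.under_def, Ideal.under_def, Ideal.mem_comap, Ideal.mem_comap]
    change ((a : integralClosure ℤ K) : K) ∈ A.nonunits ↔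
      ((a : integralClosure ℤ K) : K) ∈ B.nonunits
    exact h _ a.2 (a : integralClosure ℤ K).2
  obtain ⟨σ, hσ⟩ := Algebra.IsInvariant.exists_smul_of_under_eq_of_profinite
    (A := ↥(intSub L)) (G := ↥L.fixingSubgroup) (center A) (center B) hun
  refine ⟨(σ : K ≃ₐ[ℚ] K), σ.2, ?_⟩
  have hσ' : center B = center ((σ : K ≃ₐ[ℚ] K) • A) := by
    rw [center_smul]
    exact hσ
  have hσA : ((σ : K ≃ₐ[ℚ] K) • A).LiesOverPrime q := by
    rw [ValuationSubring.LiesOverPrime, smul_nonunits_iff, map_natCast]; exact hA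
  have key : ∀ y : K, IsIntegral ℤ y →
      (y ∈ B.nonunits ↔ y ∈ ((σ : K ≃ₐ[ℚ] K) • A).nonunits) := by
    intro y hy
    have := congrArg
      (fun I : Ideal (integralClosure ℤ K) => (⟨y, hy⟩ : integralClosure ℤ K) ∈ I) hσ'
    simp only [mem_center_iff, eq_iff_iff] at this
    exact this
  apply le_antisymm
  · exact le_of_integral_nonunits_le hq hσA fun y hy h => (key y hy).mp h
  · exact le_of_integral_nonunits_le hq hB fun y hy h => (key y hy).mpr h

/-- conjugation preserves `LiesOverPrime` -/
theorem liesOverPrime_smul (A : ValuationSubring K) (u : K ≃ₐ[ℚ] K) {q : ℕ}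
    (hA : A.LiesOverPrime q) : (u • A).LiesOverPrime q := by
  rw [ValuationSubring.LiesOverPrime, smul_nonunits_iff, map_natCast]; exact hA

/-- the converse of (P1): conjugation by `Gal(K/L)` does not change the centre on `L` -/
theorem mem_nonunits_smul_iff_of_mem_fixingSubgroup (L : IntermediateField ℚ K)
    {u : K ≃ₐ[ℚ] K} (hu : u ∈ L.fixingSubgroup) (A : ValuationSubring K) {x : K} (hx : x ∈ L) :
    x ∈ (u • A).nonunits ↔ x ∈ A.nonunits := by
  rw [smul_nonunits_iff]
  have h : u⁻¹ x = x :=
    (IntermediateField.mem_fixingSubgroup_iff L u⁻¹).1 (L.fixingSubgroup.inv_mem hu) x hx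
  rw [h]

end Generic

/-! ### Integrality over `ℤ`, independently of the chosen `Algebra ℤ _` instance -/

/-- `IsIntegral ℤ x`, for ANY `Algebra ℤ R` instance, is integrality with respect to
`Int.castRingHom R`. -/
theorem isIntegral_int_iff_isIntegralElem {R : Type*} [CommRing R] [inst : Algebra ℤ R] (x : R) :
    @IsIntegral ℤ R _ _ inst x ↔ (Int.castRingHom R).IsIntegralElem x := by
  have h : @algebraMap ℤ R _ _ inst = Int.castRingHom R := RingHom.ext_int _ _
  unfold IsIntegral
  rw [h]

/-- integrality descends along an (injective) ring homomorphism of fields -/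
theorem isIntegral_int_of_map {F Ω : Type*} [Field F] [Field Ω] (ι : F →+* Ω) {y : F}
    (h : IsIntegral ℤ (ι y)) : IsIntegral ℤ y :=
  (isIntegral_algHom_iff ι.toIntAlgHom ι.injective).1 h

/-! ### The case `K = Qbar` -/

section Qbar

open NumberField Fermat.Agent.CFT.C7.PlaceDict

/-- **Relative transitivity (P1)**, integrality stated without any `Algebra ℤ Qbar` instance. -/
theorem exists_smul_eq_of_isIntegralElem (L : IntermediateField ℚ Qbar)
    [FiniteDimensional ℚ L] {q : ℕ} (hq : q.Prime) {A B : ValuationSubring Qbar}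
    (hA : A.LiesOverPrime q) (hB : B.LiesOverPrime q)
    (h : ∀ x : Qbar, x ∈ L → (Int.castRingHom Qbar).IsIntegralElem x →
      (x ∈ A.nonunits ↔ x ∈ B.nonunits)) :
    ∃ u : GQ, u ∈ L.fixingSubgroup ∧ u • A = B :=
  exists_smul_eq_of_center L hq hA hB fun x hx hint =>
    h x hx ((isIntegral_int_iff_isIntegralElem x).1 hint)

/-- **Relative transitivity (P1)**, the literal form (helper17 #4116 (3)). -/
theorem exists_smul_eq_of_forall_mem_nonunits_iff (L : IntermediateField ℚ Qbar)
    [FiniteDimensional ℚ L] {q : ℕ} (hq : q.Prime) {A B : ValuationSubring Qbar}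
    (hA : A.LiesOverPrime q) (hB : B.LiesOverPrime q)
    (h : ∀ x : Qbar, x ∈ L → IsIntegral ℤ x → (x ∈ A.nonunits ↔ x ∈ B.nonunits)) :
    ∃ u : GQ, u ∈ L.fixingSubgroup ∧ u • A = B :=
  exists_smul_eq_of_isIntegralElem L hq hA hB fun x hx hint =>
    h x hx ((isIntegral_int_iff_isIntegralElem x).2 hint)

/-- The same with ANY `Algebra ℤ Qbar` instance in the hypothesis. -/
theorem exists_smul_eq_of_forall_mem_nonunits_iff' [inst : Algebra ℤ Qbar]
    (L : IntermediateField ℚ Qbar)
    [FiniteDimensional ℚ L] {q : ℕ} (hq : q.Prime) {A B : ValuationSubring Qbar}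
    (hA : A.LiesOverPrime q) (hB : B.LiesOverPrime q)
    (h : ∀ x : Qbar, x ∈ L → @IsIntegral ℤ Qbar _ _ inst x →
      (x ∈ A.nonunits ↔ x ∈ B.nonunits)) :
    ∃ u : GQ, u ∈ L.fixingSubgroup ∧ u • A = B :=
  exists_smul_eq_of_isIntegralElem L hq hA hB fun x hx hint =>
    h x hx ((isIntegral_int_iff_isIntegralElem x).2 hint)

/-- **Relative transitivity (P1)**, hypothesis on the ring of integers of `L`. -/
theorem exists_smul_eq_of_forall_integer (L : IntermediateField ℚ Qbar)
    [FiniteDimensional ℚ L] {q : ℕ} (hq : q.Prime) {A B : ValuationSubring Qbar}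
    (hA : A.LiesOverPrime q) (hB : B.LiesOverPrime q)
    (h : ∀ x : 𝓞 ↥L, (((algebraMap (𝓞 ↥L) ↥L x : ↥L) : Qbar) ∈ A.nonunits ↔
      ((algebraMap (𝓞 ↥L) ↥L x : ↥L) : Qbar) ∈ B.nonunits)) :
    ∃ u : GQ, u ∈ L.fixingSubgroup ∧ u • A = B := by
  refine exists_smul_eq_of_center L hq hA hB fun x hx hint => ?_
  have hy : IsIntegral ℤ (⟨x, hx⟩ : ↥L) :=
    isIntegral_int_of_map (algebraMap ↥L Qbar) (y := ⟨x, hx⟩) hint
  exact h ⟨⟨x, hx⟩, hy⟩

/-- **Relative transitivity (P1)**, hypothesis `placeOf ι A = placeOf ι B` for the inclusion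
`ι : ↥L →+* Qbar` (main's `C7/PlaceDict`). -/
theorem exists_smul_eq_of_placeOf_eq (L : IntermediateField ℚ Qbar)
    [FiniteDimensional ℚ L] [NumberField ↥L] (ι : ↥L →+* Qbar) (hι : ∀ y : ↥L, ι y = (y : Qbar))
    {q : ℕ} (hq : q.Prime) {A B : ValuationSubring Qbar}
    (hA : A.LiesOverPrime q) (hB : B.LiesOverPrime q)
    (h : placeOf ι hq.ne_zero hA = placeOf ι hq.ne_zero hB) :
    ∃ u : GQ, u ∈ L.fixingSubgroup ∧ u • A = B := by
  refine exists_smul_eq_of_forall_integer L hq hA hB fun x => ?_
  have h1 := mem_placeOf_iff ι hq.ne_zero hA x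
  have h2 := mem_placeOf_iff ι hq.ne_zero hB x
  rw [hι] at h1 h2
  rw [← h1, ← h2, h]

/-- the converse of (P1) for `placeOf`: conjugation by `Gal(Qbar/L)` does not change the place
of `L`. -/
theorem placeOf_smul_eq (L : IntermediateField ℚ Qbar) [NumberField ↥L] (ι : ↥L →+* Qbar)
    (hι : ∀ y : ↥L, ι y = (y : Qbar)) {q : ℕ} (hq : q ≠ 0) {A : ValuationSubring Qbar}
    (hA : A.LiesOverPrime q) {u : GQ} (hu : u ∈ L.fixingSubgroup) :
    placeOf ι hq (liesOverPrime_smul A u hA) = placeOf ι hq hA := by
  apply IsDedekindDomain.HeightOneSpectrum.ext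
  ext x
  have h1 := mem_placeOf_iff ι hq (liesOverPrime_smul A u hA) x
  have h2 := mem_placeOf_iff ι hq hA x
  rw [hι] at h1 h2
  rw [h1, h2]
  exact mem_nonunits_smul_iff_of_mem_fixingSubgroup L hu A (algebraMap (𝓞 ↥L) ↥L x : ↥L).2

end Qbar

end Fermat.Agent.S56.Base.EC.RelConj
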