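/-
PROJECT T (S56), block (a1-II)/B3/E3, leaf of (U) (typed by helper5 for helper17 #4219): THE FINITE
PLACES OF A NUMBER FIELD `L ⊆ Qbar` AS DOUBLE COSETS.

`L` a finite extension of `ℚ` inside `Qbar`, `q` a rational prime, `P_q = primeLocalPlace q` the
prelude's place of `Qbar` over `q`.  `Psi L q g` is the place of `L` below `g • P_q`.

* (F1) `natPrime_Psi`  : `Psi L q g` lies over `q`;
* (F2) `exists_Psi_eq` : every finite place `w` of `L` is `Psi L (natPrime w) g` for some `g`;
* (F3) `Psi_eq_iff`    : `Psi L q g = Psi L q g'` iff `g' = u * g * c` with `u ∈ Gal(Qbar/L)` and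
                         `c` in the decomposition group `(primeLocalToGlobal q).range`;
* (F4) `Psi_mul_left`  : `Psi L q (u * g) = σ (Psi L q g)` when `σ ∈ Gal(L/K)` is the restriction
                         of `u` (the action `primeAct` of main's `SUnit/TUnitsLattice`).
-/
import Fermat.Agent.S56.Base.EC.RelConj
import Fermat.Agent.CFT.SUnit.TUnitsLattice
import Fermat.Agent.CFT.C7.PlaceDict
import Fermat.Agent.CFT.LocalBridge.Decomposition
import Fermat.Prelude.Def_ExtEndgame_ProductionDatum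

set_option autoImplicit false

open scoped Pointwise

namespace Fermat.Agent.S56.Base.EC.PlacesFin

open Fermat.Agent.CFT.Bridge Fermat.Agent.CFT.C7.PlaceDict Fermat.Agent.CFT.C3.ClassGen
  Fermat.Agent.CFT.SUnit.TUnitsLattice Fermat.Agent.CFT.LocalBridge ExtCitation IsDedekindDomain
  NumberField Fermat.Agent.S56.Base.EC.RelConj Fermat.Agent.CFT.C3.SUnitHerbrand

/-- the prelude's place over `q` lies over `q` -/
theorem liesOverPrime_primeLocalPlace (q : Nat.Primes) :
    (primeLocalPlace q).LiesOverPrime (q : ℕ) := by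
  let _ : Fact (q : ℕ).Prime := ⟨q.2⟩
  exact liesOverPrime_padicPlace (q : ℕ)

/-- the range of the prelude's local-to-global map is the stabiliser of the prelude's place -/
theorem mem_range_primeLocalToGlobal_iff (q : Nat.Primes) (c : GQ) :
    c ∈ (primeLocalToGlobal q).range ↔ c • primeLocalPlace q = primeLocalPlace q := by
  let _ : Fact (q : ℕ).Prime := ⟨q.2⟩
  have h : (primeLocalToGlobal q).range = (padicPlace (q : ℕ)).decompositionSubgroup ℚ :=
    range_localGaloisToGlobal (q : ℕ)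
  rw [h]
  exact MulAction.mem_stabilizer_iff

/-- every valuation subring of `Qbar` over `q` is a conjugate of the prelude's place -/
theorem exists_smul_primeLocalPlace_eq (q : Nat.Primes) {A : ValuationSubring Qbar}
    (hA : A.LiesOverPrime (q : ℕ)) : ∃ g : GQ, g • primeLocalPlace q = A := by
  let _ : Fact (q : ℕ).Prime := ⟨q.2⟩
  exact exists_smul_padicPlace_eq (q : ℕ) hA

variable (L : IntermediateField ℚ Qbar) [NumberField ↥L]

/-- **The place of `L` below `g • P_q`.** -/
noncomputable def Psi (q : Nat.Primes) (g : GQ) : HeightOneSpectrum (𝓞 ↥L) :=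
  placeOf (L.val : ↥L →+* Qbar) q.2.ne_zero
    (liesOverPrime_smul (primeLocalPlace q) g (liesOverPrime_primeLocalPlace q))

theorem mem_Psi_iff (q : Nat.Primes) (g : GQ) (x : 𝓞 ↥L) :
    x ∈ (Psi L q g).asIdeal ↔
      ((algebraMap (𝓞 ↥L) ↥L x : ↥L) : Qbar) ∈ (g • primeLocalPlace q).nonunits := Iff.rfl

/-- `Psi` only depends on the valuation subring `g • P_q` -/
theorem Psi_eq_placeOf (q : Nat.Primes) (g : GQ) {A : ValuationSubring Qbar}
    (hA : A.LiesOverPrime (q : ℕ)) (h : g • primeLocalPlace q = A) :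
    Psi L q g = placeOf (L.val : ↥L →+* Qbar) q.2.ne_zero hA := by
  subst h
  rfl

/-- **(F1)** `Psi L q g` lies over `q`. -/
theorem natPrime_Psi (q : Nat.Primes) (g : GQ) : natPrime ↥L (Psi L q g) = q :=
  natPrime_placeOf (L.val : ↥L →+* Qbar) q _

/-- **(F2)** every finite place of `L` is a `Psi`. -/
theorem exists_Psi_eq (w : HeightOneSpectrum (𝓞 ↥L)) :
    ∃ g : GQ, Psi L (natPrime ↥L w) g = w := by
  obtain ⟨A, hA, hw⟩ := exists_placeOf_eq (L.val : ↥L →+* Qbar) w
  obtain ⟨g, hg⟩ := exists_smul_primeLocalPlace_eq (natPrime ↥L w) hA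
  exact ⟨g, (Psi_eq_placeOf L (natPrime ↥L w) g hA hg).trans hw⟩

/-- **(F3)** the fibres of `Psi L q` are the double cosets `Gal(Qbar/L) \ GQ / D_q`. -/
theorem Psi_eq_iff [FiniteDimensional ℚ L] (q : Nat.Primes) (g g' : GQ) :
    Psi L q g = Psi L q g' ↔
      ∃ u ∈ L.fixingSubgroup, ∃ c ∈ (primeLocalToGlobal q).range, g' = u * g * c := by
  constructor
  · intro h
    obtain ⟨u, hu, huA⟩ := exists_smul_eq_of_placeOf_eq L (L.val : ↥L →+* Qbar) (fun _ => rfl) q.2
      (liesOverPrime_smul (primeLocalPlace q) g (liesOverPrime_primeLocalPlace q))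
      (liesOverPrime_smul (primeLocalPlace q) g' (liesOverPrime_primeLocalPlace q)) h
    refine ⟨u, hu, (u * g)⁻¹ * g', ?_, by group⟩
    rw [mem_range_primeLocalToGlobal_iff, mul_smul, ← huA, ← mul_smul u g, inv_smul_smul]
  · rintro ⟨u, hu, c, hc, rfl⟩
    rw [mem_range_primeLocalToGlobal_iff] at hc
    have hA : (u * g * c) • primeLocalPlace q = u • (g • primeLocalPlace q) := by
      rw [mul_smul, mul_smul, hc]
    rw [Psi_eq_placeOf L q (u * g * c)
      (liesOverPrime_smul (g • primeLocalPlace q) u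
        (liesOverPrime_smul (primeLocalPlace q) g (liesOverPrime_primeLocalPlace q))) hA]
    exact (placeOf_smul_eq L (L.val : ↥L →+* Qbar) (fun _ => rfl) q.2.ne_zero
      (liesOverPrime_smul (primeLocalPlace q) g (liesOverPrime_primeLocalPlace q)) hu).symm

/-- **(F4)** left translation by `u` is the Galois action of the restriction of `u` to `L`. -/
theorem Psi_mul_left {K : Type} [Field K] [NumberField K] [Algebra K ↥L] [IsGalois K ↥L]
    (u : GQ) (σ : ↥L ≃ₐ[K] ↥L) (hσ : ∀ a : ↥L, ((σ a : ↥L) : Qbar) = u (a : Qbar))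
    (q : Nat.Primes) (g : GQ) : Psi L q (u * g) = primeAct K ↥L σ (Psi L q g) := by
  apply HeightOneSpectrum.ext
  ext r
  rw [mem_primeAct, mem_Psi_iff, mem_Psi_iff, smul_nonunits_iff, smul_nonunits_iff]
  have h1 : ((algebraMap (𝓞 ↥L) ↥L (galE K ↥L σ⁻¹ r) : ↥L) : Qbar) =
      u⁻¹ ((algebraMap (𝓞 ↥L) ↥L r : ↥L) : Qbar) := by
    rw [← galE_spec]
    have h2 := hσ (σ⁻¹ (algebraMap (𝓞 ↥L) ↥L r))
    have h3 : σ (σ⁻¹ (algebraMap (𝓞 ↥L) ↥L r)) = algebraMap (𝓞 ↥L) ↥L r :=
      AlgEquiv.apply_symm_apply σ _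
    rw [h3] at h2
    rw [h2]
    exact (AlgEquiv.symm_apply_apply u _).symm
  rw [h1]
  rfl

end Fermat.Agent.S56.Base.EC.PlacesFin
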