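/-
PROJECT T (S56), block (a1-II)/B3/E3, file 4c (helper17): LOCALISATION AT THE INTEGERS PRIME TO `p`
DOES NOT CHANGE `X/p` AND `X[p]`, AND COMMUTES WITH THE INVARIANTS OF AN OPEN SUBGROUP.

* `modPEquivOfLoc`, `torPEquivOfLoc`: for an `R`-linear map `f : X → Y` which is a localisation at
  the integers prime to `p` (elementwise form `IsPLoc`): `X/p ≃ Y/p`, `X[p] ≃ Y[p]`;
* `isPLoc_invariants`: for `f : X → Y` with `IsLocRep (primeTo p) X Y f` (main, `A7/BaseChange`),
  `X` smooth for levels of finite index and ANY subgroup `U'`: the restriction of `f` to the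
  `U'`-invariants is again a localisation at the integers prime to `p`;
* `tCount_modP_invMod_EK`, `tCount_torP_invMod_EK`, `finite_modP_invMod_EK_iff`: the frame of E3.
-/
import Fermat.Agent.S56.Base.EC.H0Dict
import Fermat.Agent.S56.Base.EC.UnitsAbs
import Fermat.Agent.S56.Base.EC.Frame
import Fermat.Agent.CFT.A7.ClassFormationBaseChange

set_option autoImplicit false

noncomputable section

namespace Fermat.Agent.S56.Base.EC.UnitsLoc

open Fermat.Agent.S56.Base.EC Fermat.Agent.S56.Base.EC.UnitsAbs Fermat.Agent.S56.Base.EC.H0Dict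
open Fermat.Agent.CFT.A7.BaseChange Fermat.Agent.CFT.LC

/-! ### Localisation at the integers prime to `p`, elementwise -/

section PLoc

variable {R : Type*} [Ring R] (p : ℕ) [Fact p.Prime]
variable {X Y : Type*} [AddCommGroup X] [Module R X] [AddCommGroup Y] [Module R Y]

/-- `f : X → Y` is a localisation at the integers prime to `p` -/
structure IsPLoc (f : X →ₗ[R] Y) : Prop where
  eq_zero : ∀ x : X, f x = 0 → ∃ t ∈ primeTo p, t • x = 0
  surj : ∀ y : Y, ∃ s ∈ primeTo p, ∃ x : X, s • y = f x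

variable {p}

theorem exists_bezout {s : ℤ} (hs : s ∈ primeTo p) : ∃ a b : ℤ, a * s + b * (p : ℤ) = 1 := by
  have h := isCoprime_pow_of_mem_primeTo (p := p) hs 1
  rw [pow_one] at h
  obtain ⟨b, a, hab⟩ := h
  exact ⟨a, b, by rw [add_comm]; exact hab⟩

omit [Fact p.Prime] in
theorem natCast_zsmul' (x : X) : ((p : ℕ) : ℤ) • x = p • x := natCast_zsmul x p

variable {f : X →ₗ[R] Y}

theorem IsPLoc.modPMap_injective (hf : IsPLoc p f) : Function.Injective (modPMap p f) := by
  rw [injective_iff_map_eq_zero]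
  intro x hx
  obtain ⟨x, rfl⟩ := Submodule.Quotient.mk_surjective _ x
  rw [modPMap_mk, modP_mk_eq_zero_iff] at hx
  obtain ⟨y, hy⟩ := hx
  obtain ⟨s, hs, x', hx'⟩ := hf.surj y
  have h0 : f (s • x - p • x') = 0 := by
    rw [map_sub, map_zsmul, map_nsmul, ← hy, ← hx', smul_comm, sub_self]
  obtain ⟨t, ht, htx⟩ := hf.eq_zero _ h0
  obtain ⟨a, b, hab⟩ := exists_bezout ((primeTo p).mul_mem ht hs)
  rw [modP_mk_eq_zero_iff]
  refine ⟨a • t • x' + b • x, ?_⟩
  have h1 : t • s • x = t • p • x' := by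
    rw [smul_sub, sub_eq_zero] at htx
    exact htx
  calc p • (a • t • x' + b • x) = a • (t • p • x') + (b * (p : ℤ)) • x := by
        rw [smul_add, mul_smul, natCast_zsmul', smul_comm p a, smul_comm p t, smul_comm p b]
    _ = (a * (t * s)) • x + (b * (p : ℤ)) • x := by
        rw [← h1]
        congr 1
        rw [mul_smul, mul_smul]
    _ = x := by rw [← add_smul, hab, one_smul]

theorem IsPLoc.modPMap_surjective (hf : IsPLoc p f) : Function.Surjective (modPMap p f) := by
  intro y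
  obtain ⟨y, rfl⟩ := Submodule.Quotient.mk_surjective _ y
  obtain ⟨s, hs, x, hx⟩ := hf.surj y
  obtain ⟨a, b, hab⟩ := exists_bezout hs
  refine ⟨Submodule.Quotient.mk (a • x), ?_⟩
  rw [modPMap_mk, ← sub_eq_zero, ← Submodule.Quotient.mk_sub, modP_mk_eq_zero_iff]
  refine ⟨-(b • y), ?_⟩
  have h1 : y = (a * s) • y + (b * (p : ℤ)) • y := by rw [← add_smul, hab, one_smul]
  rw [map_zsmul, ← hx, smul_neg, ← natCast_zsmul', ← mul_smul, mul_comm (p : ℤ) b, ← mul_smul]
  nth_rewrite 3 [h1]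
  abel

/-- **`X/p ≃ Y/p`** for a localisation at the integers prime to `p` -/
def modPEquivOfLoc (hf : IsPLoc p f) : modP R p X ≃ₗ[R] modP R p Y :=
  LinearEquiv.ofBijective (modPMap p f) ⟨hf.modPMap_injective, hf.modPMap_surjective⟩

/-- the map induced on `p`-torsion -/
def torPMap (p : ℕ) (f : X →ₗ[R] Y) : torP R p X →ₗ[R] torP R p Y :=
  (f ∘ₗ (torP R p X).subtype).codRestrict (torP R p Y) (fun x => by
    rw [LinearMap.mem_ker, pMul_apply, LinearMap.comp_apply, ← map_nsmul]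
    have hx : p • (x : X) = 0 := x.2
    rw [Submodule.subtype_apply, hx, map_zero])

omit [Fact p.Prime] in
@[simp] theorem torPMap_coe (x : torP R p X) : ((torPMap p f x : torP R p Y) : Y) = f x := rfl

theorem IsPLoc.torPMap_injective (hf : IsPLoc p f) : Function.Injective (torPMap p f) := by
  rw [injective_iff_map_eq_zero]
  intro x hx
  have hfx : f (x : X) = 0 := congrArg Subtype.val hx
  obtain ⟨t, ht, htx⟩ := hf.eq_zero _ hfx
  obtain ⟨a, b, hab⟩ := exists_bezout ht
  have hpx : p • (x : X) = 0 := x.2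
  apply Subtype.ext
  calc (x : X) = (a * t) • (x : X) + (b * (p : ℤ)) • (x : X) := by
        rw [← add_smul, hab, one_smul]
    _ = 0 := by rw [mul_smul, htx, smul_zero, mul_smul, natCast_zsmul', hpx, smul_zero, add_zero]

theorem IsPLoc.torPMap_surjective (hf : IsPLoc p f) : Function.Surjective (torPMap p f) := by
  intro y
  have hpy : p • (y : Y) = 0 := y.2
  obtain ⟨s, hs, x, hx⟩ := hf.surj (y : Y)
  have h0 : f (p • x) = 0 := by
    rw [map_nsmul, ← hx, smul_comm, hpy, smul_zero]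
  obtain ⟨t, ht, htx⟩ := hf.eq_zero _ h0
  obtain ⟨a, b, hab⟩ := exists_bezout ((primeTo p).mul_mem ht hs)
  have hmem : a • t • x ∈ torP R p X := by
    rw [LinearMap.mem_ker, pMul_apply, smul_comm p a, smul_comm p t, htx, smul_zero]
  refine ⟨⟨a • t • x, hmem⟩, Subtype.ext ?_⟩
  rw [torPMap_coe]
  change f (a • t • x) = (y : Y)
  calc f (a • t • x) = (a * (t * s)) • (y : Y) := by
        rw [map_zsmul, map_zsmul, ← hx, mul_smul, mul_smul]
    _ = (a * (t * s)) • (y : Y) + (b * (p : ℤ)) • (y : Y) := by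
        rw [mul_smul b, natCast_zsmul', hpy, smul_zero, add_zero]
    _ = (y : Y) := by rw [← add_smul, hab, one_smul]

/-- **`X[p] ≃ Y[p]`** for a localisation at the integers prime to `p` -/
def torPEquivOfLoc (hf : IsPLoc p f) : torP R p X ≃ₗ[R] torP R p Y :=
  LinearEquiv.ofBijective (torPMap p f) ⟨hf.torPMap_injective, hf.torPMap_surjective⟩

end PLoc

/-! ### Localisation commutes with the invariants of an arbitrary subgroup of a smooth module -/

section Invariants

variable {R k G : Type} [CommRing R] [CommRing k] [Algebra R k] {M : Submonoid R} [Group G]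
  {X : Rep.{0} R G} {Y : Rep.{0} k G} {f : X.V →+ Y.V}

/-- `f` maps `U'`-invariants to `U'`-invariants -/
def invMapAdd (hf : IsLocRep M X Y f) (U' : Subgroup G) : invSub U' X →+ invSub U' Y where
  toFun x := ⟨f x.1, fun d hd => by rw [← hf.map_ρ, x.2 d hd]⟩
  map_zero' := Subtype.ext (map_zero f)
  map_add' x y := Subtype.ext (map_add f x.1 y.1)

@[simp] theorem invMapAdd_coe (hf : IsLocRep M X Y f) (U' : Subgroup G)
    (x : invSub U' X) : ((invMapAdd hf U' x : invSub U' Y) : Y.V) = f x.1 := rfl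

/-- every `U'`-invariant of the localisation has an `M`-multiple coming from a `U'`-invariant -/
theorem exists_inv_lift (hf : IsLocRep M X Y f) (𝒰 : Levels G)
    (hfin : ∀ U ∈ 𝒰.sets, U.FiniteIndex) (hsm : IsSmooth 𝒰 X) (U' : Subgroup G)
    (y : invSub U' Y) : ∃ s ∈ M, ∃ x : invSub U' X, algebraMap R k s • y.1 = f x.1 := by
  obtain ⟨s, hs, x, hx⟩ := hf.surj y.1
  obtain ⟨W, hW, hWx⟩ := hsm x
  have := 𝒰.normal W hW
  have := hfin W hW
  have : Finite (G ⧸ W) := Subgroup.finite_quotient_of_finiteIndex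
  let D : G ⧸ W → X.V := fun c => X.ρ c.out x - x
  have hD : ∀ g : G, X.ρ g x - x = D (QuotientGroup.mk g) := by
    intro g
    have h1 : g⁻¹ * (QuotientGroup.mk g : G ⧸ W).out ∈ W := by
      rw [← QuotientGroup.eq]
      simp
    have h2 : X.ρ (QuotientGroup.mk g : G ⧸ W).out x = X.ρ g x := by
      have : (QuotientGroup.mk g : G ⧸ W).out = g * (g⁻¹ * (QuotientGroup.mk g : G ⧸ W).out) := by
        group
      rw [this, map_mul, Module.End.mul_apply, hWx _ h1]
    change X.ρ g x - x = X.ρ (QuotientGroup.mk g : G ⧸ W).out x - x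
    rw [h2]
  have htors : ∀ c : {c : G ⧸ W // ∃ u ∈ U', (QuotientGroup.mk u : G ⧸ W) = c},
      ∃ t ∈ M, t • D c.1 = 0 := by
    rintro ⟨c, u, hu, rfl⟩
    apply hf.eq_zero
    rw [← hD, map_sub, hf.map_ρ, ← hx, map_smul]
    have hy : Y.ρ u y.1 = y.1 := y.2 u hu
    rw [hy, sub_self]
  obtain ⟨t, ht, htD⟩ := exists_common_annihilator (M := M)
    (fun c : {c : G ⧸ W // ∃ u ∈ U', (QuotientGroup.mk u : G ⧸ W) = c} => D c.1) htors
  have hinv : ∀ u ∈ U', X.ρ u (t • x) = t • x := by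
    intro u hu
    have h3 := htD ⟨QuotientGroup.mk u, u, hu, rfl⟩
    change t • D (QuotientGroup.mk u) = 0 at h3
    rw [← hD, smul_sub, sub_eq_zero] at h3
    rw [map_smul, h3]
  refine ⟨t * s, M.mul_mem ht hs, ⟨t • x, hinv⟩, ?_⟩
  change algebraMap R k (t * s) • y.1 = f (t • x)
  rw [map_mul, mul_smul, hx, hf.map_smul]

end Invariants

/-! ### The frame of E3: `(E_S ⊗ ℤ_(p))^{U'}` against `E_S^{U'}` -/

section Frame

open Fermat.Agent.CFT.Bridge Fermat.Agent.CFT.Idele Fermat.Agent.CFT.D.ZpModel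
  Fermat.Agent.CFT.D.DatumBuild

variable {G : Type} [Group G] {k : Type} [CommRing k] {p : ℕ} [Fact p.Prime]
  {X : Rep.{0} ℤ G} {Y : Rep.{0} k G} {f : X.V →+ Y.V}
  (U' U : Subgroup G) [(U'.subgroupOf U).Normal] (hle : U' ≤ U)

/-- the `ℤ[Δ]`-linear map `X^{U'} → Y^{U'}` induced by a localisation `f : X → Y` -/
def invModMap (hf : IsLocRep (primeTo p) X Y f) :
    InvMod U' X U hle →ₗ[MonoidAlgebra ℤ (DeltaGrp U' U)] InvMod U' Y U hle :=
  asModuleHom (invRep U' X U hle) (invRep U' Y U hle) (invMapAdd hf U') (by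
    intro δ x
    obtain ⟨u, rfl⟩ := QuotientGroup.mk_surjective δ
    apply Subtype.ext
    exact hf.map_ρ (u : G) x.1)

theorem invModMap_coe (hf : IsLocRep (primeTo p) X Y f) (x : InvMod U' X U hle) :
    (((invRep U' Y U hle).asModuleEquiv (invModMap U' U hle hf x) : invSub U' Y) : Y.V) =
      f ((invRep U' X U hle).asModuleEquiv x : invSub U' X).1 := rfl

/-- the map `X^{U'} → Y^{U'}` is a localisation at the integers prime to `p` -/
theorem isPLoc_invModMap (hf : IsLocRep (primeTo p) X Y f) (𝒰 : Levels G)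
    (hfin : ∀ V ∈ 𝒰.sets, V.FiniteIndex) (hsm : IsSmooth 𝒰 X) :
    IsPLoc p (invModMap U' U hle hf) where
  eq_zero x hx := by
    have h0 : f ((invRep U' X U hle).asModuleEquiv x : invSub U' X).1 = 0 := by
      rw [← invModMap_coe U' U hle hf x, hx]
      rfl
    obtain ⟨t, ht, htx⟩ := hf.eq_zero _ h0
    refine ⟨t, ht, ?_⟩
    apply (invRep U' X U hle).asModuleEquiv.injective
    rw [map_zsmul, map_zero]
    apply Subtype.ext
    refine Eq.trans ?_ htx
    exact (int_smul_eq_zsmul X.hV2 t _).symm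
  surj y := by
    obtain ⟨s, hs, x, hx⟩ := exists_inv_lift hf 𝒰 hfin hsm U'
      ((invRep U' Y U hle).asModuleEquiv y)
    refine ⟨s, hs, (invRep U' X U hle).asModuleEquiv.symm x, ?_⟩
    apply (invRep U' Y U hle).asModuleEquiv.injective
    rw [map_zsmul]
    apply Subtype.ext
    rw [invModMap_coe, LinearEquiv.apply_symm_apply, ← hx, eq_intCast, Int.cast_smul_eq_zsmul]
    rfl

end Frame

/-! ### `H⁰(U', E_S ⊗ ℤ_(p))` against `E_S^{U'}` -/

section E3

open Fermat.Agent.CFT.Bridge Fermat.Agent.CFT.Idele Fermat.Agent.CFT.D.ZpModel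
  Fermat.Agent.CFT.D.DatumBuild

/-- the `p`-torsion of isomorphic modules -/
def torPCongr {R : Type*} [Ring R] (p : ℕ) {X Y : Type*} [AddCommGroup X] [Module R X]
    [AddCommGroup Y] [Module R Y] (e : X ≃ₗ[R] Y) : torP R p X ≃ₗ[R] torP R p Y :=
  torPCongrOfLE e.toLinearMap e.injective (fun y _ => ⟨e.symm y, e.apply_symm_apply y⟩)

variable (p : ℕ) [Fact p.Prime] (S : Finset Nat.Primes) (U' U : Subgroup GQ)
  [(U'.subgroupOf U).Normal] (hle : U' ≤ U) {n : ℕ}
  (ε : Matrix (Fin n) (Fin n) (MonoidAlgebra ℤ (DeltaGrp U' U)))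

/-- `E_S^{U'} → (E_S ⊗ ℤ_(p))^{U'}` is a localisation at the integers prime to `p` -/
theorem isPLoc_invModMap_E :
    IsPLoc p (invModMap U' U hle (isLocRep_tensorRep (k := Zp p) (primeTo p) (QS.E S))) :=
  isPLoc_invModMap U' U hle _ (levelsS S) (fun V hV => Levels.IsFin.finiteIndex V hV)
    (QS.isSmooth_E S)

/-- `t(H⁰(U', E_S ⊗ ℤ_(p))/p) = t(E_S^{U'}/p)` -/
theorem tCount_modP_HX0 :
    tCount ε (modP (MonoidAlgebra ℤ (DeltaGrp U' U)) p (HX (levelsS S) U' U hle (EK p S) 0)) =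
      tCount ε (modP (MonoidAlgebra ℤ (DeltaGrp U' U)) p (InvMod U' (QS.E S) U hle)) := by
  rw [← tCount_congr ε (modPCongr p (hx0Equiv (levelsS S) U' (EK p S) U hle))]
  exact (tCount_congr ε (modPEquivOfLoc (isPLoc_invModMap_E p S U' U hle))).symm

/-- `t(H⁰(U', E_S ⊗ ℤ_(p))[p]) = t(E_S^{U'}[p])` -/
theorem tCount_torP_HX0 :
    tCount ε (torP (MonoidAlgebra ℤ (DeltaGrp U' U)) p (HX (levelsS S) U' U hle (EK p S) 0)) =
      tCount ε (torP (MonoidAlgebra ℤ (DeltaGrp U' U)) p (InvMod U' (QS.E S) U hle)) := by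
  rw [← tCount_congr ε (torPCongr p (hx0Equiv (levelsS S) U' (EK p S) U hle))]
  exact (tCount_congr ε (torPEquivOfLoc (isPLoc_invModMap_E p S U' U hle))).symm

/-- finiteness of `H⁰(U', E_S ⊗ ℤ_(p))/p` from that of `E_S^{U'}/p` -/
theorem finite_modP_HX0
    (h : Finite (modP (MonoidAlgebra ℤ (DeltaGrp U' U)) p (InvMod U' (QS.E S) U hle))) :
    Finite (modP (MonoidAlgebra ℤ (DeltaGrp U' U)) p (HX (levelsS S) U' U hle (EK p S) 0)) :=
  Finite.of_equiv _
    ((modPEquivOfLoc (isPLoc_invModMap_E p S U' U hle)).trans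
      (modPCongr p (hx0Equiv (levelsS S) U' (EK p S) U hle))).toEquiv

end E3

end Fermat.Agent.S56.Base.EC.UnitsLoc
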