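/-
PROJECT T (S56), Base/EC, step (U), number-field leaf (helper22; literal of helper17 #4142).

`L/K` a Galois extension of number fields, `T` a finite set of primes of `K`, `Γ → Gal(L/K)` a group
homomorphism.  The `T_L`-units `AT K L T` are a `ℤ[Γ]`-module (`atRep`), and

  `t(A/p) · t(𝔽_p) = t(A[p]) · t(𝔽_p[T_L]) · t(𝔽_p[InfinitePlace L])`            (`tCount_units_nf`)

for every matrix `ε` over `ℤ[Γ]` idempotent modulo `p`: the instance of
`UnitsAbs.tCount_units_abstract` for `0 → μ → A → A/μ → 0` and the Galois-stable permutation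
sublattice `ℤ[T_L ⊔ InfinitePlace L] ↪ A/μ × ℤ` of finite index
(`CFT/SUnit/TUnitsLattice.exists_perm_embedding_TUnits`).
-/
import Fermat.Agent.S56.Base.EC.UnitsAbs
import Fermat.Agent.CFT.SUnit.TUnitsLattice

set_option autoImplicit false

noncomputable section

namespace Fermat.Agent.S56.Base.EC.UnitsNF

open Fermat.Agent.S56.Base.EC Fermat.Agent.S56.Base.EC.UnitsAbs
  Fermat.Agent.CFT.SUnit.TUnitsLattice Fermat.Agent.CFT.C3.SUnitHerbrand
  Fermat.Agent.CFT.C3.SUnitRank
open IsDedekindDomain NumberField

variable (K L : Type) [Field K] [NumberField K] [Field L] [NumberField L] [Algebra K L]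
  [IsGalois K L] (T : Finset (HeightOneSpectrum (𝓞 K))) {Γ : Type} [Group Γ]
  (e : Γ →* (L ≃ₐ[K] L))

/-! ### The representations -/

/-- The `T_L`-units as a representation of `Γ`. -/
def atRep : Representation ℤ Γ (AT K L T) where
  toFun g := galLin K L T (e g)
  map_one' := by
    refine LinearMap.ext fun x => ?_
    rw [map_one]
    exact galAdd_one K L T x
  map_mul' g h := by
    refine LinearMap.ext fun x => ?_
    rw [map_mul]
    exact galAdd_mul K L T (e g) (e h) x

theorem atRep_apply (g : Γ) (x : AT K L T) : atRep K L T e g x = galAdd K L T (e g) x := rfl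

/-- The action of `Γ` on the primes of `L` above `T` (not a global instance). -/
@[reducible] def finAction : MulAction Γ {w : HeightOneSpectrum (𝓞 L) // w ∈ above K L T} where
  smul g w := primeActT K L T (e g) w
  one_smul w := by
    change primeActT K L T (e 1) w = w
    rw [map_one]
    exact Subtype.ext (primeAct_one K L w.1)
  mul_smul g h w := by
    change primeActT K L T (e (g * h)) w = primeActT K L T (e g) (primeActT K L T (e h) w)
    rw [map_mul]
    exact Subtype.ext (primeAct_mul K L (e g) (e h) w.1)

/-- The action of `Γ` on the infinite places of `L` (not a global instance). -/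
@[reducible] def infAction : MulAction Γ (InfinitePlace L) := MulAction.compHom _ e

/-- The permutation module of functions on the primes above `T`. -/
def finRep (M : Type) [AddCommGroup M] :
    Representation ℤ Γ ({w : HeightOneSpectrum (𝓞 L) // w ∈ above K L T} → M) :=
  letI := finAction K L T e
  funRep _ M

/-- The permutation module of functions on the infinite places. -/
def infRep (M : Type) [AddCommGroup M] : Representation ℤ Γ (InfinitePlace L → M) :=
  letI := infAction K L e
  funRep _ M

/-! ### The auxiliary representations -/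

/-- The torsion `T_L`-units as a representation of `Γ`. -/
def torsRep : Representation ℤ Γ (torsT K L T) where
  toFun g := (galLin K L T (e g)).restrict (fun _ hx => galAdd_mem_torsT K L T (e g) hx)
  map_one' := by
    refine LinearMap.ext fun x => Subtype.ext ?_
    change galAdd K L T (e 1) x.1 = x.1
    rw [map_one]
    exact galAdd_one K L T x.1
  map_mul' g h := by
    refine LinearMap.ext fun x => Subtype.ext ?_
    change galAdd K L T (e (g * h)) x.1 = galAdd K L T (e g) (galAdd K L T (e h) x.1)
    rw [map_mul]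
    exact galAdd_mul K L T (e g) (e h) x.1

/-- The `T_L`-units modulo torsion as a representation of `Γ`. -/
def qRep : Representation ℤ Γ (QT K L T) where
  toFun g := galQ K L T (e g)
  map_one' := by
    refine LinearMap.ext fun x => ?_
    rw [map_one]
    exact galQ_one K L T x
  map_mul' g h := by
    refine LinearMap.ext fun x => ?_
    rw [map_mul]
    exact galQ_mul K L T (e g) (e h) x

/-- The action of `Γ` on `XT` (not a global instance). -/
@[reducible] def xtAction : MulAction Γ (XT K L T) :=
  letI := finAction K L T e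
  letI := infAction K L e
  inferInstance

theorem xtAction_smul (g : Γ) (x : XT K L T) :
    (letI := xtAction K L T e; g • x) = xAct K L T (e g) x := by
  rcases x with w | w <;> rfl

/-- The inclusion of the torsion units, `ℤ[Γ]`-linear. -/
def inclT : (torsRep K L T e).asModule →ₗ[MonoidAlgebra ℤ Γ] (atRep K L T e).asModule :=
  linOfEquivariant (torsRep K L T e) (atRep K L T e) (torsT K L T).subtype.toAddMonoidHom
    (fun _ _ => rfl)

theorem inclT_apply (t : (torsRep K L T e).asModule) :
    (atRep K L T e).asModuleEquiv (inclT K L T e t) =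
      ((torsRep K L T e).asModuleEquiv t : AT K L T) :=
  linOfEquivariant_apply _ _ _ _ t

/-- The projection to the units modulo torsion, `ℤ[Γ]`-linear. -/
def projT : (atRep K L T e).asModule →ₗ[MonoidAlgebra ℤ Γ] (qRep K L T e).asModule :=
  linOfEquivariant (atRep K L T e) (qRep K L T e) (torsT K L T).mkQ.toAddMonoidHom
    (fun _ _ => rfl)

theorem projT_apply (x : (atRep K L T e).asModule) :
    (qRep K L T e).asModuleEquiv (projT K L T e x) =
      Submodule.Quotient.mk ((atRep K L T e).asModuleEquiv x) :=
  linOfEquivariant_apply _ _ _ _ x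

theorem inclT_injective : Function.Injective (inclT K L T e) :=
  linOfEquivariant_injective _ _ _ _ (torsT K L T).injective_subtype

theorem projT_surjective : Function.Surjective (projT K L T e) :=
  linOfEquivariant_surjective _ _ _ _ (torsT K L T).mkQ_surjective

theorem exact_inclT_projT : Function.Exact (inclT K L T e) (projT K L T e) := by
  intro x
  constructor
  · intro hx
    have h1 := projT_apply K L T e x
    rw [hx, map_zero] at h1
    have h2 : (atRep K L T e).asModuleEquiv x ∈ torsT K L T :=
      (Submodule.Quotient.mk_eq_zero _).1 h1.symm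
    refine ⟨(torsRep K L T e).asModuleEquiv.symm ⟨_, h2⟩, ?_⟩
    apply (atRep K L T e).asModuleEquiv.injective
    rw [inclT_apply, LinearEquiv.apply_symm_apply]
  · rintro ⟨t, rfl⟩
    apply (qRep K L T e).asModuleEquiv.injective
    rw [projT_apply, inclT_apply, map_zero]
    exact (Submodule.Quotient.mk_eq_zero _).2 ((torsRep K L T e).asModuleEquiv t).2

/-! ### The unit count -/

section Count

variable {n p : ℕ} [Fact p.Prime]

theorem nsmul_eq_zero_QT (x : QT K L T) (h : p • x = 0) : x = 0 := by
  have hp : (p : ℤ) ≠ 0 := by exact_mod_cast (Fact.out : p.Prime).ne_zero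
  have h' : (p : ℤ) • x = 0 := by rw [Nat.cast_smul_eq_nsmul]; exact h
  exact (smul_eq_zero.mp h').resolve_left hp

/-- **Step (U) for number fields.** -/
theorem tCount_units_nf (ε : Matrix (Fin n) (Fin n) (MonoidAlgebra ℤ Γ)) (hε : IdemModP p ε) :
    tCount ε (modP (MonoidAlgebra ℤ Γ) p (atRep K L T e).asModule) *
        tCount ε (Representation.trivial ℤ Γ (ZMod p)).asModule =
      tCount ε (torP (MonoidAlgebra ℤ Γ) p (atRep K L T e).asModule) *
        (tCount ε (finRep K L T e (ZMod p)).asModule *
          tCount ε (infRep K L e (ZMod p)).asModule) := by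
  classical
  let _ := finAction K L T e
  let _ := infAction K L e
  obtain ⟨ψ0, hψ0inj, hψ0eq, hψ0fin⟩ := exists_perm_embedding_TUnits K L T
  have hQ : ∀ x : (qRep K L T e).asModule, p • x = 0 → x = 0 := by
    intro x hx
    apply (qRep K L T e).asModuleEquiv.injective
    rw [map_zero]
    apply nsmul_eq_zero_QT K L T (p := p)
    rw [← map_nsmul, hx, map_zero]
  have hZ : ∀ x : (Representation.trivial ℤ Γ ℤ).asModule, p • x = 0 → x = 0 := by
    intro x hx
    apply (Representation.trivial ℤ Γ ℤ).asModuleEquiv.injective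
    rw [map_zero]
    have h : p • (Representation.trivial ℤ Γ ℤ).asModuleEquiv x = 0 := by
      rw [← map_nsmul, hx, map_zero]
    rw [nsmul_eq_mul] at h
    exact (mul_eq_zero.mp h).resolve_left (by exact_mod_cast (Fact.out : p.Prime).ne_zero)
  -- the permutation sublattice
  have hψ0g : ∀ (g : Γ) (f : XT K L T → ℤ),
      ψ0 (funRep (XT K L T) ℤ g f) = rhoT K L T (e g) (ψ0 f) := by
    intro g f
    rw [← hψ0eq]
    congr 1
    funext y
    rw [funRep_apply, ← map_inv]
    exact congrArg f (xtAction_smul K L T e g⁻¹ y)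
  let ψ1 := linOfEquivariant (funRep (XT K L T) ℤ) (qRep K L T e)
    ((AddMonoidHom.fst (QT K L T) ℤ).comp ψ0) (fun g f => by
      change (ψ0 (funRep (XT K L T) ℤ g f)).1 = galQ K L T (e g) (ψ0 f).1
      rw [hψ0g]
      rfl)
  let ψ2 := linOfEquivariant (funRep (XT K L T) ℤ) (Representation.trivial ℤ Γ ℤ)
    ((AddMonoidHom.snd (QT K L T) ℤ).comp ψ0) (fun g f => by
      change (ψ0 (funRep (XT K L T) ℤ g f)).2 = (ψ0 f).2
      rw [hψ0g]
      rfl)
  let ψ := LinearMap.prod ψ1 ψ2
  have hψapply : ∀ f : (funRep (G := Γ) (XT K L T) ℤ).asModule,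
      ψ f = ((qRep K L T e).asModuleEquiv.symm (ψ0 ((funRep (G := Γ) (XT K L T) ℤ).asModuleEquiv f)).1,
        (Representation.trivial ℤ Γ ℤ).asModuleEquiv.symm
          (ψ0 ((funRep (G := Γ) (XT K L T) ℤ).asModuleEquiv f)).2) := fun f => rfl
  have hψ : Function.Injective ψ := by
    intro f f' h
    rw [hψapply, hψapply] at h
    apply (funRep (G := Γ) (XT K L T) ℤ).asModuleEquiv.injective
    apply hψ0inj
    exact Prod.ext ((qRep K L T e).asModuleEquiv.symm.injective (congrArg Prod.fst h))
      ((Representation.trivial ℤ Γ ℤ).asModuleEquiv.symm.injective (congrArg Prod.snd h))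
  have : Finite (((qRep K L T e).asModule × (Representation.trivial ℤ Γ ℤ).asModule) ⧸
      LinearMap.range ψ) := by
    have := hψ0fin
    have : Finite (UZT K L T ⧸ ψ0.range) := inferInstance
    let E : UZT K L T →+
        ((qRep K L T e).asModule × (Representation.trivial ℤ Γ ℤ).asModule) :=
      AddMonoidHom.prodMap (qRep K L T e).asModuleEquiv.symm.toAddEquiv.toAddMonoidHom
        (Representation.trivial ℤ Γ ℤ).asModuleEquiv.symm.toAddEquiv.toAddMonoidHom
    let φ : UZT K L T →+
        (((qRep K L T e).asModule × (Representation.trivial ℤ Γ ℤ).asModule) ⧸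
          LinearMap.range ψ) := (LinearMap.range ψ).mkQ.toAddMonoidHom.comp E
    have hφ : ψ0.range ≤ φ.ker := by
      rintro _ ⟨f, rfl⟩
      rw [AddMonoidHom.mem_ker]
      change Submodule.Quotient.mk (E (ψ0 f)) = 0
      rw [Submodule.Quotient.mk_eq_zero]
      refine ⟨(funRep (G := Γ) (XT K L T) ℤ).asModuleEquiv.symm f, ?_⟩
      rw [hψapply, LinearEquiv.apply_symm_apply]
      rfl
    refine Finite.of_surjective (QuotientAddGroup.lift ψ0.range φ hφ) ?_
    intro y
    obtain ⟨⟨q, z⟩, rfl⟩ := Submodule.Quotient.mk_surjective _ y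
    refine ⟨QuotientAddGroup.mk ((qRep K L T e).asModuleEquiv q,
      (Representation.trivial ℤ Γ ℤ).asModuleEquiv z), ?_⟩
    rw [QuotientAddGroup.lift_mk]
    change Submodule.Quotient.mk (E _) = _
    rfl
  have : Finite (torsRep K L T e).asModule := finite_torsT K L T
  have key := tCount_units_abstract hε (inclT K L T e) (projT K L T e) (inclT_injective K L T e)
    (projT_surjective K L T e) (exact_inclT_projT K L T e) hQ hZ ψ hψ
  have hX : ∀ (X : Type) [MulAction Γ X],
      IdemOn ε (funRep (G := Γ) X (ZMod p)).asModule := by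
    intro X _
    refine hε.idemOn fun y => ?_
    apply (funRep (G := Γ) X (ZMod p)).asModuleEquiv.injective
    rw [map_nsmul, map_zero]
    funext x
    rw [Pi.smul_apply, nsmul_eq_mul, ZMod.natCast_self, zero_mul, Pi.zero_apply]
  have e1 := tCount_congr ε (modPTriv Γ p)
  have e2 := tCount_congr ε (modPFunRep Γ (XT K L T) p)
  have e3 := tCount_congr ε (funRepSum (G := Γ)
    (X := {w : HeightOneSpectrum (𝓞 L) // w ∈ above K L T}) (Y := InfinitePlace L) (M := ZMod p))
  have e4 := tCount_prod (ε := ε)
    (hX {w : HeightOneSpectrum (𝓞 L) // w ∈ above K L T}) (hX (InfinitePlace L))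
  rw [e1, e2, e3, e4] at key
  exact key

end Count

/-! ### Finiteness -/

/-- `A/p` is finite: the `T_L`-units are a finitely generated abelian group. -/
theorem finite_modP_atRep (p : ℕ) [Fact p.Prime] :
    Finite (modP (MonoidAlgebra ℤ Γ) p (atRep K L T e).asModule) := by
  let f : AT K L T →ₗ[ℤ] modP (MonoidAlgebra ℤ Γ) p (atRep K L T e).asModule :=
    ((LinearMap.range (pMul (MonoidAlgebra ℤ Γ) p (atRep K L T e).asModule)).mkQ.toAddMonoidHom.comp
      (atRep K L T e).asModuleEquiv.symm.toAddEquiv.toAddMonoidHom).toIntLinearMap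
  have hf : Function.Surjective f := by
    intro y
    obtain ⟨x, rfl⟩ := Submodule.Quotient.mk_surjective _ y
    exact ⟨(atRep K L T e).asModuleEquiv x,
      congrArg Submodule.Quotient.mk (LinearEquiv.symm_apply_apply _ x)⟩
  have : Module.Finite ℤ (modP (MonoidAlgebra ℤ Γ) p (atRep K L T e).asModule) :=
    Module.Finite.of_surjective f hf
  refine Module.finite_of_fg_torsion _ ?_
  intro x
  have hp : (p : ℤ) ≠ 0 := by exact_mod_cast (Fact.out : p.Prime).ne_zero
  refine ⟨⟨(p : ℤ), mem_nonZeroDivisors_of_ne_zero hp⟩, ?_⟩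
  change (p : ℤ) • x = 0
  rw [Nat.cast_smul_eq_nsmul]
  exact nsmul_modP x

end Fermat.Agent.S56.Base.EC.UnitsNF
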