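/-
PROJECT T (S56), block (a1-II)/B3/E3 step (U) (helper17), file 7: THE UNIT PIECE `hU` OF THE FRAME.

`hU` of `core_of_pieces` (helper11's `Frame`):
`t(H⁰(U',E)/p) · t(F_p) = t(H⁰(U',E)[p]) · ∏_{q ∈ S} t(F_p[U'\G/G_q]) · t(F_p[U'\G/⟨c⟩])`,
`E = E_S ⊗ ℤ_(p)`; and the finiteness of `H⁰(U',E)/p`.  Assembly of `UnitsLoc` (localisation),
`FieldAct` (`E_S^{U'}` = the `S`-units of `L = ℚ̄^{U'}`), `UnitsNF` (the unit theorem count for
`L/K`, `Δ → Gal(L/K)`), `PlacesFin`/`InfPlace` + `PlacesAbs` (places of `L` as double cosets).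
-/
import Fermat.Agent.S56.Base.EC.UnitsLoc
import Fermat.Agent.S56.Base.EC.FieldAct
import Fermat.Agent.S56.Base.EC.PlacesAbs
import Fermat.Agent.S56.Base.EC.UnitsNF
import Fermat.Agent.S56.Base.EC.PlacesFin
import Fermat.Agent.S56.Base.EC.InfPlace

set_option autoImplicit false
set_option linter.style.haveILetI false

noncomputable section

namespace Fermat.Agent.S56.Base.EC.UnitsClass

open Fermat.Agent.S56.Base.EC Fermat.Agent.S56.Base.EC.UnitsAbs Fermat.Agent.S56.Base.EC.H0Dict
open Fermat.Agent.S56.Base.EC.UnitsLoc Fermat.Agent.S56.Base.EC.FieldAct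
open Fermat.Agent.S56.Base.EC.PlacesAbs Fermat.Agent.S56.Base.EC.UnitsNF
open Fermat.Agent.S56.Base.EC.PlacesFin Fermat.Agent.S56.Base.EC.InfPlace
open Fermat.Agent.CFT.Bridge Fermat.Agent.CFT.LC Fermat.Agent.CFT.Idele
open Fermat.Agent.CFT.D.DatumBuild Fermat.Agent.CFT.D.Reduce
open Fermat.Agent.CFT.SUnit.TUnitsLattice Fermat.Agent.CFT.C3.SUnitHerbrand
open Fermat.Agent.CFT.C3.ClassGen
open NumberField IsDedekindDomain ExtCitation

variable {p : ℕ} [Fact p.Prime] (S : Finset Nat.Primes) (U' U : Subgroup GQ)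
  [hn : (U'.subgroupOf U).Normal] (hle : U' ≤ U)

/-! ### the involution `c` -/

theorem eq_one_or_eq_of_mem_infGrp {c : GQ} (hc : c ∈ infGrp) :
    c = 1 ∨ c = complexConjugation := by
  obtain ⟨k, rfl⟩ := Subgroup.mem_zpowers_iff.1 hc
  have h2 : complexConjugation ^ (2 : ℤ) = 1 := by
    rw [zpow_two]
    exact complexConjugation_mul_self
  rcases Int.even_or_odd' k with ⟨m, rfl | rfl⟩
  · left
    rw [zpow_mul, h2, one_zpow]
  · right
    rw [zpow_add, zpow_mul, h2, one_zpow, one_mul, zpow_one]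

/-! ### the infinite places -/

section Inf

variable (hopen : (levelsS S).IsOpen U')

include hopen in
theorem tCount_infRep [NumberField ↥(LF U')] [IsGalois ↥(KF U' U hle) ↥(LF U')] {n : ℕ}
    (ε : Matrix (Fin n) (Fin n) (MonoidAlgebra ℤ (DeltaGrp U' U))) :
    tCount ε (infRep ↥(KF U' U hle) ↥(LF U') (eHom U' U hle) (ZMod p)).asModule =
      tCount ε (DFun p U' U infGrp hle) := by
  letI := infAction ↥(KF U' U hle) ↥(LF U') (eHom U' U hle)
  have hfix := fixingSubgroup_LF U' hopen
  have h := tCount_funRep_eq_prod p U' U hle (ι := Unit) (X := InfinitePlace ↥(LF U'))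
    (fun _ => infGrp) (fun _ g => Φ (LF U') g) (by
      intro i j g g'
      rw [Φ_eq_iff, hfix]
      constructor
      · rintro (h | h)
        · refine ⟨rfl, _, h, 1, Subgroup.one_mem _, ?_⟩
          group
        · refine ⟨rfl, _, h, complexConjugation, Subgroup.mem_zpowers _, ?_⟩
          rw [inv_mul_cancel_right, mul_assoc, complexConjugation_mul_self, mul_one]
      · rintro ⟨-, u, hu, c, hc, rfl⟩
        rcases eq_one_or_eq_of_mem_infGrp hc with rfl | rfl
        · left
          rw [mul_one, mul_inv_cancel_right]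
          exact hu
        · right
          rw [mul_assoc (u * g), complexConjugation_mul_self, mul_one, mul_inv_cancel_right]
          exact hu)
    (by
      intro i u g
      exact Φ_mul_left (LF U') (u : GQ) (eHom U' U hle (QuotientGroup.mk u))
        (eHom_mk_coe U' U hle u) g)
    (by
      intro x
      obtain ⟨g, hg⟩ := Φ_surjective (LF U') x
      exact ⟨(), g, hg⟩) ε
  rw [Fintype.prod_unique] at h
  exact h

end Inf

/-! ### the finite places -/

section Fin

variable (hopen : (levelsS S).IsOpen U')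

theorem natPrime_mem_of_mem_above [NumberField ↥(LF U')] {w : HeightOneSpectrum (𝓞 ↥(LF U'))}
    (hw : w ∈ above ↥(KF U' U hle) ↥(LF U') (TK S U' U hle)) : natPrime ↥(LF U') w ∈ S := by
  rw [above_aboveQ, mem_aboveQ] at hw
  exact hw

theorem mem_above_of_natPrime_mem [NumberField ↥(LF U')] {w : HeightOneSpectrum (𝓞 ↥(LF U'))}
    (hw : natPrime ↥(LF U') w ∈ S) : w ∈ above ↥(KF U' U hle) ↥(LF U') (TK S U' U hle) := by
  rw [above_aboveQ, mem_aboveQ]
  exact hw

/-- the finite place of `L` above `q ∈ S` attached to `g` -/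
def PsiS [FiniteDimensional ℚ (LF U')] [NumberField ↥(LF U')] (q : ↥S) (g : GQ) :
    {w : HeightOneSpectrum (𝓞 ↥(LF U')) //
      w ∈ above ↥(KF U' U hle) ↥(LF U') (TK S U' U hle)} :=
  ⟨Psi (LF U') q.1 g, mem_above_of_natPrime_mem S U' U hle (by
    rw [natPrime_Psi]
    exact q.2)⟩

include hopen in
theorem tCount_finRep [FiniteDimensional ℚ (LF U')] [NumberField ↥(LF U')]
    [IsGalois ↥(KF U' U hle) ↥(LF U')] {n : ℕ}
    (ε : Matrix (Fin n) (Fin n) (MonoidAlgebra ℤ (DeltaGrp U' U))) :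
    tCount ε (finRep ↥(KF U' U hle) ↥(LF U') (TK S U' U hle) (eHom U' U hle) (ZMod p)).asModule =
      ∏ q : ↥S, tCount ε (DFun p U' U (decompGrp S q) hle) := by
  letI := finAction ↥(KF U' U hle) ↥(LF U') (TK S U' U hle) (eHom U' U hle)
  have hfix := fixingSubgroup_LF U' hopen
  exact tCount_funRep_eq_prod p U' U hle (ι := ↥S)
    (X := {w : HeightOneSpectrum (𝓞 ↥(LF U')) //
      w ∈ above ↥(KF U' U hle) ↥(LF U') (TK S U' U hle)})
    (fun q => decompGrp S q) (fun q g => PsiS S U' U hle q g) (by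
      intro i j g g'
      constructor
      · intro h
        have h1 : Psi (LF U') i.1 g = Psi (LF U') j.1 g' := congrArg Subtype.val h
        have h2 : i.1 = j.1 := by
          rw [← natPrime_Psi (LF U') i.1 g, h1, natPrime_Psi]
        have h3 : i = j := Subtype.ext h2
        subst h3
        refine ⟨rfl, ?_⟩
        rw [Psi_eq_iff, hfix] at h1
        exact h1
      · rintro ⟨rfl, h⟩
        apply Subtype.ext
        change Psi (LF U') i.1 g = Psi (LF U') i.1 g'
        rw [Psi_eq_iff, hfix]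
        exact h)
    (by
      intro i u g
      apply Subtype.ext
      exact Psi_mul_left (LF U') (u : GQ) (eHom U' U hle (QuotientGroup.mk u))
        (eHom_mk_coe U' U hle u) i.1 g)
    (by
      rintro ⟨w, hw⟩
      obtain ⟨g, hg⟩ := exists_Psi_eq (LF U') w
      exact ⟨⟨natPrime ↥(LF U') w, natPrime_mem_of_mem_above S U' U hle hw⟩, g, Subtype.ext hg⟩) ε

end Fin

/-! ### the assembly -/

section Main

variable (hopen : (levelsS S).IsOpen U')

/-- `E_S^{U'}` is the module of `S`-units of `L`, `ℤ[Δ]`-linearly -/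
def atIso [NumberField ↥(LF U')] [IsGalois ↥(KF U' U hle) ↥(LF U')] :
    (atRep ↥(KF U' U hle) ↥(LF U') (TK S U' U hle) (eHom U' U hle)).asModule
      ≃ₗ[MonoidAlgebra ℤ (DeltaGrp U' U)] InvMod U' (QS.E S) U hle :=
  linEquivOfEquivariant _ _ (atEquiv S U' U hle hopen) (by
    intro δ x
    obtain ⟨u, rfl⟩ := QuotientGroup.mk_surjective δ
    exact atEquiv_galAdd S U' U hle hopen u x)

variable {n : ℕ} (ε : Matrix (Fin n) (Fin n) (MonoidAlgebra ℤ (DeltaGrp U' U)))

include hopen in
/-- **Step (U)**: the hypothesis `hU` of `core_of_pieces`. -/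
theorem hU (hε : IdemModP p ε) :
    tCount ε (modP (MonoidAlgebra ℤ (DeltaGrp U' U)) p
        (HX (levelsS S) U' U hle (EK p S) 0)) * tCount ε (DFun p U' U ⊤ hle) =
      tCount ε (torP (MonoidAlgebra ℤ (DeltaGrp U' U)) p
        (HX (levelsS S) U' U hle (EK p S) 0)) *
        (∏ q : ↥S, tCount ε (DFun p U' U (decompGrp S q) hle)) *
        tCount ε (DFun p U' U infGrp hle) := by
  haveI := finiteDimensional_LF U' hopen
  haveI := numberField_LF U' hopen
  haveI := finite_deltaGrp U' U hopen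
  haveI := isGalois_KF U' U hle
  rw [tCount_modP_HX0 p S U' U hle ε, tCount_torP_HX0 p S U' U hle ε,
    ← tCount_congr ε (modPCongr p (atIso S U' U hle hopen)),
    ← tCount_congr ε (torPCongr p (atIso S U' U hle hopen)),
    tCount_dfun_top p U' U hle ε, ← tCount_finRep S U' U hle hopen ε,
    ← tCount_infRep S U' U hle hopen ε, mul_assoc]
  exact tCount_units_nf ↥(KF U' U hle) ↥(LF U') (TK S U' U hle) (eHom U' U hle) ε hε

include hopen in
/-- finiteness of `H⁰(U', E_S ⊗ ℤ_(p))/p` -/
theorem finite_modP_HX0_E :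
    Finite (modP (MonoidAlgebra ℤ (DeltaGrp U' U)) p (HX (levelsS S) U' U hle (EK p S) 0)) := by
  haveI := finiteDimensional_LF U' hopen
  haveI := numberField_LF U' hopen
  haveI := finite_deltaGrp U' U hopen
  haveI := isGalois_KF U' U hle
  apply finite_modP_HX0 p S U' U hle
  haveI := finite_modP_atRep ↥(KF U' U hle) ↥(LF U') (TK S U' U hle) (eHom U' U hle) p
  exact Finite.of_equiv _ (modPCongr p (atIso S U' U hle hopen)).toEquiv

end Main

end Fermat.Agent.S56.Base.EC.UnitsClass
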