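/-
PROJECT T (S56), block (a1-II)/B3/E3 (helper11), file 10: THE HYPOTHESIS-FREE EXPORT OF E3.

`Assemble.defect_eq_zero_of_units` with the unit piece (U) plugged in (helper17
`UnitsClass.hU`, `UnitsClass.finite_modP_HX0_E`): for `p ≠ 2`, `p ∈ S`, open `U' ≤ U` in `G_{ℚ,S}`
with `U'` normal in `U` and fixing `μ_p`, `ε` idempotent modulo `p` over `ℤ[U/U']`, and
`N : Rep (ZMod p) GQ` finite whose restriction of scalars is an `ε`-summand of `(XRep μ_p)^n`:
`defect S N = 0` (Tate's global Euler characteristic formula) and `Hⁱ_S(N)`, `i ≤ 2`, are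
finite-dimensional.  `e3_export` is the same statement in the shape of `Reduce.E3Hyp p S`.
-/
import Fermat.Agent.S56.Base.EC.Assemble
import Fermat.Agent.S56.Base.EC.UnitsClass

set_option autoImplicit false

noncomputable section

namespace Fermat.Agent.S56.Base.EC

open CategoryTheory ExtCitation
open Fermat.Agent.CFT Fermat.Agent.CFT.LC Fermat.Agent.CFT.Bridge Fermat.Agent.CFT.D.Reduce
open Fermat.Agent.CFT.D.DatumBuild Fermat.Agent.CFT.D.CoeffChange Fermat.Agent.CFT.D.DualTwist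
open Fermat.Agent.CFT.D.ZpModel Fermat.Agent.CFT.A7 Fermat.Agent.CFT.A7.HomRep

variable {p : ℕ} [Fact p.Prime] {S : Finset Nat.Primes}

/-- **E3, the full statement**: defect `0` and finiteness of `Hⁱ_S(N)`, `i ≤ 2`, for
`ε`-summands of powers of `XRep μ_p`. -/
theorem defect_and_finite_of_epsSummand (hp2 : p ≠ 2) (hpS : pPrime p ∈ S)
    (U' U : Subgroup GQ) [(U'.subgroupOf U).Normal] (hle : U' ≤ U)
    (hU' : (levelsS S).IsOpen U') (hcyc : ∀ u ∈ U', cycloChar p u = 1)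
    {n : ℕ} (ε : Matrix (Fin n) (Fin n) (MonoidAlgebra ℤ (DeltaGrp U' U))) (hε : IdemModP p ε)
    (N : Rep.{0} (ZMod p) GQ) [Module.Finite (ZMod p) N.V]
    (hN : EpsSummand (levelsS S) U' U hle ε (resScalars (phi p) (chiRep (cycloChar p)))
      (resScalars (phi p) N)) :
    defect S N = 0 ∧ ∀ i, i ≤ 2 → Module.Finite (ZMod p) (H (levelsS S) N i) :=
  defect_eq_zero_of_units U' U hle ε hp2 hpS hU' hcyc hε
    (UnitsClass.hU S U' U hle hU' ε hε) (UnitsClass.finite_modP_HX0_E S U' U hle hU') N hN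

/-- **Tate's global Euler characteristic formula** for `ε`-summands of powers of `XRep μ_p` -/
theorem defect_eq_zero_of_epsSummand (hp2 : p ≠ 2) (hpS : pPrime p ∈ S)
    (U' U : Subgroup GQ) [(U'.subgroupOf U).Normal] (hle : U' ≤ U)
    (hU' : (levelsS S).IsOpen U') (hcyc : ∀ u ∈ U', cycloChar p u = 1)
    {n : ℕ} (ε : Matrix (Fin n) (Fin n) (MonoidAlgebra ℤ (DeltaGrp U' U))) (hε : IdemModP p ε)
    (N : Rep.{0} (ZMod p) GQ) [Module.Finite (ZMod p) N.V]
    (hN : EpsSummand (levelsS S) U' U hle ε (resScalars (phi p) (chiRep (cycloChar p)))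
      (resScalars (phi p) N)) :
    defect S N = 0 :=
  (defect_and_finite_of_epsSummand hp2 hpS U' U hle hU' hcyc ε hε N hN).1

/-- finiteness of `Hⁱ_S(N)`, `i ≤ 2`, for `ε`-summands of powers of `XRep μ_p` -/
theorem finite_H_of_epsSummand (hp2 : p ≠ 2) (hpS : pPrime p ∈ S)
    (U' U : Subgroup GQ) [(U'.subgroupOf U).Normal] (hle : U' ≤ U)
    (hU' : (levelsS S).IsOpen U') (hcyc : ∀ u ∈ U', cycloChar p u = 1)
    {n : ℕ} (ε : Matrix (Fin n) (Fin n) (MonoidAlgebra ℤ (DeltaGrp U' U))) (hε : IdemModP p ε)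
    (N : Rep.{0} (ZMod p) GQ) [Module.Finite (ZMod p) N.V]
    (hN : EpsSummand (levelsS S) U' U hle ε (resScalars (phi p) (chiRep (cycloChar p)))
      (resScalars (phi p) N)) (i : ℕ) (hi : i ≤ 2) :
    Module.Finite (ZMod p) (H (levelsS S) N i) :=
  (defect_and_finite_of_epsSummand hp2 hpS U' U hle hU' hcyc ε hε N hN).2 i hi

/-- E3 in the literal shape of `Reduce.E3Hyp p S` (helper26): `exact e3_export hp2 hpS`. -/
theorem e3_export (hp2 : p ≠ 2) (hpS : pPrime p ∈ S) :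
    ∀ (U' U : Subgroup GQ) [(U'.subgroupOf U).Normal] (hle : U' ≤ U),
      (levelsS S).IsOpen U' → (∀ u ∈ U', cycloChar p u = 1) →
      ∀ {n : ℕ} (ε : Matrix (Fin n) (Fin n) (MonoidAlgebra ℤ (DeltaGrp U' U))), IdemModP p ε →
      ∀ (N : Rep.{0} (ZMod p) GQ) [Module.Finite (ZMod p) N.V],
        EpsSummand (levelsS S) U' U hle ε (resScalars (phi p) (chiRep (cycloChar p)))
          (resScalars (phi p) N) →
        defect S N = 0 ∧ ∀ i, i ≤ 2 → Module.Finite (ZMod p) (H (levelsS S) N i) :=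
  fun U' U _ hle hU' hcyc _ ε hε N _ hN =>
    defect_and_finite_of_epsSummand hp2 hpS U' U hle hU' hcyc ε hε N hN

end Fermat.Agent.S56.Base.EC
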