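/-
PROJECT T (S56), block (a1-II) Base / EC (helper26): THE FINAL EXPORT OF THE EULER CHARACTERISTIC
PART, HYPOTHESIS-FREE.

`Reduce.E3Hyp p S` is helper11's `e3_export hp2 hpS` (`EC/E3Final.lean`).  Hence, for `p` odd,
`p ∈ S`, `rbar : G_ℚ →* GL₂(k)` with `det rbar = χ_p` and `ker rbar` a level of `G_{ℚ,S}`:

  **`chi_adTw_le : chi S (ad⁰ρbar(1)) ≤ -[k : 𝔽_p]`**  (helper23's literal, consumed by `Count`),

`defect S (ad⁰ρbar(1)) ≤ 0`, and `Hⁱ(G_S, ad⁰ρbar(1))` is finite-dimensional for `i ≤ 2`.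
-/
import Fermat.Agent.S56.Base.EC.ChiAdTw
import Fermat.Agent.S56.Base.EC.E3Final

set_option autoImplicit false

noncomputable section

namespace Fermat.Agent.S56.Base.EC.E3Discharge

open ExtCitation
open Fermat.Agent.CFT.LC Fermat.Agent.CFT.Bridge Fermat.Agent.CFT.D.CoeffChange
open Fermat.Agent.S56.Base.EC Fermat.Agent.S56.Coh.CocDefs

/-- the export of E3, in the shape consumed by `Reduce` -/
theorem e3Hyp {p : ℕ} [Fact p.Prime] {S : Finset Nat.Primes} (hp2 : p ≠ 2)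
    (hpS : pPrime p ∈ S) : Reduce.E3Hyp p S :=
  e3_export hp2 hpS

variable {k : Type} [Field k] [Finite k] (p : ℕ) [Fact p.Prime] [Algebra (ZMod p) k]
  (rbar : GQ →* GL (Fin 2) k)

/-- **`χ_S(ad⁰ρbar(1)) ≤ -[k : 𝔽_p]`**. -/
theorem chi_adTw_le (hp2 : p ≠ 2) (S : Finset Nat.Primes) (hpS : pPrime p ∈ S)
    (hdet : TwistDict.DetCyclo p rbar) (hker : rbar.ker ∈ (levelsS S).sets) :
    chi S (resScalars (TwistDict.phi k p) (MrepTw rbar)) ≤
      -(Module.finrank (ZMod p) k : ℤ) :=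
  ChiAdTw.chi_adTw_le_of_E3 p rbar hp2 S (e3Hyp hp2 hpS) hdet hker

/-- `defect S (ad⁰ρbar(1)) ≤ 0`. -/
theorem defect_adTw_le_zero (hp2 : p ≠ 2) (S : Finset Nat.Primes) (hpS : pPrime p ∈ S)
    (hdet : TwistDict.DetCyclo p rbar) (hker : rbar.ker ∈ (levelsS S).sets) :
    defect S (resScalars (TwistDict.phi k p) (MrepTw rbar)) ≤ 0 :=
  (ChiAdTw.defect_adTw_le_zero_of_E3 p rbar hp2 S (e3Hyp hp2 hpS) hdet hker).1

/-- `Hⁱ(G_S, ad⁰ρbar(1))` is finite-dimensional for `i ≤ 2`. -/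
theorem finite_H_adTw (hp2 : p ≠ 2) (S : Finset Nat.Primes) (hpS : pPrime p ∈ S)
    (hdet : TwistDict.DetCyclo p rbar) (hker : rbar.ker ∈ (levelsS S).sets) (i : ℕ) (hi : i ≤ 2) :
    Module.Finite (ZMod p)
      (H (levelsS S) (resScalars (TwistDict.phi k p) (MrepTw rbar)) i) :=
  ChiAdTw.finite_H_adTw_of_E3 p rbar hp2 S (e3Hyp hp2 hpS) hdet hker i hi

/-- `H¹(G_S, ad⁰ρbar(1))` is finite-dimensional. -/
theorem finite_H1_adTw (hp2 : p ≠ 2) (S : Finset Nat.Primes) (hpS : pPrime p ∈ S)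
    (hdet : TwistDict.DetCyclo p rbar) (hker : rbar.ker ∈ (levelsS S).sets) :
    Module.Finite (ZMod p)
      (H (levelsS S) (resScalars (TwistDict.phi k p) (MrepTw rbar)) 1) :=
  finite_H_adTw p rbar hp2 S hpS hdet hker 1 (by norm_num)

/-- `H²(G_S, ad⁰ρbar(1))` is finite-dimensional. -/
theorem finite_H2_adTw (hp2 : p ≠ 2) (S : Finset Nat.Primes) (hpS : pPrime p ∈ S)
    (hdet : TwistDict.DetCyclo p rbar) (hker : rbar.ker ∈ (levelsS S).sets) :
    Module.Finite (ZMod p)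
      (H (levelsS S) (resScalars (TwistDict.phi k p) (MrepTw rbar)) 2) :=
  finite_H_adTw p rbar hp2 S hpS hdet hker 2 le_rfl

end Fermat.Agent.S56.Base.EC.E3Discharge
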