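/-
PROJECT T (S56), block (a1-II)/B3/E3 (helper11), file 5d: EVALUATION AT INVARIANT ELEMENTS.

`TNLC.evMap 𝒱 B C x b = (ev_b)_* x` for `x ∈ H²_LC(G, Hom(B, C))` and `b ∈ B^G`.  This file adds:
homogeneity in `b` for the scalars of `k`, and naturality of the evaluation for morphisms of the
lattice (`homRes`), of the coefficients (`homMap`) and for localisation (`LC.map` + `locHom`).
-/
import Fermat.Agent.S56.Base.TNLC
import Fermat.Agent.CFT.D.Assemble

set_option autoImplicit false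

noncomputable section

namespace Fermat.Agent.S56.Base.EC

open CategoryTheory Fermat.Agent.CFT.LC Fermat.Agent.CFT.A7 Fermat.Agent.CFT.A7.HomRep
open Fermat.Agent.S56.Base.TNLC

variable {k : Type} [CommRing k] {G : Type} [Group G] (𝒰 : Levels G)

/-- `mapId` is homogeneous in the morphism -/
theorem mapId_apply_of_smul {A B : Rep.{0} k G} (c : k) (ψ ψ' : A ⟶ B)
    (h : ∀ a, ψ'.hom a = c • ψ.hom a) (n : ℕ) (x : H 𝒰 A n) :
    (mapId (𝒰 := 𝒰) ψ' n).hom x = c • (mapId (𝒰 := 𝒰) ψ n).hom x := by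
  induction x using H_induction_on with
  | h z =>
    change map (A := A) (B := B) (Levels.continuous_id 𝒰) ψ' n (Hπ 𝒰 A n z) =
      c • map (A := A) (B := B) (Levels.continuous_id 𝒰) ψ n (Hπ 𝒰 A n z)
    rw [map_Hπ, map_Hπ, ← map_smul]
    congr 1
    apply Subtype.ext
    apply Subtype.ext
    funext g
    exact h _

variable (B C : Rep.{0} k G)

/-- the invariant element `c • b` -/
theorem evMap_smul (c : k) (b : B.ρ.invariants) (x : H 𝒰 (homRep B C) 2) :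
    evMap 𝒰 B C x (c • b) = c • evMap 𝒰 B C x b := by
  rw [evMap_apply, evMap_apply]
  exact mapId_apply_of_smul 𝒰 c _ _ (fun f => map_smul (toLin f) c b.1) 2 x

/-- evaluation of a `k`-multiple of a class -/
theorem evMap_smul_left (c : k) (b : B.ρ.invariants) (x : H 𝒰 (homRep B C) 2) :
    evMap 𝒰 B C (c • x) b = c • evMap 𝒰 B C x b := by
  rw [evMap_apply, evMap_apply, map_smul]

/-- naturality in the lattice -/
theorem evMap_homRes {B₁ : Rep.{0} k G} (r : B₁ ⟶ B) (b : B₁.ρ.invariants)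
    (hb : ∀ g : G, B.ρ g (r.hom b.1) = r.hom b.1) (x : H 𝒰 (homRep B C) 2) :
    evMap 𝒰 B₁ C ((mapId (𝒰 := 𝒰) (homRes r C) 2).hom x) b = evMap 𝒰 B C x ⟨r.hom b.1, hb⟩ := by
  rw [evMap_apply, evMap_apply]
  have h : homRes r C ≫ HomSplit.evHom B₁ C b.1 b.2 = HomSplit.evHom B C (r.hom b.1) hb := by
    ext f
    rfl
  rw [← h, mapId_comp]
  rfl

/-- naturality in the coefficients -/
theorem evMap_homMap {C₁ : Rep.{0} k G} (ψ : C ⟶ C₁) (b : B.ρ.invariants)
    (x : H 𝒰 (homRep B C) 2) :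
    evMap 𝒰 B C₁ ((mapId (𝒰 := 𝒰) (homMap B ψ) 2).hom x) b =
      (mapId (𝒰 := 𝒰) ψ 2).hom (evMap 𝒰 B C x b) := by
  rw [evMap_apply, evMap_apply]
  have h : homMap B ψ ≫ HomSplit.evHom B C₁ b.1 b.2 = HomSplit.evHom B C b.1 b.2 ≫ ψ := by
    ext f
    rfl
  change (mapId (𝒰 := 𝒰) (homMap B ψ) 2 ≫ mapId (𝒰 := 𝒰) (HomSplit.evHom B C₁ b.1 b.2) 2).hom x =
    (mapId (𝒰 := 𝒰) (HomSplit.evHom B C b.1 b.2) 2 ≫ mapId (𝒰 := 𝒰) ψ 2).hom x
  rw [← mapId_comp, ← mapId_comp, h]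

/-- naturality for localisation along a continuous homomorphism -/
theorem evMap_loc {G' : Type} [Group G'] {𝒱 : Levels G'} {φ : G' →* G}
    (hφ : Levels.Continuous φ 𝒱 𝒰) (C' : Rep.{0} k G') (θ : Rep.res φ C ⟶ C')
    (b : B.ρ.invariants) (x : H 𝒰 (homRep B C) 2) :
    evMap 𝒱 (Rep.res φ B) C'
        (map (A := homRep B C) (B := homRep (Rep.res φ B) C') hφ
          ((Fermat.Agent.CFT.A5c.resIhomIso φ B C).hom ≫ homMap (Rep.res φ B) θ) 2 x)
        ⟨b.1, fun g' => b.2 (φ g')⟩ =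
      map (A := C) (B := C') hφ θ 2 (evMap 𝒰 B C x b) := by
  rw [evMap_apply, evMap_apply]
  have h := map_naturality (𝒰 := 𝒰) (𝒰' := 𝒱) hφ (HomSplit.evHom B C b.1 b.2)
    (HomSplit.evHom (Rep.res φ B) C' b.1 (fun g' => b.2 (φ g')))
    ((Fermat.Agent.CFT.A5c.resIhomIso φ B C).hom ≫ homMap (Rep.res φ B) θ) θ
    (by ext f; rfl) 2
  exact (congrArg (fun F => F.hom x) h).symm

end Fermat.Agent.S56.Base.EC
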